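/-
JT3 / Route R, node R4b (tame cusp chart), part (TQ): the special fibre of a tame quotient.

`B` a commutative ring with an action of a finite group `G`, `A → B` injective with image the
invariants (`Algebra.IsInvariant A B G`), `π : A`.  If the local ring of `B / π` at a prime `Q`
is a valuation ring (total divisibility + no zero divisors; in practice a DVR) and the order of
`G` is not in `P := Q ∩ A`, then the local ring of `A / π` at `P` is a valuation ring, and its
maximal ideal is principal as soon as `P` is finitely generated.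

Everything is stated elementwise (no quotient, no localisation types):
* `tq_Total π P` : for all `a b`, locally at `P`, `a ∣ b` or `b ∣ a` modulo `π`;
* `tq_Dom π P`   : for all `a b` with `π ∣ a * b`, locally at `P`, `π ∣ a` or `π ∣ b`.

No domain hypothesis on `B / π`, no idempotents, no completion: prime avoidance over the orbit
of `Q`, the norm `∏ g • s`, and the trace `∑ g • c`.
-/
import Mathlib

set_option autoImplicit false
set_option linter.unusedSectionVars false
set_option linter.style.haveILetI false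

namespace Fermat.Agent.JT3

open Ideal

section Defs

variable {R : Type*} [CommRing R]

/-- Locally at `P`, divisibility modulo `π` is total. -/
def tq_Total (π : R) (P : Ideal R) : Prop :=
  ∀ a b : R, ∃ s : R, s ∉ P ∧ (s * b ∈ Ideal.span {a, π} ∨ s * a ∈ Ideal.span {b, π})

/-- Locally at `P`, the ring modulo `π` has no zero divisors. -/
def tq_Dom (π : R) (P : Ideal R) : Prop :=
  ∀ a b : R, a * b ∈ Ideal.span {π} → ∃ s : R, s ∉ P ∧ (s * a ∈ Ideal.span {π} ∨ s * b ∈ Ideal.span {π})

/-- Locally at `P`, the ideal `P` is generated by `π` and `u`. -/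
def tq_GenBy (π u : R) (P : Ideal R) : Prop :=
  π ∈ P ∧ u ∈ P ∧ ∀ x ∈ P, ∃ s : R, s ∉ P ∧ s * x ∈ Ideal.span {π, u}

theorem tq_mem_span_pair_of_mem {a π x : R} (h : x ∈ Ideal.span {π}) : x ∈ Ideal.span {a, π} :=
  Ideal.span_mono (by intro y hy; rw [Set.mem_singleton_iff] at hy; subst hy; simp) h

/-- **Total divisibility + finitely generated ⟹ principal modulo `π`**. -/
theorem tq_exists_gen {π : R} {P : Ideal R} [hP : P.IsPrime] (hπ : π ∈ P) (hT : tq_Total π P)
    (hfg : P.FG) : ∃ u : R, tq_GenBy π u P := by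
  classical
  obtain ⟨S, hS⟩ := hfg
  -- a generator dominating a finite set
  have key : ∀ T : Finset R, (∀ x ∈ T, x ∈ P) →
      ∃ u : R, u ∈ P ∧ ∀ x ∈ T, ∃ s : R, s ∉ P ∧ s * x ∈ Ideal.span {π, u} := by
    intro T
    induction T using Finset.induction_on with
    | empty => intro _; exact ⟨π, hπ, by simp⟩
    | insert y T hy ih =>
      intro hT'
      obtain ⟨u, huP, hu⟩ := ih (fun x hx => hT' x (Finset.mem_insert_of_mem hx))
      obtain ⟨s, hs, h | h⟩ := hT u y
      · -- `s * y ∈ (u, π)`: keep `u`
        refine ⟨u, huP, fun x hx => ?_⟩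
        rcases Finset.mem_insert.1 hx with rfl | hx
        · refine ⟨s, hs, ?_⟩
          rw [Ideal.span_pair_comm]; exact h
        · exact hu x hx
      · -- `s * u ∈ (y, π)`: switch to `y`
        refine ⟨y, hT' y (Finset.mem_insert_self _ _), fun x hx => ?_⟩
        rcases Finset.mem_insert.1 hx with rfl | hx
        · exact ⟨1, fun h1 => hP.ne_top ((Ideal.eq_top_iff_one _).2 h1), by
            rw [one_mul]; exact Ideal.subset_span (by simp)⟩
        · obtain ⟨t, ht, htx⟩ := hu x hx
          refine ⟨s * t, fun hst => (hP.mem_or_mem hst).elim hs ht, ?_⟩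
          obtain ⟨c, d, hcd⟩ := Ideal.mem_span_pair.1 htx
          obtain ⟨c', d', hcd'⟩ := Ideal.mem_span_pair.1 h
          rw [Ideal.mem_span_pair]
          refine ⟨s * c + d * d', d * c', ?_⟩
          have : s * t * x = s * (t * x) := by ring
          rw [this, ← hcd]
          have h2 : s * (c * π + d * u) = s * c * π + d * (s * u) := by ring
          rw [h2, ← hcd']
          ring
  obtain ⟨u, huP, hu⟩ := key S (fun x hx => by rw [← hS]; exact Ideal.subset_span hx)
  refine ⟨u, hπ, huP, ?_⟩
  -- every element of `P = span S` is locally in `(π, u)`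
  have hmem : ∀ x ∈ Ideal.span (S : Set R), ∃ s : R, s ∉ P ∧ s * x ∈ Ideal.span {π, u} := by
    intro x hx
    induction hx using Submodule.span_induction with
    | mem x hx => exact hu x hx
    | zero => exact ⟨1, fun h1 => hP.ne_top ((Ideal.eq_top_iff_one _).2 h1), by simp⟩
    | add x y _ _ hx hy =>
      obtain ⟨s, hs, hsx⟩ := hx
      obtain ⟨t, ht, hty⟩ := hy
      refine ⟨s * t, fun hst => (hP.mem_or_mem hst).elim hs ht, ?_⟩
      have : s * t * (x + y) = t * (s * x) + s * (t * y) := by ring
      rw [this]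
      exact Ideal.add_mem _ (Ideal.mul_mem_left _ _ hsx) (Ideal.mul_mem_left _ _ hty)
    | smul r x _ hx =>
      obtain ⟨s, hs, hsx⟩ := hx
      refine ⟨s, hs, ?_⟩
      have : s * (r • x) = r * (s * x) := by rw [smul_eq_mul]; ring
      rw [this]
      exact Ideal.mul_mem_left _ _ hsx
  intro x hx
  exact hmem x (by rw [hS]; exact hx)

end Defs

section Invariants

variable {A B : Type*} [CommRing A] [CommRing B] [Algebra A B]
  {G : Type*} [Group G] [Finite G] [MulSemiringAction G B] [SMulCommClass G A B]
  [Algebra.IsInvariant A B G]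

omit [Finite G] [Algebra.IsInvariant A B G] in
theorem tq_smul_algebraMap (g : G) (a : A) : g • algebraMap A B a = algebraMap A B a :=
  smul_algebraMap g a

omit [Finite G] [SMulCommClass G A B] in
/-- the trace `∑ g • y` comes from `A` -/
theorem tq_exists_sum [Fintype G] (y : B) : ∃ a : A, algebraMap A B a = ∑ g : G, g • y := by
  apply Algebra.IsInvariant.isInvariant (G := G)
  intro g
  rw [Finset.smul_sum]
  simp_rw [smul_smul]
  exact Fintype.sum_bijective (fun h => g * h) (Group.mulLeft_bijective g) _ _ (fun _ => rfl)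

omit [Finite G] [SMulCommClass G A B] in
/-- the norm `∏ g • y` comes from `A` -/
theorem tq_exists_prod [Fintype G] (y : B) : ∃ a : A, algebraMap A B a = ∏ g : G, g • y := by
  apply Algebra.IsInvariant.isInvariant (G := G)
  intro g
  rw [Finset.smul_prod']
  simp_rw [smul_smul]
  exact Fintype.prod_bijective (fun h => g * h) (Group.mulLeft_bijective g) _ _ (fun _ => rfl)

/-- **Descent of a stable ideal**: a `G`-stable ideal of `B` not contained in the prime `Q`
contains an element of `A` outside `Q`. -/
theorem tq_exists_of_stable (J : Ideal B) (hJ : ∀ (g : G) (x : B), x ∈ J → g • x ∈ J)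
    (Q : Ideal B) [hQ : Q.IsPrime] (hJQ : ∃ s ∈ J, s ∉ Q) :
    ∃ s0 : A, algebraMap A B s0 ∈ J ∧ algebraMap A B s0 ∉ Q := by
  classical
  letI : Fintype G := Fintype.ofFinite G
  -- the conjugates of `Q`
  let f : G → Ideal B := fun g => Q.comap (MulSemiringAction.toRingHom G B g)
  have hf : ∀ g, (f g).IsPrime := fun g => Ideal.comap_isPrime _ _
  have hmemf : ∀ g x, x ∈ f g ↔ g • x ∈ Q := fun g x => Iff.rfl
  -- prime avoidance
  have havoid : ∃ s ∈ J, ∀ g : G, g • s ∉ Q := by
    by_contra hcon
    push Not at hcon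
    have hsub : (J : Set B) ⊆ ⋃ g ∈ ((Finset.univ : Finset G) : Set G), f g := by
      intro x hx
      obtain ⟨g, hg⟩ := hcon x hx
      exact Set.mem_biUnion (Finset.mem_coe.2 (Finset.mem_univ g)) ((hmemf g x).2 hg)
    obtain ⟨g, -, hg⟩ := (Ideal.subset_union_prime (1 : G) (1 : G)
      (fun i _ _ _ => hf i)).1 hsub
    obtain ⟨s, hsJ, hsQ⟩ := hJQ
    apply hsQ
    have h1 : g⁻¹ • s ∈ J := hJ g⁻¹ s hsJ
    have h2 := hg h1
    rw [hmemf, smul_inv_smul] at h2
    exact h2
  obtain ⟨s, hsJ, hs⟩ := havoid
  obtain ⟨s0, hs0⟩ := tq_exists_prod (A := A) (G := G) s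
  refine ⟨s0, ?_, ?_⟩
  · rw [hs0]
    have hdvd : s ∣ ∏ g : G, g • s := by
      have := Finset.dvd_prod_of_mem (fun g : G => g • s) (Finset.mem_univ (1 : G))
      simpa using this
    exact Ideal.mem_of_dvd _ hdvd hsJ
  · rw [hs0, Ideal.IsPrime.prod_mem_iff]
    rintro ⟨g, -, hg⟩
    exact hs g hg

variable (hinj : Function.Injective (algebraMap A B))

include hinj

/-- descent of membership in `(a, π)` -/
theorem tq_pair_descend [Fintype G] (a π x : A)
    (hx : algebraMap A B x ∈ Ideal.span {algebraMap A B a, algebraMap A B π}) :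
    (Fintype.card G : A) * x ∈ Ideal.span {a, π} := by
  obtain ⟨c, d, hcd⟩ := Ideal.mem_span_pair.1 hx
  obtain ⟨c1, hc1⟩ := tq_exists_sum (A := A) (G := G) c
  obtain ⟨d1, hd1⟩ := tq_exists_sum (A := A) (G := G) d
  rw [Ideal.mem_span_pair]
  refine ⟨c1, d1, hinj ?_⟩
  rw [map_add, map_mul, map_mul, map_mul, hc1, hd1, map_natCast, Finset.sum_mul, Finset.sum_mul,
    ← Finset.sum_add_distrib]
  have : ∀ g : G, g • c * algebraMap A B a + g • d * algebraMap A B π = algebraMap A B x := by
    intro g
    have h := congrArg (fun y => g • y) hcd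
    simp only [smul_add, smul_mul', smul_algebraMap] at h
    exact h
  rw [Finset.sum_congr rfl (fun g _ => this g), Finset.sum_const, Finset.card_univ, nsmul_eq_mul]

/-- descent of membership in `(π)` -/
theorem tq_single_descend [Fintype G] (π x : A)
    (hx : algebraMap A B x ∈ Ideal.span {algebraMap A B π}) :
    (Fintype.card G : A) * x ∈ Ideal.span {π} := by
  obtain ⟨d, hd⟩ := Ideal.mem_span_singleton'.1 hx
  obtain ⟨d1, hd1⟩ := tq_exists_sum (A := A) (G := G) d
  rw [Ideal.mem_span_singleton']
  refine ⟨d1, hinj ?_⟩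
  rw [map_mul, map_mul, hd1, map_natCast, Finset.sum_mul]
  have : ∀ g : G, g • d * algebraMap A B π = algebraMap A B x := by
    intro g
    have h := congrArg (fun y => g • y) hd
    simp only [smul_mul', smul_algebraMap] at h
    exact h
  rw [Finset.sum_congr rfl (fun g _ => this g), Finset.sum_const, Finset.card_univ, nsmul_eq_mul]

omit hinj [Finite G] [Algebra.IsInvariant A B G] in
theorem tq_stable_pair (a b π : A) (g : G) (x : B)
    (hx : x * algebraMap A B b ∈ Ideal.span {algebraMap A B a, algebraMap A B π}) :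
    g • x * algebraMap A B b ∈ Ideal.span {algebraMap A B a, algebraMap A B π} := by
  obtain ⟨c, d, hcd⟩ := Ideal.mem_span_pair.1 hx
  rw [Ideal.mem_span_pair]
  refine ⟨g • c, g • d, ?_⟩
  have h := congrArg (fun y => g • y) hcd
  simp only [smul_add, smul_mul', smul_algebraMap] at h
  exact h

omit hinj [Finite G] [Algebra.IsInvariant A B G] in
theorem tq_stable_single (a π : A) (g : G) (x : B)
    (hx : x * algebraMap A B a ∈ Ideal.span {algebraMap A B π}) :
    g • x * algebraMap A B a ∈ Ideal.span {algebraMap A B π} := by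
  obtain ⟨d, hd⟩ := Ideal.mem_span_singleton'.1 hx
  rw [Ideal.mem_span_singleton']
  refine ⟨g • d, ?_⟩
  have h := congrArg (fun y => g • y) hd
  simp only [smul_mul', smul_algebraMap] at h
  exact h

/-- the ideal `{x | x * b ∈ I}` -/
def tq_colon (I : Ideal B) (b : B) : Ideal B where
  carrier := {x | x * b ∈ I}
  add_mem' {x y} hx hy := by
    show (x + y) * b ∈ I
    rw [add_mul]; exact I.add_mem hx hy
  zero_mem' := by show (0 : B) * b ∈ I; rw [zero_mul]; exact I.zero_mem
  smul_mem' r x hx := by
    show (r • x) * b ∈ I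
    rw [smul_eq_mul, mul_assoc]; exact I.mul_mem_left r hx

omit hinj [Finite G] [MulSemiringAction G B] [SMulCommClass G A B] [Algebra.IsInvariant A B G] in
theorem tq_mem_colon {I : Ideal B} {b x : B} : x ∈ tq_colon I b ↔ x * b ∈ I := Iff.rfl

/-- **(TQ), total divisibility.** -/
theorem tq_total_descend (π : A) (Q : Ideal B) [hQ : Q.IsPrime]
    (hcard : ((Nat.card G : ℕ) : A) ∉ Q.comap (algebraMap A B))
    (hT : tq_Total (algebraMap A B π) Q) : tq_Total π (Q.comap (algebraMap A B)) := by
  classical
  letI : Fintype G := Fintype.ofFinite G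
  have hP : (Q.comap (algebraMap A B)).IsPrime := Ideal.comap_isPrime _ _
  rw [Nat.card_eq_fintype_card] at hcard
  intro a b
  obtain ⟨s, hs, h | h⟩ := hT (algebraMap A B a) (algebraMap A B b)
  · obtain ⟨s0, hs0J, hs0Q⟩ := tq_exists_of_stable (A := A) (G := G)
      (tq_colon (Ideal.span {algebraMap A B a, algebraMap A B π}) (algebraMap A B b))
      (fun g x hx => tq_stable_pair a b π g x hx) Q ⟨s, h, hs⟩
    refine ⟨(Fintype.card G : A) * s0, fun hmem => ?_, Or.inl ?_⟩
    · rcases hP.mem_or_mem hmem with h1 | h1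
      · exact hcard h1
      · exact hs0Q h1
    · rw [mul_assoc]
      apply tq_pair_descend (G := G) hinj
      rw [map_mul]
      exact hs0J
  · obtain ⟨s0, hs0J, hs0Q⟩ := tq_exists_of_stable (A := A) (G := G)
      (tq_colon (Ideal.span {algebraMap A B b, algebraMap A B π}) (algebraMap A B a))
      (fun g x hx => tq_stable_pair b a π g x hx) Q ⟨s, h, hs⟩
    refine ⟨(Fintype.card G : A) * s0, fun hmem => ?_, Or.inr ?_⟩
    · rcases hP.mem_or_mem hmem with h1 | h1
      · exact hcard h1
      · exact hs0Q h1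
    · rw [mul_assoc]
      apply tq_pair_descend (G := G) hinj
      rw [map_mul]
      exact hs0J

/-- **(TQ), no zero divisors.** -/
theorem tq_dom_descend (π : A) (Q : Ideal B) [hQ : Q.IsPrime]
    (hcard : ((Nat.card G : ℕ) : A) ∉ Q.comap (algebraMap A B))
    (hD : tq_Dom (algebraMap A B π) Q) : tq_Dom π (Q.comap (algebraMap A B)) := by
  classical
  letI : Fintype G := Fintype.ofFinite G
  have hP : (Q.comap (algebraMap A B)).IsPrime := Ideal.comap_isPrime _ _
  rw [Nat.card_eq_fintype_card] at hcard
  intro a b hab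
  have hab' : algebraMap A B a * algebraMap A B b ∈ Ideal.span {algebraMap A B π} := by
    obtain ⟨d, hd⟩ := Ideal.mem_span_singleton'.1 hab
    rw [Ideal.mem_span_singleton']
    exact ⟨algebraMap A B d, by rw [← map_mul, ← map_mul, hd]⟩
  obtain ⟨s, hs, h | h⟩ := hD _ _ hab'
  · obtain ⟨s0, hs0J, hs0Q⟩ := tq_exists_of_stable (A := A) (G := G)
      (tq_colon (Ideal.span {algebraMap A B π}) (algebraMap A B a))
      (fun g x hx => tq_stable_single a π g x hx) Q ⟨s, h, hs⟩
    refine ⟨(Fintype.card G : A) * s0, fun hmem => ?_, Or.inl ?_⟩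
    · rcases hP.mem_or_mem hmem with h1 | h1
      · exact hcard h1
      · exact hs0Q h1
    · rw [mul_assoc]
      apply tq_single_descend (G := G) hinj
      rw [map_mul]
      exact hs0J
  · obtain ⟨s0, hs0J, hs0Q⟩ := tq_exists_of_stable (A := A) (G := G)
      (tq_colon (Ideal.span {algebraMap A B π}) (algebraMap A B b))
      (fun g x hx => tq_stable_single b π g x hx) Q ⟨s, h, hs⟩
    refine ⟨(Fintype.card G : A) * s0, fun hmem => ?_, Or.inr ?_⟩
    · rcases hP.mem_or_mem hmem with h1 | h1
      · exact hcard h1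
      · exact hs0Q h1
    · rw [mul_assoc]
      apply tq_single_descend (G := G) hinj
      rw [map_mul]
      exact hs0J

/-- **(TQ), local generators**: if moreover `P = Q ∩ A` is finitely generated and contains `π`,
then locally at `P` the ideal `P` is `(π, u)` for some `u`. -/
theorem tq_genBy_descend (π : A) (Q : Ideal B) [hQ : Q.IsPrime]
    (hcard : ((Nat.card G : ℕ) : A) ∉ Q.comap (algebraMap A B))
    (hT : tq_Total (algebraMap A B π) Q) (hπ : algebraMap A B π ∈ Q)
    (hfg : (Q.comap (algebraMap A B)).FG) :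
    ∃ u : A, tq_GenBy π u (Q.comap (algebraMap A B)) := by
  have hP : (Q.comap (algebraMap A B)).IsPrime := Ideal.comap_isPrime _ _
  exact tq_exists_gen (Ideal.mem_comap.2 hπ) (tq_total_descend hinj π Q hcard hT) hfg

end Invariants

end Fermat.Agent.JT3
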