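import Mathlib
import Fermat.Agent.JT3.Algebra.FormalIdem
import Fermat.Agent.JT3.FCore.FunField
import Fermat.Agent.JT3.FCore.Exports
import Fermat.Agent.JT3.Model.TameQuotient

/-!
# JT3 / Route R, leaf [CONN]: `π` is prime in the three charts (prefix `cn_`)

`A0` a DVR with uniformiser `π`, `F0 / K0` a function field with `K0` algebraically closed in
`F0`, charts `B₁, B₂, B₁₂` = integral closures of `A0[x]`, `A0[x⁻¹]`, `A0[x, x⁻¹]`.
If `B₁ / π` and `B₂ / π` are locally domains at every maximal ideal (`tq_Dom`), then `π` is prime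
in `B₁`, `B₂` and `B₁₂` (`cn_prime`): these are the hypotheses `hπ1`, `hπ2`, `hπ12` of `fc_main`,
`fc_final`, `fc_funField`.

Route (no product decomposition, no localisation types):
* `cn_ann_eq_span`: in a noetherian ring which is locally a domain, `Ann(t)` is generated by an
  idempotent;
* `cn_extend_idem`: an idempotent modulo `π` of `B_b[1/y]` extends to an idempotent modulo `π` of
  `B_b`;
* `cn_pair_trivial`: a compatible pair of idempotents modulo `π` on the two charts is `(0, 0)` or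
  `(1, 1)` (`jf_card_idem_le` with the global functions `B₁ ∩ B₂ = A0` generated by `(1, 1)`);
* connected + locally a domain + noetherian ⟹ domain.
-/

set_option autoImplicit false
set_option linter.unusedSectionVars false

namespace Fermat.Agent.JT3

section Abstract

variable {C : Type*} [CommRing C]

/-- `C` is locally a domain at every maximal ideal (elementwise form). -/
def cn_LocDom (C : Type*) [CommRing C] : Prop :=
  ∀ m : Ideal C, m.IsMaximal → ∀ a b : C, a * b = 0 → ∃ s : C, s ∉ m ∧ (s * a = 0 ∨ s * b = 0)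

/-- In a noetherian ring which is locally a domain, the annihilator of an element is generated by
an idempotent. -/
theorem cn_ann_eq_span [IsNoetherianRing C] (h : cn_LocDom C) (t : C) :
    ∃ ε : C, IsIdempotentElem ε ∧ ∀ c : C, c * t = 0 ↔ ∃ d, c = d * ε := by
  set I : Ideal C := LinearMap.ker (LinearMap.mulRight C t) with hI
  have hmem : ∀ c : C, c ∈ I ↔ c * t = 0 := fun c => by
    rw [hI, LinearMap.mem_ker, LinearMap.mulRight_apply]
  have hII : IsIdempotentElem I := by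
    refine le_antisymm Ideal.mul_le_right ?_
    intro c hc
    by_contra hcI
    have hJ : (I * I).colon ({c} : Set C) ≠ ⊤ := by
      intro htop
      have h1 : (1 : C) ∈ (I * I).colon ({c} : Set C) := by rw [htop]; trivial
      rw [Submodule.mem_colon_singleton, smul_eq_mul, one_mul] at h1
      exact hcI h1
    obtain ⟨m, hm, hJm⟩ := Ideal.exists_le_maximal _ hJ
    obtain ⟨s, hs, hs' | hs'⟩ := h m hm c t ((hmem c).1 hc)
    · apply hs
      apply hJm
      rw [Submodule.mem_colon_singleton, smul_eq_mul, hs']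
      exact Ideal.zero_mem _
    · apply hs
      apply hJm
      rw [Submodule.mem_colon_singleton, smul_eq_mul]
      exact Ideal.mul_mem_mul ((hmem s).2 hs') hc
  obtain ⟨ε, hε, hIε⟩ := (Ideal.isIdempotentElem_iff_of_fg I (IsNoetherian.noetherian I)).1 hII
  refine ⟨ε, hε, fun c => ?_⟩
  rw [← hmem c, hIε, Ideal.mem_span_singleton']
  exact ⟨fun ⟨d, hd⟩ => ⟨d, hd.symm⟩, fun ⟨d, hd⟩ => ⟨d, hd.symm⟩⟩

/-- Connected + noetherian + locally a domain ⟹ no zero divisors. -/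
theorem cn_noZeroDivisors_of_connected [IsNoetherianRing C] (h : cn_LocDom C)
    (hconn : ∀ e : C, IsIdempotentElem e → e = 0 ∨ e = 1) : NoZeroDivisors C := by
  refine ⟨fun {a b} hab => ?_⟩
  obtain ⟨ε, hε, hann⟩ := cn_ann_eq_span h b
  obtain ⟨d, hd⟩ := (hann a).1 hab
  rcases hconn ε hε with h0 | h1
  · left
    rw [hd, h0, mul_zero]
  · right
    have := (hann ε).2 ⟨1, (one_mul ε).symm⟩
    rwa [h1, one_mul] at this

end Abstract

section Quotient

variable {B : Type*} [CommRing B]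

/-- `B / π` is locally a domain as soon as `tq_Dom π n` holds at every maximal ideal `n ∋ π`. -/
theorem cn_locDom_quotient (π : B)
    (hdom : ∀ n : Ideal B, n.IsMaximal → π ∈ n → tq_Dom π n) :
    cn_LocDom (B ⧸ Ideal.span {π}) := by
  intro m hm a b hab
  obtain ⟨a', rfl⟩ := Ideal.Quotient.mk_surjective a
  obtain ⟨b', rfl⟩ := Ideal.Quotient.mk_surjective b
  have hn : (m.comap (Ideal.Quotient.mk (Ideal.span {π}))).IsMaximal :=
    Ideal.comap_isMaximal_of_surjective _ Ideal.Quotient.mk_surjective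
  have hπn : π ∈ m.comap (Ideal.Quotient.mk (Ideal.span {π})) := by
    rw [Ideal.mem_comap]
    have : Ideal.Quotient.mk (Ideal.span {π}) π = 0 :=
      Ideal.Quotient.eq_zero_iff_mem.2 (Ideal.subset_span rfl)
    rw [this]
    exact Ideal.zero_mem _
  have hab' : a' * b' ∈ Ideal.span {π} := by
    rw [← Ideal.Quotient.eq_zero_iff_mem, map_mul]
    exact hab
  obtain ⟨s, hs, hs'⟩ := hdom _ hn hπn a' b' hab'
  refine ⟨Ideal.Quotient.mk _ s, fun h => hs (Ideal.mem_comap.2 h), ?_⟩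
  rcases hs' with h1 | h1
  · left
    rw [← map_mul]
    exact Ideal.Quotient.eq_zero_iff_mem.2 h1
  · right
    rw [← map_mul]
    exact Ideal.Quotient.eq_zero_iff_mem.2 h1

/-- Elementwise form of `cn_ann_eq_span` modulo `π`. -/
theorem cn_exists_ann_idem [IsNoetherianRing B] (π : B)
    (hdom : ∀ n : Ideal B, n.IsMaximal → π ∈ n → tq_Dom π n) (t : B) :
    ∃ ε : B, ε * ε - ε ∈ Ideal.span {π} ∧ ε * t ∈ Ideal.span {π} ∧
      ∀ c : B, c * t ∈ Ideal.span {π} → (1 - ε) * c ∈ Ideal.span {π} := by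
  obtain ⟨ε', hε', hann⟩ := cn_ann_eq_span (cn_locDom_quotient π hdom)
    (Ideal.Quotient.mk (Ideal.span {π}) t)
  obtain ⟨ε, rfl⟩ := Ideal.Quotient.mk_surjective ε'
  refine ⟨ε, ?_, ?_, ?_⟩
  · rw [← Ideal.Quotient.eq_zero_iff_mem, map_sub, map_mul, sub_eq_zero]
    exact hε'
  · rw [← Ideal.Quotient.eq_zero_iff_mem, map_mul]
    exact (hann _).2 ⟨1, (one_mul _).symm⟩
  · intro c hc
    have hc' : Ideal.Quotient.mk (Ideal.span {π}) c * Ideal.Quotient.mk (Ideal.span {π}) t = 0 := by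
      rw [← map_mul]
      exact Ideal.Quotient.eq_zero_iff_mem.2 hc
    obtain ⟨d, hd⟩ := (hann _).1 hc'
    rw [← Ideal.Quotient.eq_zero_iff_mem, map_mul, map_sub, map_one, hd]
    have hε2 : Ideal.Quotient.mk (Ideal.span {π}) ε * Ideal.Quotient.mk (Ideal.span {π}) ε =
        Ideal.Quotient.mk (Ideal.span {π}) ε := hε'
    linear_combination (-d) * hε2

/-- **Connected + locally a domain modulo `π` ⟹ `π` prime.** -/
theorem cn_prime_of_connected [IsNoetherianRing B] (π : B)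
    (hdom : ∀ n : Ideal B, n.IsMaximal → π ∈ n → tq_Dom π n)
    (hconn : ∀ e : B, e * e - e ∈ Ideal.span {π} → e ∈ Ideal.span {π} ∨ 1 - e ∈ Ideal.span {π})
    (hπ0 : π ≠ 0) (hπu : ¬ IsUnit π) : Prime π := by
  refine ⟨hπ0, hπu, fun a b hab => ?_⟩
  have hab' : a * b ∈ Ideal.span {π} := Ideal.mem_span_singleton.2 hab
  obtain ⟨ε, hε, hεb, hann⟩ := cn_exists_ann_idem π hdom b
  have h1 : (1 - ε) * a ∈ Ideal.span {π} := hann a hab'
  rcases hconn ε hε with h | h
  · left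
    rw [← Ideal.mem_span_singleton]
    have : a = (1 - ε) * a + a * ε := by ring
    rw [this]
    exact Ideal.add_mem _ h1 (Ideal.mul_mem_left _ _ h)
  · right
    rw [← Ideal.mem_span_singleton]
    have : b = ε * b + b * (1 - ε) := by ring
    rw [this]
    exact Ideal.add_mem _ hεb (Ideal.mul_mem_left _ _ h)

end Quotient

section Charts

universe v

variable {A0 : Type*} [CommRing A0] {F0 : Type v} [Field F0] [Algebra A0 F0]

/-- Membership in `π B`, read in the ambient field. -/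
theorem cn_mem_span_iff (B : Subalgebra A0 F0) (π : A0) (z : B) :
    z ∈ Ideal.span {algebraMap A0 B π} ↔ ∃ c ∈ B, (z : F0) = algebraMap A0 F0 π * c := by
  rw [Ideal.mem_span_singleton']
  constructor
  · rintro ⟨c, hc⟩
    refine ⟨c, c.2, ?_⟩
    rw [← hc, mul_comm]
    rfl
  · rintro ⟨c, hcB, hc⟩
    refine ⟨⟨c, hcB⟩, Subtype.ext ?_⟩
    change c * algebraMap A0 F0 π = z
    rw [hc, mul_comm]

/-- **Extension of idempotents modulo `π` from `B_b[1/y]` to `B_b`.** -/
theorem cn_extend_idem (π : A0) (Bb Bab : Subalgebra A0 F0) (hle : Bb ≤ Bab)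
    [IsNoetherianRing Bb]
    (hdom : ∀ n : Ideal Bb, n.IsMaximal → algebraMap A0 Bb π ∈ n →
      tq_Dom (algebraMap A0 Bb π) n)
    (y : F0) (hy0 : y ≠ 0) (hy : y ∈ Bb) (hyinv : y⁻¹ ∈ Bab)
    (hclear : ∀ z ∈ Bab, ∃ k : ℕ, y ^ k * z ∈ Bb)
    (e1 : F0) (he1 : e1 ∈ Bab)
    (hidem : ∃ c ∈ Bab, e1 * e1 - e1 = algebraMap A0 F0 π * c) :
    ∃ e2 : Bb, e2 * e2 - e2 ∈ Ideal.span {algebraMap A0 Bb π} ∧
      ∃ c ∈ Bab, (e2 : F0) - e1 = algebraMap A0 F0 π * c := by
  obtain ⟨c1, hc1B, hc1⟩ := hidem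
  obtain ⟨k, hk⟩ := hclear e1 he1
  have hc' : y ^ (2 * k) * c1 ∈ Bab := Bab.mul_mem (Bab.pow_mem (hle hy) _) hc1B
  obtain ⟨n, hn⟩ := hclear _ hc'
  obtain ⟨ε, hε, hεa, hann⟩ :=
    cn_exists_ann_idem (algebraMap A0 Bb π) hdom (⟨y ^ k * e1, hk⟩ : Bb)
  have hu : ((⟨y, hy⟩ : Bb) ^ k - ⟨y ^ k * e1, hk⟩) * (⟨y, hy⟩ : Bb) ^ n * ⟨y ^ k * e1, hk⟩ ∈
      Ideal.span {algebraMap A0 Bb π} := by
    rw [cn_mem_span_iff]
    refine ⟨-(y ^ n * (y ^ (2 * k) * c1)), Bb.neg_mem hn, ?_⟩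
    change (y ^ k - y ^ k * e1) * y ^ n * (y ^ k * e1) =
      algebraMap A0 F0 π * -(y ^ n * (y ^ (2 * k) * c1))
    linear_combination (-(y ^ n * y ^ (2 * k))) * hc1
  have h1 := hann _ hu
  refine ⟨1 - ε, ?_, ?_⟩
  · have : (1 - ε) * (1 - ε) - (1 - ε) = ε * ε - ε := by ring
    rw [this]
    exact hε
  · have h2 : (⟨y, hy⟩ : Bb) ^ n * ((1 - ε) * (⟨y, hy⟩ : Bb) ^ k - ⟨y ^ k * e1, hk⟩) ∈
        Ideal.span {algebraMap A0 Bb π} := by
      have : (⟨y, hy⟩ : Bb) ^ n * ((1 - ε) * (⟨y, hy⟩ : Bb) ^ k - ⟨y ^ k * e1, hk⟩) =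
          (1 - ε) * (((⟨y, hy⟩ : Bb) ^ k - ⟨y ^ k * e1, hk⟩) * (⟨y, hy⟩ : Bb) ^ n) -
            (⟨y, hy⟩ : Bb) ^ n * (ε * ⟨y ^ k * e1, hk⟩) := by ring
      rw [this]
      exact Ideal.sub_mem _ h1 (Ideal.mul_mem_left _ _ hεa)
    obtain ⟨b2, hb2B, hb2⟩ := (cn_mem_span_iff Bb π _).1 h2
    have hb2' : y ^ n * (((1 - ε : Bb) : F0) * y ^ k - y ^ k * e1) = algebraMap A0 F0 π * b2 :=
      hb2
    refine ⟨b2 * y⁻¹ ^ (n + k), Bab.mul_mem (hle hb2B) (Bab.pow_mem hyinv _), ?_⟩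
    have hyk : y ^ (n + k) ≠ 0 := pow_ne_zero _ hy0
    rw [inv_pow, ← mul_assoc, eq_mul_inv_iff_mul_eq₀ hyk, ← hb2', pow_add]
    ring

variable [IsNoetherianRing A0]

/-- **A compatible pair of idempotents modulo `π` on the two charts is `(0, 0)` or `(1, 1)`.** -/
theorem cn_pair_trivial (π : A0) [hmax : (Ideal.span {π} : Ideal A0).IsMaximal]
    {x : F0} (hx : x ≠ 0)
    (hfin1 : Module.Finite (Algebra.adjoin A0 ({x} : Set F0))
      (integralClosure (Algebra.adjoin A0 ({x} : Set F0)) F0))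
    (hH0 : ∀ z : F0, z ∈ fc_chart A0 ({x} : Set F0) → z ∈ fc_chart A0 ({x⁻¹} : Set F0) →
      z ∈ (algebraMap A0 F0).range)
    (e1 : fc_chart A0 ({x} : Set F0)) (e2 : fc_chart A0 ({x⁻¹} : Set F0))
    (h1 : e1 * e1 - e1 ∈ Ideal.span {algebraMap A0 (fc_chart A0 ({x} : Set F0)) π})
    (h2 : e2 * e2 - e2 ∈ Ideal.span {algebraMap A0 (fc_chart A0 ({x⁻¹} : Set F0)) π})
    (h12 : ∃ c ∈ fc_chart A0 ({x, x⁻¹} : Set F0),
      (e1 : F0) - (e2 : F0) = algebraMap A0 F0 π * c) :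
    (e1 ∈ Ideal.span {algebraMap A0 (fc_chart A0 ({x} : Set F0)) π} ∧
        e2 ∈ Ideal.span {algebraMap A0 (fc_chart A0 ({x⁻¹} : Set F0)) π}) ∨
      (1 - e1 ∈ Ideal.span {algebraMap A0 (fc_chart A0 ({x} : Set F0)) π} ∧
        1 - e2 ∈ Ideal.span {algebraMap A0 (fc_chart A0 ({x⁻¹} : Set F0)) π}) := by
  classical
  by_contra hcon
  rw [not_or, not_and_or, not_and_or] at hcon
  obtain ⟨hne1, hne2⟩ := hcon
  obtain ⟨c12, hc12B, hc12⟩ := h12
  have hcard := jf_card_idem_le (Subalgebra.inclusion (fc_chart1_le (A0 := A0) x))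
    (Subalgebra.inclusion (fc_chart2_le (A0 := A0) x)) π (fc_chart_H1_finite hx hfin1)
    ({((1 : fc_chart A0 ({x} : Set F0)), (1 : fc_chart A0 ({x⁻¹} : Set F0)))} :
      Finset (fc_chart A0 ({x} : Set F0) × fc_chart A0 ({x⁻¹} : Set F0)))
    (by
      intro y hy
      rw [Finset.mem_singleton] at hy
      rw [hy, map_one, map_one])
    (by
      intro y hy
      have hval : (y.1 : F0) = (y.2 : F0) := by
        have h := congrArg Subtype.val hy
        rwa [Subalgebra.coe_inclusion, Subalgebra.coe_inclusion] at h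
      obtain ⟨c, hc⟩ := hH0 (y.1 : F0) y.1.2 (hval ▸ y.2.2)
      rw [Finset.coe_singleton, Submodule.mem_span_singleton]
      refine ⟨c, Prod.ext (Subtype.ext ?_) (Subtype.ext ?_)⟩
      · rw [Prod.smul_fst, Subalgebra.coe_smul, Subalgebra.coe_one, Algebra.smul_def, mul_one, hc]
      · rw [Prod.smul_snd, Subalgebra.coe_smul, Subalgebra.coe_one, Algebra.smul_def, mul_one, hc,
          hval])
    (fun b : Bool => cond b e1 (1 - e1)) (fun b : Bool => cond b e2 (1 - e2))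
    (by
      refine Bool.forall_bool.2 ⟨?_, h1⟩
      change (1 - e1) * (1 - e1) - (1 - e1) ∈ _
      have : (1 - e1) * (1 - e1) - (1 - e1) = e1 * e1 - e1 := by ring
      rw [this]
      exact h1)
    (by
      refine Bool.forall_bool.2 ⟨?_, h2⟩
      change (1 - e2) * (1 - e2) - (1 - e2) ∈ _
      have : (1 - e2) * (1 - e2) - (1 - e2) = e2 * e2 - e2 := by ring
      rw [this]
      exact h2)
    (by
      refine Bool.forall_bool.2 ⟨?_, ?_⟩
      · rw [cn_mem_span_iff]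
        refine ⟨-c12, Subalgebra.neg_mem _ hc12B, ?_⟩
        rw [Subalgebra.coe_sub, Subalgebra.coe_inclusion, Subalgebra.coe_inclusion]
        change ((1 - e1 : fc_chart A0 ({x} : Set F0)) : F0) -
          ((1 - e2 : fc_chart A0 ({x⁻¹} : Set F0)) : F0) = algebraMap A0 F0 π * -c12
        rw [Subalgebra.coe_sub, Subalgebra.coe_sub, Subalgebra.coe_one, Subalgebra.coe_one]
        linear_combination -hc12
      · rw [cn_mem_span_iff]
        refine ⟨c12, hc12B, ?_⟩
        rw [Subalgebra.coe_sub, Subalgebra.coe_inclusion, Subalgebra.coe_inclusion]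
        exact hc12)
    (by
      intro i j hij
      have key : e1 * (1 - e1) ∈
          Ideal.span {algebraMap A0 (fc_chart A0 ({x} : Set F0)) π} := by
        have : e1 * (1 - e1) = -(e1 * e1 - e1) := by ring
        rw [this]
        exact Ideal.neg_mem_iff _ |>.2 h1
      cases i <;> cases j
      · exact absurd rfl hij
      · change (1 - e1) * e1 ∈ _
        rw [mul_comm]
        exact key
      · exact key
      · exact absurd rfl hij)
    (by
      intro i j hij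
      have key : e2 * (1 - e2) ∈
          Ideal.span {algebraMap A0 (fc_chart A0 ({x⁻¹} : Set F0)) π} := by
        have : e2 * (1 - e2) = -(e2 * e2 - e2) := by ring
        rw [this]
        exact Ideal.neg_mem_iff _ |>.2 h2
      cases i <;> cases j
      · exact absurd rfl hij
      · change (1 - e2) * e2 ∈ _
        rw [mul_comm]
        exact key
      · exact key
      · exact absurd rfl hij)
    (Bool.forall_bool.2 ⟨hne2, hne1⟩)
  rw [Fintype.card_bool, Finset.card_singleton] at hcard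
  exact absurd hcard (by norm_num)

end Charts

section Main

universe v

variable {A0 K0 : Type*} {F0 : Type v} [CommRing A0] [IsDomain A0] [IsDiscreteValuationRing A0]
  [Field K0] [Field F0] [Algebra A0 K0] [IsFractionRing A0 K0] [Algebra K0 F0] [Algebra A0 F0]
  [IsScalarTower A0 K0 F0]

/-- `π` is not a unit in the chart of a transcendental coordinate. -/
theorem cn_not_isUnit {π : A0} (hπ : Irreducible π) {y : F0} (hy : Transcendental K0 y) :
    ¬ IsUnit (algebraMap A0 (fc_chart A0 ({y} : Set F0)) π) := by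
  intro hu
  obtain ⟨u, hu'⟩ := isUnit_iff_exists_inv.1 hu
  have hinj : Function.Injective (algebraMap A0 K0) := IsFractionRing.injective A0 K0
  have hπK : algebraMap A0 K0 π ≠ 0 := (map_ne_zero_iff _ hinj).2 hπ.ne_zero
  have h1 : algebraMap A0 F0 π * (u : F0) = 1 := congrArg Subtype.val hu'
  have h2 : (u : F0) = algebraMap K0 F0 (algebraMap A0 K0 π)⁻¹ := by
    rw [map_inv₀, ← IsScalarTower.algebraMap_apply A0 K0 F0]
    exact eq_inv_of_mul_eq_one_right h1
  have hint : IsIntegral (Algebra.adjoin A0 ({y} : Set F0))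
      (algebraMap K0 F0 (algebraMap A0 K0 π)⁻¹) := by
    rw [← h2]
    exact fc_mem_chart.1 u.2
  have hc : IsIntegral A0 (algebraMap A0 K0 π)⁻¹ := fch_isIntegral_const y hy _ hint
  obtain ⟨a, ha⟩ := (IsIntegrallyClosed.isIntegral_iff (R := A0) (K := K0)).1 hc
  apply hπ.not_isUnit
  refine isUnit_iff_exists_inv.2 ⟨a, hinj ?_⟩
  rw [map_mul, ha, map_one, mul_inv_cancel₀ hπK]

/-- **[CONN]: `π` is prime in the three charts** (the hypotheses `hπ1`, `hπ2`, `hπ12` of `fc_main`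
and `fc_final`), from "`B₁ / π` and `B₂ / π` are locally domains". -/
theorem cn_prime {π : A0} (hπ : Irreducible π) {x : F0} (hx : Transcendental K0 x)
    (hconst : ∀ z : F0, IsAlgebraic K0 z → z ∈ (algebraMap K0 F0).range)
    (hfin1 : Module.Finite (Algebra.adjoin A0 ({x} : Set F0))
      (integralClosure (Algebra.adjoin A0 ({x} : Set F0)) F0))
    (hfin2 : Module.Finite (Algebra.adjoin A0 ({x⁻¹} : Set F0))
      (integralClosure (Algebra.adjoin A0 ({x⁻¹} : Set F0)) F0))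
    (hdom1 : ∀ n : Ideal (fc_chart A0 ({x} : Set F0)), n.IsMaximal →
      algebraMap A0 (fc_chart A0 ({x} : Set F0)) π ∈ n →
      tq_Dom (algebraMap A0 (fc_chart A0 ({x} : Set F0)) π) n)
    (hdom2 : ∀ n : Ideal (fc_chart A0 ({x⁻¹} : Set F0)), n.IsMaximal →
      algebraMap A0 (fc_chart A0 ({x⁻¹} : Set F0)) π ∈ n →
      tq_Dom (algebraMap A0 (fc_chart A0 ({x⁻¹} : Set F0)) π) n) :
    Prime (algebraMap A0 (fc_chart A0 ({x} : Set F0)) π) ∧
      Prime (algebraMap A0 (fc_chart A0 ({x⁻¹} : Set F0)) π) ∧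
      Prime (algebraMap A0 (fc_chart A0 ({x, x⁻¹} : Set F0)) π) := by
  have hx0 : x ≠ 0 := by
    rintro rfl
    exact hx isAlgebraic_zero
  have hxi : Transcendental K0 x⁻¹ := fun h => hx (IsAlgebraic.inv_iff.mp h)
  have hmax : (Ideal.span {π} : Ideal A0).IsMaximal := by
    rw [← (IsDiscreteValuationRing.irreducible_iff_uniformizer π).1 hπ]
    exact IsLocalRing.maximalIdeal.isMaximal A0
  have hN1 : IsNoetherianRing (fc_chart A0 ({x} : Set F0)) := by
    have := fc_chart_isNoetherianRing (A0 := A0) (F0 := F0) {x} (by rwa [Finset.coe_singleton])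
    rwa [Finset.coe_singleton] at this
  have hN2 : IsNoetherianRing (fc_chart A0 ({x⁻¹} : Set F0)) := by
    have := fc_chart_isNoetherianRing (A0 := A0) (F0 := F0) {x⁻¹} (by rwa [Finset.coe_singleton])
    rwa [Finset.coe_singleton] at this
  have hH0 : ∀ z : F0, z ∈ fc_chart A0 ({x} : Set F0) → z ∈ fc_chart A0 ({x⁻¹} : Set F0) →
      z ∈ (algebraMap A0 F0).range := fun z h1 h2 => fch_H0 x hx hconst z h1 h2
  have hπF : algebraMap A0 F0 π ≠ 0 := by
    rw [IsScalarTower.algebraMap_apply A0 K0 F0]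
    exact (map_ne_zero_iff _ (algebraMap K0 F0).injective).2
      ((map_ne_zero_iff _ (IsFractionRing.injective A0 K0)).2 hπ.ne_zero)
  have hne : ∀ B : Subalgebra A0 F0, algebraMap A0 B π ≠ 0 := by
    intro B h0
    exact hπF (congrArg Subtype.val h0)
  have hu1 := cn_not_isUnit (K0 := K0) hπ hx
  have hu2 := cn_not_isUnit (K0 := K0) hπ hxi
  have hxB1 : x ∈ fc_chart A0 ({x} : Set F0) := fc_x_mem_chart x
  have hxB2 : x⁻¹ ∈ fc_chart A0 ({x⁻¹} : Set F0) := fc_x_mem_chart x⁻¹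
  -- connectedness of the first chart
  have hconn1 : ∀ e : fc_chart A0 ({x} : Set F0),
      e * e - e ∈ Ideal.span {algebraMap A0 (fc_chart A0 ({x} : Set F0)) π} →
      e ∈ Ideal.span {algebraMap A0 (fc_chart A0 ({x} : Set F0)) π} ∨
        1 - e ∈ Ideal.span {algebraMap A0 (fc_chart A0 ({x} : Set F0)) π} := by
    intro e he
    obtain ⟨c, hcB, hc⟩ := (cn_mem_span_iff _ π _).1 he
    obtain ⟨e2, he2, c', hc'B, hc'⟩ := cn_extend_idem π (fc_chart A0 ({x⁻¹} : Set F0))
      (fc_chart A0 ({x, x⁻¹} : Set F0)) (fc_chart2_le x) hdom2 x⁻¹ (inv_ne_zero hx0) hxB2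
      (by rw [inv_inv]; exact fc_chart1_le x hxB1) (fun z hz => fc_clear2 hx0 hz) (e : F0)
      (fc_chart1_le x e.2) ⟨c, fc_chart1_le x hcB, hc⟩
    rcases cn_pair_trivial π hx0 hfin1 hH0 e e2 he he2
      ⟨-c', Subalgebra.neg_mem _ hc'B, by linear_combination -hc'⟩ with h | h
    · exact Or.inl h.1
    · exact Or.inr h.1
  have hconn2 : ∀ e : fc_chart A0 ({x⁻¹} : Set F0),
      e * e - e ∈ Ideal.span {algebraMap A0 (fc_chart A0 ({x⁻¹} : Set F0)) π} →
      e ∈ Ideal.span {algebraMap A0 (fc_chart A0 ({x⁻¹} : Set F0)) π} ∨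
        1 - e ∈ Ideal.span {algebraMap A0 (fc_chart A0 ({x⁻¹} : Set F0)) π} := by
    intro e he
    obtain ⟨c, hcB, hc⟩ := (cn_mem_span_iff _ π _).1 he
    obtain ⟨e1, he1, c', hc'B, hc'⟩ := cn_extend_idem π (fc_chart A0 ({x} : Set F0))
      (fc_chart A0 ({x, x⁻¹} : Set F0)) (fc_chart1_le x) hdom1 x hx0 hxB1
      (fc_chart2_le x hxB2) (fun z hz => fc_clear1 hx0 hz) (e : F0)
      (fc_chart2_le x e.2) ⟨c, fc_chart2_le x hcB, hc⟩
    rcases cn_pair_trivial π hx0 hfin1 hH0 e1 e he1 he ⟨c', hc'B, hc'⟩ with h | h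
    · exact Or.inl h.2
    · exact Or.inr h.2
  have hP1 : Prime (algebraMap A0 (fc_chart A0 ({x} : Set F0)) π) :=
    cn_prime_of_connected _ hdom1 hconn1 (hne _) hu1
  have hP2 : Prime (algebraMap A0 (fc_chart A0 ({x⁻¹} : Set F0)) π) :=
    cn_prime_of_connected _ hdom2 hconn2 (hne _) hu2
  refine ⟨hP1, hP2, hne _, ?_, ?_⟩
  · -- `π` is not a unit in `B₁₂`: otherwise `(1, 0)` is a compatible pair
    intro hu
    obtain ⟨u, hu'⟩ := isUnit_iff_exists_inv.1 hu
    have h1 : algebraMap A0 F0 π * (u : F0) = 1 := congrArg Subtype.val hu'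
    rcases cn_pair_trivial π hx0 hfin1 hH0 1 0 (by rw [mul_one, sub_self]; exact Ideal.zero_mem _)
      (by rw [mul_zero, sub_self]; exact Ideal.zero_mem _)
      ⟨u, u.2, by rw [Subalgebra.coe_one, Subalgebra.coe_zero, sub_zero, h1]⟩ with h | h
    · exact hu1 (isUnit_of_dvd_one (Ideal.mem_span_singleton.1 h.1))
    · apply hu2
      have := h.2
      rw [sub_zero] at this
      exact isUnit_of_dvd_one (Ideal.mem_span_singleton.1 this)
  · -- divisibility
    intro a b hab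
    obtain ⟨c, hc⟩ := hab
    have hc' : (a : F0) * (b : F0) = algebraMap A0 F0 π * (c : F0) := congrArg Subtype.val hc
    obtain ⟨k1, hk1⟩ := fc_clear1 hx0 a.2
    obtain ⟨k2, hk2⟩ := fc_clear1 hx0 b.2
    obtain ⟨k3, hk3⟩ := fc_clear1 hx0 c.2
    have hk23 : x ^ k3 * (x ^ k2 * (b : F0)) ∈ fc_chart A0 ({x} : Set F0) :=
      Subalgebra.mul_mem _ (Subalgebra.pow_mem _ hxB1 _) hk2
    have hk13 : x ^ (k1 + k2) * (x ^ k3 * (c : F0)) ∈ fc_chart A0 ({x} : Set F0) :=
      Subalgebra.mul_mem _ (Subalgebra.pow_mem _ hxB1 _) hk3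
    have hdvd : algebraMap A0 (fc_chart A0 ({x} : Set F0)) π ∣
        (⟨x ^ k1 * (a : F0), hk1⟩ : fc_chart A0 ({x} : Set F0)) *
          ⟨x ^ k3 * (x ^ k2 * (b : F0)), hk23⟩ := by
      refine ⟨⟨_, hk13⟩, Subtype.ext ?_⟩
      change x ^ k1 * (a : F0) * (x ^ k3 * (x ^ k2 * (b : F0))) =
        algebraMap A0 F0 π * (x ^ (k1 + k2) * (x ^ k3 * (c : F0)))
      rw [pow_add]
      linear_combination (x ^ k1 * x ^ k2 * x ^ k3) * hc'
    have hxinv : x⁻¹ ∈ fc_chart A0 ({x, x⁻¹} : Set F0) := fc_chart2_le x hxB2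
    rcases hP1.dvd_or_dvd hdvd with ⟨d, hd⟩ | ⟨d, hd⟩
    · left
      have hd' : x ^ k1 * (a : F0) = algebraMap A0 F0 π * (d : F0) := congrArg Subtype.val hd
      refine ⟨⟨(d : F0) * x⁻¹ ^ k1, Subalgebra.mul_mem _ (fc_chart1_le x d.2)
        (Subalgebra.pow_mem _ hxinv _)⟩, Subtype.ext ?_⟩
      change (a : F0) = algebraMap A0 F0 π * ((d : F0) * x⁻¹ ^ k1)
      have hxk : x ^ k1 ≠ 0 := pow_ne_zero _ hx0
      rw [inv_pow, ← mul_assoc, eq_mul_inv_iff_mul_eq₀ hxk, ← hd', mul_comm]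
    · right
      have hd' : x ^ k3 * (x ^ k2 * (b : F0)) = algebraMap A0 F0 π * (d : F0) :=
        congrArg Subtype.val hd
      refine ⟨⟨(d : F0) * x⁻¹ ^ (k3 + k2), Subalgebra.mul_mem _ (fc_chart1_le x d.2)
        (Subalgebra.pow_mem _ hxinv _)⟩, Subtype.ext ?_⟩
      change (b : F0) = algebraMap A0 F0 π * ((d : F0) * x⁻¹ ^ (k3 + k2))
      have hxk : x ^ (k3 + k2) ≠ 0 := pow_ne_zero _ hx0
      rw [inv_pow, ← mul_assoc, eq_mul_inv_iff_mul_eq₀ hxk, ← hd', pow_add]
      ring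

open IntermediateField in
/-- **[CONN] in the function-field form of `fc_funField`**: the finiteness hypotheses are
automatic when `F0` is finite over `K0(x)` and `K0` has characteristic zero. -/
theorem cn_prime_funField [CharZero K0] {π : A0} (hπ : Irreducible π) {x : F0}
    (hx : Transcendental K0 x) [FiniteDimensional K0⟮x⟯ F0]
    (hconst : ∀ z : F0, IsAlgebraic K0 z → z ∈ (algebraMap K0 F0).range)
    (hdom1 : ∀ n : Ideal (fc_chart A0 ({x} : Set F0)), n.IsMaximal →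
      algebraMap A0 (fc_chart A0 ({x} : Set F0)) π ∈ n →
      tq_Dom (algebraMap A0 (fc_chart A0 ({x} : Set F0)) π) n)
    (hdom2 : ∀ n : Ideal (fc_chart A0 ({x⁻¹} : Set F0)), n.IsMaximal →
      algebraMap A0 (fc_chart A0 ({x⁻¹} : Set F0)) π ∈ n →
      tq_Dom (algebraMap A0 (fc_chart A0 ({x⁻¹} : Set F0)) π) n) :
    Prime (algebraMap A0 (fc_chart A0 ({x} : Set F0)) π) ∧
      Prime (algebraMap A0 (fc_chart A0 ({x⁻¹} : Set F0)) π) ∧
      Prime (algebraMap A0 (fc_chart A0 ({x, x⁻¹} : Set F0)) π) := by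
  have hxi : Transcendental K0 x⁻¹ := fun h => hx (IsAlgebraic.inv_iff.mp h)
  have hfd2 : FiniteDimensional K0⟮x⁻¹⟯ F0 := by
    rw [rt_adjoin_inv]
    infer_instance
  exact cn_prime hπ hx hconst (fc_ff_finite (L := K0) hx) (fc_ff_finite (L := K0) hxi) hdom1 hdom2

end Main

end Fermat.Agent.JT3
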