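/-
JT3 node R4b (mch_): the local regularity predicates `tq_GenBy`, `tq_Total`, `tq_Dom` are local:
they may be checked after localisation.  Consequence: the regularity of the normalisation
`integralClosure R0 E` of a chart base `R0` at a maximal ideal `n` follows from the regularity of
`integralClosure Rm E` for any localisation `Rm = M⁻¹ R0` with `M` disjoint from `n`
(integral closure commutes with localisation).
-/
import Mathlib
import Fermat.Agent.JT3.Model.TameQuotient

set_option autoImplicit false
set_option linter.unusedSectionVars false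
set_option linter.style.haveILetI false

namespace Fermat.Agent.JT3

section Transfer

variable {B S : Type*} [CommRing B] [CommRing S] [Algebra B S] (M : Submonoid B)
  [IsLocalization M S]

/-- membership of `algebraMap x` in the span of two images. -/
theorem mch_mem_span_pair_iff (a b x : B) :
    algebraMap B S x ∈ Ideal.span {algebraMap B S a, algebraMap B S b} ↔
      ∃ m ∈ M, m * x ∈ Ideal.span {a, b} := by
  have h : Ideal.span {algebraMap B S a, algebraMap B S b} =
      (Ideal.span {a, b}).map (algebraMap B S) := by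
    rw [Ideal.map_span, Set.image_pair]
  rw [h, IsLocalization.algebraMap_mem_map_algebraMap_iff M]

/-- membership of `algebraMap x` in the span of one image. -/
theorem mch_mem_span_singleton_iff (a x : B) :
    algebraMap B S x ∈ Ideal.span {algebraMap B S a} ↔ ∃ m ∈ M, m * x ∈ Ideal.span {a} := by
  have h : Ideal.span {algebraMap B S a} = (Ideal.span {a}).map (algebraMap B S) := by
    rw [Ideal.map_span, Set.image_singleton]
  rw [h, IsLocalization.algebraMap_mem_map_algebraMap_iff M]

variable (n : Ideal B) [hn : n.IsPrime] (hdisj : ∀ s ∈ M, s ∉ n)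

include hdisj

theorem mch_disjoint : Disjoint (M : Set B) (n : Set B) :=
  Set.disjoint_left.2 fun s hs hsn => hdisj s hs hsn

theorem mch_comap_map : (n.map (algebraMap B S)).comap (algebraMap B S) = n :=
  IsLocalization.under_map_of_isPrime_disjoint M S hn (mch_disjoint M n hdisj)

theorem mch_map_isPrime : (n.map (algebraMap B S)).IsPrime :=
  IsLocalization.isPrime_of_isPrime_disjoint M S n hn (mch_disjoint M n hdisj)

theorem mch_map_isMaximal (hmax : n.IsMaximal) : (n.map (algebraMap B S)).IsMaximal := by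
  have hprime := mch_map_isPrime (S := S) M n hdisj
  rw [Ideal.isMaximal_def]
  refine ⟨hprime.ne_top, fun J hJ => ?_⟩
  by_contra hJtop
  have h1 : n ≤ J.comap (algebraMap B S) := by
    rw [← mch_comap_map (S := S) M n hdisj]
    exact Ideal.comap_mono hJ.le
  have h2 : J.comap (algebraMap B S) ≠ ⊤ := by
    intro h
    apply hJtop
    rw [Ideal.eq_top_iff_one] at h ⊢
    have : algebraMap B S 1 ∈ J := h
    rwa [map_one] at this
  have h3 : J.comap (algebraMap B S) = n := (hmax.eq_of_le h2 h1).symm
  have h4 : J = n.map (algebraMap B S) := by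
    rw [← h3]; exact (IsLocalization.map_under M S J).symm
  exact hJ.ne h4.symm

/-- an element of `S` outside `n S` is, up to a unit, the image of an element outside `n`. -/
theorem mch_exists_num (s' : S) (hs' : s' ∉ n.map (algebraMap B S)) :
    ∃ (s0 : B) (m0 : M), s0 ∉ n ∧ s' * algebraMap B S m0 = algebraMap B S s0 := by
  obtain ⟨s0, m0, rfl⟩ := IsLocalization.exists_mk'_eq M s'
  refine ⟨s0, m0, fun h => hs' ?_, IsLocalization.mk'_spec S s0 m0⟩
  have : IsLocalization.mk' S s0 m0 = algebraMap B S s0 * IsLocalization.mk' S 1 m0 := by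
    rw [IsLocalization.mul_mk'_eq_mk'_of_mul, mul_one]
  rw [this]
  exact Ideal.mul_mem_right _ _ (Ideal.mem_map_of_mem _ h)

/-- **`tq_Total` descends from a localisation.** -/
theorem mch_total_of_localization {π : B}
    (h : tq_Total (algebraMap B S π) (n.map (algebraMap B S))) : tq_Total π n := by
  intro a b
  obtain ⟨s', hs', hor⟩ := h (algebraMap B S a) (algebraMap B S b)
  obtain ⟨s0, m0, hs0, hsm⟩ := mch_exists_num M n hdisj s' hs'
  rcases hor with hor | hor
  · have h1 : algebraMap B S (s0 * b) ∈ Ideal.span {algebraMap B S a, algebraMap B S π} := by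
      rw [map_mul, ← hsm, mul_right_comm]
      exact Ideal.mul_mem_right _ _ hor
    obtain ⟨m1, hm1, hmem⟩ := (mch_mem_span_pair_iff M a π (s0 * b)).1 h1
    refine ⟨m1 * s0, fun hc => ?_, Or.inl (by rwa [mul_assoc])⟩
    rcases hn.mem_or_mem hc with hc | hc
    · exact hdisj m1 hm1 hc
    · exact hs0 hc
  · have h1 : algebraMap B S (s0 * a) ∈ Ideal.span {algebraMap B S b, algebraMap B S π} := by
      rw [map_mul, ← hsm, mul_right_comm]
      exact Ideal.mul_mem_right _ _ hor
    obtain ⟨m1, hm1, hmem⟩ := (mch_mem_span_pair_iff M b π (s0 * a)).1 h1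
    refine ⟨m1 * s0, fun hc => ?_, Or.inr (by rwa [mul_assoc])⟩
    rcases hn.mem_or_mem hc with hc | hc
    · exact hdisj m1 hm1 hc
    · exact hs0 hc

/-- **`tq_Dom` descends from a localisation.** -/
theorem mch_dom_of_localization {π : B}
    (h : tq_Dom (algebraMap B S π) (n.map (algebraMap B S))) : tq_Dom π n := by
  intro a b hab
  have hab' : algebraMap B S a * algebraMap B S b ∈ Ideal.span {algebraMap B S π} := by
    rw [← map_mul, mch_mem_span_singleton_iff M]
    exact ⟨1, M.one_mem, by rwa [one_mul]⟩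
  obtain ⟨s', hs', hor⟩ := h (algebraMap B S a) (algebraMap B S b) hab'
  obtain ⟨s0, m0, hs0, hsm⟩ := mch_exists_num M n hdisj s' hs'
  rcases hor with hor | hor
  · have h1 : algebraMap B S (s0 * a) ∈ Ideal.span {algebraMap B S π} := by
      rw [map_mul, ← hsm, mul_right_comm]
      exact Ideal.mul_mem_right _ _ hor
    obtain ⟨m1, hm1, hmem⟩ := (mch_mem_span_singleton_iff M π (s0 * a)).1 h1
    refine ⟨m1 * s0, fun hc => ?_, Or.inl (by rwa [mul_assoc])⟩
    rcases hn.mem_or_mem hc with hc | hc
    · exact hdisj m1 hm1 hc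
    · exact hs0 hc
  · have h1 : algebraMap B S (s0 * b) ∈ Ideal.span {algebraMap B S π} := by
      rw [map_mul, ← hsm, mul_right_comm]
      exact Ideal.mul_mem_right _ _ hor
    obtain ⟨m1, hm1, hmem⟩ := (mch_mem_span_singleton_iff M π (s0 * b)).1 h1
    refine ⟨m1 * s0, fun hc => ?_, Or.inr (by rwa [mul_assoc])⟩
    rcases hn.mem_or_mem hc with hc | hc
    · exact hdisj m1 hm1 hc
    · exact hs0 hc

/-- **`tq_GenBy` descends from a localisation.** -/
theorem mch_genBy_of_localization {π : B} {u' : S}
    (h : tq_GenBy (algebraMap B S π) u' (n.map (algebraMap B S))) : ∃ u : B, tq_GenBy π u n := by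
  obtain ⟨hπ, hu', hgen⟩ := h
  obtain ⟨u0, mu, rfl⟩ := IsLocalization.exists_mk'_eq M u'
  have hcm := mch_comap_map (S := S) M n hdisj
  have hu0S : algebraMap B S u0 ∈ n.map (algebraMap B S) := by
    rw [← IsLocalization.mk'_spec S u0 mu]
    exact Ideal.mul_mem_right _ _ hu'
  have hπn : π ∈ n := by rw [← hcm]; exact hπ
  have hu0n : u0 ∈ n := by rw [← hcm]; exact hu0S
  -- the two spans agree
  have hspan : Ideal.span {algebraMap B S π, IsLocalization.mk' S u0 mu} ≤
      Ideal.span {algebraMap B S π, algebraMap B S u0} := by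
    rw [Ideal.span_le]
    rintro y (rfl | rfl)
    · exact Ideal.subset_span (by simp)
    · have : IsLocalization.mk' S u0 mu = IsLocalization.mk' S 1 mu * algebraMap B S u0 := by
        rw [mul_comm, IsLocalization.mul_mk'_eq_mk'_of_mul, mul_one]
      rw [this]
      exact Ideal.mul_mem_left _ _ (Ideal.subset_span (by simp))
  refine ⟨u0, hπn, hu0n, fun x hx => ?_⟩
  obtain ⟨s', hs', hmem⟩ := hgen (algebraMap B S x) (Ideal.mem_map_of_mem _ hx)
  obtain ⟨s0, m0, hs0, hsm⟩ := mch_exists_num M n hdisj s' hs'
  have h1 : algebraMap B S (s0 * x) ∈ Ideal.span {algebraMap B S π, algebraMap B S u0} := by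
    rw [map_mul, ← hsm, mul_right_comm]
    exact Ideal.mul_mem_right _ _ (hspan hmem)
  obtain ⟨m1, hm1, hmem1⟩ := (mch_mem_span_pair_iff M π u0 (s0 * x)).1 h1
  refine ⟨m1 * s0, fun hc => ?_, by rwa [mul_assoc]⟩
  rcases hn.mem_or_mem hc with hc | hc
  · exact hdisj m1 hm1 hc
  · exact hs0 hc

end Transfer

section IntegralClosure

variable {R0 Rm E : Type*} [CommRing R0] [CommRing Rm] [Field E] [Algebra R0 Rm] [Algebra R0 E]
  [Algebra Rm E] [IsScalarTower R0 Rm E]

/-- the inclusion of the integral closure of `R0` into the integral closure of `Rm`. -/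
noncomputable def mch_incl : integralClosure R0 E →+* integralClosure Rm E where
  toFun x := ⟨(x : E), IsIntegral.tower_top (A := Rm) x.2⟩
  map_one' := rfl
  map_mul' _ _ := rfl
  map_zero' := rfl
  map_add' _ _ := rfl

theorem mch_incl_coe (x : integralClosure R0 E) :
    ((mch_incl (Rm := Rm) x : integralClosure Rm E) : E) = (x : E) := rfl

/-- **Regularity of a normalised chart may be checked on a localisation of the base.**
`R0` the chart base, `E` the function field, `n` a maximal ideal of `integralClosure R0 E`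
containing `π`; `M ⊆ R0` a multiplicative set whose image avoids `n` and `Rm = M⁻¹ R0`.
If `integralClosure Rm E` is regular (in the `tq_` sense) at all its maximal ideals
containing `π`, then `integralClosure R0 E` is regular at `n`. -/
theorem mch_regAt_of_localization (π : R0)
    (n : Ideal (integralClosure R0 E)) [hn : n.IsMaximal]
    (hπ : algebraMap R0 (integralClosure R0 E) π ∈ n)
    (M : Submonoid R0) (hM : ∀ s ∈ M, algebraMap R0 (integralClosure R0 E) s ∉ n)
    (hM0 : ∀ s ∈ M, algebraMap R0 E s ≠ 0) [IsLocalization M Rm]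
    (hloc : ∀ Q : Ideal (integralClosure Rm E), Q.IsMaximal →
      algebraMap Rm (integralClosure Rm E) (algebraMap R0 Rm π) ∈ Q →
      (∃ u, tq_GenBy (algebraMap Rm (integralClosure Rm E) (algebraMap R0 Rm π)) u Q) ∧
        tq_Total (algebraMap Rm (integralClosure Rm E) (algebraMap R0 Rm π)) Q ∧
        tq_Dom (algebraMap Rm (integralClosure Rm E) (algebraMap R0 Rm π)) Q) :
    (∃ u, tq_GenBy (algebraMap R0 (integralClosure R0 E) π) u n) ∧
      tq_Total (algebraMap R0 (integralClosure R0 E) π) n ∧
      tq_Dom (algebraMap R0 (integralClosure R0 E) π) n := by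
  letI : Algebra (integralClosure R0 E) (integralClosure Rm E) := (mch_incl (Rm := Rm)).toAlgebra
  haveI : IsScalarTower (integralClosure R0 E) (integralClosure Rm E) E :=
    IsScalarTower.of_algebraMap_eq fun x => rfl
  haveI : IsScalarTower R0 (integralClosure R0 E) (integralClosure Rm E) :=
    IsScalarTower.of_algebraMap_eq fun x => by
      apply Subtype.ext
      change algebraMap R0 E x = algebraMap R0 E x
      rfl
  haveI : IsLocalization (Algebra.algebraMapSubmonoid E M) E := by
    apply IsLocalization.self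
    rintro _ ⟨s, hs, rfl⟩
    exact (hM0 s hs).isUnit
  haveI hlocB : IsLocalization (Algebra.algebraMapSubmonoid (integralClosure R0 E) M)
      (integralClosure Rm E) := IsLocalization.integralClosure (S := E) (Sf := E) M
  have hdisj : ∀ s ∈ Algebra.algebraMapSubmonoid (integralClosure R0 E) M, s ∉ n := by
    rintro _ ⟨s, hs, rfl⟩
    exact hM s hs
  haveI : n.IsPrime := hn.isPrime
  set MB := Algebra.algebraMapSubmonoid (integralClosure R0 E) M with hMB
  have hQmax := mch_map_isMaximal (S := integralClosure Rm E) MB n hdisj hn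
  have hπeq : algebraMap Rm (integralClosure Rm E) (algebraMap R0 Rm π) =
      algebraMap (integralClosure R0 E) (integralClosure Rm E)
        (algebraMap R0 (integralClosure R0 E) π) := by
    rw [← IsScalarTower.algebraMap_apply, ← IsScalarTower.algebraMap_apply]
  obtain ⟨⟨u', hu'⟩, hT, hD⟩ := hloc _ hQmax (by
    rw [hπeq]; exact Ideal.mem_map_of_mem _ hπ)
  rw [hπeq] at hu' hT hD
  exact ⟨mch_genBy_of_localization MB n hdisj hu', mch_total_of_localization MB n hdisj hT,
    mch_dom_of_localization MB n hdisj hD⟩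

end IntegralClosure

/-! ### transport along ring isomorphisms, and change of the base presentation -/

section Equiv

variable {B B' : Type*} [CommRing B] [CommRing B'] (e : B ≃+* B')

theorem mch_span_pair_equiv (a b x : B) :
    e x ∈ Ideal.span {e a, e b} ↔ x ∈ Ideal.span {a, b} := by
  constructor
  · intro h
    obtain ⟨c, d, hcd⟩ := Ideal.mem_span_pair.1 h
    rw [Ideal.mem_span_pair]
    refine ⟨e.symm c, e.symm d, e.injective ?_⟩
    rw [map_add, map_mul, map_mul, e.apply_symm_apply, e.apply_symm_apply, hcd]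
  · intro h
    obtain ⟨c, d, hcd⟩ := Ideal.mem_span_pair.1 h
    rw [Ideal.mem_span_pair]
    exact ⟨e c, e d, by rw [← hcd, map_add, map_mul, map_mul]⟩

theorem mch_span_singleton_equiv (a x : B) :
    e x ∈ Ideal.span {e a} ↔ x ∈ Ideal.span {a} := by
  constructor
  · intro h
    obtain ⟨c, hc⟩ := Ideal.mem_span_singleton'.1 h
    rw [Ideal.mem_span_singleton']
    refine ⟨e.symm c, e.injective ?_⟩
    rw [map_mul, e.apply_symm_apply, hc]
  · intro h
    obtain ⟨c, hc⟩ := Ideal.mem_span_singleton'.1 h
    rw [Ideal.mem_span_singleton']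
    exact ⟨e c, by rw [← hc, map_mul]⟩

/-- **`tq_Total` is invariant under ring isomorphisms.** -/
theorem mch_total_equiv {π : B} {n' : Ideal B'} (h : tq_Total π (n'.comap (e : B →+* B'))) :
    tq_Total (e π) n' := by
  intro a' b'
  obtain ⟨s, hs, hor⟩ := h (e.symm a') (e.symm b')
  refine ⟨e s, fun hc => hs (Ideal.mem_comap.2 hc), ?_⟩
  rcases hor with hor | hor
  · left
    have := (mch_span_pair_equiv e (e.symm a') π (s * e.symm b')).2 hor
    rwa [map_mul, e.apply_symm_apply, e.apply_symm_apply] at this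
  · right
    have := (mch_span_pair_equiv e (e.symm b') π (s * e.symm a')).2 hor
    rwa [map_mul, e.apply_symm_apply, e.apply_symm_apply] at this

/-- **`tq_Dom` is invariant under ring isomorphisms.** -/
theorem mch_dom_equiv {π : B} {n' : Ideal B'} (h : tq_Dom π (n'.comap (e : B →+* B'))) :
    tq_Dom (e π) n' := by
  intro a' b' hab
  have hab' : e.symm a' * e.symm b' ∈ Ideal.span {π} := by
    rw [← mch_span_singleton_equiv e, map_mul, e.apply_symm_apply, e.apply_symm_apply]
    exact hab
  obtain ⟨s, hs, hor⟩ := h (e.symm a') (e.symm b') hab'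
  refine ⟨e s, fun hc => hs (Ideal.mem_comap.2 hc), ?_⟩
  rcases hor with hor | hor
  · left
    have := (mch_span_singleton_equiv e π (s * e.symm a')).2 hor
    rwa [map_mul, e.apply_symm_apply] at this
  · right
    have := (mch_span_singleton_equiv e π (s * e.symm b')).2 hor
    rwa [map_mul, e.apply_symm_apply] at this

/-- **`tq_GenBy` is invariant under ring isomorphisms.** -/
theorem mch_genBy_equiv {π u : B} {n' : Ideal B'} (h : tq_GenBy π u (n'.comap (e : B →+* B'))) :
    tq_GenBy (e π) (e u) n' := by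
  obtain ⟨hπ, hu, hgen⟩ := h
  refine ⟨Ideal.mem_comap.1 hπ, Ideal.mem_comap.1 hu, fun x' hx' => ?_⟩
  obtain ⟨s, hs, hmem⟩ := hgen (e.symm x') (by
    rw [Ideal.mem_comap]; show e (e.symm x') ∈ n'; rwa [e.apply_symm_apply])
  refine ⟨e s, fun hc => hs (Ideal.mem_comap.2 hc), ?_⟩
  have := (mch_span_pair_equiv e π u (s * e.symm x')).2 hmem
  rwa [map_mul, e.apply_symm_apply] at this

end Equiv

section Presentation

variable {R0 R0' E : Type*} [CommRing R0] [CommRing R0'] [Field E] [Algebra R0 E] [Algebra R0' E]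

/-- integrality over a ring only depends on the image of the ring. -/
theorem mch_isIntegral_of_range_le
    (h : ∀ r : R0, algebraMap R0 E r ∈ (algebraMap R0' E).range) {x : E}
    (hx : IsIntegral R0 x) : IsIntegral R0' x := by
  obtain ⟨p, hp, hpx⟩ := hx
  choose g hg using h
  -- lift the coefficients one by one
  classical
  refine ⟨Polynomial.X ^ p.natDegree +
      ∑ i ∈ Finset.range p.natDegree, Polynomial.C (g (p.coeff i)) * Polynomial.X ^ i, ?_, ?_⟩
  · refine Polynomial.monic_X_pow_add ?_
    refine lt_of_le_of_lt (Polynomial.degree_sum_le _ _) ?_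
    rw [Finset.sup_lt_iff (by exact WithBot.bot_lt_coe _)]
    intro i hi
    refine lt_of_le_of_lt (Polynomial.degree_C_mul_X_pow_le _ _) ?_
    exact_mod_cast Finset.mem_range.1 hi
  · rw [Polynomial.eval₂_add, Polynomial.eval₂_pow, Polynomial.eval₂_X, Polynomial.eval₂_finsetSum]
    have h1 : ∀ i ∈ Finset.range p.natDegree,
        Polynomial.eval₂ (algebraMap R0' E) x (Polynomial.C (g (p.coeff i)) * Polynomial.X ^ i) =
          algebraMap R0 E (p.coeff i) * x ^ i := by
      intro i _
      rw [Polynomial.eval₂_mul, Polynomial.eval₂_C, Polynomial.eval₂_pow, Polynomial.eval₂_X, hg]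
    rw [Finset.sum_congr rfl h1]
    rw [Polynomial.eval₂_eq_sum_range, Finset.sum_range_succ, hp.coeff_natDegree, map_one,
      one_mul] at hpx
    rw [add_comm]
    exact hpx

/-- the integral closures of two rings with the same image coincide. -/
theorem mch_mem_integralClosure_iff
    (h : ∀ r : R0, algebraMap R0 E r ∈ (algebraMap R0' E).range)
    (h' : ∀ r : R0', algebraMap R0' E r ∈ (algebraMap R0 E).range) (x : E) :
    x ∈ integralClosure R0 E ↔ x ∈ integralClosure R0' E :=
  ⟨fun hx => mch_isIntegral_of_range_le h hx, fun hx => mch_isIntegral_of_range_le h' hx⟩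

/-- the identity isomorphism between the integral closures of two rings with the same image. -/
noncomputable def mch_icEquiv
    (h : ∀ r : R0, algebraMap R0 E r ∈ (algebraMap R0' E).range)
    (h' : ∀ r : R0', algebraMap R0' E r ∈ (algebraMap R0 E).range) :
    integralClosure R0 E ≃+* integralClosure R0' E where
  toFun x := ⟨(x : E), (mch_mem_integralClosure_iff h h' _).1 x.2⟩
  invFun x := ⟨(x : E), (mch_mem_integralClosure_iff h h' _).2 x.2⟩
  left_inv _ := rfl
  right_inv _ := rfl
  map_mul' _ _ := rfl
  map_add' _ _ := rfl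

theorem mch_icEquiv_coe
    (h : ∀ r : R0, algebraMap R0 E r ∈ (algebraMap R0' E).range)
    (h' : ∀ r : R0', algebraMap R0' E r ∈ (algebraMap R0 E).range) (x : integralClosure R0 E) :
    ((mch_icEquiv h h' x : integralClosure R0' E) : E) = (x : E) := rfl

end Presentation

/-! ### the multiplicative sets `⟨h, 1 + π R⟩` and the three-chart covering -/

section Monoid

variable {R0 : Type*} [CommRing R0]

/-- The multiplicative set `{h ^ k * (1 + π r)}`: localising at it keeps exactly the primes of the
special fibre `π = 0` where `h ≠ 0` (and makes `π` lie in the Jacobson radical). -/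
def mch_monoid (π h : R0) : Submonoid R0 where
  carrier := {s | ∃ (k : ℕ) (r : R0), s = h ^ k * (1 + π * r)}
  one_mem' := ⟨0, 0, by simp⟩
  mul_mem' := by
    rintro _ _ ⟨k, r, rfl⟩ ⟨k', r', rfl⟩
    exact ⟨k + k', r + r' + π * r * r', by ring⟩

theorem mch_mem_monoid {π h s : R0} :
    s ∈ mch_monoid π h ↔ ∃ (k : ℕ) (r : R0), s = h ^ k * (1 + π * r) := Iff.rfl

theorem mch_self_mem_monoid (π h : R0) : h ∈ mch_monoid π h := ⟨1, 0, by simp⟩

theorem mch_one_add_mem_monoid (π h r : R0) : 1 + π * r ∈ mch_monoid π h := ⟨0, r, by simp⟩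

theorem mch_monoid_eq_closure (π h : R0) :
    mch_monoid π h = Submonoid.closure ({h} ∪ {s | ∃ r, s = 1 + π * r}) := by
  apply le_antisymm
  · rintro _ ⟨k, r, rfl⟩
    have h1 : h ∈ Submonoid.closure ({h} ∪ {s | ∃ r, s = 1 + π * r}) :=
      Submonoid.subset_closure (Set.mem_union_left _ (Set.mem_singleton h))
    have h2 : 1 + π * r ∈ Submonoid.closure ({h} ∪ {s | ∃ r, s = 1 + π * r}) :=
      Submonoid.subset_closure (Set.mem_union_right _ ⟨r, rfl⟩)
    exact mul_mem (pow_mem h1 k) h2
  · rw [Submonoid.closure_le]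
    rintro s (hs | ⟨r, rfl⟩)
    · rw [Set.mem_singleton_iff] at hs; subst hs; exact mch_self_mem_monoid π s
    · exact mch_one_add_mem_monoid π h r

/-- a prime containing `π` and not `h` misses `⟨h, 1 + π R⟩`. -/
theorem mch_monoid_notMem {π h : R0} (n : Ideal R0) [hn : n.IsPrime] (hπ : π ∈ n) (hh : h ∉ n)
    {s : R0} (hs : s ∈ mch_monoid π h) : s ∉ n := by
  obtain ⟨k, r, rfl⟩ := hs
  intro hc
  rcases hn.mem_or_mem hc with h1 | h1
  · exact hh (hn.mem_of_pow_mem k h1)
  · have : (1 : R0) ∈ n := by
      have h2 : (1 : R0) = (1 + π * r) - π * r := by ring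
      rw [h2]; exact n.sub_mem h1 (n.mul_mem_right r hπ)
    exact hn.ne_top ((Ideal.eq_top_iff_one n).2 this)

end Monoid

section Cover

variable {R0 E : Type*} [CommRing R0] [Field E] [Algebra R0 E]
  {Ret Rc0 Rc1 : Type*} [CommRing Ret] [CommRing Rc0] [CommRing Rc1]
  [Algebra R0 Ret] [Algebra R0 Rc0] [Algebra R0 Rc1]
  [Algebra Ret E] [Algebra Rc0 E] [Algebra Rc1 E]
  [IsScalarTower R0 Ret E] [IsScalarTower R0 Rc0 E] [IsScalarTower R0 Rc1 E]

/-- The regularity statement at the maximal ideals containing `π` of the normalisation of `R`. -/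
def mch_RegAt (R : Type*) [CommRing R] (E : Type*) [Field E] [Algebra R E] (π : R) : Prop :=
  ∀ Q : Ideal (integralClosure R E), Q.IsMaximal → algebraMap R (integralClosure R E) π ∈ Q →
    (∃ u, tq_GenBy (algebraMap R (integralClosure R E) π) u Q) ∧
      tq_Total (algebraMap R (integralClosure R E) π) Q ∧
      tq_Dom (algebraMap R (integralClosure R E) π) Q

/-- **Three charts cover.** `R0` a chart base (`O[x]`), `h0, h1 ∈ R0` with `h0 - h1` a unit
(`h0 = x`, `h1 = x - 1`): if the normalisations of the étale chart `R0[1/(h0 h1)]`, and of the two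
cusp charts `R0[1/h1]` (around `h0 = 0`), `R0[1/h0]` (around `h1 = 0`) — all three localised at
`1 + π R0` — are regular along `π = 0`, then so is the normalisation of `R0`. -/
theorem mch_chart_cover (π h0 h1 : R0) (hunit : IsUnit (h0 - h1))
    (hne : ∀ s ∈ mch_monoid π (h0 * h1), algebraMap R0 E s ≠ 0)
    [IsLocalization (mch_monoid π (h0 * h1)) Ret] [IsLocalization (mch_monoid π h1) Rc0]
    [IsLocalization (mch_monoid π h0) Rc1]
    (het : mch_RegAt Ret E (algebraMap R0 Ret π)) (hc0 : mch_RegAt Rc0 E (algebraMap R0 Rc0 π))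
    (hc1 : mch_RegAt Rc1 E (algebraMap R0 Rc1 π)) : mch_RegAt R0 E π := by
  intro n hn hπn
  haveI := hn
  haveI : n.IsPrime := hn.isPrime
  -- the prime of `R0` under `n`
  set m : Ideal R0 := n.comap (algebraMap R0 (integralClosure R0 E)) with hm
  haveI : m.IsPrime := Ideal.comap_isPrime _ _
  have hπm : π ∈ m := hπn
  have hne1 : ∀ s ∈ mch_monoid π h1, algebraMap R0 E s ≠ 0 := by
    rintro _ ⟨k, r, rfl⟩ h0'
    apply hne (h0 ^ k * (h1 ^ k * (1 + π * r))) ⟨k, r, by ring⟩
    rw [map_mul, h0', mul_zero]
  have hne0 : ∀ s ∈ mch_monoid π h0, algebraMap R0 E s ≠ 0 := by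
    rintro _ ⟨k, r, rfl⟩ h0'
    apply hne (h1 ^ k * (h0 ^ k * (1 + π * r))) ⟨k, r, by ring⟩
    rw [map_mul, h0', mul_zero]
  by_cases hh : h0 * h1 ∈ m
  · rcases (inferInstance : m.IsPrime).mem_or_mem hh with hh0 | hh1
    · -- cusp `h0 = 0`: `h1 ∉ m`
      have hh1 : h1 ∉ m := by
        intro hh1
        have : h0 - h1 ∈ m := m.sub_mem hh0 hh1
        exact (inferInstance : m.IsPrime).ne_top (Ideal.eq_top_of_isUnit_mem _ this hunit)
      exact mch_regAt_of_localization (Rm := Rc0) π n hπn (mch_monoid π h1)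
        (fun s hs => mch_monoid_notMem m hπm hh1 hs) hne1 hc0
    · -- cusp `h1 = 0`: `h0 ∉ m`
      have hh0 : h0 ∉ m := by
        intro hh0
        have : h0 - h1 ∈ m := m.sub_mem hh0 hh1
        exact (inferInstance : m.IsPrime).ne_top (Ideal.eq_top_of_isUnit_mem _ this hunit)
      exact mch_regAt_of_localization (Rm := Rc1) π n hπn (mch_monoid π h0)
        (fun s hs => mch_monoid_notMem m hπm hh0 hs) hne0 hc1
  · exact mch_regAt_of_localization (Rm := Ret) π n hπn (mch_monoid π (h0 * h1))
      (fun s hs => mch_monoid_notMem m hπm hh hs) hne het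

end Cover

end Fermat.Agent.JT3
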