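/-
JT3 / Route R (S18): interface definitions of the generic model theorem `mdl_regAt`
(`Model/Generic.lean`), shared by the generic side (chart algebra) and the instance side
(modular curves).
-/
import Mathlib

set_option autoImplicit false

noncomputable section

namespace Fermat.Agent.JT3

/-- **(V), generator form.** `θ ∈ E` is a root (in `T`) of a polynomial `H(X, T) ∈ O[X][T]`
evaluated at `X = x`, whose leading coefficient in `T` is nonzero modulo the maximal ideal of `O`
and whose reduction is separable over `k(X)`, `k` the residue field of `O`.  (Then `θ` is a root
of a monic polynomial with separable reduction over every discrete valuation ring `V ∋ x`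
dominating `O` in which the residue class of `x` is transcendental over `k`.) -/
def mdl_GoodGen (O : Type*) [CommRing O] [IsLocalRing O] {E : Type*} [Field E] [Algebra O E]
    (x θ : E) : Prop :=
  ∃ H : Polynomial (Polynomial O),
    (H.leadingCoeff.map (IsLocalRing.residue O)) ≠ 0 ∧
    Polynomial.eval₂ ((Polynomial.aeval x : Polynomial O →ₐ[O] E) : Polynomial O →+* E) θ H = 0 ∧
    ((H.map (Polynomial.mapRingHom (IsLocalRing.residue O))).map
      (algebraMap (Polynomial (IsLocalRing.ResidueField O))
        (RatFunc (IsLocalRing.ResidueField O)))).Separable

end Fermat.Agent.JT3
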