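/-
JT3 node R4 ("D1-gen"), LOCAL CORE: unit discriminant from (V) + (H), and the structure of the
maximal ideals of a finite free algebra with unit discriminant over a local ring.
-/
import Mathlib
import Fermat.Agent.JT3.Algebra.UnitDiscr

namespace Fermat.Agent.JT3

open Module Matrix

section HeightOne

variable {R : Type*} [CommRing R] [IsDomain R] [IsNoetherianRing R]

/-- **(V) + (H) ⟹ unit.** In a noetherian domain, an element `d` which is not divisible by the
prime element `π` and which lies in no height-one prime avoiding `π` is a unit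
(Krull's Hauptidealsatz). -/
theorem el_isUnit_of_height_one {π d : R} (hπ : Prime π) (hV : ¬ π ∣ d)
    (hH : ∀ p : Ideal R, p.IsPrime → p.height = 1 → π ∉ p → d ∉ p) : IsUnit d := by
  by_contra hd
  have hd0 : d ≠ 0 := fun h => hV (h ▸ dvd_zero π)
  obtain ⟨p, hp⟩ := (Ideal.span {d}).nonempty_minimalPrimes (by
    rw [Ne, Ideal.span_singleton_eq_top]; exact hd)
  have hpp : p.IsPrime := hp.1.1
  have hdp : d ∈ p := hp.1.2 (Ideal.mem_span_singleton_self d)
  have hle : p.height ≤ 1 := Ideal.height_le_one_of_isPrincipal_of_mem_minimalPrimes _ p hp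
  have hne : p ≠ ⊥ := fun h => hd0 (by rw [h] at hdp; exact hdp)
  have h1 : p.height = 1 := by
    refine le_antisymm hle ?_
    rw [Order.one_le_iff_pos, pos_iff_ne_zero, Ne, Ideal.height_eq_zero_iff_eq_bot]
    exact hne
  by_cases hπp : π ∈ p
  · have := Ideal.eq_span_singleton_of_height_eq_one h1 hπp hπ
    rw [this, Ideal.mem_span_singleton] at hdp
    exact hV hdp
  · exact hH p hpp h1 hπp hdp

end HeightOne

section Quot

variable {R B : Type*} [CommRing R] [CommRing B] [Algebra R B]
  {ι : Type*} [Fintype ι] [DecidableEq ι]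

/-- The induced basis of `B ⧸ I B` over `R ⧸ I`. -/
noncomputable def el_quotBasis (I : Ideal R) (b : Basis ι R B) :
    Basis ι (R ⧸ I) (B ⧸ I.map (algebraMap R B)) :=
  ud_basisOfSurjective (Ideal.Quotient.mk I) (Ideal.Quotient.mk (I.map (algebraMap R B)))
    Ideal.Quotient.mk_surjective Ideal.Quotient.mk_surjective
    (fun a => (Ideal.Quotient.algebraMap_quotient_map_quotient a).symm)
    (by rw [Ideal.mk_ker, Ideal.mk_ker]) b

omit [DecidableEq ι] in
@[simp]
theorem el_quotBasis_apply (I : Ideal R) (b : Basis ι R B) (i : ι) :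
    el_quotBasis I b i = Ideal.Quotient.mk (I.map (algebraMap R B)) (b i) :=
  ud_basisOfSurjective_apply _ _ _ _ _ _ b i

theorem el_discr_quotBasis (I : Ideal R) (b : Basis ι R B) :
    Algebra.discr (R ⧸ I) (el_quotBasis I b) = Ideal.Quotient.mk I (Algebra.discr R b) :=
  ud_discr_basisOfSurjective _ _ _ _ _ _ b

/-- Unit discriminant is inherited by `B ⧸ I B` over `R ⧸ I`. -/
theorem el_isUnit_discr_quotBasis (I : Ideal R) (b : Basis ι R B)
    (hd : IsUnit (Algebra.discr R b)) : IsUnit (Algebra.discr (R ⧸ I) (el_quotBasis I b)) := by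
  rw [el_discr_quotBasis]; exact hd.map _

/-- **Fibres are reduced**: if `B` is finite free over `R` with unit discriminant and `R ⧸ I` is
reduced, then `B ⧸ I B` is reduced. -/
theorem el_quot_isReduced (I : Ideal R) [IsReduced (R ⧸ I)] (b : Basis ι R B)
    (hd : IsUnit (Algebra.discr R b)) : IsReduced (B ⧸ I.map (algebraMap R B)) :=
  ud_isReduced (el_quotBasis I b) (el_isUnit_discr_quotBasis I b hd)

end Quot

section Bases

variable {A C : Type*} [CommRing A] [CommRing C] [Algebra A C]
  {ι ι' : Type*} [Fintype ι] [DecidableEq ι] [Fintype ι'] [DecidableEq ι']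

/-- "Unit discriminant" does not depend on the basis. -/
theorem el_isUnit_discr_of_basis (b : Basis ι A C) (b' : Basis ι' A C)
    (h : IsUnit (Algebra.discr A b)) : IsUnit (Algebra.discr A b') := by
  cases subsingleton_or_nontrivial A
  · exact isUnit_of_subsingleton _
  let e : ι ≃ ι' := b.indexEquiv b'
  let b'' : Basis ι A C := b'.reindex e.symm
  have h1 : Algebra.discr A b'' = Algebra.discr A b' := by
    have := Algebra.discr_reindex A b' e.symm
    rw [← this]
    congr 1
    funext i
    simp [b'']
  rw [← h1]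
  set P : Matrix ι ι A := b.toMatrix b'' with hP
  have h2 : (b'' : ι → C) = (b : ι → C) ᵥ* P.map (algebraMap A C) := by
    funext j
    rw [Matrix.vecMul, dotProduct]
    simp only [Matrix.map_apply, hP, Basis.toMatrix_apply]
    conv_lhs => rw [← b.sum_repr (b'' j)]
    refine Finset.sum_congr rfl fun i _ => ?_
    rw [Algebra.smul_def, mul_comm]
  rw [h2, Algebra.discr_of_matrix_vecMul]
  have hdet : IsUnit P.det := by
    have := Basis.toMatrix_mul_toMatrix_flip b b''
    have h3 : P.det * (b''.toMatrix b).det = 1 := by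
      rw [← Matrix.det_mul, hP, this, Matrix.det_one]
    exact IsUnit.of_mul_eq_one _ h3
  exact (hdet.pow 2).mul h

end Bases

section LocalizedDiscr

variable {R B : Type*} [CommRing R] [CommRing B] [Algebra R B]
  {ι ι' : Type*} [Fintype ι] [DecidableEq ι] [Fintype ι'] [DecidableEq ι']
  (p : Ideal R) [p.IsPrime]
  (Rp : Type*) [CommRing Rp] [Algebra R Rp] [IsLocalization.AtPrime Rp p]
  (Bp : Type*) [CommRing Bp] [Algebra R Bp] [Algebra B Bp] [Algebra Rp Bp]
  [IsScalarTower R Rp Bp] [IsScalarTower R B Bp]
  [IsLocalization (Algebra.algebraMapSubmonoid B p.primeCompl) Bp]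

/-- The discriminant of `b` lies outside the prime `p` iff the induced basis of `B_p` over `R_p`
has unit discriminant. -/
theorem el_discr_notMem_iff (b : Basis ι R B) :
    IsUnit (Algebra.discr Rp (b.localizationLocalization Rp p.primeCompl Bp)) ↔
      Algebra.discr R b ∉ p := by
  rw [Algebra.discr_localizationLocalization R p.primeCompl Bp b,
    IsLocalization.AtPrime.isUnit_to_map_iff Rp p]
  exact Iff.rfl

/-- **(V)-bridge**: if SOME `R_p`-basis of `B_p` has unit discriminant, then the discriminant of
any `R`-basis of `B` lies outside `p`. -/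
theorem el_discr_notMem_of_basis (b : Basis ι R B) (b' : Basis ι' Rp Bp)
    (h : IsUnit (Algebra.discr Rp b')) : Algebra.discr R b ∉ p :=
  (el_discr_notMem_iff p Rp Bp b).1 (el_isUnit_discr_of_basis b' _ h)

/-- **(V)-bridge**, prime-element form. -/
theorem el_not_dvd_discr_of_basis {π : R} (hp : p = Ideal.span {π})
    (b : Basis ι R B) (b' : Basis ι' Rp Bp)
    (h : IsUnit (Algebra.discr Rp b')) : ¬ π ∣ Algebra.discr R b := by
  have := el_discr_notMem_of_basis p Rp Bp b b' h
  rwa [hp, Ideal.mem_span_singleton] at this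

end LocalizedDiscr

section Local

variable {R B : Type*} [CommRing R] [IsLocalRing R] [CommRing B] [Algebra R B]
  {ι : Type*} [Fintype ι] [DecidableEq ι]

omit [Fintype ι] [DecidableEq ι] in
/-- Over a local ring `R`, every maximal ideal of a finite `R`-algebra contains `𝔪_R B`. -/
theorem el_map_maximalIdeal_le [Module.Finite R B] (n : Ideal B) [n.IsMaximal] :
    (IsLocalRing.maximalIdeal R).map (algebraMap R B) ≤ n := by
  have : Algebra.IsIntegral R B := Algebra.IsIntegral.of_finite R B
  have hmax : (n.comap (algebraMap R B)).IsMaximal :=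
    Ideal.isMaximal_comap_of_isIntegral_of_isMaximal n
  rw [Ideal.map_le_iff_le_comap, IsLocalRing.eq_maximalIdeal hmax]

/-- **(D1-gen, local core)** Let `B` be finite free with unit discriminant over the local ring
`R`. Then every maximal ideal `n` of `B` is, locally at `n`, generated by `𝔪_R`: for every
`x ∈ n` there is `s ∉ n` with `s * x ∈ 𝔪_R B`. -/
theorem el_maximal_local (b : Basis ι R B) (hd : IsUnit (Algebra.discr R b))
    (n : Ideal B) [hn : n.IsMaximal] {x : B} (hx : x ∈ n) :
    ∃ s : B, s ∉ n ∧ s * x ∈ (IsLocalRing.maximalIdeal R).map (algebraMap R B) := by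
  have : Module.Finite R B := Module.Finite.of_basis b
  set m := IsLocalRing.maximalIdeal R with hm
  set J := m.map (algebraMap R B) with hJ
  have hJn : J ≤ n := el_map_maximalIdeal_le n
  let k := R ⧸ m
  let C := B ⧸ J
  let _ : Field k := Ideal.Quotient.field m
  have hred : IsReduced C := el_quot_isReduced m b hd
  have hfin : Module.Finite k C := Module.Finite.of_basis (el_quotBasis m b)
  have hart : IsArtinianRing C := IsArtinianRing.of_finite k C
  -- the image of `n` in `C`
  let nC : Ideal C := n.map (Ideal.Quotient.mk J)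
  have hnC : nC.IsMaximal :=
    Ideal.IsMaximal.map_of_surjective_of_ker_le Ideal.Quotient.mk_surjective
      (by rw [Ideal.mk_ker]; exact hJn)
  have hnCp : nC.IsPrime := hnC.isPrime
  have hcomap : nC.comap (Ideal.Quotient.mk J) = n := by
    rw [Ideal.comap_map_of_surjective _ Ideal.Quotient.mk_surjective, ← RingHom.ker_eq_comap_bot,
      Ideal.mk_ker]
    exact sup_eq_left.2 hJn
  -- the localisation of `C` at `nC` is a field
  have hfield : IsField (Localization.AtPrime nC) :=
    IsArtinianRing.isField_of_isReduced_of_isLocalRing _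
  have hxC : Ideal.Quotient.mk J x ∈ nC := Ideal.mem_map_of_mem _ hx
  have h0 : algebraMap C (Localization.AtPrime nC) (Ideal.Quotient.mk J x) = 0 := by
    by_contra hne
    obtain ⟨y, hy⟩ := hfield.mul_inv_cancel hne
    have hu : IsUnit (algebraMap C (Localization.AtPrime nC) (Ideal.Quotient.mk J x)) :=
      IsUnit.of_mul_eq_one _ hy
    exact (IsLocalization.AtPrime.isUnit_to_map_iff (Localization.AtPrime nC) nC _).1 hu hxC
  obtain ⟨⟨t, ht⟩, hts⟩ := (IsLocalization.map_eq_zero_iff nC.primeCompl _ _).1 h0
  obtain ⟨s, rfl⟩ := Ideal.Quotient.mk_surjective t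
  refine ⟨s, fun hs => ht (Ideal.mem_map_of_mem _ hs), ?_⟩
  rw [← Ideal.Quotient.eq_zero_iff_mem, map_mul]
  exact hts

/-- **Localisation form**: the maximal ideal of the local ring `B_n` is generated by the image
of `𝔪_R`. -/
theorem el_maximalIdeal_localization (b : Basis ι R B) (hd : IsUnit (Algebra.discr R b))
    (n : Ideal B) [hn : n.IsMaximal] (Bn : Type*) [CommRing Bn] [Algebra B Bn]
    [IsLocalization.AtPrime Bn n] :
    @IsLocalRing.maximalIdeal Bn _ (IsLocalization.AtPrime.isLocalRing Bn n) =
      ((IsLocalRing.maximalIdeal R).map (algebraMap R B)).map (algebraMap B Bn) := by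
  have : Module.Finite R B := Module.Finite.of_basis b
  let _ : IsLocalRing Bn := IsLocalization.AtPrime.isLocalRing Bn n
  rw [← IsLocalization.AtPrime.map_eq_maximalIdeal n Bn]
  refine le_antisymm ?_ (Ideal.map_mono (el_map_maximalIdeal_le n))
  rw [Ideal.map_le_iff_le_comap]
  intro x hx
  obtain ⟨s, hs, hsx⟩ := el_maximal_local b hd n hx
  rw [Ideal.mem_comap]
  have hu : IsUnit (algebraMap B Bn s) :=
    IsLocalization.map_units Bn (⟨s, hs⟩ : n.primeCompl)
  have h1 : algebraMap B Bn s * algebraMap B Bn x ∈
      ((IsLocalRing.maximalIdeal R).map (algebraMap R B)).map (algebraMap B Bn) := by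
    rw [← map_mul]; exact Ideal.mem_map_of_mem _ hsx
  obtain ⟨v, hv⟩ := hu.exists_left_inv
  have h2 : algebraMap B Bn x = v * (algebraMap B Bn s * algebraMap B Bn x) := by
    rw [← mul_assoc, hv, one_mul]
  rw [h2]
  exact Ideal.mul_mem_left _ _ h1

/-- **Two-generator form** (the input of the local Kummer step): if `𝔪_R = (π, u)` then
`𝔪_{B_n} = (π, u)`. -/
theorem el_maximalIdeal_localization_pair (b : Basis ι R B) (hd : IsUnit (Algebra.discr R b))
    {π u : R} (hm : IsLocalRing.maximalIdeal R = Ideal.span {π, u})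
    (n : Ideal B) [hn : n.IsMaximal] (Bn : Type*) [CommRing Bn] [Algebra B Bn]
    [IsLocalization.AtPrime Bn n] :
    @IsLocalRing.maximalIdeal Bn _ (IsLocalization.AtPrime.isLocalRing Bn n) =
      Ideal.span {algebraMap B Bn (algebraMap R B π), algebraMap B Bn (algebraMap R B u)} := by
  rw [el_maximalIdeal_localization b hd n Bn, hm, Ideal.map_span, Ideal.map_span,
    Set.image_pair, Set.image_pair]

end Local

section Main

variable {R B : Type*} [CommRing R] [IsDomain R] [IsLocalRing R] [IsNoetherianRing R]
  [CommRing B] [Algebra R B] {ι : Type*} [Fintype ι] [DecidableEq ι]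

/-- **(D1-gen, local form, assembled)** `R` a noetherian local domain with `𝔪_R = (π, u)`, `π`
prime; `B` finite free over `R` with basis `b` such that (V) `π ∤ disc b` and (H) `disc b` lies
in no height-one prime of `R` avoiding `π`. Then the discriminant is a unit and, for every maximal
ideal `n` of `B`, the local ring `B_n` has maximal ideal `(π, u)`. -/
theorem el_main (b : Basis ι R B) {π u : R} (hπ : Prime π)
    (hm : IsLocalRing.maximalIdeal R = Ideal.span {π, u})
    (hV : ¬ π ∣ Algebra.discr R b)
    (hH : ∀ p : Ideal R, p.IsPrime → p.height = 1 → π ∉ p → Algebra.discr R b ∉ p)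
    (n : Ideal B) [hn : n.IsMaximal] (Bn : Type*) [CommRing Bn] [Algebra B Bn]
    [IsLocalization.AtPrime Bn n] :
    IsUnit (Algebra.discr R b) ∧
    @IsLocalRing.maximalIdeal Bn _ (IsLocalization.AtPrime.isLocalRing Bn n) =
      Ideal.span {algebraMap B Bn (algebraMap R B π), algebraMap B Bn (algebraMap R B u)} :=
  have hd := el_isUnit_of_height_one hπ hV hH
  ⟨hd, el_maximalIdeal_localization_pair b hd hm n Bn⟩

end Main

end Fermat.Agent.JT3
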