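/-
JT3 node R4 ("D1-gen"), the (H)-bridge: unramified in codimension one ⟹ the discriminant
avoids the height-one prime.
-/
import Mathlib
import Fermat.Agent.JT3.Algebra.UnramDiscr
import Fermat.Agent.JT3.Model.EtaleLocal

namespace Fermat.Agent.JT3

open Module
open scoped nonZeroDivisors

attribute [local instance] FractionRing.liftAlgebra

section HBridge

variable {R B : Type*} [CommRing R] [IsDomain R] [IsNoetherianRing R] [IsIntegrallyClosed R]
  [CommRing B] [IsDomain B] [IsIntegrallyClosed B] [Algebra R B] [Module.IsTorsionFree R B]
  [Module.Finite R B]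

/-- The localisation of a noetherian normal domain at a height-one prime is a Dedekind domain
(a DVR). -/
theorem el_isDedekindDomain_localization (p : Ideal R) [p.IsPrime] (hp : p.height = 1) :
    IsDedekindDomain (Localization.AtPrime p) := by
  have hint : IsIntegrallyClosed (Localization.AtPrime p) :=
    isIntegrallyClosed_of_isLocalization _ p.primeCompl p.primeCompl_le_nonZeroDivisors
  have hdim : Ring.DimensionLEOne (Localization.AtPrime p) := by
    refine ⟨fun {Q} hQ0 hQ => ?_⟩
    -- `Q` is the maximal ideal
    have hQm : Q ≤ IsLocalRing.maximalIdeal (Localization.AtPrime p) :=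
      IsLocalRing.le_maximalIdeal hQ.ne_top
    have hle : Q.under R ≤ p := by
      calc Q.under R ≤ (IsLocalRing.maximalIdeal (Localization.AtPrime p)).under R :=
            Ideal.comap_mono hQm
        _ = p := IsLocalization.AtPrime.under_maximalIdeal (Localization.AtPrime p) p
    have hne : Q.under R ≠ ⊥ := by
      intro h0
      apply hQ0
      rw [← IsLocalization.map_under p.primeCompl (Localization.AtPrime p) Q, h0, Ideal.map_bot]
    have hprime : (Q.under R).IsPrime := Ideal.comap_isPrime _ Q
    have heq : Q.under R = p := by
      by_contra hne'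
      have hlt : Q.under R < p := lt_of_le_of_ne hle hne'
      have h2 := Ideal.height_strict_mono_of_isPrime_of_isPrime hlt
      rw [hp, Order.lt_one_iff, Ideal.height_eq_zero_iff_eq_bot] at h2
      exact hne h2
    have : Q = IsLocalRing.maximalIdeal (Localization.AtPrime p) := by
      rw [← IsLocalization.map_under p.primeCompl (Localization.AtPrime p) Q, heq,
        Localization.AtPrime.map_eq_maximalIdeal]
    rw [this]; infer_instance
  exact { toIsDomain := inferInstance, toIsDedekindRing :=
    { toIsNoetherian := inferInstance, toDimensionLEOne := hdim,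
      toIsIntegralClosure := hint } }

/-- The localisation of `B` at (the image of) the complement of a height-one prime of `R` is a
Dedekind domain. -/
theorem el_isDedekindDomain_localization_ext (p : Ideal R) [p.IsPrime] (hp : p.height = 1) :
    IsDedekindDomain (Localization (Algebra.algebraMapSubmonoid B p.primeCompl)) := by
  have hded := el_isDedekindDomain_localization p hp
  have hBnoeth : IsNoetherianRing B := IsNoetherianRing.of_finite R B
  have hle : Algebra.algebraMapSubmonoid B p.primeCompl ≤ B⁰ :=
    algebraMapSubmonoid_le_nonZeroDivisors_of_faithfulSMul B p.primeCompl_le_nonZeroDivisors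
  have hint : IsIntegrallyClosed (Localization (Algebra.algebraMapSubmonoid B p.primeCompl)) :=
    isIntegrallyClosed_of_isLocalization _ (Algebra.algebraMapSubmonoid B p.primeCompl) hle
  have hnoeth : IsNoetherianRing (Localization (Algebra.algebraMapSubmonoid B p.primeCompl)) :=
    IsLocalization.isNoetherianRing (Algebra.algebraMapSubmonoid B p.primeCompl) _ hBnoeth
  have hdim : Ring.DimensionLEOne (Localization (Algebra.algebraMapSubmonoid B p.primeCompl)) :=
    Ring.DimensionLEOne.of_isIntegral (Localization.AtPrime p) _
  exact { toIsDomain := inferInstance, toIsDedekindRing :=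
    { toIsNoetherian := hnoeth, toDimensionLEOne := hdim,
      toIsIntegralClosure := hint } }

variable {ι : Type*} [Fintype ι] [DecidableEq ι]

/-- **(H)-bridge.** If `B` is unramified over `R` at every prime lying over the height-one prime
`p`, then the discriminant of any basis lies outside `p`. -/
theorem el_discr_notMem_of_isUnramifiedAt
    [Algebra.IsSeparable (FractionRing R) (FractionRing B)]
    (b : Basis ι R B) (p : Ideal R) [p.IsPrime] (hp : p.height = 1)
    (h : ∀ P : Ideal B, ∀ _ : P.IsPrime, P.under R = p → Algebra.IsUnramifiedAt R P) :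
    Algebra.discr R b ∉ p := by
  have hded := el_isDedekindDomain_localization p hp
  have hdedB := el_isDedekindDomain_localization_ext (B := B) p hp
  let Rp := Localization.AtPrime p
  let Sp := Localization (Algebra.algebraMapSubmonoid B p.primeCompl)
  let bL : Basis ι Rp Sp := b.localizationLocalization Rp p.primeCompl Sp
  rw [← el_discr_notMem_iff p Rp Sp b]
  refine ud_isUnit_discr_of_unramified bL ?_
  intro Q hQ hQ0
  -- the prime of `B` under `Q`
  set P : Ideal B := Q.under B with hPdef
  have hPprime : P.IsPrime := Ideal.comap_isPrime _ Q
  have hle : Algebra.algebraMapSubmonoid B p.primeCompl ≤ B⁰ :=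
    algebraMapSubmonoid_le_nonZeroDivisors_of_faithfulSMul B p.primeCompl_le_nonZeroDivisors
  have hP0 : P ≠ ⊥ := by
    intro h0
    apply hQ0
    rw [← IsLocalization.map_under (Algebra.algebraMapSubmonoid B p.primeCompl) Sp Q, ← hPdef, h0,
      Ideal.map_bot]
  have hdisj : Disjoint (Algebra.algebraMapSubmonoid B p.primeCompl : Set B) (P : Set B) :=
    ((IsLocalization.isPrime_iff_isPrime_disjoint (Algebra.algebraMapSubmonoid B p.primeCompl) Sp
      Q).1 hQ).2
  have hPp : P.under R = p := by
    have hle' : P.under R ≤ p := by
      intro x hx
      by_contra hxp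
      exact Set.disjoint_left.1 hdisj ⟨x, hxp, rfl⟩ hx
    have hne : P.under R ≠ ⊥ := by
      have : Algebra.IsIntegral R B := Algebra.IsIntegral.of_finite R B
      exact Ideal.IsIntegral.comap_ne_bot R hP0
    have hprime : (P.under R).IsPrime := Ideal.comap_isPrime _ P
    by_contra hne'
    have hlt : P.under R < p := lt_of_le_of_ne hle' hne'
    have h2 := Ideal.height_strict_mono_of_isPrime_of_isPrime hlt
    rw [hp, Order.lt_one_iff, Ideal.height_eq_zero_iff_eq_bot] at h2
    exact hne h2
  have hU : Algebra.FormallyUnramified R (Localization.AtPrime P) := h P hPprime hPp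
  have hloc : IsLocalization.AtPrime (Localization.AtPrime Q) P :=
    IsLocalization.isLocalization_isLocalization_atPrime_isLocalization
      (Algebra.algebraMapSubmonoid B p.primeCompl) (Localization.AtPrime Q) Q
  let e : Localization.AtPrime P ≃ₐ[B] Localization.AtPrime Q :=
    IsLocalization.algEquiv P.primeCompl _ _
  have hU' : Algebra.FormallyUnramified R (Localization.AtPrime Q) :=
    Algebra.FormallyUnramified.of_equiv (e.restrictScalars R)
  exact Algebra.FormallyUnramified.of_restrictScalars R Rp (Localization.AtPrime Q)

/-- **(D1-gen, local form, with (H) in unramifiedness form)**: `R` a noetherian normal local domain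
with `𝔪_R = (π, u)`, `π` prime; `B` a normal domain, finite free over `R` with basis `b`, separable
on fraction fields, such that (V) `π ∤ disc b` and (H) `B` is unramified over `R` at every prime
`P` lying over a height-one prime of `R` which does not contain `π`. Then the discriminant is a
unit and, for every maximal ideal `n` of `B`, the local ring `B_n` has maximal ideal `(π, u)`. -/
theorem el_main_unram [IsLocalRing R]
    [Algebra.IsSeparable (FractionRing R) (FractionRing B)]
    (b : Basis ι R B) {π u : R} (hπ : Prime π)
    (hm : IsLocalRing.maximalIdeal R = Ideal.span {π, u})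
    (hV : ¬ π ∣ Algebra.discr R b)
    (hH : ∀ P : Ideal B, ∀ _ : P.IsPrime, (P.under R).height = 1 → π ∉ P.under R →
      Algebra.IsUnramifiedAt R P)
    (n : Ideal B) [hn : n.IsMaximal] (Bn : Type*) [CommRing Bn] [Algebra B Bn]
    [IsLocalization.AtPrime Bn n] :
    IsUnit (Algebra.discr R b) ∧
    @IsLocalRing.maximalIdeal Bn _ (IsLocalization.AtPrime.isLocalRing Bn n) =
      Ideal.span {algebraMap B Bn (algebraMap R B π), algebraMap B Bn (algebraMap R B u)} :=
  el_main b hπ hm hV
    (fun p hp hp1 hπp =>
      haveI := hp
      el_discr_notMem_of_isUnramifiedAt b p hp1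
        (fun P hP hPp => hH P hP (hPp ▸ hp1) (hPp ▸ hπp))) n Bn

end HBridge

end Fermat.Agent.JT3
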