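/-
JT3 / Route R, node R4b (tame cusp chart), bridges for (TQ).

* `tqb_total_of_genBy`, `tqb_dom_of_genBy` : in a noetherian ring `R`, if the prime `P ∋ π` is
  locally generated by `(π, u)` (`tq_GenBy π u P`, the output shape of `el_maximal_local`) and
  `R / π` is reduced, then the local ring of `R / π` at `P` is a valuation ring
  (`tq_Total π P` and `tq_Dom π P`): a reduced noetherian local ring with principal maximal ideal
  is a field or a DVR (Krull intersection theorem).
* `tqb_maximalIdeal_eq`, `tqb_prime_of_dom` : the localisation forms of `tq_GenBy`, `tq_Dom`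
  (the input shape of the local Kummer step of F-core).
-/
import Mathlib
import Fermat.Agent.JT3.Model.TameQuotient

set_option autoImplicit false
set_option linter.unusedSectionVars false
set_option linter.style.haveILetI false

namespace Fermat.Agent.JT3

open Ideal IsLocalRing

section LocalStructure

variable {S : Type*} [CommRing S] [IsLocalRing S] [IsNoetherianRing S]

/-- In a noetherian local ring with principal maximal ideal `(t)`, every nonzero element is a unit
times a power of `t`. -/
theorem tqb_exists_unit_mul_pow {t : S} (ht : maximalIdeal S = Ideal.span {t}) {a : S}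
    (ha : a ≠ 0) : ∃ (k : ℕ) (c : S), IsUnit c ∧ a = c * t ^ k := by
  classical
  have hK := Ideal.iInf_pow_eq_bot_of_isLocalRing (maximalIdeal S) Ideal.IsPrime.ne_top'
  have hex : ∃ n, a ∉ maximalIdeal S ^ n := by
    by_contra h
    push Not at h
    apply ha
    have h1 : a ∈ ⨅ n, maximalIdeal S ^ n := (Submodule.mem_iInf _).2 h
    rw [hK] at h1
    exact h1
  have hn : a ∉ maximalIdeal S ^ Nat.find hex := Nat.find_spec hex
  have hn0 : Nat.find hex ≠ 0 := by
    intro h0
    rw [h0, pow_zero, Ideal.one_eq_top] at hn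
    exact hn Submodule.mem_top
  obtain ⟨k, hk⟩ := Nat.exists_eq_succ_of_ne_zero hn0
  have hk' : a ∈ maximalIdeal S ^ k := by
    by_contra h
    exact Nat.find_min hex (by omega : k < Nat.find hex) h
  rw [ht, Ideal.span_singleton_pow, Ideal.mem_span_singleton'] at hk'
  obtain ⟨c, hc⟩ := hk'
  refine ⟨k, c, ?_, hc.symm⟩
  by_contra hcu
  have hcm : c ∈ maximalIdeal S := (mem_maximalIdeal c).2 hcu
  rw [ht, Ideal.mem_span_singleton'] at hcm
  obtain ⟨c', hc'⟩ := hcm
  apply hn
  rw [hk, ht, Ideal.span_singleton_pow, Ideal.mem_span_singleton']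
  refine ⟨c', ?_⟩
  rw [← hc, ← hc', pow_succ]
  ring

/-- total divisibility -/
theorem tqb_dvd_total {t : S} (ht : maximalIdeal S = Ideal.span {t}) (a b : S) :
    a ∣ b ∨ b ∣ a := by
  by_cases ha : a = 0
  · right; rw [ha]; exact dvd_zero b
  by_cases hb : b = 0
  · left; rw [hb]; exact dvd_zero a
  obtain ⟨k, c, hc, rfl⟩ := tqb_exists_unit_mul_pow ht ha
  obtain ⟨m, c', hc', rfl⟩ := tqb_exists_unit_mul_pow ht hb
  obtain ⟨d, hd⟩ := hc.exists_left_inv
  obtain ⟨d', hd'⟩ := hc'.exists_left_inv
  rcases le_total k m with hkm | hkm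
  · left
    refine ⟨d * c' * t ^ (m - k), ?_⟩
    have : t ^ m = t ^ k * t ^ (m - k) := by rw [← pow_add, Nat.add_sub_cancel' hkm]
    rw [this]
    calc c' * (t ^ k * t ^ (m - k)) = (d * c) * (c' * (t ^ k * t ^ (m - k))) := by
          rw [hd, one_mul]
      _ = c * t ^ k * (d * c' * t ^ (m - k)) := by ring
  · right
    refine ⟨d' * c * t ^ (k - m), ?_⟩
    have : t ^ k = t ^ m * t ^ (k - m) := by rw [← pow_add, Nat.add_sub_cancel' hkm]
    rw [this]
    calc c * (t ^ m * t ^ (k - m)) = (d' * c') * (c * (t ^ m * t ^ (k - m))) := by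
          rw [hd', one_mul]
      _ = c' * t ^ m * (d' * c * t ^ (k - m)) := by ring

/-- no zero divisors, if reduced -/
theorem tqb_eq_zero_or [IsReduced S] {t : S} (ht : maximalIdeal S = Ideal.span {t}) {a b : S}
    (hab : a * b = 0) : a = 0 ∨ b = 0 := by
  by_contra hcon
  rw [not_or] at hcon
  obtain ⟨k, c, hc, hac⟩ := tqb_exists_unit_mul_pow ht hcon.1
  obtain ⟨m, c', hc', hbc⟩ := tqb_exists_unit_mul_pow ht hcon.2
  have h1 : (c * c') * t ^ (k + m) = 0 := by
    rw [← hab, hac, hbc, pow_add]; ring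
  have h2 : t ^ (k + m) = 0 := by
    have hu : IsUnit (c * c') := hc.mul hc'
    exact (hu.mul_right_eq_zero).1 h1
  have h3 : t = 0 := IsReduced.eq_zero t ⟨k + m, h2⟩
  -- then `a * b` is a unit times a power of zero
  by_cases hk : k = 0
  · -- `a` is a unit
    have hau : IsUnit a := by rw [hac, hk, pow_zero, mul_one]; exact hc
    exact hcon.2 ((hau.mul_right_eq_zero).1 hab)
  · apply hcon.1
    rw [hac, h3, zero_pow hk, mul_zero]

end LocalStructure

section Bridge

variable {R : Type*} [CommRing R]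

/-- **Bridge (input side of (TQ))**: in a noetherian ring, a prime `P` which is locally generated
by `(π, u)` and such that `R / π` is reduced has a valuation ring as local ring modulo `π`. -/
theorem tqb_total_dom_of_genBy [IsNoetherianRing R] {π u : R} {P : Ideal R} [hP : P.IsPrime]
    (hgen : tq_GenBy π u P)
    (hred : ∀ (x : R) (n : ℕ), x ^ n ∈ Ideal.span {π} → x ∈ Ideal.span {π}) :
    tq_Total π P ∧ tq_Dom π P := by
  classical
  obtain ⟨hπP, huP, hloc⟩ := hgen
  set I : Ideal R := Ideal.span {π} with hI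
  have hIP : I ≤ P := by rw [hI, Ideal.span_le]; intro x hx; rw [Set.mem_singleton_iff.1 hx]; exact hπP
  let mkI := Ideal.Quotient.mk I
  have hsurj : Function.Surjective mkI := Ideal.Quotient.mk_surjective
  have hP' : (P.map mkI).IsPrime :=
    Ideal.map_isPrime_of_surjective hsurj (by rw [Ideal.mk_ker]; exact hIP)
  have hcomap : (P.map mkI).comap mkI = P := by
    rw [Ideal.comap_map_of_surjective _ hsurj, ← RingHom.ker_eq_comap_bot, Ideal.mk_ker]
    exact sup_eq_left.2 hIP
  have hnotmem : ∀ s : R, s ∉ P → mkI s ∉ P.map mkI := by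
    intro s hs hmem
    apply hs
    rw [← hcomap]
    exact hmem
  haveI : IsReduced (R ⧸ I) := by
    constructor
    rintro x ⟨n, hn⟩
    obtain ⟨r, rfl⟩ := hsurj x
    have h1 : r ^ n ∈ I := by
      rw [← Ideal.Quotient.eq_zero_iff_mem, map_pow]; exact hn
    exact Ideal.Quotient.eq_zero_iff_mem.2 (hred r n h1)
  let S := Localization.AtPrime (P.map mkI)
  haveI : IsNoetherianRing S :=
    IsLocalization.isNoetherianRing (P.map mkI).primeCompl S inferInstance
  let φ : R →+* S := (algebraMap (R ⧸ I) S).comp mkI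
  have hφ : ∀ r, φ r = algebraMap (R ⧸ I) S (mkI r) := fun r => rfl
  have hunit : ∀ s : R, s ∉ P → IsUnit (φ s) := fun s hs =>
    IsLocalization.map_units S (⟨mkI s, hnotmem s hs⟩ : (P.map mkI).primeCompl)
  have hzero : ∀ r : R, φ r = 0 → ∃ s : R, s ∉ P ∧ s * r ∈ I := by
    intro r hr
    obtain ⟨⟨m, hm⟩, hmr⟩ := (IsLocalization.map_eq_zero_iff (P.map mkI).primeCompl S _).1 hr
    obtain ⟨s, rfl⟩ := hsurj m
    refine ⟨s, fun hs => hm (Ideal.mem_map_of_mem _ hs), ?_⟩
    rw [← Ideal.Quotient.eq_zero_iff_mem, map_mul]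
    exact hmr
  have hfrac : ∀ x : S, ∃ r s : R, s ∉ P ∧ x * φ s = φ r := by
    intro x
    obtain ⟨⟨y, ⟨m, hm⟩⟩, hx⟩ := IsLocalization.surj (P.map mkI).primeCompl x
    obtain ⟨r, rfl⟩ := hsurj y
    obtain ⟨s, rfl⟩ := hsurj m
    exact ⟨r, s, fun hs => hm (Ideal.mem_map_of_mem _ hs), hx⟩
  have hφπ : φ π = 0 := by
    rw [hφ]
    have : mkI π = 0 := Ideal.Quotient.eq_zero_iff_mem.2 (Ideal.subset_span rfl)
    rw [this, map_zero]
  -- the maximal ideal is generated by the image of `u`
  have hmax : maximalIdeal S = Ideal.span {φ u} := by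
    rw [← IsLocalization.AtPrime.map_eq_maximalIdeal (P.map mkI) S]
    apply le_antisymm
    · rw [Ideal.map_le_iff_le_comap]
      intro xbar hxbar
      obtain ⟨x, hxP, rfl⟩ := (Ideal.mem_map_iff_of_surjective mkI hsurj).1 hxbar
      rw [Ideal.mem_comap]
      obtain ⟨s, hs, hsx⟩ := hloc x hxP
      obtain ⟨c, d, hcd⟩ := Ideal.mem_span_pair.1 hsx
      obtain ⟨v, hv⟩ := (hunit s hs).exists_left_inv
      have h1 : φ s * φ x = φ d * φ u := by
        rw [← map_mul, ← hcd, map_add, map_mul, map_mul, hφπ, mul_zero, zero_add]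
      rw [Ideal.mem_span_singleton']
      refine ⟨v * φ d, ?_⟩
      calc v * φ d * φ u = v * (φ d * φ u) := by ring
        _ = v * (φ s * φ x) := by rw [h1]
        _ = (v * φ s) * φ x := by ring
        _ = φ x := by rw [hv, one_mul]
    · rw [Ideal.span_le]
      intro y hy
      rw [Set.mem_singleton_iff.1 hy]
      exact Ideal.mem_map_of_mem _ (Ideal.mem_map_of_mem _ huP)
  constructor
  · -- total divisibility
    intro a b
    have key : ∀ a b : R, φ a ∣ φ b → ∃ s : R, s ∉ P ∧ s * b ∈ Ideal.span {a, π} := by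
      intro a b hab
      obtain ⟨x, hx⟩ := hab
      obtain ⟨c, s, hs, hxs⟩ := hfrac x
      have h0 : φ (s * b - a * c) = 0 := by
        rw [map_sub, map_mul, map_mul, hx, ← hxs]; ring
      obtain ⟨s', hs', hmem⟩ := hzero _ h0
      refine ⟨s' * s, fun h => (hP.mem_or_mem h).elim hs' hs, ?_⟩
      obtain ⟨d, hd⟩ := Ideal.mem_span_singleton'.1 hmem
      rw [Ideal.mem_span_pair]
      refine ⟨s' * c, d, ?_⟩
      have : s' * s * b = s' * (s * b - a * c) + s' * c * a := by ring
      rw [this, ← hd]; ring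
    rcases tqb_dvd_total hmax (φ a) (φ b) with h | h
    · obtain ⟨s, hs, hsb⟩ := key a b h
      exact ⟨s, hs, Or.inl hsb⟩
    · obtain ⟨s, hs, hsa⟩ := key b a h
      exact ⟨s, hs, Or.inr hsa⟩
  · -- no zero divisors
    intro a b hab
    have h0 : φ a * φ b = 0 := by
      rw [← map_mul, hφ]
      have : mkI (a * b) = 0 := Ideal.Quotient.eq_zero_iff_mem.2 hab
      rw [this, map_zero]
    rcases tqb_eq_zero_or hmax h0 with h | h
    · obtain ⟨s, hs, hsa⟩ := hzero a h
      exact ⟨s, hs, Or.inl hsa⟩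
    · obtain ⟨s, hs, hsb⟩ := hzero b h
      exact ⟨s, hs, Or.inr hsb⟩

/-- **Bridge (output side)**: localisation form of `tq_GenBy`. -/
theorem tqb_maximalIdeal_eq {π u : R} {P : Ideal R} [hP : P.IsPrime] (hgen : tq_GenBy π u P)
    (Rp : Type*) [CommRing Rp] [Algebra R Rp] [IsLocalization.AtPrime Rp P] :
    @IsLocalRing.maximalIdeal Rp _ (IsLocalization.AtPrime.isLocalRing Rp P) =
      Ideal.span {algebraMap R Rp π, algebraMap R Rp u} := by
  obtain ⟨hπP, huP, hloc⟩ := hgen
  let _ : IsLocalRing Rp := IsLocalization.AtPrime.isLocalRing Rp P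
  rw [← IsLocalization.AtPrime.map_eq_maximalIdeal P Rp]
  apply le_antisymm
  · rw [Ideal.map_le_iff_le_comap]
    intro x hx
    rw [Ideal.mem_comap]
    obtain ⟨s, hs, hsx⟩ := hloc x hx
    have hu : IsUnit (algebraMap R Rp s) := IsLocalization.map_units Rp (⟨s, hs⟩ : P.primeCompl)
    obtain ⟨v, hv⟩ := hu.exists_left_inv
    have h1 : algebraMap R Rp s * algebraMap R Rp x ∈
        Ideal.span {algebraMap R Rp π, algebraMap R Rp u} := by
      rw [← map_mul]
      have := Ideal.mem_map_of_mem (algebraMap R Rp) hsx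
      rwa [Ideal.map_span, Set.image_pair] at this
    have h2 : algebraMap R Rp x = v * (algebraMap R Rp s * algebraMap R Rp x) := by
      rw [← mul_assoc, hv, one_mul]
    rw [h2]
    exact Ideal.mul_mem_left _ _ h1
  · rw [Ideal.span_le]
    intro y hy
    rcases hy with rfl | hy
    · exact Ideal.mem_map_of_mem _ hπP
    · rw [Set.mem_singleton_iff.1 hy]; exact Ideal.mem_map_of_mem _ huP

/-- **Bridge (output side)**: localisation form of `tq_Dom`: the image of `π` in the local ring
at `P` generates a prime ideal (it is a prime element as soon as it is nonzero). -/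
theorem tqb_span_isPrime_of_dom {π : R} {P : Ideal R} [hP : P.IsPrime] (hπP : π ∈ P)
    (hdom : tq_Dom π P)
    (Rp : Type*) [CommRing Rp] [Algebra R Rp] [IsLocalization.AtPrime Rp P] :
    (Ideal.span {algebraMap R Rp π}).IsPrime := by
  let _ : IsLocalRing Rp := IsLocalization.AtPrime.isLocalRing Rp P
  have hunit : ∀ s : R, s ∉ P → IsUnit (algebraMap R Rp s) := fun s hs =>
    IsLocalization.map_units Rp (⟨s, hs⟩ : P.primeCompl)
  -- membership in `(π)` of a fraction
  have hmem : ∀ r s : R, s ∉ P → ∀ x : Rp, x * algebraMap R Rp s = algebraMap R Rp r →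
      (x ∈ Ideal.span {algebraMap R Rp π} ↔ ∃ t : R, t ∉ P ∧ t * r ∈ Ideal.span {π}) := by
    intro r s hs x hx
    constructor
    · intro hxm
      obtain ⟨y, hy⟩ := Ideal.mem_span_singleton'.1 hxm
      obtain ⟨⟨r', ⟨s', hs'⟩⟩, hy'⟩ := IsLocalization.surj P.primeCompl y
      -- `r * s' = r' * π * s` in `Rp`
      have h1 : algebraMap R Rp (r * s') = algebraMap R Rp (r' * π * s) := by
        rw [map_mul, map_mul, map_mul, ← hx, ← hy, ← hy']
        simp only []
        ring
      obtain ⟨⟨c, hc⟩, hcr⟩ := (IsLocalization.eq_iff_exists P.primeCompl Rp).1 h1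
      refine ⟨c * s', fun h => (hP.mem_or_mem h).elim hc hs', ?_⟩
      rw [Ideal.mem_span_singleton']
      refine ⟨c * r' * s, ?_⟩
      simp only [] at hcr
      calc c * r' * s * π = c * (r' * π * s) := by ring
        _ = c * (r * s') := by rw [hcr]
        _ = c * s' * r := by ring
    · rintro ⟨t, ht, htr⟩
      obtain ⟨d, hd⟩ := Ideal.mem_span_singleton'.1 htr
      obtain ⟨v, hv⟩ := (hunit t ht).exists_left_inv
      obtain ⟨v', hv'⟩ := (hunit s hs).exists_left_inv
      rw [Ideal.mem_span_singleton']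
      refine ⟨v * v' * algebraMap R Rp d, ?_⟩
      have h2 : algebraMap R Rp t * algebraMap R Rp r = algebraMap R Rp d * algebraMap R Rp π := by
        rw [← map_mul, ← map_mul, hd]
      calc v * v' * algebraMap R Rp d * algebraMap R Rp π
          = v * v' * (algebraMap R Rp d * algebraMap R Rp π) := by ring
        _ = v * v' * (algebraMap R Rp t * algebraMap R Rp r) := by rw [h2]
        _ = (v * algebraMap R Rp t) * v' * (x * algebraMap R Rp s) := by rw [hx]; ring
        _ = (v * algebraMap R Rp t) * (v' * algebraMap R Rp s) * x := by ring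
        _ = x := by rw [hv, hv', one_mul, one_mul]
  constructor
  · -- proper
    intro htop
    have h1 : (1 : Rp) ∈ Ideal.span {algebraMap R Rp π} := by rw [htop]; exact Submodule.mem_top
    obtain ⟨t, ht, ht1⟩ := (hmem 1 1 (fun h => hP.ne_top ((Ideal.eq_top_iff_one _).2 h)) 1
      (by rw [map_one, mul_one])).1 h1
    rw [mul_one] at ht1
    exact ht (by
      have hle : Ideal.span {π} ≤ P := by
        rw [Ideal.span_le]; intro x hx; rw [Set.mem_singleton_iff.1 hx]; exact hπP
      exact hle ht1)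
  · intro x y hxy
    obtain ⟨⟨r, ⟨s, hs⟩⟩, hx⟩ := IsLocalization.surj P.primeCompl x
    obtain ⟨⟨r', ⟨s', hs'⟩⟩, hy⟩ := IsLocalization.surj P.primeCompl y
    simp only [] at hx hy
    have hxy' : (x * y) * algebraMap R Rp (s * s') = algebraMap R Rp (r * r') := by
      rw [map_mul, map_mul, ← hx, ← hy]; ring
    obtain ⟨t, ht, htr⟩ := (hmem (r * r') (s * s')
      (fun h => (hP.mem_or_mem h).elim hs hs') (x * y) hxy').1 hxy
    -- `(t * r) * r' ∈ (π)`
    have h3 : (t * r) * r' ∈ Ideal.span {π} := by rw [mul_assoc]; exact htr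
    obtain ⟨c, hc, h | h⟩ := hdom (t * r) r' h3
    · left
      refine (hmem r s hs x hx).2 ⟨c * t, fun h' => (hP.mem_or_mem h').elim hc ht, ?_⟩
      rw [mul_assoc]; exact h
    · right
      exact (hmem r' s' hs' y hy).2 ⟨c, hc, h⟩

end Bridge

end Fermat.Agent.JT3
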