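/-
JT3 node [EL+] (étale chart): outputs `(reg)` / `(dom)` of the S18 seam for a finite free algebra
with unit discriminant over a base `R` such that `R ⧸ π` is a PID (no locality assumption on `R`).
-/
import Mathlib
import Fermat.Agent.JT3.Model.EtaleLocal
import Fermat.Agent.JT3.Model.EtaleUnram
import Fermat.Agent.JT3.Model.TameQuotient
import Fermat.Agent.JT3.Model.TameBridge

namespace Fermat.Agent.JT3

open Module

section General

variable {R B : Type*} [CommRing R] [CommRing B] [Algebra R B]
  {ι : Type*} [Fintype ι] [DecidableEq ι]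

/-- **(D1-gen, core, no locality on the base)** Let `B` be finite free with unit discriminant over
`R`, `n` a maximal ideal of `B` and `m := n ∩ R`. Then `n` is, locally at `n`, generated by `m`:
for every `x ∈ n` there is `s ∉ n` with `s * x ∈ m B`. -/
theorem el_maximal_under (b : Basis ι R B) (hd : IsUnit (Algebra.discr R b))
    (n : Ideal B) [hn : n.IsMaximal] {x : B} (hx : x ∈ n) :
    ∃ s : B, s ∉ n ∧ s * x ∈ (n.under R).map (algebraMap R B) := by
  have : Module.Finite R B := Module.Finite.of_basis b
  have : Algebra.IsIntegral R B := Algebra.IsIntegral.of_finite R B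
  set m := n.under R with hm
  have hmmax : m.IsMaximal := Ideal.isMaximal_comap_of_isIntegral_of_isMaximal n
  set J := m.map (algebraMap R B) with hJ
  have hJn : J ≤ n := Ideal.map_le_iff_le_comap.2 le_rfl
  let k := R ⧸ m
  let C := B ⧸ J
  let _ : Field k := Ideal.Quotient.field m
  have hred : IsReduced C := el_quot_isReduced m b hd
  have hfin : Module.Finite k C := Module.Finite.of_basis (el_quotBasis m b)
  have hart : IsArtinianRing C := IsArtinianRing.of_finite k C
  let nC : Ideal C := n.map (Ideal.Quotient.mk J)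
  have hnC : nC.IsMaximal :=
    Ideal.IsMaximal.map_of_surjective_of_ker_le Ideal.Quotient.mk_surjective
      (by rw [Ideal.mk_ker]; exact hJn)
  have hnCp : nC.IsPrime := hnC.isPrime
  have hfield : IsField (Localization.AtPrime nC) :=
    IsArtinianRing.isField_of_isReduced_of_isLocalRing _
  have hxC : Ideal.Quotient.mk J x ∈ nC := Ideal.mem_map_of_mem _ hx
  have h0 : algebraMap C (Localization.AtPrime nC) (Ideal.Quotient.mk J x) = 0 := by
    by_contra hne
    obtain ⟨y, hy⟩ := hfield.mul_inv_cancel hne
    have hu : IsUnit (algebraMap C (Localization.AtPrime nC) (Ideal.Quotient.mk J x)) :=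
      IsUnit.of_mul_eq_one _ hy
    exact (IsLocalization.AtPrime.isUnit_to_map_iff (Localization.AtPrime nC) nC _).1 hu hxC
  obtain ⟨⟨t, ht⟩, hts⟩ := (IsLocalization.map_eq_zero_iff nC.primeCompl _ _).1 h0
  obtain ⟨s, rfl⟩ := Ideal.Quotient.mk_surjective t
  refine ⟨s, fun hs => ht (Ideal.mem_map_of_mem _ hs), ?_⟩
  rw [← Ideal.Quotient.eq_zero_iff_mem, map_mul]
  exact hts

/-- **(reg)** If moreover `R ⧸ π` is a PID, every maximal ideal `n ∋ π` of `B` is locally generated
by `π` and one element `u` of `R`. -/
theorem el_genBy (b : Basis ι R B) (hd : IsUnit (Algebra.discr R b)) (π : R)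
    [IsPrincipalIdealRing (R ⧸ Ideal.span {π})]
    (n : Ideal B) [hn : n.IsMaximal] (hπn : algebraMap R B π ∈ n) :
    ∃ u : R, tq_GenBy (algebraMap R B π) (algebraMap R B u) n := by
  set m := n.under R with hm
  have hπm : π ∈ m := hπn
  -- `m = (π, u)`
  have hprin : (m.map (Ideal.Quotient.mk (Ideal.span {π}))).IsPrincipal :=
    IsPrincipalIdealRing.principal _
  obtain ⟨ū, hū⟩ := hprin
  obtain ⟨u, rfl⟩ := Ideal.Quotient.mk_surjective ū
  have hle : Ideal.span {π} ≤ m := by
    rw [Ideal.span_le]; intro x hx; rw [Set.mem_singleton_iff.1 hx]; exact hπm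
  have hmeq : m = Ideal.span {π, u} := by
    have h1 : (m.map (Ideal.Quotient.mk (Ideal.span {π}))).comap
        (Ideal.Quotient.mk (Ideal.span {π})) = m := by
      rw [Ideal.comap_map_of_surjective _ Ideal.Quotient.mk_surjective,
        ← RingHom.ker_eq_comap_bot, Ideal.mk_ker]
      exact sup_eq_left.2 hle
    rw [← h1, hū]
    ext x
    rw [Ideal.mem_comap, Ideal.submodule_span_eq, Ideal.mem_span_singleton, Ideal.mem_span_pair]
    constructor
    · rintro ⟨c, hc⟩
      obtain ⟨c, rfl⟩ := Ideal.Quotient.mk_surjective c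
      rw [← map_mul, Ideal.Quotient.eq, Ideal.mem_span_singleton] at hc
      obtain ⟨d, hd'⟩ := hc
      exact ⟨d, c, by linear_combination -hd'⟩
    · rintro ⟨a, c, rfl⟩
      refine ⟨Ideal.Quotient.mk _ c, ?_⟩
      rw [map_add, map_mul, map_mul]
      have : Ideal.Quotient.mk (Ideal.span {π}) π = 0 :=
        Ideal.Quotient.eq_zero_iff_mem.2 (Ideal.mem_span_singleton_self π)
      rw [this, mul_zero, zero_add, mul_comm]
  have hum : u ∈ m := by rw [hmeq]; exact Ideal.subset_span (by simp)
  refine ⟨u, hπn, hum, fun x hx => ?_⟩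
  obtain ⟨s, hs, hsx⟩ := el_maximal_under b hd n hx
  refine ⟨s, hs, ?_⟩
  rw [← hm, hmeq, Ideal.map_span, Set.image_pair] at hsx
  exact hsx

/-- **(dom)+(total)** Under the same hypotheses, with `B` noetherian and `R ⧸ π` reduced (e.g. a
domain): the local ring of `B ⧸ π` at `n` is a valuation ring and a domain (elementwise form). -/
theorem el_total_dom [IsNoetherianRing B] (b : Basis ι R B) (hd : IsUnit (Algebra.discr R b))
    (π : R) [IsPrincipalIdealRing (R ⧸ Ideal.span {π})] [IsReduced (R ⧸ Ideal.span {π})]
    (n : Ideal B) [hn : n.IsMaximal] (hπn : algebraMap R B π ∈ n) :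
    tq_Total (algebraMap R B π) n ∧ tq_Dom (algebraMap R B π) n := by
  obtain ⟨u, hgen⟩ := el_genBy b hd π n hπn
  have hred : IsReduced (B ⧸ (Ideal.span {π}).map (algebraMap R B)) :=
    el_quot_isReduced (Ideal.span {π}) b hd
  have hrad : ((Ideal.span {π}).map (algebraMap R B)).IsRadical :=
    (Ideal.isRadical_iff_quotient_reduced _).2 hred
  rw [Ideal.map_span, Set.image_singleton] at hrad
  have : n.IsPrime := hn.isPrime
  exact tqb_total_dom_of_genBy hgen (fun x k hk => hrad ⟨k, hk⟩)

end General

section Purity

attribute [local instance] FractionRing.liftAlgebra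

/-- In a noetherian domain, a nonzero element lying in no height-one prime is a unit. -/
theorem el_isUnit_of_forall_height_one {R : Type*} [CommRing R] [IsDomain R] [IsNoetherianRing R]
    {d : R} (hd0 : d ≠ 0) (hH : ∀ p : Ideal R, p.IsPrime → p.height = 1 → d ∉ p) : IsUnit d := by
  by_contra hd
  obtain ⟨p, hp⟩ := (Ideal.span {d}).nonempty_minimalPrimes (by
    rw [Ne, Ideal.span_singleton_eq_top]; exact hd)
  have hpp : p.IsPrime := hp.1.1
  have hdp : d ∈ p := hp.1.2 (Ideal.mem_span_singleton_self d)
  have hle : p.height ≤ 1 := Ideal.height_le_one_of_isPrincipal_of_mem_minimalPrimes _ p hp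
  have hne : p ≠ ⊥ := fun h => hd0 (by rw [h] at hdp; exact hdp)
  have h1 : p.height = 1 := by
    refine le_antisymm hle ?_
    rw [Order.one_le_iff_pos, pos_iff_ne_zero, Ne, Ideal.height_eq_zero_iff_eq_bot]
    exact hne
  exact hH p hpp h1 hdp

variable {R B : Type*} [CommRing R] [IsDomain R] [IsNoetherianRing R] [IsIntegrallyClosed R]
  [CommRing B] [IsDomain B] [IsIntegrallyClosed B] [Algebra R B] [Module.IsTorsionFree R B]
  [Module.Finite R B] {ι : Type*} [Fintype ι] [DecidableEq ι]

/-- **Purity for finite free normal algebras**: if `B` is unramified over `R` at every prime lying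
over a height-one prime of `R`, then the discriminant of any basis is a unit. -/
theorem el_isUnit_discr_of_unram_codim_one
    [Algebra.IsSeparable (FractionRing R) (FractionRing B)] (b : Basis ι R B)
    (h : ∀ P : Ideal B, ∀ _ : P.IsPrime, (P.under R).height = 1 → Algebra.IsUnramifiedAt R P) :
    IsUnit (Algebra.discr R b) := by
  refine el_isUnit_of_forall_height_one ?_ (fun p hp hp1 =>
    haveI := hp
    el_discr_notMem_of_isUnramifiedAt b p hp1 (fun P hP hPp => h P hP (hPp ▸ hp1)))
  -- the discriminant is nonzero by separability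
  have : Module.Free R B := Module.Free.of_basis b
  let bL : Basis ι (FractionRing R) (FractionRing B) :=
    b.localizationLocalization (FractionRing R) (nonZeroDivisors R) (FractionRing B)
  have hne := Algebra.discr_not_zero_of_basis (FractionRing R) bL
  rw [Algebra.discr_localizationLocalization R (nonZeroDivisors R) (FractionRing B) b] at hne
  intro h0
  exact hne (by rw [h0, map_zero])

/-- **[EL+] assembled**: `R` a noetherian normal domain, `π` a prime element with `R ⧸ π` a PID,
`B` a normal domain, finite free over `R` (basis `b`), separable on fraction fields and unramified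
over `R` in codimension one. Then at every maximal ideal `n ∋ π` of `B`: `n` is locally `(π, u)`
with `u ∈ R` (reg), and the local ring of `B ⧸ π` at `n` is a valuation ring without zero divisors
(total, dom). -/
theorem el_chart [Algebra.IsSeparable (FractionRing R) (FractionRing B)] (b : Basis ι R B)
    {π : R} (hπ : Prime π) [IsPrincipalIdealRing (R ⧸ Ideal.span {π})]
    (h : ∀ P : Ideal B, ∀ _ : P.IsPrime, (P.under R).height = 1 → Algebra.IsUnramifiedAt R P)
    (n : Ideal B) [hn : n.IsMaximal] (hπn : algebraMap R B π ∈ n) :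
    (∃ u : R, tq_GenBy (algebraMap R B π) (algebraMap R B u) n) ∧
      tq_Total (algebraMap R B π) n ∧ tq_Dom (algebraMap R B π) n := by
  have hd := el_isUnit_discr_of_unram_codim_one b h
  have hprime : (Ideal.span {π}).IsPrime := (Ideal.span_singleton_prime hπ.ne_zero).2 hπ
  have : IsDomain (R ⧸ Ideal.span {π}) := Ideal.Quotient.isDomain _
  have : IsNoetherianRing B := IsNoetherianRing.of_finite R B
  exact ⟨el_genBy b hd π n hπn, el_total_dom b hd π n hπn⟩

end Purity

section LocalizedUnram


theorem el_isUnramifiedAt_of_localization {R B : Type*} [CommRing R] [CommRing B] [IsDomain B]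
    [Algebra R B] (p : Ideal R) [p.IsPrime]
    (Rp : Type*) [CommRing Rp] [Algebra R Rp] [IsLocalization.AtPrime Rp p]
    (Bp : Type*) [CommRing Bp] [Algebra R Bp] [Algebra B Bp] [Algebra Rp Bp]
    [IsScalarTower R Rp Bp] [IsScalarTower R B Bp]
    [IsLocalization (Algebra.algebraMapSubmonoid B p.primeCompl) Bp]
    (h : ∀ (Q : Ideal Bp) [Q.IsPrime], Q ≠ ⊥ → Algebra.IsUnramifiedAt Rp Q)
    (P : Ideal B) [hP : P.IsPrime] (hP0 : P ≠ ⊥) (hPp : P.under R = p) :
    Algebra.IsUnramifiedAt R P := by
  set M := Algebra.algebraMapSubmonoid B p.primeCompl with hM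
  have hdisj : Disjoint (M : Set B) (P : Set B) := by
    rw [Set.disjoint_left]
    rintro _ ⟨s, hs, rfl⟩ hsP
    exact hs (hPp ▸ hsP)
  set Q : Ideal Bp := P.map (algebraMap B Bp) with hQ
  have hQprime : Q.IsPrime := IsLocalization.isPrime_of_isPrime_disjoint M Bp P hP hdisj
  have hQP : Q.under B = P := IsLocalization.under_map_of_isPrime_disjoint M Bp hP hdisj
  have hQ0 : Q ≠ ⊥ := by
    intro h0
    apply hP0
    rw [← hQP, h0]
    ext x
    simp only [Ideal.under, Ideal.mem_comap, Ideal.mem_bot]
    have hinj : Function.Injective (algebraMap B Bp) := by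
      apply IsLocalization.injective Bp (M := M)
      intro x hx
      obtain ⟨s, hs, rfl⟩ := hx
      apply mem_nonZeroDivisors_of_ne_zero
      intro h0'
      exact hs (hPp ▸ (by change algebraMap R B s ∈ P; rw [h0']; exact P.zero_mem))
    exact ⟨fun hx => hinj (by rw [hx, map_zero]), fun hx => by rw [hx, map_zero]⟩
  have hU : Algebra.FormallyUnramified Rp (Localization.AtPrime Q) := h Q hQ0
  have hRRp : Algebra.FormallyUnramified R Rp :=
    Algebra.FormallyUnramified.of_isLocalization p.primeCompl
  have hU' : Algebra.FormallyUnramified R (Localization.AtPrime Q) :=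
    Algebra.FormallyUnramified.comp R Rp _
  have hloc : IsLocalization.AtPrime (Localization.AtPrime Q) (Q.under B) :=
    IsLocalization.isLocalization_isLocalization_atPrime_isLocalization M
      (Localization.AtPrime Q) Q
  have hsub : (Ideal.under B Q).primeCompl = P.primeCompl :=
    Submonoid.ext fun x => by
      rw [Ideal.mem_primeCompl_iff, Ideal.mem_primeCompl_iff, hQP]
  have hloc' : IsLocalization P.primeCompl (Localization.AtPrime Q) := hsub ▸ hloc
  let e : Localization.AtPrime Q ≃ₐ[B] Localization.AtPrime P :=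
    IsLocalization.algEquiv P.primeCompl _ _
  exact Algebra.FormallyUnramified.of_equiv (e.restrictScalars R)

end LocalizedUnram

end Fermat.Agent.JT3
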