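/-
JT3 node R4b (KB): the Kummer base.

`(A, 𝔪 = (π, t))` a noetherian normal local domain, `π` prime, `¬ π ∣ t`; `A''` a domain,
`A'' = A[w]` with `w ^ N = t`.  Then `A''` is finite over `A`, local with maximal ideal `(π, w)`,
`π` is prime in `A''`, `A'' ⧸ π` is a principal ideal domain, and `A''` is a UFD (hence normal).
Also the generic lemma `kb_ufd`: a noetherian local domain with `𝔪 = (π, u)`, `π` prime, is a UFD.
-/
import Mathlib
import Fermat.Agent.JT3.Model.TameBridge

set_option autoImplicit false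
set_option linter.unusedSectionVars false
set_option linter.style.haveILetI false

namespace Fermat.Agent.JT3

open IsLocalRing

attribute [local instance] FractionRing.liftAlgebra

/-! ### the quotient of a local ring with `𝔪 = (p, u)` by `p` -/

theorem kb_quot_max_aux {S : Type*} [CommRing S] [IsLocalRing S] (I : Ideal S)
    [IsLocalRing (S ⧸ I)] {p u : S} (hI : I = Ideal.span {p})
    (hm : maximalIdeal S = Ideal.span {p, u}) :
    maximalIdeal (S ⧸ I) = Ideal.span {Ideal.Quotient.mk I u} := by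
  have hIm : I ≤ maximalIdeal S := by
    rw [hm, hI]; exact Ideal.span_mono (by simp)
  have h1 : (maximalIdeal S).map (Ideal.Quotient.mk I) = maximalIdeal (S ⧸ I) := by
    have hmax := Ideal.map_eq_top_or_isMaximal_of_surjective (Ideal.Quotient.mk I)
      Ideal.Quotient.mk_surjective (maximalIdeal.isMaximal S)
    rcases hmax with htop | hmax
    · exfalso
      have h2 := congrArg (Ideal.comap (Ideal.Quotient.mk I)) htop
      rw [Ideal.comap_map_of_surjective _ Ideal.Quotient.mk_surjective, Ideal.comap_top,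
        ← RingHom.ker_eq_comap_bot, Ideal.mk_ker, sup_eq_left.2 hIm] at h2
      exact (maximalIdeal.isMaximal S).ne_top h2
    · exact IsLocalRing.eq_maximalIdeal hmax
  rw [← h1, hm, Ideal.map_span, Set.image_pair]
  have : Ideal.Quotient.mk I p = 0 :=
    Ideal.Quotient.eq_zero_iff_mem.2 (hI ▸ Ideal.mem_span_singleton_self p)
  rw [this]
  apply le_antisymm
  · rw [Ideal.span_le]
    rintro x (rfl | rfl)
    · exact Ideal.zero_mem _
    · exact Ideal.mem_span_singleton_self _
  · exact Ideal.span_mono (by simp)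

/-! ### a two-dimensional local domain with `𝔪 = (π, u)`, `π` prime, is factorial -/

section UFD

variable {R : Type*} [CommRing R] [IsDomain R] [IsLocalRing R] [IsNoetherianRing R]

/-- In a noetherian local domain whose maximal ideal is `(π, u)` with `π` prime, every nonzero
prime ideal not containing `π` is principal, generated by a prime element. -/
theorem kb_exists_prime_gen {π u : R} (hπ : Prime π) (hm : maximalIdeal R = Ideal.span {π, u})
    (P : Ideal R) [hP : P.IsPrime] (hP0 : P ≠ ⊥) (hπP : π ∉ P) :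
    ∃ g : R, Prime g ∧ P = Ideal.span {g} := by
  classical
  -- the quotient `S = R ⧸ π`
  set I : Ideal R := Ideal.span {π} with hI
  have hIprime : I.IsPrime := (Ideal.span_singleton_prime hπ.ne_zero).2 hπ
  have hIm : I ≤ maximalIdeal R := by
    rw [hm, hI]; exact Ideal.span_mono (by simp)
  have hIne : I ≠ ⊤ := hIprime.ne_top
  haveI : Nontrivial (R ⧸ I) := Ideal.Quotient.nontrivial_iff.2 hIne
  haveI : IsLocalRing (R ⧸ I) :=
    IsLocalRing.of_surjective' (Ideal.Quotient.mk I) Ideal.Quotient.mk_surjective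
  have hmS : maximalIdeal (R ⧸ I) = Ideal.span {Ideal.Quotient.mk I u} :=
    kb_quot_max_aux I hI hm
  -- `P` is not contained in `(π)`
  have hPI : ¬ P ≤ I := by
    intro hle
    apply hP0
    have hsub : P ≤ I • P := by
      intro x hx
      obtain ⟨y, rfl⟩ := Ideal.mem_span_singleton'.1 (hle hx)
      have hy : y ∈ P := (hP.mem_or_mem hx).resolve_right hπP
      rw [mul_comm]
      exact Submodule.smul_mem_smul (Ideal.mem_span_singleton_self π) hy
    have hjac : I ≤ Ideal.jacobson ⊥ := by
      rw [IsLocalRing.jacobson_eq_maximalIdeal ⊥ bot_ne_top]; exact hIm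
    exact Submodule.eq_bot_of_le_smul_of_le_jacobson_bot I P (IsNoetherian.noetherian P) hsub hjac
  -- the set of exponents
  have hex : ∃ k : ℕ, ∃ g ∈ P, ∃ v : R ⧸ I, IsUnit v ∧
      Ideal.Quotient.mk I g = v * (Ideal.Quotient.mk I u) ^ k := by
    obtain ⟨x, hxP, hxI⟩ := SetLike.not_le_iff_exists.1 hPI
    have hx0 : Ideal.Quotient.mk I x ≠ 0 := fun h => hxI (Ideal.Quotient.eq_zero_iff_mem.1 h)
    obtain ⟨k, v, hv, hxv⟩ := tqb_exists_unit_mul_pow hmS hx0
    exact ⟨k, x, hxP, v, hv, hxv⟩
  let k := Nat.find hex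
  obtain ⟨g, hgP, v, hv, hgv⟩ := Nat.find_spec hex
  have hmin : ∀ m : ℕ, (∃ g ∈ P, ∃ v : R ⧸ I, IsUnit v ∧
      Ideal.Quotient.mk I g = v * (Ideal.Quotient.mk I u) ^ m) → k ≤ m := fun m hm' =>
    Nat.find_min' hex hm'
  have hPg : P = Ideal.span {g} := by
    apply le_antisymm
    · -- Nakayama
      have hjac : I ≤ Ideal.jacobson ⊥ := by
        rw [IsLocalRing.jacobson_eq_maximalIdeal ⊥ bot_ne_top]; exact hIm
      refine Submodule.le_of_le_smul_of_le_jacobson_bot (IsNoetherian.noetherian P) hjac ?_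
      intro x hxP
      by_cases hx0 : Ideal.Quotient.mk I x = 0
      · -- `x = π y`, `y ∈ P`
        obtain ⟨y, rfl⟩ := Ideal.mem_span_singleton'.1 (Ideal.Quotient.eq_zero_iff_mem.1 hx0)
        have hy : y ∈ P := (hP.mem_or_mem hxP).resolve_right hπP
        refine Submodule.mem_sup_right ?_
        rw [mul_comm]
        exact Submodule.smul_mem_smul (Ideal.mem_span_singleton_self π) hy
      · obtain ⟨m, v', hv', hxv'⟩ := tqb_exists_unit_mul_pow hmS hx0
        have hkm : k ≤ m := hmin m ⟨x, hxP, v', hv', hxv'⟩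
        obtain ⟨vi, hvi⟩ := hv.exists_left_inv
        -- `x̄ = c̄ ḡ`
        obtain ⟨c, hc⟩ := Ideal.Quotient.mk_surjective
          (v' * vi * (Ideal.Quotient.mk I u) ^ (m - k))
        have hxc : Ideal.Quotient.mk I (x - c * g) = 0 := by
          rw [map_sub, map_mul, hc, hxv', hgv]
          have : (Ideal.Quotient.mk I u) ^ m =
              (Ideal.Quotient.mk I u) ^ (m - k) * (Ideal.Quotient.mk I u) ^ k := by
            rw [← pow_add, Nat.sub_add_cancel hkm]
          rw [this]
          have h3 : v' * vi * (Ideal.Quotient.mk I) u ^ (m - k) * (v * (Ideal.Quotient.mk I) u ^ k)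
              = v' * ((Ideal.Quotient.mk I) u ^ (m - k) * (Ideal.Quotient.mk I) u ^ k) * (vi * v) := by
            ring
          rw [h3, hvi, mul_one, sub_self]
        obtain ⟨y, hy⟩ := Ideal.mem_span_singleton'.1 (Ideal.Quotient.eq_zero_iff_mem.1 hxc)
        have hyP : y ∈ P := by
          have h4 : y * π ∈ P := by
            rw [hy]; exact P.sub_mem hxP (P.mul_mem_left c hgP)
          exact (hP.mem_or_mem h4).resolve_right hπP
        have hx : x = c * g + π * y := by
          rw [mul_comm π y, hy]; ring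
        rw [hx]
        refine Submodule.add_mem_sup (Ideal.mul_mem_left _ c (Ideal.mem_span_singleton_self g)) ?_
        exact Submodule.smul_mem_smul (Ideal.mem_span_singleton_self π) hyP
    · rw [Ideal.span_singleton_le_iff_mem]; exact hgP
  have hg0 : g ≠ 0 := by
    rintro rfl
    apply hP0
    rw [hPg]; simp
  refine ⟨g, ?_, hPg⟩
  rw [← Ideal.span_singleton_prime hg0, ← hPg]
  exact hP

/-- **A noetherian local domain with `𝔪 = (π, u)` and `π` prime is a UFD.** -/
theorem kb_ufd {π u : R} (hπ : Prime π) (hm : maximalIdeal R = Ideal.span {π, u}) :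
    UniqueFactorizationMonoid R := by
  rw [UniqueFactorizationMonoid.iff_exists_prime_mem_of_isPrime]
  intro P hP0 hP
  by_cases hπP : π ∈ P
  · exact ⟨π, hπP, hπ⟩
  · obtain ⟨g, hg, hPg⟩ := kb_exists_prime_gen hπ hm P hP0 hπP
    exact ⟨g, hPg ▸ Ideal.mem_span_singleton_self g, hg⟩

end UFD

/-! ### the Kummer base `A'' = A[w]`, `w ^ N = t` -/

section KummerBase

variable {A : Type*} [CommRing A] [IsDomain A]
  {A'' : Type*} [CommRing A''] [IsDomain A''] [Algebra A A''] [FaithfulSMul A A'']

/-- divisibility descends along an integral extension of a normal domain. -/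
theorem kb_dvd_of_map_dvd [IsIntegrallyClosed A] [Algebra.IsIntegral A A''] {a b : A}
    (ha : a ≠ 0) (h : algebraMap A A'' a ∣ algebraMap A A'' b) : a ∣ b := by
  obtain ⟨x, hx⟩ := h
  have hxint : IsIntegral A x := Algebra.IsIntegral.isIntegral x
  have haK : algebraMap A (FractionRing A) a ≠ 0 := by
    rwa [Ne, FaithfulSMul.algebraMap_eq_zero_iff]
  have haK'' : algebraMap A'' (FractionRing A'') (algebraMap A A'' a) ≠ 0 := by
    rw [Ne, FaithfulSMul.algebraMap_eq_zero_iff, FaithfulSMul.algebraMap_eq_zero_iff]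
    exact ha
  have hy : algebraMap (FractionRing A) (FractionRing A'')
      (algebraMap A (FractionRing A) b / algebraMap A (FractionRing A) a) =
      algebraMap A'' (FractionRing A'') x := by
    rw [map_div₀, ← IsScalarTower.algebraMap_apply, ← IsScalarTower.algebraMap_apply,
      IsScalarTower.algebraMap_apply A A'' (FractionRing A'') b,
      IsScalarTower.algebraMap_apply A A'' (FractionRing A'') a, hx, map_mul]
    field_simp
  have hint : IsIntegral A (algebraMap A (FractionRing A) b / algebraMap A (FractionRing A) a) := by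
    rw [← isIntegral_algebraMap_iff (algebraMap (FractionRing A) (FractionRing A'')).injective, hy]
    exact hxint.algebraMap
  obtain ⟨c, hc⟩ := IsIntegrallyClosed.algebraMap_eq_of_integral hint
  refine ⟨c, ?_⟩
  apply FaithfulSMul.algebraMap_injective A (FractionRing A)
  rw [map_mul, hc]
  field_simp

variable {π t : A} {w : A''} {N : ℕ}

/-- `A''` is a finite `A`-module. -/
theorem kb_finite (hN : 0 < N) (hw : w ^ N = algebraMap A A'' t)
    (hgen : Algebra.adjoin A ({w} : Set A'') = ⊤) : Module.Finite A A'' := by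
  have hwint : IsIntegral A w := by
    refine ⟨Polynomial.X ^ N - Polynomial.C t, Polynomial.monic_X_pow_sub_C t hN.ne', ?_⟩
    simp [hw]
  have hfin : Module.Finite A (Algebra.adjoin A ({w} : Set A'')) :=
    Algebra.finite_adjoin_simple_of_isIntegral hwint
  rw [hgen] at hfin
  exact Module.Finite.equiv (Subalgebra.topEquiv (R := A) (A := A'')).toLinearEquiv

/-- every element of `A'' = A[w]` is congruent mod `w` to an element of `A`. -/
theorem kb_exists_sub_mem (hgen : Algebra.adjoin A ({w} : Set A'') = ⊤) (x : A'') :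
    ∃ a : A, x - algebraMap A A'' a ∈ Ideal.span {w} := by
  have hx : x ∈ Algebra.adjoin A ({w} : Set A'') := by rw [hgen]; exact Algebra.mem_top
  induction hx using Algebra.adjoin_induction with
  | mem y hy =>
    rw [Set.mem_singleton_iff] at hy
    subst hy
    exact ⟨0, by simp [Ideal.mem_span_singleton_self y]⟩
  | algebraMap r => exact ⟨r, by simp⟩
  | add y z _ _ hy hz =>
    obtain ⟨a, ha⟩ := hy
    obtain ⟨b, hb⟩ := hz
    refine ⟨a + b, ?_⟩
    have : y + z - algebraMap A A'' (a + b) = (y - algebraMap A A'' a) + (z - algebraMap A A'' b) := by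
      rw [map_add]; ring
    rw [this]
    exact Ideal.add_mem _ ha hb
  | mul y z _ _ hy hz =>
    obtain ⟨a, ha⟩ := hy
    obtain ⟨b, hb⟩ := hz
    refine ⟨a * b, ?_⟩
    have : y * z - algebraMap A A'' (a * b) =
        (y - algebraMap A A'' a) * z + algebraMap A A'' a * (z - algebraMap A A'' b) := by
      rw [map_mul]; ring
    rw [this]
    exact Ideal.add_mem _ (Ideal.mul_mem_right _ _ ha) (Ideal.mul_mem_left _ _ hb)

variable [IsLocalRing A]

/-- every maximal ideal of `A''` is `(π, w)`. -/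
theorem kb_maximal_eq (hN : 0 < N) (hm : maximalIdeal A = Ideal.span {π, t})
    (hw : w ^ N = algebraMap A A'' t) (hgen : Algebra.adjoin A ({w} : Set A'') = ⊤)
    (M : Ideal A'') [hM : M.IsMaximal] : M = Ideal.span {algebraMap A A'' π, w} := by
  have hfin : Module.Finite A A'' := kb_finite hN hw hgen
  have hint : Algebra.IsIntegral A A'' := Algebra.IsIntegral.of_finite A A''
  have hcomap : M.comap (algebraMap A A'') = maximalIdeal A :=
    IsLocalRing.eq_maximalIdeal (Ideal.isMaximal_comap_of_isIntegral_of_isMaximal (R := A) M)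
  have hπM : algebraMap A A'' π ∈ M := by
    have : π ∈ M.comap (algebraMap A A'') := by
      rw [hcomap, hm]; exact Ideal.subset_span (by simp)
    exact this
  have htM : algebraMap A A'' t ∈ M := by
    have : t ∈ M.comap (algebraMap A A'') := by
      rw [hcomap, hm]; exact Ideal.subset_span (by simp)
    exact this
  have hwM : w ∈ M := by
    rw [← hw] at htM
    exact hM.isPrime.mem_of_pow_mem N htM
  apply le_antisymm
  · intro x hx
    obtain ⟨a, ha⟩ := kb_exists_sub_mem hgen x
    have haM : algebraMap A A'' a ∈ M := by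
      have h1 : x - algebraMap A A'' a ∈ M := by
        obtain ⟨y, hy⟩ := Ideal.mem_span_singleton'.1 ha
        rw [← hy]; exact M.mul_mem_left y hwM
      have h2 : algebraMap A A'' a = x - (x - algebraMap A A'' a) := by ring
      rw [h2]; exact M.sub_mem hx h1
    have ham : a ∈ maximalIdeal A := by rw [← hcomap]; exact haM
    rw [hm, Ideal.mem_span_pair] at ham
    obtain ⟨c, d, hcd⟩ := ham
    have h3 : x = (x - algebraMap A A'' a) + algebraMap A A'' a := by ring
    rw [h3]
    refine Ideal.add_mem _ ?_ ?_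
    · exact (Ideal.span_mono (by simp) : Ideal.span {w} ≤ Ideal.span {algebraMap A A'' π, w}) ha
    · rw [← hcd, map_add, map_mul, map_mul, ← hw]
      refine Ideal.add_mem _ (Ideal.mul_mem_left _ _ (Ideal.subset_span (by simp))) ?_
      refine Ideal.mul_mem_left _ _ ?_
      obtain ⟨j, rfl⟩ := Nat.exists_eq_succ_of_ne_zero hN.ne'
      rw [pow_succ]
      exact Ideal.mul_mem_left _ _ (Ideal.subset_span (by simp))
  · rw [Ideal.span_le]
    rintro x (rfl | rfl)
    · exact hπM
    · exact hwM

/-- `A''` is a local ring. -/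
theorem kb_isLocalRing (hN : 0 < N) (hm : maximalIdeal A = Ideal.span {π, t})
    (hw : w ^ N = algebraMap A A'' t) (hgen : Algebra.adjoin A ({w} : Set A'') = ⊤) :
    IsLocalRing A'' := by
  obtain ⟨M, hM⟩ := Ideal.exists_maximal A''
  refine IsLocalRing.of_unique_max_ideal ⟨M, hM, fun M' hM' => ?_⟩
  have h1 := kb_maximal_eq hN hm hw hgen M
  have h2 := @kb_maximal_eq A _ _ A'' _ _ _ _ π t w N _ hN hm hw hgen M' hM'
  rw [h1, h2]

/-- the maximal ideal of `A''` is `(π, w)`. -/
theorem kb_maximalIdeal_eq [IsLocalRing A''] (hN : 0 < N)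
    (hm : maximalIdeal A = Ideal.span {π, t})
    (hw : w ^ N = algebraMap A A'' t) (hgen : Algebra.adjoin A ({w} : Set A'') = ⊤) :
    maximalIdeal A'' = Ideal.span {algebraMap A A'' π, w} :=
  kb_maximal_eq hN hm hw hgen (maximalIdeal A'')

end KummerBase

section KummerPrime

variable {A : Type*} [CommRing A] [IsDomain A] [IsLocalRing A] [IsNoetherianRing A]
  [IsIntegrallyClosed A]
  {A'' : Type*} [CommRing A''] [IsDomain A''] [Algebra A A''] [FaithfulSMul A A'']
  {π t : A} {w : A''} {N : ℕ}

/-- no power of `w` is divisible by `π`. -/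
theorem kb_pow_notMem (hN : 0 < N) (hπ : Prime π) (hπt : ¬ π ∣ t)
    (hw : w ^ N = algebraMap A A'' t) (hgen : Algebra.adjoin A ({w} : Set A'') = ⊤) (n : ℕ) :
    w ^ n ∉ Ideal.span {algebraMap A A'' π} := by
  have hfin : Module.Finite A A'' := kb_finite hN hw hgen
  have hint : Algebra.IsIntegral A A'' := Algebra.IsIntegral.of_finite A A''
  intro hmem
  rw [Ideal.mem_span_singleton] at hmem
  have h1 : algebraMap A A'' π ∣ algebraMap A A'' (t ^ n) := by
    have : algebraMap A A'' (t ^ n) = (w ^ n) ^ N := by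
      rw [map_pow, ← hw, ← pow_mul, ← pow_mul, mul_comm]
    rw [this]
    exact dvd_pow hmem hN.ne'
  have h2 : π ∣ t ^ n := kb_dvd_of_map_dvd hπ.ne_zero h1
  exact hπt (hπ.dvd_of_dvd_pow h2)

/-- the structure of `A'' ⧸ π`: it is a local ring whose maximal ideal is generated by the class
of `w`. -/
theorem kb_quot_maximalIdeal [IsLocalRing A''] (hN : 0 < N)
    (hm : maximalIdeal A = Ideal.span {π, t})
    (hw : w ^ N = algebraMap A A'' t) (hgen : Algebra.adjoin A ({w} : Set A'') = ⊤)
    [IsLocalRing (A'' ⧸ Ideal.span {algebraMap A A'' π})] :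
    maximalIdeal (A'' ⧸ Ideal.span {algebraMap A A'' π}) =
      Ideal.span {Ideal.Quotient.mk (Ideal.span {algebraMap A A'' π}) w} :=
  kb_quot_max_aux _ rfl (kb_maximalIdeal_eq hN hm hw hgen)

/-- **`π` is a prime element of the Kummer base `A''`.** -/
theorem kb_prime_pi (hN : 0 < N) (hπ : Prime π) (hπt : ¬ π ∣ t)
    (hm : maximalIdeal A = Ideal.span {π, t})
    (hw : w ^ N = algebraMap A A'' t) (hgen : Algebra.adjoin A ({w} : Set A'') = ⊤) :
    Prime (algebraMap A A'' π) := by
  have hfin : Module.Finite A A'' := kb_finite hN hw hgen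
  have hnoeth : IsNoetherianRing A'' := IsNoetherianRing.of_finite A A''
  have hloc : IsLocalRing A'' := kb_isLocalRing hN hm hw hgen
  have hmA'' := kb_maximalIdeal_eq hN hm hw hgen
  set I : Ideal A'' := Ideal.span {algebraMap A A'' π} with hI
  have hπ0 : algebraMap A A'' π ≠ 0 := by
    rw [Ne, FaithfulSMul.algebraMap_eq_zero_iff]; exact hπ.ne_zero
  have hIm : I ≤ maximalIdeal A'' := by
    rw [hmA'', hI]; exact Ideal.span_mono (by simp)
  have hIne : I ≠ ⊤ := fun h => (maximalIdeal.isMaximal A'').ne_top (top_le_iff.1 (h ▸ hIm))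
  haveI : Nontrivial (A'' ⧸ I) := Ideal.Quotient.nontrivial_iff.2 hIne
  haveI : IsLocalRing (A'' ⧸ I) :=
    IsLocalRing.of_surjective' (Ideal.Quotient.mk I) Ideal.Quotient.mk_surjective
  have hmS : maximalIdeal (A'' ⧸ I) = Ideal.span {Ideal.Quotient.mk I w} :=
    kb_quot_maximalIdeal hN hm hw hgen
  rw [← Ideal.span_singleton_prime hπ0]
  refine ⟨hIne, fun {a b} hab => ?_⟩
  by_contra hcon
  rw [not_or] at hcon
  have ha0 : Ideal.Quotient.mk I a ≠ 0 := fun h => hcon.1 (Ideal.Quotient.eq_zero_iff_mem.1 h)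
  have hb0 : Ideal.Quotient.mk I b ≠ 0 := fun h => hcon.2 (Ideal.Quotient.eq_zero_iff_mem.1 h)
  obtain ⟨k, c, hc, hac⟩ := tqb_exists_unit_mul_pow hmS ha0
  obtain ⟨k', c', hc', hbc⟩ := tqb_exists_unit_mul_pow hmS hb0
  have h0 : Ideal.Quotient.mk I (a * b) = 0 := Ideal.Quotient.eq_zero_iff_mem.2 hab
  rw [map_mul, hac, hbc] at h0
  have h1 : (c * c') * (Ideal.Quotient.mk I w) ^ (k + k') = 0 := by
    rw [← h0, pow_add]; ring
  have h2 : (Ideal.Quotient.mk I w) ^ (k + k') = 0 := ((hc.mul hc').mul_right_eq_zero).1 h1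
  rw [← map_pow, Ideal.Quotient.eq_zero_iff_mem] at h2
  exact kb_pow_notMem hN hπ hπt hw hgen (k + k') h2

/-- **The Kummer base is a UFD.** -/
theorem kb_uniqueFactorizationMonoid (hN : 0 < N) (hπ : Prime π) (hπt : ¬ π ∣ t)
    (hm : maximalIdeal A = Ideal.span {π, t})
    (hw : w ^ N = algebraMap A A'' t) (hgen : Algebra.adjoin A ({w} : Set A'') = ⊤) :
    UniqueFactorizationMonoid A'' := by
  have hfin : Module.Finite A A'' := kb_finite hN hw hgen
  have hnoeth : IsNoetherianRing A'' := IsNoetherianRing.of_finite A A''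
  have hloc : IsLocalRing A'' := kb_isLocalRing hN hm hw hgen
  exact kb_ufd (kb_prime_pi hN hπ hπt hm hw hgen) (kb_maximalIdeal_eq hN hm hw hgen)

/-- **The Kummer base is integrally closed.** -/
theorem kb_isIntegrallyClosed (hN : 0 < N) (hπ : Prime π) (hπt : ¬ π ∣ t)
    (hm : maximalIdeal A = Ideal.span {π, t})
    (hw : w ^ N = algebraMap A A'' t) (hgen : Algebra.adjoin A ({w} : Set A'') = ⊤) :
    IsIntegrallyClosed A'' := by
  have := kb_uniqueFactorizationMonoid hN hπ hπt hm hw hgen
  infer_instance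

/-- `A'' ⧸ π` is a domain. -/
theorem kb_quot_isDomain (hN : 0 < N) (hπ : Prime π) (hπt : ¬ π ∣ t)
    (hm : maximalIdeal A = Ideal.span {π, t})
    (hw : w ^ N = algebraMap A A'' t) (hgen : Algebra.adjoin A ({w} : Set A'') = ⊤) :
    IsDomain (A'' ⧸ Ideal.span {algebraMap A A'' π}) := by
  have hp := kb_prime_pi hN hπ hπt hm hw hgen
  have : (Ideal.span {algebraMap A A'' π}).IsPrime :=
    (Ideal.span_singleton_prime hp.ne_zero).2 hp
  exact Ideal.Quotient.isDomain _

/-- `A'' ⧸ π` is a principal ideal ring (a discrete valuation ring, or a field if `N = 1` and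
`t ∈ (π)`, which is excluded). -/
theorem kb_quot_isPrincipalIdealRing (hN : 0 < N) (hπ : Prime π) (hπt : ¬ π ∣ t)
    (hm : maximalIdeal A = Ideal.span {π, t})
    (hw : w ^ N = algebraMap A A'' t) (hgen : Algebra.adjoin A ({w} : Set A'') = ⊤) :
    IsPrincipalIdealRing (A'' ⧸ Ideal.span {algebraMap A A'' π}) := by
  have hfin : Module.Finite A A'' := kb_finite hN hw hgen
  have hnoeth : IsNoetherianRing A'' := IsNoetherianRing.of_finite A A''
  have hloc : IsLocalRing A'' := kb_isLocalRing hN hm hw hgen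
  have hmA'' := kb_maximalIdeal_eq hN hm hw hgen
  have hdom := kb_quot_isDomain hN hπ hπt hm hw hgen
  set I : Ideal A'' := Ideal.span {algebraMap A A'' π} with hI
  haveI : IsLocalRing (A'' ⧸ I) :=
    IsLocalRing.of_surjective' (Ideal.Quotient.mk I) Ideal.Quotient.mk_surjective
  have hmS : maximalIdeal (A'' ⧸ I) = Ideal.span {Ideal.Quotient.mk I w} :=
    kb_quot_maximalIdeal hN hm hw hgen
  refine ⟨fun J => ?_⟩
  classical
  by_cases hJ0 : J = ⊥
  · rw [hJ0]; exact ⟨0, by simp⟩
  -- the minimal exponent of an element of `J`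
  have hex : ∃ k : ℕ, ∃ g ∈ J, ∃ v : A'' ⧸ I, IsUnit v ∧ g = v * (Ideal.Quotient.mk I w) ^ k := by
    obtain ⟨x, hxJ, hx0⟩ := Submodule.exists_mem_ne_zero_of_ne_bot hJ0
    obtain ⟨k, v, hv, hxv⟩ := tqb_exists_unit_mul_pow hmS hx0
    exact ⟨k, x, hxJ, v, hv, hxv⟩
  obtain ⟨g, hgJ, v, hv, hgv⟩ := Nat.find_spec hex
  refine ⟨(Ideal.Quotient.mk I w) ^ (Nat.find hex), ?_⟩
  apply le_antisymm
  · intro x hxJ
    by_cases hx0 : x = 0
    · rw [hx0]; exact Submodule.zero_mem _
    obtain ⟨m, v', hv', hxv'⟩ := tqb_exists_unit_mul_pow hmS hx0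
    have hkm : Nat.find hex ≤ m := Nat.find_min' hex ⟨x, hxJ, v', hv', hxv'⟩
    rw [Submodule.mem_span_singleton]
    refine ⟨v' * (Ideal.Quotient.mk I w) ^ (m - Nat.find hex), ?_⟩
    rw [hxv', smul_eq_mul, mul_assoc, ← pow_add, Nat.sub_add_cancel hkm]
  · rw [Submodule.span_singleton_le_iff_mem]
    obtain ⟨vi, hvi⟩ := hv.exists_left_inv
    have : (Ideal.Quotient.mk I w) ^ (Nat.find hex) = vi * g := by
      rw [hgv, ← mul_assoc, hvi, one_mul]
    rw [this]
    exact J.mul_mem_left vi hgJ

end KummerPrime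

end Fermat.Agent.JT3
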