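/-
JT3 node R4b (TC): the tame chart.

`A''` a noetherian local ring with `𝔪 = (p, w)` and `A'' ⧸ p` reduced (the Kummer base, see
`KummerBase.lean`), `B''` finite free over `A''` with unit discriminant (the étale cover of the
Kummer base, see `EtaleLocal.lean`), `H` a finite group acting on `B''` with ring of invariants `B`,
`|H|` invertible.  Then at every maximal ideal `n` of `B`:
`(B ⧸ π)_n` is a valuation ring (`tq_Total`), `π` is prime in `B_n` (`tq_Dom`) and `n B_n = (π, u)`
(`tq_GenBy`).
-/
import Mathlib
import Fermat.Agent.JT3.Model.EtaleLocal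
import Fermat.Agent.JT3.Model.TameQuotient
import Fermat.Agent.JT3.Model.TameBridge

set_option autoImplicit false
set_option linter.unusedSectionVars false
set_option linter.style.haveILetI false

namespace Fermat.Agent.JT3

open IsLocalRing Module

section Upstairs

variable {A'' B'' : Type*} [CommRing A''] [IsLocalRing A''] [IsNoetherianRing A'']
  [CommRing B''] [Algebra A'' B''] {ι : Type*} [Fintype ι] [DecidableEq ι]

/-- **The étale chart in `tq_` language.** `B''` finite free with unit discriminant over the
noetherian local ring `A''` with `𝔪 = (p, w)` and `A'' ⧸ p` reduced: at every maximal ideal `Q` of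
`B''`, `Q` is locally generated by `p, w`, `(B'' ⧸ p)_Q` is a valuation ring and `p` is prime in
`B''_Q`. -/
theorem tc_upstairs (b : Basis ι A'' B'') (hd : IsUnit (Algebra.discr A'' b)) {p w : A''}
    (hm : maximalIdeal A'' = Ideal.span {p, w}) [IsReduced (A'' ⧸ Ideal.span {p})]
    (Q : Ideal B'') [hQ : Q.IsMaximal] :
    tq_GenBy (algebraMap A'' B'' p) (algebraMap A'' B'' w) Q ∧
      tq_Total (algebraMap A'' B'' p) Q ∧ tq_Dom (algebraMap A'' B'' p) Q := by
  have hfin : Module.Finite A'' B'' := Module.Finite.of_basis b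
  have hnoeth : IsNoetherianRing B'' := IsNoetherianRing.of_finite A'' B''
  have hle : (maximalIdeal A'').map (algebraMap A'' B'') ≤ Q := el_map_maximalIdeal_le Q
  have hmap : (maximalIdeal A'').map (algebraMap A'' B'') =
      Ideal.span {algebraMap A'' B'' p, algebraMap A'' B'' w} := by
    rw [hm, Ideal.map_span, Set.image_pair]
  have hgen : tq_GenBy (algebraMap A'' B'' p) (algebraMap A'' B'' w) Q := by
    refine ⟨hle (hmap ▸ Ideal.subset_span (by simp)), hle (hmap ▸ Ideal.subset_span (by simp)),
      fun x hx => ?_⟩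
    obtain ⟨s, hs, hsx⟩ := el_maximal_local b hd Q hx
    exact ⟨s, hs, hmap ▸ hsx⟩
  have hred : ∀ (x : B'') (n : ℕ), x ^ n ∈ Ideal.span {algebraMap A'' B'' p} →
      x ∈ Ideal.span {algebraMap A'' B'' p} := by
    have h1 : IsReduced (B'' ⧸ (Ideal.span {p}).map (algebraMap A'' B'')) :=
      el_quot_isReduced (Ideal.span {p}) b hd
    rw [Ideal.map_span, Set.image_singleton, ← Ideal.isRadical_iff_quotient_reduced] at h1
    intro x n hx
    exact h1 ⟨n, hx⟩
  haveI : Q.IsPrime := hQ.isPrime
  exact ⟨hgen, tqb_total_dom_of_genBy hgen hred⟩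

end Upstairs

section Main

variable {A'' B'' B : Type*} [CommRing A''] [IsLocalRing A''] [IsNoetherianRing A'']
  [CommRing B''] [Algebra A'' B''] {ι : Type*} [Fintype ι] [DecidableEq ι]
  [CommRing B] [IsNoetherianRing B] [Algebra B B'']
  (H : Type*) [Group H] [Finite H] [MulSemiringAction H B''] [SMulCommClass H B B'']
  [Algebra.IsInvariant B B'' H]

/-- **(TC) The tame chart.** -/
theorem tc_main (hinj : Function.Injective (algebraMap B B''))
    (b : Basis ι A'' B'') (hd : IsUnit (Algebra.discr A'' b)) {p w : A''}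
    (hm : maximalIdeal A'' = Ideal.span {p, w}) [IsReduced (A'' ⧸ Ideal.span {p})]
    {π : B} (hπ : algebraMap B B'' π = algebraMap A'' B'' p)
    (hcard : IsUnit ((Nat.card H : ℕ) : B))
    (n : Ideal B) [hn : n.IsMaximal] :
    tq_Total π n ∧ tq_Dom π n ∧ ∃ u : B, tq_GenBy π u n := by
  have hint : Algebra.IsIntegral B B'' := Algebra.IsInvariant.isIntegral B B'' H
  -- a maximal ideal of `B''` over `n`
  obtain ⟨Q, hQmax, hQn⟩ := Ideal.exists_ideal_over_maximal_of_isIntegral (S := B'') n
    (by
      rw [(RingHom.injective_iff_ker_eq_bot _).1 hinj]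
      exact bot_le)
  haveI := hQmax
  haveI : Q.IsPrime := hQmax.isPrime
  obtain ⟨hgen, hT, hD⟩ := tc_upstairs b hd hm Q
  rw [← hπ] at hgen hT hD
  have hcard' : ((Nat.card H : ℕ) : B) ∉ Q.comap (algebraMap B B'') := by
    rw [hQn]
    intro hmem
    exact hn.ne_top (Ideal.eq_top_of_isUnit_mem _ hmem hcard)
  have h1 := tq_total_descend hinj π Q hcard' hT
  have h2 := tq_dom_descend hinj π Q hcard' hD
  have h3 := tq_genBy_descend hinj π Q hcard' hT hgen.1
    (IsNoetherian.noetherian _)
  rw [hQn] at h1 h2 h3
  exact ⟨h1, h2, h3⟩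

end Main

section Galois

variable {A'' B'' B : Type*} [CommRing A''] [IsLocalRing A''] [IsNoetherianRing A'']
  [CommRing B''] [Algebra A'' B''] {ι : Type*} [Fintype ι] [DecidableEq ι]
  [CommRing B] [IsNoetherianRing B] [IsIntegrallyClosed B] [Algebra B B'']
  (E E'' : Type*) [Field E] [Field E''] [Algebra B E] [IsFractionRing B E]
  [Algebra B'' E''] [IsFractionRing B'' E''] [Algebra E E''] [Algebra B E'']
  [IsScalarTower B E E''] [IsScalarTower B B'' E''] [IsIntegralClosure B'' B E'']
  [FiniteDimensional E E''] [IsGalois E E'']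

/-- **(TC), Galois form.** `B` a noetherian normal domain with fraction field `E`, `E''/E` a finite
Galois extension of degree invertible in `B`, `B''` the integral closure of `B` in `E''`; if `B''`
is finite free with unit discriminant over a noetherian local ring `A''` with `𝔪 = (p, w)` and
`A'' ⧸ p` reduced, then the conclusions of `tc_main` hold for `B`. -/
theorem tc_main_galois (b : Basis ι A'' B'') (hd : IsUnit (Algebra.discr A'' b)) {p w : A''}
    (hm : maximalIdeal A'' = Ideal.span {p, w}) [IsReduced (A'' ⧸ Ideal.span {p})]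
    {π : B} (hπ : algebraMap B B'' π = algebraMap A'' B'' p)
    (hdeg : IsUnit ((Module.finrank E E'' : ℕ) : B))
    (n : Ideal B) [hn : n.IsMaximal] :
    tq_Total π n ∧ tq_Dom π n ∧ ∃ u : B, tq_GenBy π u n := by
  have hinj : Function.Injective (algebraMap B B'') := by
    have h1 : Function.Injective (algebraMap B E'') := by
      rw [IsScalarTower.algebraMap_eq B E E'']
      exact (algebraMap E E'').injective.comp (IsFractionRing.injective B E)
    rw [IsScalarTower.algebraMap_eq B B'' E''] at h1
    exact Function.Injective.of_comp h1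
  haveI : Finite (B'' ≃ₐ[B] B'') := Finite.of_equiv _ (galRestrict B E E'' B'').toEquiv
  haveI : Algebra.IsInvariant B B'' (B'' ≃ₐ[B] B'') := Algebra.isInvariant_of_isGalois' B E E'' B''
  have hcard : Nat.card (B'' ≃ₐ[B] B'') = Module.finrank E E'' := by
    rw [← Nat.card_congr (galRestrict B E E'' B'').toEquiv, IsGalois.card_aut_eq_finrank]
  exact tc_main (B'' ≃ₐ[B] B'') hinj b hd hm hπ (hcard ▸ hdeg) n

end Galois

/-! ### the descent step alone (no locality hypothesis on the base of the cover) -/

section Descend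

variable {B'' B : Type*} [CommRing B''] [CommRing B] [IsNoetherianRing B] [Algebra B B'']
  (H : Type*) [Group H] [Finite H] [MulSemiringAction H B''] [SMulCommClass H B B'']
  [Algebra.IsInvariant B B'' H]

/-- **Tame descent.** `B = (B'')^H` with `|H|` invertible; if `B''` is regular (in the `tq_`
sense: total + dom) at every maximal ideal containing `π`, so is `B`, and every maximal ideal
`n ∋ π` of `B` is locally `(π, u)`. -/
theorem tc_descend (hinj : Function.Injective (algebraMap B B'')) {π : B}
    (hcard : IsUnit ((Nat.card H : ℕ) : B))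
    (hup : ∀ Q : Ideal B'', Q.IsMaximal → algebraMap B B'' π ∈ Q →
      tq_Total (algebraMap B B'' π) Q ∧ tq_Dom (algebraMap B B'' π) Q)
    (n : Ideal B) [hn : n.IsMaximal] (hπn : π ∈ n) :
    tq_Total π n ∧ tq_Dom π n ∧ ∃ u : B, tq_GenBy π u n := by
  have hint : Algebra.IsIntegral B B'' := Algebra.IsInvariant.isIntegral B B'' H
  obtain ⟨Q, hQmax, hQn⟩ := Ideal.exists_ideal_over_maximal_of_isIntegral (S := B'') n
    (by
      rw [(RingHom.injective_iff_ker_eq_bot _).1 hinj]
      exact bot_le)
  haveI := hQmax
  haveI : Q.IsPrime := hQmax.isPrime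
  have hπQ : algebraMap B B'' π ∈ Q := by
    have : π ∈ Q.comap (algebraMap B B'') := by rw [hQn]; exact hπn
    exact this
  obtain ⟨hT, hD⟩ := hup Q hQmax hπQ
  have hcard' : ((Nat.card H : ℕ) : B) ∉ Q.comap (algebraMap B B'') := by
    rw [hQn]
    intro hmem
    exact hn.ne_top (Ideal.eq_top_of_isUnit_mem _ hmem hcard)
  have h1 := tq_total_descend hinj π Q hcard' hT
  have h2 := tq_dom_descend hinj π Q hcard' hD
  have h3 := tq_genBy_descend hinj π Q hcard' hT hπQ (IsNoetherian.noetherian _)
  rw [hQn] at h1 h2 h3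
  exact ⟨h1, h2, h3⟩

end Descend

section DescendGalois

variable {B'' B : Type*} [CommRing B''] [CommRing B] [IsNoetherianRing B] [IsIntegrallyClosed B]
  [Algebra B B'']
  (E E'' : Type*) [Field E] [Field E''] [Algebra B E] [IsFractionRing B E]
  [Algebra B'' E''] [IsFractionRing B'' E''] [Algebra E E''] [Algebra B E'']
  [IsScalarTower B E E''] [IsScalarTower B B'' E''] [IsIntegralClosure B'' B E'']
  [FiniteDimensional E E''] [IsGalois E E'']

/-- **Tame descent, Galois form**: `B` a noetherian normal domain with fraction field `E`,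
`E''/E` finite Galois of degree invertible in `B`, `B''` the integral closure of `B` in `E''`. -/
theorem tc_descend_galois {π : B} (hdeg : IsUnit ((Module.finrank E E'' : ℕ) : B))
    (hup : ∀ Q : Ideal B'', Q.IsMaximal → algebraMap B B'' π ∈ Q →
      tq_Total (algebraMap B B'' π) Q ∧ tq_Dom (algebraMap B B'' π) Q)
    (n : Ideal B) [hn : n.IsMaximal] (hπn : π ∈ n) :
    tq_Total π n ∧ tq_Dom π n ∧ ∃ u : B, tq_GenBy π u n := by
  have hinj : Function.Injective (algebraMap B B'') := by
    have h1 : Function.Injective (algebraMap B E'') := by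
      rw [IsScalarTower.algebraMap_eq B E E'']
      exact (algebraMap E E'').injective.comp (IsFractionRing.injective B E)
    rw [IsScalarTower.algebraMap_eq B B'' E''] at h1
    exact Function.Injective.of_comp h1
  haveI : Finite (B'' ≃ₐ[B] B'') := Finite.of_equiv _ (galRestrict B E E'' B'').toEquiv
  haveI : Algebra.IsInvariant B B'' (B'' ≃ₐ[B] B'') := Algebra.isInvariant_of_isGalois' B E E'' B''
  have hcard : Nat.card (B'' ≃ₐ[B] B'') = Module.finrank E E'' := by
    rw [← Nat.card_congr (galRestrict B E E'' B'').toEquiv, IsGalois.card_aut_eq_finrank]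
  exact tc_descend (B'' ≃ₐ[B] B'') hinj (hcard ▸ hdeg) hup n hπn

end DescendGalois

end Fermat.Agent.JT3
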