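/-
JT3 node R4b: the cusp chart, assembled.

`(A, 𝔪 = (π, t))` a noetherian normal local domain, `π` prime, `¬ π ∣ t`; `B` the normalisation of
`A` in the function field `E`; `E''/E` finite Galois of degree invertible in `B`, containing
`w` with `w ^ N = t`; `A'' = A[w]` the Kummer base and `B''` the normalisation in `E''`.
If `B''/A''` is unramified in codimension one, then at every maximal ideal `n` of `B`:
`n` is locally `(π, u)`, `(B ⧸ π)_n` is a valuation ring and `π` is prime in `B_n`.
-/
import Mathlib
import Fermat.Agent.JT3.Algebra.NormalFree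
import Fermat.Agent.JT3.Model.EtaleChart
import Fermat.Agent.JT3.Model.KummerBase
import Fermat.Agent.JT3.Model.TameChart

set_option autoImplicit false
set_option linter.unusedSectionVars false
set_option linter.style.haveILetI false

namespace Fermat.Agent.JT3

open IsLocalRing Module

attribute [local instance] FractionRing.liftAlgebra

section Cusp

variable {A : Type*} [CommRing A] [IsDomain A] [IsLocalRing A] [IsNoetherianRing A]
  [IsIntegrallyClosed A]
  {A'' : Type*} [CommRing A''] [IsDomain A''] [Algebra A A''] [FaithfulSMul A A'']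
  {B : Type*} [CommRing B] [IsNoetherianRing B] [IsIntegrallyClosed B] [Algebra A B]
  {B'' : Type*} [CommRing B''] [IsDomain B''] [IsIntegrallyClosed B''] [Algebra A'' B'']
  [Algebra B B''] [Algebra A B''] [IsScalarTower A A'' B''] [IsScalarTower A B B'']
  [Module.IsTorsionFree A'' B''] [Module.Finite A'' B'']
  [Algebra.IsSeparable (FractionRing A'') (FractionRing B'')]
  (E E'' : Type*) [Field E] [Field E''] [Algebra B E] [IsFractionRing B E]
  [Algebra B'' E''] [IsFractionRing B'' E''] [Algebra E E''] [Algebra B E'']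
  [IsScalarTower B E E''] [IsScalarTower B B'' E''] [IsIntegralClosure B'' B E'']
  [FiniteDimensional E E''] [IsGalois E E'']
  {π t : A} {w : A''} {N : ℕ}

/-- **The cusp chart.** -/
theorem tc_cusp (hN : 0 < N) (hπ : Prime π) (hπt : ¬ π ∣ t)
    (hm : maximalIdeal A = Ideal.span {π, t})
    (hw : w ^ N = algebraMap A A'' t) (hgen : Algebra.adjoin A ({w} : Set A'') = ⊤)
    (hunr : ∀ P : Ideal B'', ∀ _ : P.IsPrime, (P.under A'').height = 1 →
      Algebra.IsUnramifiedAt A'' P)
    (hdeg : IsUnit ((Module.finrank E E'' : ℕ) : B))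
    (n : Ideal B) [hn : n.IsMaximal] :
    (∃ u : B, tq_GenBy (algebraMap A B π) u n) ∧ tq_Total (algebraMap A B π) n ∧
      tq_Dom (algebraMap A B π) n := by
  classical
  have hfin : Module.Finite A A'' := kb_finite hN hw hgen
  haveI hnoeth : IsNoetherianRing A'' := IsNoetherianRing.of_finite A A''
  haveI hloc : IsLocalRing A'' := kb_isLocalRing hN hm hw hgen
  have hm'' : maximalIdeal A'' = Ideal.span {algebraMap A A'' π, w} :=
    kb_maximalIdeal_eq hN hm hw hgen
  have hπ'' : Prime (algebraMap A A'' π) := kb_prime_pi hN hπ hπt hm hw hgen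
  haveI hic : IsIntegrallyClosed A'' := kb_isIntegrallyClosed hN hπ hπt hm hw hgen
  haveI hdom : IsDomain (A'' ⧸ Ideal.span {algebraMap A A'' π}) :=
    kb_quot_isDomain hN hπ hπt hm hw hgen
  -- a basis of `B''` over `A''`
  haveI hfree : Module.Free A'' B'' :=
    nfr_free_of_isLocalRing (FractionRing A'') (FractionRing B'') B'' hπ'' hm''
  let b := Module.Free.chooseBasis A'' B''
  have hd : IsUnit (Algebra.discr A'' b) := el_isUnit_discr_of_unram_codim_one b hunr
  have hπeq : algebraMap B B'' (algebraMap A B π) = algebraMap A'' B'' (algebraMap A A'' π) := by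
    rw [← IsScalarTower.algebraMap_apply, ← IsScalarTower.algebraMap_apply]
  obtain ⟨h1, h2, h3⟩ := tc_main_galois E E'' b hd hm'' hπeq hdeg n
  exact ⟨h3, h1, h2⟩

end Cusp

section CuspGlobal

variable {A'' : Type*} [CommRing A''] [IsDomain A''] [IsNoetherianRing A''] [IsIntegrallyClosed A'']
  {B'' : Type*} [CommRing B''] [IsDomain B''] [IsIntegrallyClosed B''] [Algebra A'' B'']
  [Module.IsTorsionFree A'' B''] [Module.Finite A'' B'']
  [Algebra.IsSeparable (FractionRing A'') (FractionRing B'')]
  {ι : Type*} [Fintype ι] [DecidableEq ι]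
  {B : Type*} [CommRing B] [IsNoetherianRing B] [IsIntegrallyClosed B] [Algebra B B'']
  (E E'' : Type*) [Field E] [Field E''] [Algebra B E] [IsFractionRing B E]
  [Algebra B'' E''] [IsFractionRing B'' E''] [Algebra E E''] [Algebra B E'']
  [IsScalarTower B E E''] [IsScalarTower B B'' E''] [IsIntegralClosure B'' B E'']
  [FiniteDimensional E E''] [IsGalois E E'']

/-- **The cusp chart, global base** (no locality hypothesis on the Kummer base `A''`, e.g.
`A'' = O[w]` localised at `⟨w ^ N - 1, 1 + π O[w]⟩`): `el_chart` upstairs, tame descent to `B`. -/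
theorem tc_cusp_global (b : Basis ι A'' B'') {p : A''} (hp : Prime p)
    [IsPrincipalIdealRing (A'' ⧸ Ideal.span {p})]
    (hunr : ∀ P : Ideal B'', ∀ _ : P.IsPrime, (P.under A'').height = 1 →
      Algebra.IsUnramifiedAt A'' P)
    {π : B} (hπ : algebraMap B B'' π = algebraMap A'' B'' p)
    (hdeg : IsUnit ((Module.finrank E E'' : ℕ) : B))
    (n : Ideal B) [hn : n.IsMaximal] (hπn : π ∈ n) :
    (∃ u : B, tq_GenBy π u n) ∧ tq_Total π n ∧ tq_Dom π n := by
  have hup : ∀ Q : Ideal B'', Q.IsMaximal → algebraMap B B'' π ∈ Q →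
      tq_Total (algebraMap B B'' π) Q ∧ tq_Dom (algebraMap B B'' π) Q := by
    intro Q hQ hπQ
    haveI := hQ
    rw [hπ] at hπQ ⊢
    exact (el_chart b hp hunr Q hπQ).2
  obtain ⟨h1, h2, h3⟩ := tc_descend_galois E E'' hdeg hup n hπn
  exact ⟨h3, h1, h2⟩

end CuspGlobal

end Fermat.Agent.JT3
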