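/-
JT3 node R4b: the cusp chart in "instance-ready" form: all the rings of `tc_cusp_global` are
literally integral closures `integralClosure A E`, `integralClosure A'' E''`, and all the algebraic
side conditions are derived from: `A`, `A''` noetherian normal domains of characteristic zero with
fraction fields `K`, `K''`, `E/K` and `E''/K''` finite, `E''/E` finite Galois, `A''` integral over `A`.
-/
import Mathlib
import Fermat.Agent.JT3.Model.CuspChart

set_option autoImplicit false
set_option linter.unusedSectionVars false
set_option linter.style.haveILetI false

namespace Fermat.Agent.JT3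

open Module

attribute [local instance] FractionRing.liftAlgebra

section Inst

variable {A A'' : Type*} [CommRing A] [IsDomain A] [IsNoetherianRing A] [IsIntegrallyClosed A]
  [CharZero A]
  [CommRing A''] [IsDomain A''] [IsNoetherianRing A''] [IsIntegrallyClosed A'']
  [Algebra A A''] [Algebra.IsIntegral A A'']
  (K E K'' E'' : Type*) [Field K] [Field E] [Field K''] [Field E'']
  [Algebra A K] [IsFractionRing A K] [Algebra K E] [Algebra A E] [IsScalarTower A K E]
  [FiniteDimensional K E]
  [Algebra A'' K''] [IsFractionRing A'' K''] [Algebra K'' E''] [Algebra A'' E'']
  [IsScalarTower A'' K'' E''] [FiniteDimensional K'' E'']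
  [Algebra E E''] [Algebra A E''] [IsScalarTower A A'' E''] [IsScalarTower A E E'']
  [FiniteDimensional E E''] [IsGalois E E'']

/-- the inclusion `integralClosure A E → integralClosure A'' E''`. -/
noncomputable def tc_inclHom : integralClosure A E →+* integralClosure A'' E'' where
  toFun x := ⟨algebraMap E E'' (x : E), by
    have h1 : IsIntegral A (algebraMap E E'' (x : E)) :=
      x.2.map (IsScalarTower.toAlgHom A E E'')
    exact h1.tower_top⟩
  map_one' := by apply Subtype.ext; simp
  map_mul' a b := by apply Subtype.ext; simp
  map_zero' := by apply Subtype.ext; simp
  map_add' a b := by apply Subtype.ext; simp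

include K K'' in
/-- **The cusp chart for integral closures.** -/
theorem tc_cusp_integralClosure {π : A} (hp : Prime (algebraMap A A'' π))
    (hjac : algebraMap A A'' π ∈ (⊥ : Ideal A'').jacobson)
    [IsPrincipalIdealRing (A'' ⧸ Ideal.span {algebraMap A A'' π})]
    (hunr : ∀ P : Ideal (integralClosure A'' E''), ∀ _ : P.IsPrime, (P.under A'').height = 1 →
      Algebra.IsUnramifiedAt A'' P)
    (hdeg : IsUnit ((Module.finrank E E'' : ℕ) : A))
    (n : Ideal (integralClosure A E)) [hn : n.IsMaximal]
    (hπn : algebraMap A (integralClosure A E) π ∈ n) :
    (∃ u, tq_GenBy (algebraMap A (integralClosure A E) π) u n) ∧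
      tq_Total (algebraMap A (integralClosure A E) π) n ∧
      tq_Dom (algebraMap A (integralClosure A E) π) n := by
  classical
  -- injectivity and characteristic zero
  have hinjAE : Function.Injective (algebraMap A E) := by
    rw [IsScalarTower.algebraMap_eq A K E]
    exact (algebraMap K E).injective.comp (IsFractionRing.injective A K)
  have hinjA''E'' : Function.Injective (algebraMap A'' E'') := by
    rw [IsScalarTower.algebraMap_eq A'' K'' E'']
    exact (algebraMap K'' E'').injective.comp (IsFractionRing.injective A'' K'')
  have hinjAE'' : Function.Injective (algebraMap A E'') := by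
    rw [IsScalarTower.algebraMap_eq A E E'']
    exact (algebraMap E E'').injective.comp hinjAE
  have hinjAA'' : Function.Injective (algebraMap A A'') := by
    rw [IsScalarTower.algebraMap_eq A A'' E''] at hinjAE''
    exact Function.Injective.of_comp hinjAE''
  haveI : CharZero A'' := charZero_of_injective_algebraMap hinjAA''
  haveI : CharZero K := charZero_of_injective_algebraMap (IsFractionRing.injective A K)
  haveI : CharZero K'' := charZero_of_injective_algebraMap (IsFractionRing.injective A'' K'')
  haveI : Algebra.IsSeparable K E := inferInstance
  haveI : Algebra.IsSeparable K'' E'' := inferInstance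
  -- the two normalisations
  haveI : IsIntegrallyClosed (integralClosure A E) :=
    integralClosure.isIntegrallyClosedOfFiniteExtension K
  haveI : IsIntegrallyClosed (integralClosure A'' E'') :=
    integralClosure.isIntegrallyClosedOfFiniteExtension K''
  haveI : Module.Finite A (integralClosure A E) := IsIntegralClosure.finite A K E _
  haveI : Module.Finite A'' (integralClosure A'' E'') := IsIntegralClosure.finite A'' K'' E'' _
  haveI : IsNoetherianRing (integralClosure A E) := IsNoetherianRing.of_finite A _
  haveI : IsFractionRing (integralClosure A E) E :=
    integralClosure.isFractionRing_of_finite_extension K E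
  haveI : IsFractionRing (integralClosure A'' E'') E'' :=
    integralClosure.isFractionRing_of_finite_extension K'' E''
  haveI : FaithfulSMul A'' (integralClosure A'' E'') := by
    rw [faithfulSMul_iff_algebraMap_injective]
    intro x y hxy
    apply hinjA''E''
    have := congrArg (algebraMap (integralClosure A'' E'') E'') hxy
    rwa [← IsScalarTower.algebraMap_apply, ← IsScalarTower.algebraMap_apply] at this
  haveI : Module.IsTorsionFree A'' (integralClosure A'' E'') := inferInstance
  haveI : CharZero (FractionRing A'') :=
    charZero_of_injective_algebraMap (IsFractionRing.injective A'' (FractionRing A''))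
  haveI : Algebra.IsSeparable (FractionRing A'') (FractionRing (integralClosure A'' E'')) :=
    inferInstance
  -- the algebra structures
  letI : Algebra (integralClosure A E) (integralClosure A'' E'') :=
    (tc_inclHom (A := A) (A'' := A'') E E'').toAlgebra
  haveI : IsScalarTower (integralClosure A E) E E'' := inferInstance
  haveI : IsScalarTower (integralClosure A E) (integralClosure A'' E'') E'' :=
    IsScalarTower.of_algebraMap_eq fun x => rfl
  haveI : IsScalarTower A (integralClosure A E) E'' := IsScalarTower.of_algebraMap_eq fun x => by
    change algebraMap A E'' x = algebraMap E E'' (algebraMap A E x)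
    rw [← IsScalarTower.algebraMap_apply]
  haveI : IsIntegralClosure (integralClosure A'' E'') (integralClosure A E) E'' := by
    refine ⟨Subtype.val_injective, fun {x} => ⟨fun hx => ?_, ?_⟩⟩
    · have h1 : IsIntegral A x := isIntegral_trans x hx
      exact ⟨⟨x, h1.tower_top⟩, rfl⟩
    · rintro ⟨y, rfl⟩
      have h1 : IsIntegral A (y : E'') := isIntegral_trans (y : E'') y.2
      exact h1.tower_top
  -- a basis
  haveI : Module.Free A'' (integralClosure A'' E'') :=
    nfr_free K'' E'' (integralClosure A'' E'') hp hjac
  let b := Module.Free.chooseBasis A'' (integralClosure A'' E'')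
  have hπeq : algebraMap (integralClosure A E) (integralClosure A'' E'')
      (algebraMap A (integralClosure A E) π) =
      algebraMap A'' (integralClosure A'' E'') (algebraMap A A'' π) := by
    apply Subtype.ext
    change algebraMap E E'' (algebraMap A E π) = algebraMap A'' E'' (algebraMap A A'' π)
    rw [← IsScalarTower.algebraMap_apply, ← IsScalarTower.algebraMap_apply]
  have hdeg' : IsUnit ((Module.finrank E E'' : ℕ) : integralClosure A E) := by
    have := hdeg.map (algebraMap A (integralClosure A E))
    rwa [map_natCast] at this
  exact tc_cusp_global E E'' b hp hunr hπeq hdeg' n hπn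

end Inst

section EtaleInst

variable {A : Type*} [CommRing A] [IsDomain A] [IsNoetherianRing A] [IsIntegrallyClosed A]
  [CharZero A]
  (K E : Type*) [Field K] [Field E]
  [Algebra A K] [IsFractionRing A K] [Algebra K E] [Algebra A E] [IsScalarTower A K E]
  [FiniteDimensional K E]

include K in
/-- **The étale chart for integral closures** (`el_chart` with `B := integralClosure A E`, all side
conditions derived; freeness by `nfr_free`). -/
theorem tc_etale_integralClosure {π : A} (hp : Prime π)
    (hjac : π ∈ (⊥ : Ideal A).jacobson)
    [IsPrincipalIdealRing (A ⧸ Ideal.span {π})]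
    (hunr : ∀ P : Ideal (integralClosure A E), ∀ _ : P.IsPrime, (P.under A).height = 1 →
      Algebra.IsUnramifiedAt A P)
    (n : Ideal (integralClosure A E)) [hn : n.IsMaximal]
    (hπn : algebraMap A (integralClosure A E) π ∈ n) :
    (∃ u, tq_GenBy (algebraMap A (integralClosure A E) π) u n) ∧
      tq_Total (algebraMap A (integralClosure A E) π) n ∧
      tq_Dom (algebraMap A (integralClosure A E) π) n := by
  classical
  have hinjAE : Function.Injective (algebraMap A E) := by
    rw [IsScalarTower.algebraMap_eq A K E]
    exact (algebraMap K E).injective.comp (IsFractionRing.injective A K)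
  haveI : CharZero K := charZero_of_injective_algebraMap (IsFractionRing.injective A K)
  haveI : Algebra.IsSeparable K E := inferInstance
  haveI : IsIntegrallyClosed (integralClosure A E) :=
    integralClosure.isIntegrallyClosedOfFiniteExtension K
  haveI : Module.Finite A (integralClosure A E) := IsIntegralClosure.finite A K E _
  haveI : FaithfulSMul A (integralClosure A E) := by
    rw [faithfulSMul_iff_algebraMap_injective]
    intro x y hxy
    apply hinjAE
    have := congrArg (algebraMap (integralClosure A E) E) hxy
    rwa [← IsScalarTower.algebraMap_apply, ← IsScalarTower.algebraMap_apply] at this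
  haveI : Module.IsTorsionFree A (integralClosure A E) := inferInstance
  haveI : CharZero (FractionRing A) :=
    charZero_of_injective_algebraMap (IsFractionRing.injective A (FractionRing A))
  haveI : Algebra.IsSeparable (FractionRing A) (FractionRing (integralClosure A E)) :=
    inferInstance
  haveI : Module.Free A (integralClosure A E) := nfr_free K E (integralClosure A E) hp hjac
  let b := Module.Free.chooseBasis A (integralClosure A E)
  obtain ⟨⟨u, hu⟩, hT, hD⟩ := el_chart b hp hunr n hπn
  exact ⟨⟨_, hu⟩, hT, hD⟩

end EtaleInst

end Fermat.Agent.JT3
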