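/-
JT3 node [EL+] (i): the base dictionary.  For a noetherian normal domain `R` with fraction field
`K`, a prime element `π` and a height-one prime `p`: either `p = (π)` or `π ∉ p`; the localisation
`R_p`, realised inside `K`, is a discrete valuation ring; and if `π ∉ p` it contains every subfield
`L ⊆ R[1/π]`, so it is the valuation ring of a place of `K / L`.
-/
import Mathlib
import Fermat.Prelude.Def_AlgebraicCurve_DivisorClassGroup

namespace Fermat.Agent.JT3

open AlgebraicCurve

section Generic

variable {R : Type*} [CommRing R] [IsDomain R] [IsNoetherianRing R] [IsIntegrallyClosed R]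

omit [IsNoetherianRing R] [IsIntegrallyClosed R] in
/-- A height-one prime either is `(π)` or avoids the prime element `π`. -/
theorem el_bd_eq_span_or_notMem {π : R} (hπ : Prime π) (p : Ideal R) [p.IsPrime]
    (hp : p.height = 1) : p = Ideal.span {π} ∨ π ∉ p := by
  by_cases h : π ∈ p
  · exact Or.inl (Ideal.eq_span_singleton_of_height_eq_one hp h hπ)
  · exact Or.inr h

omit [IsIntegrallyClosed R] in
/-- The principal ideal generated by a prime element of a noetherian domain has height one. -/
theorem el_bd_height_span {π : R} (hπ : Prime π) : (Ideal.span {π}).height = 1 := by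
  have hprime : (Ideal.span {π}).IsPrime := (Ideal.span_singleton_prime hπ.ne_zero).2 hπ
  refine le_antisymm ?_ ?_
  · exact Ideal.height_le_one_of_isPrincipal_of_mem_minimalPrimes (Ideal.span {π}) _
      ⟨⟨hprime, le_rfl⟩, fun q hq _ => hq.2⟩
  · rw [Order.one_le_iff_pos, pos_iff_ne_zero, Ne, Ideal.height_eq_zero_iff_eq_bot,
      Ideal.span_singleton_eq_bot]
    exact hπ.ne_zero

/-- Any localisation of a noetherian normal domain at a height-one prime is a Dedekind domain. -/
theorem el_bd_isDedekindDomain (p : Ideal R) [p.IsPrime] (hp : p.height = 1)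
    (Rp : Type*) [CommRing Rp] [Algebra R Rp] [IsLocalization.AtPrime Rp p] :
    IsDedekindDomain Rp := by
  have hdom : IsDomain Rp := IsLocalization.isDomain_of_atPrime Rp p
  have hint : IsIntegrallyClosed Rp :=
    isIntegrallyClosed_of_isLocalization _ p.primeCompl p.primeCompl_le_nonZeroDivisors
  have hnoeth : IsNoetherianRing Rp := IsLocalization.isNoetherianRing p.primeCompl Rp inferInstance
  let _ : IsLocalRing Rp := IsLocalization.AtPrime.isLocalRing Rp p
  have hdim : Ring.DimensionLEOne Rp := by
    refine ⟨fun {Q} hQ0 hQ => ?_⟩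
    have hQm : Q ≤ IsLocalRing.maximalIdeal Rp := IsLocalRing.le_maximalIdeal hQ.ne_top
    have hle : Q.under R ≤ p := by
      calc Q.under R ≤ (IsLocalRing.maximalIdeal Rp).under R := Ideal.comap_mono hQm
        _ = p := IsLocalization.AtPrime.under_maximalIdeal Rp p
    have hne : Q.under R ≠ ⊥ := by
      intro h0
      apply hQ0
      rw [← IsLocalization.map_under p.primeCompl Rp Q, h0, Ideal.map_bot]
    have hprime : (Q.under R).IsPrime := Ideal.comap_isPrime _ Q
    have heq : Q.under R = p := by
      by_contra hne'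
      have hlt : Q.under R < p := lt_of_le_of_ne hle hne'
      have h2 := Ideal.height_strict_mono_of_isPrime_of_isPrime hlt
      rw [hp, Order.lt_one_iff, Ideal.height_eq_zero_iff_eq_bot] at h2
      exact hne h2
    have : Q = IsLocalRing.maximalIdeal Rp := by
      rw [← IsLocalization.map_under p.primeCompl Rp Q, heq,
        IsLocalization.AtPrime.map_eq_maximalIdeal p Rp]
    rw [this]; infer_instance
  exact { toIsDomain := hdom, toIsDedekindRing :=
    { toIsNoetherian := hnoeth, toDimensionLEOne := hdim,
      toIsIntegralClosure := hint } }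

/-- Any localisation of a noetherian normal domain at a height-one prime is a DVR. -/
theorem el_bd_isDiscreteValuationRing (p : Ideal R) [p.IsPrime] (hp : p.height = 1)
    (Rp : Type*) [CommRing Rp] [Algebra R Rp] [IsLocalization.AtPrime Rp p] [IsDomain Rp] :
    IsDiscreteValuationRing Rp := by
  have hded := el_bd_isDedekindDomain p hp Rp
  let _ : IsLocalRing Rp := IsLocalization.AtPrime.isLocalRing Rp p
  have hnf : ¬ IsField Rp := by
    intro hf
    have hmax : IsLocalRing.maximalIdeal Rp = ⊥ := IsLocalRing.isField_iff_maximalIdeal_eq.1 hf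
    have hp0 : p = ⊥ := by
      rw [← IsLocalization.AtPrime.under_maximalIdeal Rp p, hmax]
      ext x
      simp only [Ideal.under, Ideal.mem_comap, Ideal.mem_bot]
      exact ⟨fun hx => IsLocalization.injective Rp p.primeCompl_le_nonZeroDivisors
        (by rw [hx, map_zero]), fun hx => by rw [hx, map_zero]⟩
    rw [hp0] at hp
    simp at hp
  exact ((IsDiscreteValuationRing.TFAE Rp hnf).out 2 0).1 hded

end Generic

section InField

variable {R : Type*} [CommRing R] [IsDomain R] [IsNoetherianRing R] [IsIntegrallyClosed R]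
  (K : Type*) [Field K] [Algebra R K] [IsFractionRing R K]

/-- `R_p` realised as an `R`-subalgebra of the fraction field `K`. -/
noncomputable def el_bd_loc (p : Ideal R) [p.IsPrime] : Subalgebra R K :=
  Localization.subalgebra.ofField K p.primeCompl p.primeCompl_le_nonZeroDivisors

omit [IsNoetherianRing R] [IsIntegrallyClosed R] in
theorem el_bd_mem_loc (p : Ideal R) [p.IsPrime] (x : K) :
    x ∈ el_bd_loc K p ↔ ∃ a s : R, s ∉ p ∧ x = algebraMap R K a * (algebraMap R K s)⁻¹ := by
  constructor
  · rintro ⟨a, s, hs, rfl⟩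
    exact ⟨a, s, hs, rfl⟩
  · rintro ⟨a, s, hs, rfl⟩
    exact ⟨a, s, hs, rfl⟩

omit [IsNoetherianRing R] [IsIntegrallyClosed R] in
instance el_bd_loc_isLocalization (p : Ideal R) [p.IsPrime] :
    IsLocalization.AtPrime (el_bd_loc K p) p :=
  Localization.subalgebra.isLocalization_ofField K p.primeCompl p.primeCompl_le_nonZeroDivisors

omit [IsNoetherianRing R] [IsIntegrallyClosed R] in
instance el_bd_loc_isFractionRing (p : Ideal R) [p.IsPrime] :
    IsFractionRing (el_bd_loc K p) K :=
  Localization.subalgebra.isFractionRing_ofField K p.primeCompl p.primeCompl_le_nonZeroDivisors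

omit [IsNoetherianRing R] [IsIntegrallyClosed R] in
/-- Elements of `R[1/π] ⊆ K` lie in `R_p` as soon as `π ∉ p`. -/
theorem el_bd_mem_loc_of_pow_mul (p : Ideal R) [hp : p.IsPrime] {π : R} (hπp : π ∉ p) {x : K}
    (h : ∃ (n : ℕ) (a : R), x * algebraMap R K π ^ n = algebraMap R K a) : x ∈ el_bd_loc K p := by
  obtain ⟨n, a, hna⟩ := h
  have hpow : π ^ n ∉ p := fun hmem => hπp (hp.mem_of_pow_mem n hmem)
  have hinj := IsFractionRing.injective R K
  have hπ0 : π ≠ 0 := fun h0 => hπp (h0 ▸ p.zero_mem)
  have hπK : algebraMap R K π ≠ 0 := by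
    simpa using (map_ne_zero_iff (algebraMap R K) hinj).2 hπ0
  refine (el_bd_mem_loc K p x).2 ⟨a, π ^ n, hpow, ?_⟩
  rw [← hna, map_pow, mul_assoc, mul_inv_cancel₀ (pow_ne_zero n hπK), mul_one]

theorem el_bd_loc_isDVR (p : Ideal R) [p.IsPrime] (hp : p.height = 1) :
    IsDiscreteValuationRing (el_bd_loc K p) :=
  el_bd_isDiscreteValuationRing p hp (el_bd_loc K p)

/-- `R_p ⊆ K` as a valuation subring of `K` (for `p` of height one). -/
noncomputable def el_bd_valuationSubring (p : Ideal R) [p.IsPrime] (hp : p.height = 1) :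
    ValuationSubring K :=
  { (el_bd_loc K p).toSubring with
    mem_or_inv_mem' := by
      intro x
      have hdvr := el_bd_loc_isDVR K p hp
      have hval : ValuationRing (el_bd_loc K p) := inferInstance
      rcases ValuationRing.isInteger_or_isInteger (el_bd_loc K p) x with ⟨y, hy⟩ | ⟨y, hy⟩
      · left; rw [← hy]; exact y.2
      · right; rw [← hy]; exact y.2 }

@[simp]
theorem el_bd_mem_valuationSubring (p : Ideal R) [p.IsPrime] (hp : p.height = 1) (x : K) :
    x ∈ el_bd_valuationSubring K p hp ↔ x ∈ el_bd_loc K p := Iff.rfl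

theorem el_bd_algebraMap_mem (p : Ideal R) [p.IsPrime] (hp : p.height = 1) (a : R) :
    algebraMap R K a ∈ el_bd_valuationSubring K p hp :=
  (el_bd_loc K p).algebraMap_mem a

/-- Elements of `R` outside `p` are units of `R_p`. -/
theorem el_bd_inv_mem (p : Ideal R) [p.IsPrime] (hp : p.height = 1) {s : R} (hs : s ∉ p) :
    (algebraMap R K s)⁻¹ ∈ el_bd_valuationSubring K p hp :=
  (el_bd_mem_loc K p _).2 ⟨1, s, hs, by rw [map_one, one_mul]⟩

/-- Elements of `p` are non-units of `R_p`. -/
theorem el_bd_inv_notMem (p : Ideal R) [p.IsPrime] (hp : p.height = 1) {a : R} (ha : a ∈ p)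
    (ha0 : a ≠ 0) : (algebraMap R K a)⁻¹ ∉ el_bd_valuationSubring K p hp := by
  intro hmem
  obtain ⟨c, s, hs, hc⟩ := (el_bd_mem_loc K p _).1 hmem
  have hinj := IsFractionRing.injective R K
  have haK : algebraMap R K a ≠ 0 := by
    simpa using (map_ne_zero_iff (algebraMap R K) hinj).2 ha0
  have hs0 : s ≠ 0 := fun h => hs (h ▸ p.zero_mem)
  have hsK : algebraMap R K s ≠ 0 := by
    simpa using (map_ne_zero_iff (algebraMap R K) hinj).2 hs0
  -- `s = a * c`
  have h1 : algebraMap R K s = algebraMap R K (a * c) := by
    rw [map_mul]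
    field_simp at hc
    linear_combination hc
  have h2 : s = a * c := hinj h1
  exact hs (h2 ▸ p.mul_mem_right c ha)

theorem el_bd_valuationSubring_ne_top (p : Ideal R) [p.IsPrime] (hp : p.height = 1) :
    el_bd_valuationSubring K p hp ≠ ⊤ := by
  intro htop
  have hne : p ≠ ⊥ := Ideal.ne_bot_of_height_eq_one hp
  obtain ⟨a, ha, ha0⟩ := Submodule.exists_mem_ne_zero_of_ne_bot hne
  exact el_bd_inv_notMem K p hp ha ha0 (htop ▸ ValuationSubring.mem_top _)

/-- **Base dictionary, place form.** If `L` is a field mapping into `K` such that the image of `L`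
lies in `R_p` (e.g. `L = Frac O ⊆ R[1/π]` and `π ∉ p`), then `R_p` is the valuation ring of a
place of `K / L`. -/
noncomputable def el_bd_place (L : Type*) [Field L] [Algebra L K] (p : Ideal R) [p.IsPrime]
    (hp : p.height = 1) (hL : ∀ l : L, algebraMap L K l ∈ el_bd_loc K p) : Place L K where
  toValuationSubring := el_bd_valuationSubring K p hp
  algebraMap_mem' := hL
  ne_top' := el_bd_valuationSubring_ne_top K p hp
  isPrincipalIdealRing' := by
    have := el_bd_loc_isDVR K p hp
    exact (inferInstance : IsPrincipalIdealRing (el_bd_loc K p))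

@[simp]
theorem el_bd_place_toValuationSubring (L : Type*) [Field L] [Algebra L K] (p : Ideal R)
    [p.IsPrime] (hp : p.height = 1) (hL : ∀ l : L, algebraMap L K l ∈ el_bd_loc K p) :
    (el_bd_place K L p hp hL).toValuationSubring = el_bd_valuationSubring K p hp := rfl

end InField

end Fermat.Agent.JT3
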