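/-
JT3 node [EL+], seam form (architect's vocabulary of `Seams.lean`): for a chart base `R` with
fraction field `K` and a finite separable extension `E / K`,
  (∀ p of height one, `jt_Unram (R_p) E`)  ⟹  `jt_UnramCodimOne R (integralClosure R E)`
                                            ⟹  `jt_RegAt π` on `integralClosure R E`.
-/
import Mathlib
import Fermat.Agent.JT3.Seams
import Fermat.Agent.JT3.Algebra.NormalFree
import Fermat.Agent.JT3.Model.EtaleChart
import Fermat.Agent.JT3.Model.BaseDict

set_option linter.unusedSectionVars false

namespace Fermat.Agent.JT3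

open Module

section Seam

variable {R : Type*} [CommRing R] [IsDomain R]
  (K : Type*) [Field K] [Algebra R K] [IsFractionRing R K]
  (E : Type*) [Field E] [Algebra K E] [Algebra R E] [IsScalarTower R K E]

/-- The inclusion of the integral closure of `R` in `E` into the integral closure of `R_p`. -/
noncomputable def el_sm_incl (p : Ideal R) [p.IsPrime] :
    integralClosure R E →+* integralClosure (el_bd_loc K p) E where
  toFun x := ⟨x.1, IsIntegral.tower_top (A := el_bd_loc K p) x.2⟩
  map_one' := rfl
  map_mul' _ _ := rfl
  map_zero' := rfl
  map_add' _ _ := rfl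

/-- **Seam adapter, one prime**: if `E` is unramified over `R_p ⊆ K` (field-level seam), then the
integral closure of `R` in `E` is unramified over `R` at every nonzero prime lying over `p`. -/
theorem el_sm_unramAt_of_unram (p : Ideal R) [p.IsPrime]
    (h : jt_Unram (el_bd_loc K p) E)
    (P : Ideal (integralClosure R E)) [hP : P.IsPrime] (hP0 : P ≠ ⊥) (hPp : P.under R = p) :
    Algebra.IsUnramifiedAt R P := by
  let Rp := el_bd_loc K p
  let B := integralClosure R E
  let Bp := integralClosure Rp E
  let _ : Algebra B Bp := (el_sm_incl K E p).toAlgebra
  have t1 : IsScalarTower B Bp E := IsScalarTower.of_algebraMap_eq' rfl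
  have t2 : IsScalarTower R B Bp := IsScalarTower.of_algebraMap_eq' (by
    ext x; rfl)
  have hinjRE : Function.Injective (algebraMap R E) := by
    rw [IsScalarTower.algebraMap_eq R K E]
    exact (algebraMap K E).injective.comp (IsFractionRing.injective R K)
  have hE : IsLocalization (Algebra.algebraMapSubmonoid E p.primeCompl) E := by
    apply IsLocalization.self
    rintro _ ⟨s, hs, rfl⟩
    have hs0 : s ≠ 0 := fun h0 => hs (h0 ▸ p.zero_mem)
    exact (isUnit_iff_ne_zero.2 ((map_ne_zero_iff _ hinjRE).2 hs0))
  have hloc : IsLocalization (Algebra.algebraMapSubmonoid B p.primeCompl) Bp :=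
    IsLocalization.integralClosure (R := R) (S := E) (Rf := Rp) (Sf := E) p.primeCompl
  exact el_isUnramifiedAt_of_localization p Rp Bp (fun Q _ hQ0 => h Q hQ0) P hP0 hPp

/-- **[EL+] (ii), seam form**: field-level unramifiedness over all the DVRs `R_p` (`p` of height
one, the vertical prime `(π)` included) gives the chart-level seam `jt_UnramCodimOne`. -/
theorem el_sm_unramCodimOne
    (h : ∀ (p : Ideal R) [p.IsPrime], p.height = 1 → jt_Unram (el_bd_loc K p) E) :
    jt_UnramCodimOne R (integralClosure R E) := by
  intro P hP hht
  have hinjRE : Function.Injective (algebraMap R E) := by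
    rw [IsScalarTower.algebraMap_eq R K E]
    exact (algebraMap K E).injective.comp (IsFractionRing.injective R K)
  have hinj : Function.Injective (algebraMap R (integralClosure R E)) := by
    intro a c hac
    apply hinjRE
    have := congrArg (algebraMap (integralClosure R E) E) hac
    rwa [← IsScalarTower.algebraMap_apply, ← IsScalarTower.algebraMap_apply] at this
  have hP0 : P ≠ ⊥ := by
    intro h0
    have : P.under R = ⊥ := by
      rw [h0]
      ext x
      simp only [Ideal.under, Ideal.mem_comap, Ideal.mem_bot]
      exact ⟨fun hx => hinj (by rw [hx, map_zero]), fun hx => by rw [hx, map_zero]⟩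
    rw [this] at hht
    simp at hht
  have : (P.under R).IsPrime := Ideal.comap_isPrime _ P
  exact el_sm_unramAt_of_unram K E (P.under R) (h (P.under R) hht) P hP0 rfl

end Seam

section Chart

attribute [local instance] FractionRing.liftAlgebra

variable {R : Type*} [CommRing R] [IsDomain R] [IsNoetherianRing R] [IsIntegrallyClosed R]
  (K : Type*) [Field K] [Algebra R K] [IsFractionRing R K]
  (E : Type*) [Field E] [Algebra K E] [Algebra R E] [IsScalarTower R K E]
  [FiniteDimensional K E] [Algebra.IsSeparable K E]

include K in
omit [IsNoetherianRing R] [IsIntegrallyClosed R] [FiniteDimensional K E]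
  [Algebra.IsSeparable K E] in
theorem el_sm_algebraMap_injective :
    Function.Injective (algebraMap R (integralClosure R E)) := by
  have hinjRE : Function.Injective (algebraMap R E) := by
    rw [IsScalarTower.algebraMap_eq R K E]
    exact (algebraMap K E).injective.comp (IsFractionRing.injective R K)
  intro a c hac
  apply hinjRE
  have := congrArg (algebraMap (integralClosure R E) E) hac
  rwa [← IsScalarTower.algebraMap_apply, ← IsScalarTower.algebraMap_apply] at this

include K in
omit [IsNoetherianRing R] [IsIntegrallyClosed R] [FiniteDimensional K E]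
  [Algebra.IsSeparable K E] in
theorem el_sm_isTorsionFree : Module.IsTorsionFree R (integralClosure R E) :=
  Module.isTorsionFree_iff_algebraMap_injective.mpr (el_sm_algebraMap_injective K E)

/-- Separability on the canonical fraction rings, from separability of `E / K`. -/
theorem el_sm_isSeparable :
    haveI := el_sm_isTorsionFree (R := R) K E
    Algebra.IsSeparable (FractionRing R) (FractionRing (integralClosure R E)) := by
  have := el_sm_isTorsionFree (R := R) K E
  have hfrac : IsFractionRing (integralClosure R E) E :=
    integralClosure.isFractionRing_of_finite_extension K E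
  let e₁ : K ≃ₐ[R] FractionRing R := (FractionRing.algEquiv R K).symm
  let e₂ : E ≃ₐ[integralClosure R E] FractionRing (integralClosure R E) :=
    (FractionRing.algEquiv (integralClosure R E) E).symm
  refine Algebra.IsSeparable.of_equiv_equiv e₁.toRingEquiv e₂.toRingEquiv ?_
  apply IsLocalization.ringHom_ext (nonZeroDivisors R)
  ext x
  simp only [RingHom.coe_comp, RingHom.coe_coe, Function.comp_apply, AlgEquiv.coe_ringEquiv,
    AlgEquiv.commutes]
  rw [← IsScalarTower.algebraMap_apply R K E,
    IsScalarTower.algebraMap_apply R (integralClosure R E) E, AlgEquiv.commutes,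
    ← IsScalarTower.algebraMap_apply, ← IsScalarTower.algebraMap_apply]

/-- **[EL+] assembled in the seam vocabulary.** `R` a noetherian normal domain with fraction field
`K`, `π` a prime element in the Jacobson radical of `R` with `R ⧸ π` a PID (e.g.
`(O[t][1/h])_{1+π}` or `O[t]_(π,t)`), `E / K` finite separable. If `E` is unramified over `R_p`
for every height-one prime `p` of `R` (field-level seam `jt_Unram`; `p = (π)` is (V), the others
are (H)), then the normalisation `integralClosure R E` satisfies the local regularity seam
`jt_RegAt π`. -/
theorem el_sm_regAt {π : R} (hπ : Prime π) (hjac : π ∈ (⊥ : Ideal R).jacobson)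
    [IsPrincipalIdealRing (R ⧸ Ideal.span {π})]
    (h : ∀ (p : Ideal R) [p.IsPrime], p.height = 1 → jt_Unram (el_bd_loc K p) E) :
    jt_RegAt (integralClosure R E) (algebraMap R (integralClosure R E) π) := by
  intro n hn hπn
  have htf := el_sm_isTorsionFree (R := R) K E
  have hsep := el_sm_isSeparable (R := R) K E
  have hic : IsIntegrallyClosed (integralClosure R E) :=
    integralClosure.isIntegrallyClosedOfFiniteExtension K
  have hfin : Module.Finite R (integralClosure R E) := IsIntegralClosure.finite R K E _
  have hfree : Module.Free R (integralClosure R E) := nfr_free K E (integralClosure R E) hπ hjac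
  classical
  let b := Module.Free.chooseBasis R (integralClosure R E)
  obtain ⟨⟨u, hu⟩, -, hdom⟩ := el_chart b hπ (el_sm_unramCodimOne K E h) n hπn
  exact ⟨⟨_, hu⟩, hdom⟩

end Chart

end Fermat.Agent.JT3
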