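/-
JT3 node [EL+], the concrete chart bases (architect's #1274 (2)(b)).

`A0` a discrete valuation ring with uniformiser `π` and residue field `k0`, `h ∈ A0[X]` with
`h̄ ≠ 0` in `k0[X]`.  The chart base is `R(h) := M(h)⁻¹ A0[X]` with
`M(h) := {f | ∃ k, f̄ = h̄ ^ k}` (this is the multiplicative set for which `π` lands in the Jacobson
radical; the submonoid generated by `h` and `1 + π A0[X]` is too small for that: `X + π` is not
inverted by it when `h = X`).  For any model `R` of this localisation:
`R` is a noetherian integrally closed domain, `π` is prime and lies in the Jacobson radical,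
`R ⧸ π` is a PID, `Frac R = Frac A0[X]`, `(π) R ∩ A0[X] = (π)`, and for a prime `p ∌ π` the
constants `L = Frac A0` lie in `R_p`.  Also: `R_p = A0[X]_{p ∩ A0[X]}` inside the fraction field.
-/
import Mathlib
import Fermat.Agent.JT3.Model.BaseDict

set_option autoImplicit false
set_option linter.unusedSectionVars false
set_option linter.style.haveILetI false

namespace Fermat.Agent.JT3

open Polynomial IsLocalRing

section Generic

/-- A localisation of a principal ideal ring is a principal ideal ring. -/
theorem el_pb_isPrincipalIdealRing_of_isLocalization {P S : Type*} [CommRing P] [CommRing S]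
    [Algebra P S] (M : Submonoid P) [IsLocalization M S] [IsPrincipalIdealRing P] :
    IsPrincipalIdealRing S := by
  refine ⟨fun J => ?_⟩
  obtain ⟨g, hg⟩ := (IsPrincipalIdealRing.principal (J.under P)).principal
  refine ⟨algebraMap P S g, ?_⟩
  rw [← IsLocalization.map_under M S J, hg]
  change Ideal.map (algebraMap P S) (Ideal.span {g}) = Ideal.span {algebraMap P S g}
  rw [Ideal.map_span, Set.image_singleton]

/-- If `M + π P ⊆ M`, then `π` lies in the Jacobson radical of `M⁻¹ P`. -/
theorem el_pb_mem_jacobson_of_isLocalization {P S : Type*} [CommRing P] [CommRing S]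
    [Algebra P S] (M : Submonoid P) [IsLocalization M S] (π : P)
    (hM : ∀ s ∈ M, ∀ f : P, s + π * f ∈ M) :
    algebraMap P S π ∈ (⊥ : Ideal S).jacobson := by
  rw [Ideal.mem_jacobson_bot]
  intro y
  obtain ⟨f, s, rfl⟩ := IsLocalization.exists_mk'_eq M y
  have h1 : algebraMap P S π * IsLocalization.mk' S f s + 1 =
      IsLocalization.mk' S ((s : P) + π * f) s := by
    rw [IsLocalization.eq_mk'_iff_mul_eq, add_mul, one_mul, mul_assoc,
      IsLocalization.mk'_spec, map_add, map_mul, add_comm]
  rw [h1]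
  have h2 : IsUnit (algebraMap P S ((s : P) + π * f)) :=
    IsLocalization.map_units S ⟨_, hM s s.2 f⟩
  have h3 : IsLocalization.mk' S ((s : P) + π * f) s * algebraMap P S s =
      algebraMap P S ((s : P) + π * f) := IsLocalization.mk'_spec S _ s
  have h4 : IsUnit (IsLocalization.mk' S ((s : P) + π * f) s * algebraMap P S s) := h3 ▸ h2
  exact isUnit_of_mul_isUnit_left h4

end Generic

section PolyBase

variable {A0 : Type*} [CommRing A0] [IsDomain A0] [IsDiscreteValuationRing A0]

/-- Reduction of polynomials modulo the maximal ideal of `A0`. -/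
noncomputable def el_pb_red : A0[X] →+* (ResidueField A0)[X] :=
  Polynomial.mapRingHom (residue A0)

theorem el_pb_red_apply (f : A0[X]) : el_pb_red f = f.map (residue A0) := rfl

theorem el_pb_red_surjective : Function.Surjective (el_pb_red (A0 := A0)) :=
  Polynomial.map_surjective _ residue_surjective

theorem el_pb_ker_red {π : A0} (hπ : Irreducible π) :
    RingHom.ker (el_pb_red (A0 := A0)) = Ideal.span {C π} := by
  rw [el_pb_red, Polynomial.ker_mapRingHom, IsLocalRing.ker_residue, hπ.maximalIdeal_eq,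
    Ideal.map_span, Set.image_singleton]

theorem el_pb_red_eq_zero_iff {π : A0} (hπ : Irreducible π) (f : A0[X]) :
    el_pb_red f = 0 ↔ C π ∣ f := by
  rw [← RingHom.mem_ker, el_pb_ker_red hπ, Ideal.mem_span_singleton]

theorem el_pb_red_C_pi {π : A0} (hπ : Irreducible π) : el_pb_red (C π) = 0 :=
  (el_pb_red_eq_zero_iff hπ _).2 dvd_rfl

/-- The multiplicative set `{f | ∃ k, f̄ = h̄ ^ k}` of the chart base `R(h)`. -/
noncomputable def el_pb_M (h : A0[X]) : Submonoid A0[X] :=
  (Submonoid.powers (el_pb_red h)).comap el_pb_red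

theorem el_pb_mem_M {h f : A0[X]} : f ∈ el_pb_M h ↔ ∃ k : ℕ, el_pb_red h ^ k = el_pb_red f :=
  Iff.rfl

theorem el_pb_h_mem_M (h : A0[X]) : h ∈ el_pb_M h := ⟨1, pow_one _⟩

theorem el_pb_add_mem_M {π : A0} (hπ : Irreducible π) {h s : A0[X]} (hs : s ∈ el_pb_M h)
    (f : A0[X]) : s + C π * f ∈ el_pb_M h := by
  obtain ⟨k, hk⟩ := hs
  exact ⟨k, by rw [map_add, map_mul, el_pb_red_C_pi hπ, zero_mul, add_zero, hk]⟩

theorem el_pb_red_ne_zero_of_mem_M {h s : A0[X]} (hh : el_pb_red h ≠ 0) (hs : s ∈ el_pb_M h) :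
    el_pb_red s ≠ 0 := by
  obtain ⟨k, hk⟩ := hs
  rw [← hk]
  exact pow_ne_zero k hh

theorem el_pb_ne_zero_of_mem_M {h s : A0[X]} (hh : el_pb_red h ≠ 0) (hs : s ∈ el_pb_M h) :
    s ≠ 0 := fun h0 => el_pb_red_ne_zero_of_mem_M hh hs (by rw [h0, map_zero])

theorem el_pb_M_le_nonZeroDivisors {h : A0[X]} (hh : el_pb_red h ≠ 0) :
    el_pb_M h ≤ nonZeroDivisors A0[X] := fun _ hs =>
  mem_nonZeroDivisors_of_ne_zero (el_pb_ne_zero_of_mem_M hh hs)

/-- a divisor of an element of `M` reduces to a divisor of a power of `h̄`. -/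
theorem el_pb_C_pi_notMem_M {π : A0} (hπ : Irreducible π) {h : A0[X]} (hh : el_pb_red h ≠ 0) :
    C π ∉ el_pb_M h := fun hmem =>
  el_pb_red_ne_zero_of_mem_M hh hmem (el_pb_red_C_pi hπ)

end PolyBase

section Ring

variable {A0 : Type*} [CommRing A0] [IsDomain A0] [IsDiscreteValuationRing A0]
  (h : A0[X]) (R : Type*) [CommRing R] [Algebra A0[X] R] [IsLocalization (el_pb_M h) R]

include h in
theorem el_pb_isDomain (hh : el_pb_red h ≠ 0) : IsDomain R :=
  IsLocalization.isDomain_of_le_nonZeroDivisors R (el_pb_M_le_nonZeroDivisors hh)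

include h in
theorem el_pb_isNoetherianRing : IsNoetherianRing R :=
  IsLocalization.isNoetherianRing (el_pb_M h) R inferInstance

include h in
theorem el_pb_isIntegrallyClosed (hh : el_pb_red h ≠ 0) : IsIntegrallyClosed R :=
  isIntegrallyClosed_of_isLocalization R (el_pb_M h) (el_pb_M_le_nonZeroDivisors hh)

include h in
theorem el_pb_algebraMap_injective (hh : el_pb_red h ≠ 0) :
    Function.Injective (algebraMap A0[X] R) :=
  IsLocalization.injective R (el_pb_M_le_nonZeroDivisors hh)

include h in
theorem el_pb_isUnit_of_mem_M {s : A0[X]} (hs : s ∈ el_pb_M h) : IsUnit (algebraMap A0[X] R s) :=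
  IsLocalization.map_units R ⟨s, hs⟩

include h in
/-- `π` lies in the Jacobson radical of `R(h)`. -/
theorem el_pb_mem_jacobson {π : A0} (hπ : Irreducible π) :
    algebraMap A0[X] R (C π) ∈ (⊥ : Ideal R).jacobson :=
  el_pb_mem_jacobson_of_isLocalization (el_pb_M h) (C π) fun _ hs f => el_pb_add_mem_M hπ hs f

end Ring

section Quot

variable {A0 : Type*} [CommRing A0] [IsDomain A0] [IsDiscreteValuationRing A0]

/-- `A0[X] ⧸ (π) ≃ k0[X]`. -/
noncomputable def el_pb_quotEquiv {π : A0} (hπ : Irreducible π) :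
    (A0[X] ⧸ Ideal.span {C π}) ≃+* (ResidueField A0)[X] :=
  (Ideal.quotEquivOfEq (el_pb_ker_red hπ).symm).trans
    (RingHom.quotientKerEquivOfSurjective el_pb_red_surjective)

theorem el_pb_quotEquiv_mk {π : A0} (hπ : Irreducible π) (f : A0[X]) :
    el_pb_quotEquiv hπ (Ideal.Quotient.mk _ f) = el_pb_red f := rfl

theorem el_pb_quot_isPrincipalIdealRing {π : A0} (hπ : Irreducible π) :
    IsPrincipalIdealRing (A0[X] ⧸ Ideal.span {C π}) :=
  IsPrincipalIdealRing.of_surjective (el_pb_quotEquiv hπ).symm.toRingHom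
    (el_pb_quotEquiv hπ).symm.surjective

theorem el_pb_quot_isDomain {π : A0} (hπ : Irreducible π) :
    IsDomain (A0[X] ⧸ Ideal.span {C π}) :=
  (el_pb_quotEquiv hπ).toMulEquiv.isDomain _

variable (h : A0[X]) (R : Type*) [CommRing R] [Algebra A0[X] R] [IsLocalization (el_pb_M h) R]

theorem el_pb_map_span (π : A0) :
    (Ideal.span {C π}).map (algebraMap A0[X] R) = Ideal.span {algebraMap A0[X] R (C π)} := by
  rw [Ideal.map_span, Set.image_singleton]

include h in
theorem el_pb_quotMap_isPrincipalIdealRing {π : A0} (hπ : Irreducible π) :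
    IsPrincipalIdealRing (R ⧸ (Ideal.span {C π}).map (algebraMap A0[X] R)) := by
  have := el_pb_quot_isPrincipalIdealRing hπ
  exact el_pb_isPrincipalIdealRing_of_isLocalization
    (Algebra.algebraMapSubmonoid (A0[X] ⧸ Ideal.span {C π}) (el_pb_M h))

include h in
theorem el_pb_quotMap_isDomain {π : A0} (hπ : Irreducible π) (hh : el_pb_red h ≠ 0) :
    IsDomain (R ⧸ (Ideal.span {C π}).map (algebraMap A0[X] R)) := by
  have := el_pb_quot_isDomain hπ
  refine IsLocalization.isDomain_of_le_nonZeroDivisors (R := A0[X] ⧸ Ideal.span {C π})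
    (M := Algebra.algebraMapSubmonoid (A0[X] ⧸ Ideal.span {C π}) (el_pb_M h)) _ ?_
  rintro _ ⟨s, hs, rfl⟩
  apply mem_nonZeroDivisors_of_ne_zero
  intro h0
  apply el_pb_red_ne_zero_of_mem_M hh hs
  have : el_pb_quotEquiv hπ (Ideal.Quotient.mk _ s) = 0 := by
    rw [show (Ideal.Quotient.mk (Ideal.span {C π})) s = algebraMap A0[X] _ s from rfl, h0, map_zero]
  rwa [el_pb_quotEquiv_mk] at this

include h in
/-- `R(h) ⧸ π` is a principal ideal ring. -/
theorem el_pb_quotSpan_isPrincipalIdealRing {π : A0} (hπ : Irreducible π) :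
    IsPrincipalIdealRing (R ⧸ Ideal.span {algebraMap A0[X] R (C π)}) := by
  have := el_pb_quotMap_isPrincipalIdealRing h R hπ
  let e := Ideal.quotEquivOfEq (el_pb_map_span R π)
  exact IsPrincipalIdealRing.of_surjective e.toRingHom e.surjective

include h in
/-- `π` is a prime element of `R(h)`. -/
theorem el_pb_prime {π : A0} (hπ : Irreducible π) (hh : el_pb_red h ≠ 0) :
    Prime (algebraMap A0[X] R (C π)) := by
  have hdom := el_pb_quotMap_isDomain h R hπ hh
  have hprime : ((Ideal.span {C π}).map (algebraMap A0[X] R)).IsPrime :=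
    (Ideal.Quotient.isDomain_iff_prime _).1 hdom
  rw [el_pb_map_span] at hprime
  have hne : algebraMap A0[X] R (C π) ≠ 0 := by
    rw [Ne, map_eq_zero_iff _ (el_pb_algebraMap_injective h R hh), C_eq_zero]
    exact hπ.ne_zero
  exact (Ideal.span_singleton_prime hne).1 hprime

end Quot

section LocLoc

/-- **Localisation of a localisation**, inside the fraction field: for `R = M⁻¹ P` and a prime
`p` of `R`, the subrings `R_p` and `P_{p ∩ P}` of `K` coincide. -/
theorem el_pb_loc_eq_loc_under {P R : Type*} [CommRing P] [IsDomain P] [CommRing R] [IsDomain R]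
    [Algebra P R] (M : Submonoid P) [IsLocalization M R]
    (K : Type*) [Field K] [Algebra P K] [IsFractionRing P K] [Algebra R K] [IsFractionRing R K]
    [IsScalarTower P R K] (p : Ideal R) [p.IsPrime] (x : K) :
    x ∈ el_bd_loc K p ↔ x ∈ el_bd_loc K (p.under P) := by
  rw [el_bd_mem_loc, el_bd_mem_loc]
  constructor
  · rintro ⟨a, s, hs, rfl⟩
    obtain ⟨a0, m, rfl⟩ := IsLocalization.exists_mk'_eq M a
    obtain ⟨s0, m', rfl⟩ := IsLocalization.exists_mk'_eq M s
    have hs0 : s0 ∉ p.under P := by
      intro hmem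
      apply hs
      have : IsLocalization.mk' R s0 m' = algebraMap P R s0 * IsLocalization.mk' R 1 m' := by
        rw [IsLocalization.mul_mk'_eq_mk'_of_mul, mul_one]
      rw [this]
      exact Ideal.mul_mem_right _ _ hmem
    have hm : (m : P) ∉ p.under P := by
      intro hmem
      have hu : IsUnit (algebraMap P R m) := IsLocalization.map_units R m
      exact (Ideal.IsPrime.ne_top (inferInstance : p.IsPrime))
        (Ideal.eq_top_of_isUnit_mem p (show algebraMap P R m ∈ p from hmem) hu)
    refine ⟨a0 * m', m * s0, fun hmem => ?_, ?_⟩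
    · rcases (Ideal.IsPrime.mem_or_mem (inferInstance : (p.under P).IsPrime) hmem) with h1 | h1
      · exact hm h1
      · exact hs0 h1
    · have hmK : algebraMap P K m ≠ 0 := by
        have := (IsLocalization.map_units R m).map (algebraMap R K)
        rw [← IsScalarTower.algebraMap_apply] at this
        exact this.ne_zero
      have hm'K : algebraMap P K m' ≠ 0 := by
        have := (IsLocalization.map_units R m').map (algebraMap R K)
        rw [← IsScalarTower.algebraMap_apply] at this
        exact this.ne_zero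
      have ha : algebraMap R K (IsLocalization.mk' R a0 m) * algebraMap P K m =
          algebraMap P K a0 := by
        rw [IsScalarTower.algebraMap_apply P R K, ← map_mul, IsLocalization.mk'_spec,
          ← IsScalarTower.algebraMap_apply]
      have hs' : algebraMap R K (IsLocalization.mk' R s0 m') * algebraMap P K m' =
          algebraMap P K s0 := by
        rw [IsScalarTower.algebraMap_apply P R K, ← map_mul, IsLocalization.mk'_spec,
          ← IsScalarTower.algebraMap_apply]
      have hsK : algebraMap R K (IsLocalization.mk' R s0 m') ≠ 0 := by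
        intro h0
        apply hs
        have := IsFractionRing.injective R K (h0.trans (map_zero _).symm)
        rw [this]; exact p.zero_mem
      have hs0K : algebraMap P K s0 ≠ 0 := by
        rw [← hs']; exact mul_ne_zero hsK hm'K
      rw [map_mul, map_mul, ← ha, ← hs']
      field_simp
  · rintro ⟨a, s, hs, rfl⟩
    refine ⟨algebraMap P R a, algebraMap P R s, hs, ?_⟩
    rw [← IsScalarTower.algebraMap_apply, ← IsScalarTower.algebraMap_apply]

end LocLoc

section Const

variable {A0 : Type*} [CommRing A0] [IsDomain A0] [IsDiscreteValuationRing A0]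
  (R : Type*) [CommRing R] [Algebra A0[X] R]

/-- nonzero constants stay outside every prime (of any `A0[X]`-algebra) not containing `π`. -/
theorem el_pb_C_notMem {π : A0} (hπ : Irreducible π) (p : Ideal R) [hp : p.IsPrime]
    (hπp : algebraMap A0[X] R (C π) ∉ p) {a : A0} (ha : a ≠ 0) :
    algebraMap A0[X] R (C a) ∉ p := by
  obtain ⟨n, u, rfl⟩ := IsDiscreteValuationRing.eq_unit_mul_pow_irreducible ha hπ
  intro hmem
  rw [C_mul, C_pow, map_mul, map_pow] at hmem
  rcases hp.mem_or_mem hmem with h1 | h1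
  · have hu : IsUnit (algebraMap A0[X] R (C (u : A0))) :=
      (u.isUnit.map C).map (algebraMap A0[X] R)
    exact hp.ne_top (Ideal.eq_top_of_isUnit_mem _ h1 hu)
  · exact hπp (hp.mem_of_pow_mem n h1)

end Const

section Dict

variable {A0 : Type*} [CommRing A0] [IsDomain A0] [IsDiscreteValuationRing A0]
  (h : A0[X]) (R : Type*) [CommRing R] [Algebra A0[X] R] [IsLocalization (el_pb_M h) R]

include h in
/-- `(π) R(h) ∩ A0[X] = (π)`: the variable stays transcendental modulo `π`. -/
theorem el_pb_under_span {π : A0} (hπ : Irreducible π) (hh : el_pb_red h ≠ 0) :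
    (Ideal.span {algebraMap A0[X] R (C π)}).under A0[X] = Ideal.span {C π} := by
  rw [← el_pb_map_span R π]
  have hprime : (Ideal.span {C π} : Ideal A0[X]).IsPrime := by
    rw [← el_pb_ker_red hπ]; exact RingHom.ker_isPrime _
  refine IsLocalization.under_map_of_isPrime_disjoint (el_pb_M h) R hprime ?_
  rw [Set.disjoint_left]
  intro s hs hsI
  rw [SetLike.mem_coe, ← el_pb_ker_red hπ, RingHom.mem_ker] at hsI
  exact el_pb_red_ne_zero_of_mem_M hh hs hsI

variable (K : Type*) [Field K] [Algebra A0[X] K] [IsFractionRing A0[X] K] [Algebra R K]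
  [IsScalarTower A0[X] R K]

include h in
/-- `Frac R(h) = Frac A0[X]`. -/
theorem el_pb_isFractionRing : IsFractionRing R K :=
  IsFractionRing.isFractionRing_of_isDomain_of_isLocalization (el_pb_M h) R K

variable [IsDomain R] [IsFractionRing R K]
  {L : Type*} [Field L] [Algebra A0 L] [IsFractionRing A0 L] [Algebra L K]

/-- **constants**: for a prime `p` of `R(h)` not containing `π`, the field `L = Frac A0` lies in
`R(h)_p`. -/
theorem el_pb_const_mem_loc {π : A0} (hπ : Irreducible π) (p : Ideal R) [hp : p.IsPrime]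
    (hπp : algebraMap A0[X] R (C π) ∉ p)
    (hC : ∀ a : A0, algebraMap A0[X] K (C a) = algebraMap L K (algebraMap A0 L a)) (c : L) :
    algebraMap L K c ∈ el_bd_loc K p := by
  obtain ⟨a, b, hb, rfl⟩ := IsFractionRing.div_surjective (A := A0) c
  have hb0 : b ≠ 0 := nonZeroDivisors.ne_zero hb
  rw [el_bd_mem_loc]
  refine ⟨algebraMap A0[X] R (C a), algebraMap A0[X] R (C b), el_pb_C_notMem R hπ p hπp hb0, ?_⟩
  rw [← IsScalarTower.algebraMap_apply, ← IsScalarTower.algebraMap_apply, hC, hC, map_div₀,
    div_eq_mul_inv]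

end Dict

section Avoid

variable {A0 : Type*} [CommRing A0] [IsDomain A0] [IsDiscreteValuationRing A0]

/-- `M(h)` avoids every prime (of any `A0[X]`-algebra `B`) containing `π` and not `h`. -/
theorem el_pb_M_notMem {B : Type*} [CommRing B] [Algebra A0[X] B] {π : A0} (hπ : Irreducible π)
    {h : A0[X]} (n : Ideal B) [hn : n.IsPrime] (hπn : algebraMap A0[X] B (C π) ∈ n)
    (hhn : algebraMap A0[X] B h ∉ n) {s : A0[X]} (hs : s ∈ el_pb_M h) :
    algebraMap A0[X] B s ∉ n := by
  intro hsn
  obtain ⟨k, hk⟩ := el_pb_mem_M.1 hs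
  have hker : h ^ k - s ∈ Ideal.span {C π} := by
    rw [← el_pb_ker_red hπ, RingHom.mem_ker, map_sub, map_pow, hk, sub_self]
  obtain ⟨g, hg⟩ := Ideal.mem_span_singleton'.1 hker
  have hpow : algebraMap A0[X] B (h ^ k) ∈ n := by
    have : h ^ k = s + g * C π := by rw [hg]; ring
    rw [this, map_add, map_mul]
    exact n.add_mem hsn (n.mul_mem_left _ hπn)
  rw [map_pow] at hpow
  exact hhn (hn.mem_of_pow_mem k hpow)

/-- the same for primes of `A0[X]` itself. -/
theorem el_pb_M_notMem' {π : A0} (hπ : Irreducible π) {h : A0[X]} (n : Ideal A0[X])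
    [hn : n.IsPrime] (hπn : C π ∈ n) (hhn : h ∉ n) {s : A0[X]} (hs : s ∈ el_pb_M h) : s ∉ n :=
  el_pb_M_notMem (B := A0[X]) hπ n hπn hhn hs

/-- `M(h)` is multiplicative in `h`: `M(h) ≤ M(h * h')`-localisations invert `M(h)`. -/
theorem el_pb_M_mul_mem {h h' s : A0[X]} (hs : s ∈ el_pb_M h) :
    ∃ s' : A0[X], s * s' ∈ el_pb_M (h * h') := by
  obtain ⟨k, hk⟩ := el_pb_mem_M.1 hs
  refine ⟨h' ^ k, el_pb_mem_M.2 ⟨k, ?_⟩⟩
  rw [map_mul, map_mul, map_pow, ← hk, mul_pow]

variable (h : A0[X]) (R : Type*) [CommRing R] [Algebra A0[X] R] [IsLocalization (el_pb_M h) R]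

include h in
theorem el_pb_charZero [CharZero A0] (hh : el_pb_red h ≠ 0) : CharZero R := by
  have hinj := el_pb_algebraMap_injective h R hh
  have hC : Function.Injective (C : A0 → A0[X]) := Polynomial.C_injective
  refine ⟨fun a b hab => ?_⟩
  have h1 : algebraMap A0[X] R (C (a : A0)) = algebraMap A0[X] R (C (b : A0)) := by
    simpa using hab
  exact Nat.cast_injective (hC (hinj h1))

end Avoid

end Fermat.Agent.JT3
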