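/-
JT3 node [EL+], the etale chart over a polynomial base, assembled.

`el_pb_regAt`   : `el_sm_regAt` on the concrete base `R(h)` of `PolyBase.lean`.
`el_pb_chart`   : localisation-free form: the normalisation of `A0[X]` in `E` is regular
                  (`(π, u)`, total, dom) at every maximal ideal containing `π` and not `h`, as soon as
                  `E` is unramified over `A0[X]_p` for every height-one prime `p ∌ h` of `A0[X]`.
-/
import Mathlib
import Fermat.Agent.JT3.Seams
import Fermat.Agent.JT3.Model.EtaleSeam
import Fermat.Agent.JT3.Model.PolyBase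
import Fermat.Agent.JT3.Model.Charts

set_option autoImplicit false
set_option linter.unusedSectionVars false
set_option linter.style.haveILetI false

namespace Fermat.Agent.JT3

open Polynomial IsLocalRing Module

section RForm

variable {A0 : Type*} [CommRing A0] [IsDomain A0] [IsDiscreteValuationRing A0]
  (h : A0[X]) (R : Type*) [CommRing R] [Algebra A0[X] R] [IsLocalization (el_pb_M h) R]
  [IsDomain R] [IsNoetherianRing R] [IsIntegrallyClosed R]
  (K : Type*) [Field K] [Algebra R K] [IsFractionRing R K]
  (E : Type*) [Field E] [Algebra K E] [Algebra R E] [IsScalarTower R K E]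
  [FiniteDimensional K E] [Algebra.IsSeparable K E]

include h in
/-- **[EL+] on the concrete chart base `R(h)`** (`R`-form): unramifiedness over all the DVRs
`R(h)_p` gives the local regularity seam on the normalisation of `R(h)` in `E`. -/
theorem el_pb_regAt {π : A0} (hπ : Irreducible π) (hh : el_pb_red h ≠ 0)
    (hunr : ∀ (p : Ideal R) [p.IsPrime], p.height = 1 → jt_Unram (el_bd_loc K p) E) :
    jt_RegAt (integralClosure R E)
      (algebraMap R (integralClosure R E) (algebraMap A0[X] R (C π))) := by
  have := el_pb_quotSpan_isPrincipalIdealRing h R hπ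
  exact el_sm_regAt K E (el_pb_prime h R hπ hh) (el_pb_mem_jacobson h R hπ) hunr

end RForm

section Transfer

/-- the seam `jt_Unram` only depends on the underlying subring of `K`. -/
theorem el_pb_unram_congr {P R : Type*} [CommRing P] [CommRing R] {K : Type*} [Field K]
    [Algebra P K] [Algebra R K] (E : Type*) [Field E] [Algebra K E]
    [Algebra P E] [Algebra R E] [IsScalarTower P K E] [IsScalarTower R K E]
    (S : Subalgebra P K) (S' : Subalgebra R K) (hSS' : ∀ x : K, x ∈ S' ↔ x ∈ S)
    (hS : jt_Unram S E) : jt_Unram S' E := by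
  have h1 : S'.toSubring = S.toSubring := Subring.ext hSS'
  have h2 : jt_UnramAt S.toSubring E := hS
  have h3 : jt_UnramAt S'.toSubring E := h1 ▸ h2
  exact h3

end Transfer

section SeamTotal

attribute [local instance] FractionRing.liftAlgebra

variable {R : Type*} [CommRing R] [IsDomain R] [IsNoetherianRing R] [IsIntegrallyClosed R]
  (K : Type*) [Field K] [Algebra R K] [IsFractionRing R K]
  (E : Type*) [Field E] [Algebra K E] [Algebra R E] [IsScalarTower R K E]
  [FiniteDimensional K E] [Algebra.IsSeparable K E]

/-- `el_sm_regAt` with the totality statement kept (the three outputs of `el_chart`). -/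
theorem el_pb_sm_chart {π : R} (hπ : Prime π) (hjac : π ∈ (⊥ : Ideal R).jacobson)
    [IsPrincipalIdealRing (R ⧸ Ideal.span {π})]
    (h : ∀ (p : Ideal R) [p.IsPrime], p.height = 1 → jt_Unram (el_bd_loc K p) E)
    (n : Ideal (integralClosure R E)) [hn : n.IsMaximal]
    (hπn : algebraMap R (integralClosure R E) π ∈ n) :
    (∃ u, tq_GenBy (algebraMap R (integralClosure R E) π) u n) ∧
      tq_Total (algebraMap R (integralClosure R E) π) n ∧
      tq_Dom (algebraMap R (integralClosure R E) π) n := by
  have htf := el_sm_isTorsionFree (R := R) K E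
  have hsep := el_sm_isSeparable (R := R) K E
  have hic : IsIntegrallyClosed (integralClosure R E) :=
    integralClosure.isIntegrallyClosedOfFiniteExtension K
  have hfin : Module.Finite R (integralClosure R E) := IsIntegralClosure.finite R K E _
  have hfree : Module.Free R (integralClosure R E) := nfr_free K E (integralClosure R E) hπ hjac
  classical
  let b := Module.Free.chooseBasis R (integralClosure R E)
  obtain ⟨⟨u, hu⟩, htot, hdom⟩ := el_chart b hπ (el_sm_unramCodimOne K E h) n hπn
  exact ⟨⟨_, hu⟩, htot, hdom⟩

end SeamTotal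

section PForm

variable {A0 : Type*} [CommRing A0] [IsDomain A0] [IsDiscreteValuationRing A0] (h : A0[X])
  (K : Type*) [Field K] [Algebra A0[X] K] [IsFractionRing A0[X] K]
  (E : Type*) [Field E] [Algebra K E] [Algebra A0[X] E] [IsScalarTower A0[X] K E]
  [FiniteDimensional K E] [Algebra.IsSeparable K E]

/-- auxiliary form of `el_pb_chart`, for an arbitrary model `R` of the localisation. -/
theorem el_pb_chart_aux (R : Type*) [CommRing R] [Algebra A0[X] R] [IsLocalization (el_pb_M h) R]
    {π : A0} (hπ : Irreducible π) (hh : el_pb_red h ≠ 0)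
    (hunr : ∀ (p : Ideal A0[X]) [p.IsPrime], p.height = 1 → h ∉ p → jt_Unram (el_bd_loc K p) E)
    (n : Ideal (integralClosure A0[X] E)) [hn : n.IsMaximal]
    (hπn : algebraMap A0[X] (integralClosure A0[X] E) (C π) ∈ n)
    (hhn : algebraMap A0[X] (integralClosure A0[X] E) h ∉ n) :
    (∃ u, tq_GenBy (algebraMap A0[X] (integralClosure A0[X] E) (C π)) u n) ∧
      tq_Total (algebraMap A0[X] (integralClosure A0[X] E) (C π)) n ∧
      tq_Dom (algebraMap A0[X] (integralClosure A0[X] E) (C π)) n := by
  have hinjK : Function.Injective (algebraMap A0[X] K) := IsFractionRing.injective A0[X] K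
  have hinjE : Function.Injective (algebraMap A0[X] E) := by
    rw [IsScalarTower.algebraMap_eq A0[X] K E]
    exact (algebraMap K E).injective.comp hinjK
  have hunits : ∀ s : el_pb_M h, IsUnit (algebraMap A0[X] K s) := fun s =>
    isUnit_iff_ne_zero.2 ((map_ne_zero_iff _ hinjK).2 (el_pb_ne_zero_of_mem_M hh s.2))
  letI algRK : Algebra R K := (IsLocalization.lift (M := el_pb_M h) hunits).toAlgebra
  haveI t1 : IsScalarTower A0[X] R K :=
    IsScalarTower.of_algebraMap_eq fun x => (IsLocalization.lift_eq hunits x).symm
  letI algRE : Algebra R E := ((algebraMap K E).comp (algebraMap R K)).toAlgebra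
  haveI t2 : IsScalarTower R K E := IsScalarTower.of_algebraMap_eq fun x => rfl
  haveI t3 : IsScalarTower A0[X] R E := IsScalarTower.of_algebraMap_eq fun x => by
    rw [IsScalarTower.algebraMap_apply A0[X] K E, IsScalarTower.algebraMap_apply A0[X] R K]
    rfl
  haveI d1 : IsDomain R := el_pb_isDomain h R hh
  haveI d2 : IsNoetherianRing R := el_pb_isNoetherianRing h R
  haveI d3 : IsIntegrallyClosed R := el_pb_isIntegrallyClosed h R hh
  haveI d4 : IsFractionRing R K := el_pb_isFractionRing h R K
  haveI d5 := el_pb_quotSpan_isPrincipalIdealRing h R hπ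
  -- the multiplicative set avoids `n`
  have hM : ∀ s ∈ el_pb_M h, algebraMap A0[X] (integralClosure A0[X] E) s ∉ n := by
    intro s hs hsn
    obtain ⟨k, hk⟩ := el_pb_mem_M.1 hs
    have hker : h ^ k - s ∈ Ideal.span {C π} := by
      rw [← el_pb_ker_red hπ, RingHom.mem_ker, map_sub, map_pow, hk, sub_self]
    obtain ⟨g, hg⟩ := Ideal.mem_span_singleton'.1 hker
    have hpow : algebraMap A0[X] (integralClosure A0[X] E) (h ^ k) ∈ n := by
      have : h ^ k = s + g * C π := by rw [hg]; ring
      rw [this, map_add, map_mul]
      exact n.add_mem hsn (n.mul_mem_left _ hπn)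
    rw [map_pow] at hpow
    exact hhn (hn.isPrime.mem_of_pow_mem k hpow)
  have hM0 : ∀ s ∈ el_pb_M h, algebraMap A0[X] E s ≠ 0 := fun s hs =>
    (map_ne_zero_iff _ hinjE).2 (el_pb_ne_zero_of_mem_M hh hs)
  -- unramifiedness over the localisations of `R`
  have hunr' : ∀ (p : Ideal R) [p.IsPrime], p.height = 1 → jt_Unram (el_bd_loc K p) E := by
    intro p hp hp1
    have hp' : (p.under A0[X]).height = 1 := by
      rw [IsLocalization.height_under (el_pb_M h) p]; exact hp1
    have hhp : h ∉ p.under A0[X] := by
      intro hmem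
      exact hp.ne_top (Ideal.eq_top_of_isUnit_mem p (show algebraMap A0[X] R h ∈ p from hmem)
        (el_pb_isUnit_of_mem_M h R (el_pb_h_mem_M h)))
    exact el_pb_unram_congr E (el_bd_loc K (p.under A0[X])) (el_bd_loc K p)
      (fun x => el_pb_loc_eq_loc_under (el_pb_M h) K p x) (hunr (p.under A0[X]) hp' hhp)
  refine mch_regAt_of_localization (Rm := R) (C π) n hπn (el_pb_M h) hM hM0 ?_
  intro Q hQ hπQ
  exact el_pb_sm_chart K E (el_pb_prime h R hπ hh) (el_pb_mem_jacobson h R hπ) hunr' Q hπQ

/-- **[EL+] on the chart `A0[X]`, localisation-free form.** `A0` a DVR with uniformiser `π`,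
`K = Frac A0[X]`, `E / K` finite separable, `h ∈ A0[X]` with `h̄ ≠ 0`. If `E` is unramified over
`A0[X]_p` for every height-one prime `p ∌ h` of `A0[X]` (the Gauss prime `(π)` included), then the
normalisation of `A0[X]` in `E` is regular (`(π, u)`, total, dom) at every maximal ideal
containing `π` and not `h`. -/
theorem el_pb_chart {π : A0} (hπ : Irreducible π) (hh : el_pb_red h ≠ 0)
    (hunr : ∀ (p : Ideal A0[X]) [p.IsPrime], p.height = 1 → h ∉ p → jt_Unram (el_bd_loc K p) E)
    (n : Ideal (integralClosure A0[X] E)) [hn : n.IsMaximal]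
    (hπn : algebraMap A0[X] (integralClosure A0[X] E) (C π) ∈ n)
    (hhn : algebraMap A0[X] (integralClosure A0[X] E) h ∉ n) :
    (∃ u, tq_GenBy (algebraMap A0[X] (integralClosure A0[X] E) (C π)) u n) ∧
      tq_Total (algebraMap A0[X] (integralClosure A0[X] E) (C π)) n ∧
      tq_Dom (algebraMap A0[X] (integralClosure A0[X] E) (C π)) n := by
  exact el_pb_chart_aux h K E (Localization (el_pb_M h)) hπ hh hunr n hπn hhn

end PForm

end Fermat.Agent.JT3
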