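/-
JT3 node [MODEL-GEN], abstract layer (helper15; prefix `mdl_`).

`mdl_cusp_abs`: the cusp chart in localisation-free form.  `P` a noetherian normal domain of
characteristic zero (the chart base `O[X]`), `π ∈ P`, `M ⊆ P` a multiplicative set with
`M + π P ⊆ M`; `P''` a noetherian normal domain integral over `P` (the Kummer base `O[W]`,
`X = W^N + c`) in which `π` stays prime with `P'' ⧸ π` a PID and `π ∤ s` for `s ∈ M`.  If the
normalisation of `P''` in `E''` is unramified over `P''_p` for every height-one prime `p` of `P''`
missing `M`, `E''/E` is finite Galois of degree invertible in `P`, then the normalisation of `P` in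
`E` is regular (`(π, u)`, total, dom) at every maximal ideal containing `π` and missing `M`.
-/
import Mathlib
import Fermat.Agent.JT3.Seams
import Fermat.Agent.JT3.Model.CuspInst
import Fermat.Agent.JT3.Model.EtaleSeam
import Fermat.Agent.JT3.Model.PolyBase
import Fermat.Agent.JT3.Model.PolyChart
import Fermat.Agent.JT3.Model.Charts

set_option autoImplicit false
set_option linter.unusedSectionVars false
set_option linter.style.haveILetI false

namespace Fermat.Agent.JT3

open Module

section LocFacts

/-- a prime element whose principal ideal misses `M` stays prime in `M⁻¹ P`. -/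
theorem mdl_prime_of_isLocalization {P S : Type*} [CommRing P] [IsDomain P] [CommRing S]
    [IsDomain S] [Algebra P S] (M : Submonoid P) [IsLocalization M S] {a : P} (ha : Prime a)
    (hM : ∀ s ∈ M, ¬ a ∣ s) : Prime (algebraMap P S a) := by
  have hM0 : M ≤ nonZeroDivisors P := fun s hs =>
    mem_nonZeroDivisors_of_ne_zero fun h0 => hM s hs (h0 ▸ dvd_zero a)
  have hprime : (Ideal.span {a} : Ideal P).IsPrime := (Ideal.span_singleton_prime ha.ne_zero).2 ha
  have hdisj : Disjoint (M : Set P) (Ideal.span {a} : Ideal P) := by
    rw [Set.disjoint_left]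
    intro s hs hsI
    exact hM s hs (Ideal.mem_span_singleton.1 hsI)
  have h1 := IsLocalization.isPrime_of_isPrime_disjoint M S _ hprime hdisj
  rw [Ideal.map_span, Set.image_singleton] at h1
  have hne : algebraMap P S a ≠ 0 := by
    rw [Ne, map_eq_zero_iff _ (IsLocalization.injective S hM0)]
    exact ha.ne_zero
  exact (Ideal.span_singleton_prime hne).1 h1

/-- `M⁻¹ P ⧸ a` is a principal ideal ring if `P ⧸ a` is. -/
theorem mdl_quot_isPrincipalIdealRing {P S : Type*} [CommRing P] [CommRing S]
    [Algebra P S] (M : Submonoid P) [IsLocalization M S] (a : P)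
    [IsPrincipalIdealRing (P ⧸ Ideal.span {a})] :
    IsPrincipalIdealRing (S ⧸ Ideal.span {algebraMap P S a}) := by
  have h1 : IsPrincipalIdealRing (S ⧸ (Ideal.span {a}).map (algebraMap P S)) :=
    el_pb_isPrincipalIdealRing_of_isLocalization
      (Algebra.algebraMapSubmonoid (P ⧸ Ideal.span {a}) M)
  have h2 : (Ideal.span {a}).map (algebraMap P S) = Ideal.span {algebraMap P S a} := by
    rw [Ideal.map_span, Set.image_singleton]
  let e := Ideal.quotEquivOfEq h2
  exact IsPrincipalIdealRing.of_surjective e.toRingHom e.surjective

/-- an element of the Jacobson radical stays there in an integral extension. -/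
theorem mdl_mem_jacobson_of_isIntegral {A A'' : Type*} [CommRing A] [CommRing A''] [Algebra A A'']
    [Algebra.IsIntegral A A''] {a : A} (ha : a ∈ (⊥ : Ideal A).jacobson) :
    algebraMap A A'' a ∈ (⊥ : Ideal A'').jacobson := by
  rw [Ideal.jacobson, Ideal.mem_sInf]
  rintro Q ⟨-, hQ⟩
  haveI := hQ
  have hmax : (Q.comap (algebraMap A A'')).IsMaximal :=
    Ideal.isMaximal_comap_of_isIntegral_of_isMaximal (R := A) Q
  rw [Ideal.jacobson, Ideal.mem_sInf] at ha
  exact ha ⟨bot_le, hmax⟩

end LocFacts

section Abs

variable {P P'' : Type*} [CommRing P] [IsDomain P] [IsNoetherianRing P] [IsIntegrallyClosed P]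
  [CharZero P]
  [CommRing P''] [IsDomain P''] [IsNoetherianRing P''] [IsIntegrallyClosed P'']
  [Algebra P P''] [Algebra.IsIntegral P P'']
  (K E K'' E'' : Type*) [Field K] [Field E] [Field K''] [Field E'']
  [Algebra P K] [IsFractionRing P K] [Algebra K E] [Algebra P E] [IsScalarTower P K E]
  [FiniteDimensional K E]
  [Algebra P'' K''] [IsFractionRing P'' K''] [Algebra K'' E''] [Algebra P'' E'']
  [IsScalarTower P'' K'' E''] [FiniteDimensional K'' E'']
  [Algebra E E''] [Algebra P E''] [IsScalarTower P P'' E''] [IsScalarTower P E E'']
  [FiniteDimensional E E''] [IsGalois E E'']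

include K K'' in
/-- **The cusp chart, localisation-free abstract form.** -/
theorem mdl_cusp_abs (π : P) (M : Submonoid P)
    (hM1 : ∀ s ∈ M, ∀ f : P, s + π * f ∈ M)
    (hπ'' : Prime (algebraMap P P'' π))
    [IsPrincipalIdealRing (P'' ⧸ Ideal.span {algebraMap P P'' π})]
    (hM2 : ∀ s ∈ M, ¬ algebraMap P P'' π ∣ algebraMap P P'' s)
    (hunr : ∀ (p : Ideal P'') [p.IsPrime], p.height = 1 →
      (∀ s ∈ M, algebraMap P P'' s ∉ p) → jt_Unram (el_bd_loc K'' p) E'')
    (hdeg : IsUnit ((Module.finrank E E'' : ℕ) : P))
    (n : Ideal (integralClosure P E)) [hn : n.IsMaximal]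
    (hπn : algebraMap P (integralClosure P E) π ∈ n)
    (hMn : ∀ s ∈ M, algebraMap P (integralClosure P E) s ∉ n) :
    (∃ u, tq_GenBy (algebraMap P (integralClosure P E) π) u n) ∧
      tq_Total (algebraMap P (integralClosure P E) π) n ∧
      tq_Dom (algebraMap P (integralClosure P E) π) n := by
  classical
  -- injectivity
  have hinjPK : Function.Injective (algebraMap P K) := IsFractionRing.injective P K
  have hinjPE : Function.Injective (algebraMap P E) := by
    rw [IsScalarTower.algebraMap_eq P K E]
    exact (algebraMap K E).injective.comp hinjPK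
  have hinjP''K'' : Function.Injective (algebraMap P'' K'') := IsFractionRing.injective P'' K''
  have hinjPE'' : Function.Injective (algebraMap P E'') := by
    rw [IsScalarTower.algebraMap_eq P E E'']
    exact (algebraMap E E'').injective.comp hinjPE
  have hinjPP'' : Function.Injective (algebraMap P P'') := by
    rw [IsScalarTower.algebraMap_eq P P'' E''] at hinjPE''
    exact Function.Injective.of_comp hinjPE''
  -- the multiplicative sets
  have hM0 : ∀ s ∈ M, s ≠ 0 := fun s hs h0 => hM2 s hs (by rw [h0, map_zero]; exact dvd_zero _)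
  have hMle : M ≤ nonZeroDivisors P := fun s hs => mem_nonZeroDivisors_of_ne_zero (hM0 s hs)
  have hM''le : Algebra.algebraMapSubmonoid P'' M ≤ nonZeroDivisors P'' := by
    rintro _ ⟨s, hs, rfl⟩
    exact mem_nonZeroDivisors_of_ne_zero ((map_ne_zero_iff _ hinjPP'').2 (hM0 s hs))
  -- the two localisations
  haveI dA : IsDomain (Localization M) :=
    IsLocalization.isDomain_of_le_nonZeroDivisors _ hMle
  haveI nA : IsNoetherianRing (Localization M) :=
    IsLocalization.isNoetherianRing M _ inferInstance
  haveI iA : IsIntegrallyClosed (Localization M) :=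
    isIntegrallyClosed_of_isLocalization _ M hMle
  haveI cA : CharZero (Localization M) :=
    charZero_of_injective_algebraMap (IsLocalization.injective (Localization M) hMle)
  haveI dA'' : IsDomain (Localization (Algebra.algebraMapSubmonoid P'' M)) :=
    IsLocalization.isDomain_of_le_nonZeroDivisors _ hM''le
  haveI nA'' : IsNoetherianRing (Localization (Algebra.algebraMapSubmonoid P'' M)) :=
    IsLocalization.isNoetherianRing (Algebra.algebraMapSubmonoid P'' M) _ inferInstance
  haveI iA'' : IsIntegrallyClosed (Localization (Algebra.algebraMapSubmonoid P'' M)) :=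
    isIntegrallyClosed_of_isLocalization _ (Algebra.algebraMapSubmonoid P'' M) hM''le
  haveI intA : Algebra.IsIntegral (Localization M)
      (Localization (Algebra.algebraMapSubmonoid P'' M)) := ⟨isIntegral_localization⟩
  -- `A → K → E`
  have hunitsK : ∀ s : M, IsUnit (algebraMap P K s) := fun s =>
    isUnit_iff_ne_zero.2 ((map_ne_zero_iff _ hinjPK).2 (hM0 s s.2))
  letI algAK : Algebra (Localization M) K := (IsLocalization.lift (M := M) hunitsK).toAlgebra
  haveI t1 : IsScalarTower P (Localization M) K :=
    IsScalarTower.of_algebraMap_eq fun x => (IsLocalization.lift_eq hunitsK x).symm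
  letI algAE : Algebra (Localization M) E :=
    ((algebraMap K E).comp (algebraMap (Localization M) K)).toAlgebra
  haveI t2 : IsScalarTower (Localization M) K E := IsScalarTower.of_algebraMap_eq fun x => rfl
  haveI t3 : IsScalarTower P (Localization M) E := IsScalarTower.of_algebraMap_eq fun x => by
    rw [IsScalarTower.algebraMap_apply P K E, IsScalarTower.algebraMap_apply P (Localization M) K]
    rfl
  haveI fA : IsFractionRing (Localization M) K :=
    IsFractionRing.isFractionRing_of_isDomain_of_isLocalization M _ K
  -- `A'' → K'' → E''`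
  have hunitsK'' : ∀ s : Algebra.algebraMapSubmonoid P'' M, IsUnit (algebraMap P'' K'' s) :=
    fun s => isUnit_iff_ne_zero.2 ((map_ne_zero_iff _ hinjP''K'').2
      (nonZeroDivisors.ne_zero (hM''le s.2)))
  letI algAK'' : Algebra (Localization (Algebra.algebraMapSubmonoid P'' M)) K'' :=
    (IsLocalization.lift (M := Algebra.algebraMapSubmonoid P'' M) hunitsK'').toAlgebra
  haveI t1'' : IsScalarTower P'' (Localization (Algebra.algebraMapSubmonoid P'' M)) K'' :=
    IsScalarTower.of_algebraMap_eq fun x => (IsLocalization.lift_eq hunitsK'' x).symm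
  letI algAE'' : Algebra (Localization (Algebra.algebraMapSubmonoid P'' M)) E'' :=
    ((algebraMap K'' E'').comp
      (algebraMap (Localization (Algebra.algebraMapSubmonoid P'' M)) K'')).toAlgebra
  haveI t2'' : IsScalarTower (Localization (Algebra.algebraMapSubmonoid P'' M)) K'' E'' :=
    IsScalarTower.of_algebraMap_eq fun x => rfl
  haveI t3'' : IsScalarTower P'' (Localization (Algebra.algebraMapSubmonoid P'' M)) E'' :=
    IsScalarTower.of_algebraMap_eq fun x => by
      rw [IsScalarTower.algebraMap_apply P'' K'' E'',
        IsScalarTower.algebraMap_apply P'' (Localization (Algebra.algebraMapSubmonoid P'' M)) K'']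
      rfl
  haveI fA'' : IsFractionRing (Localization (Algebra.algebraMapSubmonoid P'' M)) K'' :=
    IsFractionRing.isFractionRing_of_isDomain_of_isLocalization
      (Algebra.algebraMapSubmonoid P'' M) _ K''
  -- `A → E''`
  letI algAEE : Algebra (Localization M) E'' :=
    ((algebraMap E E'').comp (algebraMap (Localization M) E)).toAlgebra
  haveI t4 : IsScalarTower (Localization M) E E'' := IsScalarTower.of_algebraMap_eq fun x => rfl
  haveI t5 : IsScalarTower (Localization M) (Localization (Algebra.algebraMapSubmonoid P'' M)) E'' := by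
    apply IsScalarTower.of_algebraMap_eq'
    apply IsLocalization.ringHom_ext M
    ext x
    simp only [RingHom.comp_apply]
    rw [← IsScalarTower.algebraMap_apply P (Localization M)
        (Localization (Algebra.algebraMapSubmonoid P'' M)),
      IsScalarTower.algebraMap_apply P P'' (Localization (Algebra.algebraMapSubmonoid P'' M)),
      ← IsScalarTower.algebraMap_apply P'' (Localization (Algebra.algebraMapSubmonoid P'' M)) E'',
      ← IsScalarTower.algebraMap_apply P P'' E'']
    change algebraMap E E'' (algebraMap (Localization M) E (algebraMap P (Localization M) x)) = _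
    rw [← IsScalarTower.algebraMap_apply P (Localization M) E,
      ← IsScalarTower.algebraMap_apply P E E'']
  -- the element `π`
  have hπeq : algebraMap (Localization M) (Localization (Algebra.algebraMapSubmonoid P'' M))
      (algebraMap P (Localization M) π) =
      algebraMap P'' (Localization (Algebra.algebraMapSubmonoid P'' M)) (algebraMap P P'' π) := by
    rw [← IsScalarTower.algebraMap_apply, ← IsScalarTower.algebraMap_apply]
  have hM2'' : ∀ s ∈ Algebra.algebraMapSubmonoid P'' M, ¬ algebraMap P P'' π ∣ s := by
    rintro _ ⟨s, hs, rfl⟩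
    exact hM2 s hs
  have hprime : Prime (algebraMap (Localization M)
      (Localization (Algebra.algebraMapSubmonoid P'' M)) (algebraMap P (Localization M) π)) := by
    rw [hπeq]
    exact mdl_prime_of_isLocalization (Algebra.algebraMapSubmonoid P'' M) hπ'' hM2''
  have hjacA : algebraMap P (Localization M) π ∈ (⊥ : Ideal (Localization M)).jacobson :=
    el_pb_mem_jacobson_of_isLocalization M π hM1
  have hjac : algebraMap (Localization M) (Localization (Algebra.algebraMapSubmonoid P'' M))
      (algebraMap P (Localization M) π) ∈
      (⊥ : Ideal (Localization (Algebra.algebraMapSubmonoid P'' M))).jacobson :=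
    mdl_mem_jacobson_of_isIntegral hjacA
  haveI hpid : IsPrincipalIdealRing (Localization (Algebra.algebraMapSubmonoid P'' M) ⧸
      Ideal.span {algebraMap (Localization M) (Localization (Algebra.algebraMapSubmonoid P'' M))
        (algebraMap P (Localization M) π)}) := by
    rw [hπeq]
    exact mdl_quot_isPrincipalIdealRing (Algebra.algebraMapSubmonoid P'' M) _
  -- unramifiedness in codimension one
  have hunrA'' : ∀ (p : Ideal (Localization (Algebra.algebraMapSubmonoid P'' M))) [p.IsPrime],
      p.height = 1 → jt_Unram (el_bd_loc K'' p) E'' := by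
    intro p hp hp1
    have hp' : (p.under P'').height = 1 := by
      rw [IsLocalization.height_under (Algebra.algebraMapSubmonoid P'' M) p]; exact hp1
    have hMp : ∀ s ∈ M, algebraMap P P'' s ∉ p.under P'' := by
      intro s hs hmem
      have hu : IsUnit (algebraMap P'' (Localization (Algebra.algebraMapSubmonoid P'' M))
          (algebraMap P P'' s)) :=
        IsLocalization.map_units _ (⟨algebraMap P P'' s, ⟨s, hs, rfl⟩⟩ :
          Algebra.algebraMapSubmonoid P'' M)
      exact hp.ne_top (Ideal.eq_top_of_isUnit_mem p hmem hu)
    exact el_pb_unram_congr E'' (el_bd_loc K'' (p.under P'')) (el_bd_loc K'' p)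
      (fun x => el_pb_loc_eq_loc_under (Algebra.algebraMapSubmonoid P'' M) K'' p x)
      (hunr (p.under P'') hp' hMp)
  have hcodim := el_sm_unramCodimOne K'' E'' hunrA''
  have hdeg' : IsUnit ((Module.finrank E E'' : ℕ) : Localization M) := by
    have := hdeg.map (algebraMap P (Localization M))
    rwa [map_natCast] at this
  have hME0 : ∀ s ∈ M, algebraMap P E s ≠ 0 := fun s hs =>
    (map_ne_zero_iff _ hinjPE).2 (hM0 s hs)
  refine mch_regAt_of_localization (Rm := Localization M) π n hπn M hMn hME0 ?_
  intro Q hQ hπQ
  haveI := hQ
  exact tc_cusp_integralClosure K E K'' E'' hprime hjac (fun P hP h => @hcodim P hP h) hdeg' Q hπQ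

end Abs

end Fermat.Agent.JT3
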