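/-
JT3 node [MODEL-GEN], the Kummer substitution `X = W^N + c` on polynomial rings (helper15; `mdl_`).

`mdl_sigma N c : R[X] →+* R[X]`, `f ↦ f(X^N + c)`: injective, integral (for `0 < N`), compatible
with reduction; height-one primes contract to height-one primes (going down, ring hom form).
-/
import Mathlib
import Fermat.Agent.JT3.Model.PolyBase

set_option autoImplicit false
set_option linter.unusedSectionVars false
set_option linter.style.haveILetI false

namespace Fermat.Agent.JT3

open Polynomial IsLocalRing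

section GoingDown

/-- **Height-one primes contract to height-one primes** along an injective integral ring
homomorphism from a normal domain to a noetherian domain (going down). -/
theorem mdl_height_comap {P P'' : Type*} [CommRing P] [IsDomain P] [IsIntegrallyClosed P]
    [IsNoetherianRing P]
    [CommRing P''] [IsDomain P''] [IsNoetherianRing P''] (σ : P →+* P'')
    (hinj : Function.Injective σ) (hint : σ.IsIntegral) (p'' : Ideal P'') [hp'' : p''.IsPrime]
    (h : p''.height = 1) : (p''.comap σ).height = 1 := by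
  letI : Algebra P P'' := σ.toAlgebra
  haveI : FaithfulSMul P P'' := (faithfulSMul_iff_algebraMap_injective P P'').2 hinj
  haveI : Algebra.IsIntegral P P'' := ⟨hint⟩
  haveI : (p''.under P).IsPrime := Ideal.comap_isPrime _ _
  haveI : p''.LiesOver (p''.under P) := ⟨rfl⟩
  have h1 := Ideal.height_eq_height_add_of_liesOver_of_hasGoingDown (p''.under P) p''
  rw [h] at h1
  have hne : p''.under P ≠ ⊥ := by
    intro h0
    have : p'' = ⊥ := Ideal.eq_bot_of_comap_eq_bot h0
    rw [this] at h
    simp at h
  have hne0 : (p''.under P).height ≠ 0 := by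
    rw [Ne, Ideal.height_eq_zero_iff_eq_bot]
    exact hne
  have hle : (p''.under P).height ≤ 1 := by
    rw [h1]; exact le_self_add
  change (p''.under P).height = 1
  exact le_antisymm hle (Order.one_le_iff_pos.2 (pos_iff_ne_zero.2 hne0))

end GoingDown

section Sigma

variable {R : Type*} [CommRing R] [IsDomain R] (N : ℕ) (c : R)

/-- the substitution polynomial `X^N + c`. -/
noncomputable def mdl_q : R[X] := X ^ N + C c

/-- the substitution `f ↦ f(X^N + c)`. -/
noncomputable def mdl_sigma : R[X] →+* R[X] := compRingHom (mdl_q N c)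

theorem mdl_sigma_apply (f : R[X]) : mdl_sigma N c f = f.comp (X ^ N + C c) := rfl

@[simp] theorem mdl_sigma_C (a : R) : mdl_sigma N c (C a) = C a := by
  rw [mdl_sigma_apply, C_comp]

@[simp] theorem mdl_sigma_X : mdl_sigma N c X = X ^ N + C c := by
  rw [mdl_sigma_apply, X_comp]

theorem mdl_sigma_X_sub_C (c' : R) : mdl_sigma N c (X - C c') = X ^ N + C (c - c') := by
  rw [map_sub, mdl_sigma_X, mdl_sigma_C, C_sub]; ring

theorem mdl_sigma_X_sub_C_self : mdl_sigma N c (X - C c) = X ^ N := by
  rw [mdl_sigma_X_sub_C, sub_self, C_0, add_zero]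

variable {N}

theorem mdl_q_natDegree : (X ^ N + C c : R[X]).natDegree = N :=
  natDegree_X_pow_add_C

theorem mdl_q_ne_C (hN : 0 < N) (a : R) : (X ^ N + C c : R[X]) ≠ C a := by
  intro h
  have := congrArg natDegree h
  rw [mdl_q_natDegree c, natDegree_C] at this
  exact hN.ne' this

theorem mdl_comp_q_ne_zero (hN : 0 < N) {f : R[X]} (hf : f ≠ 0) :
    f.comp (X ^ N + C c) ≠ 0 := by
  intro h
  rcases comp_eq_zero_iff.1 h with h1 | ⟨-, h2⟩
  · exact hf h1
  · exact mdl_q_ne_C c hN _ h2

theorem mdl_sigma_injective (hN : 0 < N) : Function.Injective (mdl_sigma N c) := by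
  rw [injective_iff_map_eq_zero]
  intro f hf
  by_contra hne
  exact mdl_comp_q_ne_zero c hN hne hf

/-- `R[W]` is integral over `R[W^N + c]`. -/
theorem mdl_sigma_isIntegral (hN : 0 < N) : (mdl_sigma N c).IsIntegral := by
  have hX : (mdl_sigma N c).IsIntegralElem X := by
    refine ⟨X ^ N + C (C c - X), monic_X_pow_add_C _ hN.ne', ?_⟩
    rw [eval₂_add, eval₂_pow, eval₂_X, eval₂_C, map_sub, mdl_sigma_C, mdl_sigma_X]
    ring
  intro f
  induction f using Polynomial.induction_on with
  | C a =>
    have := (mdl_sigma N c).isIntegralElem_map (x := C a)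
    rwa [mdl_sigma_C] at this
  | add p q hp hq => exact hp.add _ hq
  | monomial n a h =>
    rw [pow_succ, ← mul_assoc]
    exact h.mul _ hX

end Sigma

section Red

variable {O : Type*} [CommRing O] [IsDomain O] [IsDiscreteValuationRing O] {N : ℕ} (c : O)

theorem mdl_red_sigma (f : O[X]) :
    el_pb_red (mdl_sigma N c f) = (el_pb_red f).comp (X ^ N + C (residue O c)) := by
  rw [mdl_sigma_apply, el_pb_red_apply, el_pb_red_apply, Polynomial.map_comp]
  simp

theorem mdl_red_sigma_ne_zero (hN : 0 < N) {f : O[X]} (hf : el_pb_red f ≠ 0) :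
    el_pb_red (mdl_sigma N c f) ≠ 0 := by
  rw [mdl_red_sigma]
  exact mdl_comp_q_ne_zero _ hN hf

theorem mdl_not_dvd_sigma {ϖ : O} (hϖ : Irreducible ϖ) (hN : 0 < N) {g s : O[X]}
    (hg : el_pb_red g ≠ 0) (hs : s ∈ el_pb_M g) : ¬ C ϖ ∣ mdl_sigma N c s := by
  rw [← el_pb_red_eq_zero_iff hϖ]
  exact mdl_red_sigma_ne_zero c hN (el_pb_red_ne_zero_of_mem_M hg hs)

end Red

end Fermat.Agent.JT3
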