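/-
JT3 node [MODEL-GEN], the cusp chart over `O[X]` with Kummer base `O[W]`, `X = W^N + c`
(helper15; `mdl_`): `mdl_cusp_abs` instantiated with `P = O[X]`, `P'' = mdl_PW O N c` (a copy of
`O[X]` made an `O[X]`-algebra through `mdl_sigma N c`), `M = el_pb_M g`.
-/
import Mathlib
import Fermat.Agent.JT3.Model.GenericAbs
import Fermat.Agent.JT3.Model.GenericSubst

set_option autoImplicit false
set_option linter.unusedSectionVars false
set_option linter.style.haveILetI false

namespace Fermat.Agent.JT3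

open Polynomial IsLocalRing

section PW

/-- A copy of `O[X]` (the ring `O[W]`), to be regarded as an `O[X]`-algebra through
`X ↦ W^N + c`. -/
def mdl_PW (O : Type*) [CommRing O] (_N : ℕ) (_c : O) : Type _ := Polynomial O

variable (O : Type*) [CommRing O] (N : ℕ) (c : O)

noncomputable instance mdl_PW_commRing : CommRing (mdl_PW O N c) :=
  inferInstanceAs (CommRing O[X])

instance mdl_PW_isDomain [IsDomain O] : IsDomain (mdl_PW O N c) :=
  inferInstanceAs (IsDomain O[X])

instance mdl_PW_isNoetherianRing [IsNoetherianRing O] : IsNoetherianRing (mdl_PW O N c) :=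
  inferInstanceAs (IsNoetherianRing O[X])

instance mdl_PW_isIntegrallyClosed [IsDomain O] [IsDiscreteValuationRing O] :
    IsIntegrallyClosed (mdl_PW O N c) :=
  inferInstanceAs (IsIntegrallyClosed O[X])

noncomputable instance mdl_PW_algebra [IsDomain O] : Algebra O[X] (mdl_PW O N c) :=
  (mdl_sigma N c).toAlgebra

theorem mdl_PW_algebraMap [IsDomain O] (f : O[X]) :
    algebraMap O[X] (mdl_PW O N c) f = mdl_sigma N c f := rfl

end PW

section CuspPolyAux

variable {O : Type*} [CommRing O] [IsDomain O] [IsDiscreteValuationRing O] [CharZero O]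
  (N : ℕ) (c : O)
  (K E K'' E'' : Type*) [Field K] [Field E] [Field K''] [Field E'']
  [Algebra O[X] K] [IsFractionRing O[X] K] [Algebra K E] [Algebra O[X] E] [IsScalarTower O[X] K E]
  [FiniteDimensional K E]
  [aK'' : Algebra (mdl_PW O N c) K''] [fK'' : IsFractionRing (mdl_PW O N c) K'']
  [Algebra K'' E''] [aE'' : Algebra (mdl_PW O N c) E'']
  [t1 : IsScalarTower (mdl_PW O N c) K'' E''] [FiniteDimensional K'' E'']
  [Algebra E E''] [Algebra O[X] E''] [IsScalarTower O[X] E E'']
  [t2 : IsScalarTower O[X] (mdl_PW O N c) E'']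
  [FiniteDimensional E E''] [IsGalois E E'']

include K K'' in
/-- `mdl_cusp_abs` for `P = O[X]`, `P'' = mdl_PW O N c`, `M = el_pb_M g`. -/
theorem mdl_cusp_poly_aux {ϖ : O} (hϖ : Irreducible ϖ) (hN : 0 < N) (g : O[X])
    (hg : el_pb_red g ≠ 0)
    (hunr : ∀ (p'' : Ideal (mdl_PW O N c)) [p''.IsPrime], p''.height = 1 →
      algebraMap O[X] (mdl_PW O N c) g ∉ p'' → jt_Unram (el_bd_loc K'' p'') E'')
    (hdeg : IsUnit ((Module.finrank E E'' : ℕ) : O))
    (n : Ideal (integralClosure O[X] E)) [hn : n.IsMaximal]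
    (hπn : algebraMap O[X] (integralClosure O[X] E) (C ϖ) ∈ n)
    (hgn : algebraMap O[X] (integralClosure O[X] E) g ∉ n) :
    (∃ u, tq_GenBy (algebraMap O[X] (integralClosure O[X] E) (C ϖ)) u n) ∧
      tq_Total (algebraMap O[X] (integralClosure O[X] E) (C ϖ)) n ∧
      tq_Dom (algebraMap O[X] (integralClosure O[X] E) (C ϖ)) n := by
  haveI iInt : Algebra.IsIntegral O[X] (mdl_PW O N c) := ⟨mdl_sigma_isIntegral c hN⟩
  have hπeq : algebraMap O[X] (mdl_PW O N c) (C ϖ) = (C ϖ : O[X]) := mdl_sigma_C N c ϖ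
  have hprimeπ : Prime (C ϖ : O[X]) := prime_C_iff.2 hϖ.prime
  have hπ'' : Prime (algebraMap O[X] (mdl_PW O N c) (C ϖ)) := by
    rw [hπeq]; exact hprimeπ
  haveI hpid : IsPrincipalIdealRing
      (mdl_PW O N c ⧸ Ideal.span {algebraMap O[X] (mdl_PW O N c) (C ϖ)}) := by
    rw [hπeq]; exact el_pb_quot_isPrincipalIdealRing hϖ
  have hM2 : ∀ s ∈ el_pb_M g, ¬ algebraMap O[X] (mdl_PW O N c) (C ϖ) ∣
      algebraMap O[X] (mdl_PW O N c) s := by
    intro s hs
    rw [hπeq]
    exact mdl_not_dvd_sigma c hϖ hN hg hs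
  have hdeg' : IsUnit ((Module.finrank E E'' : ℕ) : O[X]) := by
    have := hdeg.map (C : O →+* O[X])
    rwa [map_natCast] at this
  -- the multiplicative set avoids `n`
  have hMn : ∀ s ∈ el_pb_M g, algebraMap O[X] (integralClosure O[X] E) s ∉ n := by
    intro s hs hsn
    obtain ⟨k, hk⟩ := el_pb_mem_M.1 hs
    have hker : g ^ k - s ∈ Ideal.span {C ϖ} := by
      rw [← el_pb_ker_red hϖ, RingHom.mem_ker, map_sub, map_pow, hk, sub_self]
    obtain ⟨r, hr⟩ := Ideal.mem_span_singleton'.1 hker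
    have hpow : algebraMap O[X] (integralClosure O[X] E) (g ^ k) ∈ n := by
      have : g ^ k = s + r * C ϖ := by rw [hr]; ring
      rw [this, map_add, map_mul]
      exact n.add_mem hsn (n.mul_mem_left _ hπn)
    rw [map_pow] at hpow
    exact hgn (hn.isPrime.mem_of_pow_mem k hpow)
  exact mdl_cusp_abs (P := O[X]) (P'' := mdl_PW O N c) K E K'' E'' (C ϖ) (el_pb_M g)
    (fun s hs f => el_pb_add_mem_M hϖ hs f) hπ'' hM2
    (fun p hp h1 hM => @hunr p hp h1 (hM g (el_pb_h_mem_M g))) hdeg' n hπn hMn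

end CuspPolyAux

section CuspPoly

variable {O : Type*} [CommRing O] [IsDomain O] [IsDiscreteValuationRing O] [CharZero O]
  (K E K'' E'' : Type*) [Field K] [Field E] [Field K''] [Field E'']
  [Algebra O[X] K] [IsFractionRing O[X] K] [Algebra K E] [Algebra O[X] E] [IsScalarTower O[X] K E]
  [FiniteDimensional K E]
  [Algebra O[X] K''] [IsFractionRing O[X] K''] [Algebra K'' E''] [FiniteDimensional K'' E'']
  [Algebra E E''] [Algebra O[X] E''] [IsScalarTower O[X] E E'']
  [FiniteDimensional E E''] [IsGalois E E'']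

include K K'' in
/-- **The cusp chart over `O[X]`, Kummer base `O[W]` with `X = W^N + c`.**  Here `K''` carries the
`W`-structure (`algebraMap O[X] K'' X = w`) while `K`, `E`, `E''` carry the `X`-structure; `hσE`
is the compatibility `x = w^N + c`. -/
theorem mdl_cusp_poly {ϖ : O} (hϖ : Irreducible ϖ) {N : ℕ} (hN : 0 < N) (c : O) (g : O[X])
    (hg : el_pb_red g ≠ 0)
    (hσE : ∀ f : O[X],
      algebraMap O[X] E'' f = algebraMap K'' E'' (algebraMap O[X] K'' (mdl_sigma N c f)))
    (hunr : ∀ (p'' : Ideal O[X]) [p''.IsPrime], p''.height = 1 → mdl_sigma N c g ∉ p'' →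
      jt_Unram (el_bd_loc K'' p'') E'')
    (hdeg : IsUnit ((Module.finrank E E'' : ℕ) : O))
    (n : Ideal (integralClosure O[X] E)) [hn : n.IsMaximal]
    (hπn : algebraMap O[X] (integralClosure O[X] E) (C ϖ) ∈ n)
    (hgn : algebraMap O[X] (integralClosure O[X] E) g ∉ n) :
    (∃ u, tq_GenBy (algebraMap O[X] (integralClosure O[X] E) (C ϖ)) u n) ∧
      tq_Total (algebraMap O[X] (integralClosure O[X] E) (C ϖ)) n ∧
      tq_Dom (algebraMap O[X] (integralClosure O[X] E) (C ϖ)) n := by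
  letI aK'' : Algebra (mdl_PW O N c) K'' := inferInstanceAs (Algebra O[X] K'')
  haveI fK'' : IsFractionRing (mdl_PW O N c) K'' := inferInstanceAs (IsFractionRing O[X] K'')
  letI aE'' : Algebra (mdl_PW O N c) E'' :=
    ((algebraMap K'' E'').comp (algebraMap (mdl_PW O N c) K'')).toAlgebra
  haveI t1 : IsScalarTower (mdl_PW O N c) K'' E'' := IsScalarTower.of_algebraMap_eq fun _ => rfl
  haveI t2 : IsScalarTower O[X] (mdl_PW O N c) E'' :=
    IsScalarTower.of_algebraMap_eq fun f => hσE f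
  have hunr' : ∀ (p'' : Ideal (mdl_PW O N c)) [p''.IsPrime], p''.height = 1 →
      algebraMap O[X] (mdl_PW O N c) g ∉ p'' → jt_Unram (el_bd_loc K'' p'') E'' :=
    fun p'' hp h1 hgp => @hunr p'' hp h1 hgp
  exact mdl_cusp_poly_aux N c K E K'' E'' hϖ hN g hg hunr' hdeg n hπn hgn

end CuspPoly

end Fermat.Agent.JT3
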