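/-
JT3 node [MODEL-GEN], the Kummer fields (helper15; `mdl_`): generic field theory for
`K = L(x)`, `K'' = K(w)`, `w^N = x - a`.

* `mdl_transcendental_root` : `w` is transcendental over `L`;
* `mdl_adjoin_root_eq_top`  : `K'' = L(w)`;
* `mdl_hgen_of_adjoin`      : `E'' = E(w)` gives the `hgen` of `ti_seam_unram` for `(E, K'')`.
-/
import Mathlib

set_option autoImplicit false
set_option linter.unusedSectionVars false
set_option linter.style.haveILetI false

namespace Fermat.Agent.JT3

open Polynomial IntermediateField

section Root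

variable {L K F : Type*} [Field L] [Field K] [Field F] [Algebra L K] [Algebra K F] [Algebra L F]
  [IsScalarTower L K F]

/-- `w^N = x - a` with `x` transcendental over `L` and `a ∈ L`: `w` is transcendental over `L`. -/
theorem mdl_transcendental_root {x : K} (hx : Transcendental L x) {N : ℕ} {w : F} (a : L)
    (hw : w ^ N = algebraMap K F x - algebraMap L F a) : Transcendental L w := by
  intro hwalg
  apply hx
  have h1 : IsAlgebraic L (w ^ N + algebraMap L F a) :=
    (hwalg.pow N).add (isAlgebraic_algebraMap a)
  have h2 : w ^ N + algebraMap L F a = algebraMap K F x := by rw [hw]; ring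
  rw [h2] at h1
  exact (isAlgebraic_algebraMap_iff (algebraMap K F).injective).1 h1

/-- `K = L(x)`, `F = K(w)`, `w^N = x - a`: then `F = L(w)`. -/
theorem mdl_adjoin_root_eq_top {x : K} (hgenK : IntermediateField.adjoin L {x} = ⊤)
    {N : ℕ} {w : F} (a : L) (hw : w ^ N = algebraMap K F x - algebraMap L F a)
    (hgenF : IntermediateField.adjoin K {w} = ⊤) : IntermediateField.adjoin L {w} = ⊤ := by
  set T : IntermediateField L F := IntermediateField.adjoin L {w} with hT
  have hwT : w ∈ T := IntermediateField.mem_adjoin_simple_self L w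
  have hxT : algebraMap K F x ∈ T := by
    have h2 : algebraMap K F x = w ^ N + algebraMap L F a := by rw [hw]; ring
    rw [h2]
    exact T.add_mem (pow_mem hwT N) (T.algebraMap_mem a)
  have haeval : ∀ r : L[X], algebraMap K F (aeval x r) ∈ T := by
    intro r
    rw [← aeval_algebraMap_apply]
    rw [aeval_eq_sum_range]
    refine T.sum_mem fun i _ => ?_
    rw [Algebra.smul_def]
    exact T.mul_mem (T.algebraMap_mem _) (pow_mem hxT i)
  have hKT : ∀ b : K, algebraMap K F b ∈ T := by
    intro b
    have hb : b ∈ IntermediateField.adjoin L {x} := by rw [hgenK]; trivial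
    obtain ⟨r, s, rfl⟩ := (IntermediateField.mem_adjoin_simple_iff L b).1 hb
    rw [map_div₀]
    exact T.div_mem (haeval r) (haeval s)
  rw [eq_top_iff]
  intro z _
  have hz : z ∈ IntermediateField.adjoin K {w} := by rw [hgenF]; trivial
  obtain ⟨r, s, rfl⟩ := (IntermediateField.mem_adjoin_simple_iff K z).1 hz
  have haevalK : ∀ r : K[X], aeval w r ∈ T := by
    intro r
    rw [aeval_eq_sum_range]
    refine T.sum_mem fun i _ => ?_
    rw [Algebra.smul_def]
    exact T.mul_mem (hKT _) (pow_mem hwT i)
  exact T.div_mem (haevalK r) (haevalK s)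

end Root

section Hgen

variable {K E K2 E2 : Type*} [Field K] [Field E] [Field K2] [Field E2] [Algebra K E]
  [Algebra K K2] [Algebra K2 E2] [Algebra E E2] [Algebra K E2] [IsScalarTower K E E2]
  [IsScalarTower K K2 E2]

/-- `E'' = E(w)` with `w ∈ K''`: the compositum condition of `ti_seam_unram`. -/
theorem mdl_hgen_of_adjoin (w : K2)
    (hw : IntermediateField.adjoin E {algebraMap K2 E2 w} = ⊤) :
    IntermediateField.adjoin K
      (Set.range (algebraMap E E2) ∪ Set.range (algebraMap K2 E2)) = ⊤ := by
  set T : IntermediateField K E2 := IntermediateField.adjoin K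
      (Set.range (algebraMap E E2) ∪ Set.range (algebraMap K2 E2)) with hT
  have hE : ∀ e : E, algebraMap E E2 e ∈ T := fun e =>
    IntermediateField.subset_adjoin K _ (Or.inl ⟨e, rfl⟩)
  have hwT : algebraMap K2 E2 w ∈ T :=
    IntermediateField.subset_adjoin K _ (Or.inr ⟨w, rfl⟩)
  let T' : IntermediateField E E2 := Subfield.toIntermediateField T.toSubfield hE
  have hle : IntermediateField.adjoin E {algebraMap K2 E2 w} ≤ T' := by
    rw [IntermediateField.adjoin_simple_le_iff]
    exact hwT
  rw [eq_top_iff]
  intro z _
  have hz : z ∈ IntermediateField.adjoin E {algebraMap K2 E2 w} := by rw [hw]; trivial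
  exact hle hz

/-- `E = K(S)`, `E'' = E(w)` with `w ∈ K''`: then `E'' = K''(S)`. -/
theorem mdl_adjoin_image_eq_top (S : Set E) (hS : IntermediateField.adjoin K S = ⊤) (w : K2)
    (hw : IntermediateField.adjoin E {algebraMap K2 E2 w} = ⊤) :
    IntermediateField.adjoin K2 (algebraMap E E2 '' S) = ⊤ := by
  set T : IntermediateField K2 E2 := IntermediateField.adjoin K2 (algebraMap E E2 '' S) with hT
  have hK : ∀ a : K, algebraMap E E2 (algebraMap K E a) ∈ T := by
    intro a
    rw [← IsScalarTower.algebraMap_apply K E E2, IsScalarTower.algebraMap_apply K K2 E2]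
    exact T.algebraMap_mem _
  have hE : ∀ e : E, algebraMap E E2 e ∈ T := by
    intro e
    have he : e ∈ IntermediateField.adjoin K S := by rw [hS]; trivial
    induction he using IntermediateField.adjoin_induction with
    | mem x hx => exact IntermediateField.subset_adjoin K2 _ ⟨x, hx, rfl⟩
    | algebraMap a => exact hK a
    | add x y _ _ hx hy => rw [map_add]; exact T.add_mem hx hy
    | inv x _ hx => rw [map_inv₀]; exact T.inv_mem hx
    | mul x y _ _ hx hy => rw [map_mul]; exact T.mul_mem hx hy
  have hwT : algebraMap K2 E2 w ∈ T := T.algebraMap_mem w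
  let T' : IntermediateField E E2 := Subfield.toIntermediateField T.toSubfield hE
  have hle : IntermediateField.adjoin E {algebraMap K2 E2 w} ≤ T' := by
    rw [IntermediateField.adjoin_simple_le_iff]
    exact hwT
  rw [eq_top_iff]
  intro z _
  have hz : z ∈ IntermediateField.adjoin E {algebraMap K2 E2 w} := by rw [hw]; trivial
  exact hle hz

end Hgen

end Fermat.Agent.JT3
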