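/-
JT3 node [MODEL-GEN], function-field side (helper15; `mdl_`).

`mdl_isFractionRing` : `O` a domain with fraction field `L`, `F = L(y)` with `y` transcendental
over `L`: then `O[X] → F`, `X ↦ y`, is a fraction ring.
`mdl_charZero_residueField` : a local subring of a field containing a field of characteristic zero
has a residue field of characteristic zero.
-/
import Mathlib

set_option autoImplicit false
set_option linter.unusedSectionVars false
set_option linter.style.haveILetI false

namespace Fermat.Agent.JT3

open Polynomial

section Frac

variable {O L F : Type*} [CommRing O] [IsDomain O] [Field L] [Algebra O L] [IsFractionRing O L]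
  [Field F] [Algebra L F] [Algebra O[X] F]

/-- `Frac O[X] = L(y)` for `y` transcendental over `L = Frac O`. -/
theorem mdl_isFractionRing (y : F) (hy : Transcendental L y)
    (hgen : IntermediateField.adjoin L {y} = ⊤)
    (halg : ∀ f : O[X], algebraMap O[X] F f = aeval y (f.map (algebraMap O L))) :
    IsFractionRing O[X] F := by
  have hinj : Function.Injective (algebraMap O[X] F) := by
    rw [injective_iff_map_eq_zero]
    intro f hf
    rw [halg] at hf
    have h1 : f.map (algebraMap O L) = 0 :=
      (injective_iff_map_eq_zero _).1 (transcendental_iff_injective.1 hy) _ hf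
    exact Polynomial.map_injective _ (IsFractionRing.injective O L) (by rw [h1, Polynomial.map_zero])
  haveI : FaithfulSMul O[X] F := (faithfulSMul_iff_algebraMap_injective _ _).2 hinj
  refine IsFractionRing.of_field (R := O[X]) (K := F) (fun z => ?_)
  have hz : z ∈ IntermediateField.adjoin L {y} := by rw [hgen]; trivial
  obtain ⟨r, s, rfl⟩ := (IntermediateField.mem_adjoin_simple_iff L z).1 hz
  obtain ⟨br, hbr, hr⟩ := IsLocalization.integerNormalization_spec (nonZeroDivisors O) r
  obtain ⟨bs, hbs, hs⟩ := IsLocalization.integerNormalization_spec (nonZeroDivisors O) s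
  set r0 := IsLocalization.integerNormalization (nonZeroDivisors O) r
  set s0 := IsLocalization.integerNormalization (nonZeroDivisors O) s
  have hbr0 : algebraMap L F (algebraMap O L br) ≠ 0 := by
    rw [Ne, map_eq_zero, map_eq_zero_iff _ (IsFractionRing.injective O L)]
    exact nonZeroDivisors.ne_zero hbr
  have hbs0 : algebraMap L F (algebraMap O L bs) ≠ 0 := by
    rw [Ne, map_eq_zero, map_eq_zero_iff _ (IsFractionRing.injective O L)]
    exact nonZeroDivisors.ne_zero hbs
  have hr' : aeval y (r0.map (algebraMap O L)) = algebraMap L F (algebraMap O L br) * aeval y r := by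
    rw [hr, Algebra.smul_def, Polynomial.algebraMap_apply, map_mul, aeval_C]
  have hs' : aeval y (s0.map (algebraMap O L)) = algebraMap L F (algebraMap O L bs) * aeval y s := by
    rw [hs, Algebra.smul_def, Polynomial.algebraMap_apply, map_mul, aeval_C]
  refine ⟨C bs * r0, C br * s0, ?_⟩
  rw [halg, halg, Polynomial.map_mul, Polynomial.map_mul, Polynomial.map_C, Polynomial.map_C,
    map_mul, map_mul, aeval_C, aeval_C, hr', hs']
  rw [show algebraMap L F (algebraMap O L bs) * (algebraMap L F (algebraMap O L br) * aeval y r) =
      (algebraMap L F (algebraMap O L bs) * algebraMap L F (algebraMap O L br)) * aeval y r by ring,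
    show algebraMap L F (algebraMap O L br) * (algebraMap L F (algebraMap O L bs) * aeval y s) =
      (algebraMap L F (algebraMap O L bs) * algebraMap L F (algebraMap O L br)) * aeval y s by ring,
    mul_div_mul_left _ _ (mul_ne_zero hbs0 hbr0)]

end Frac

section Residue

/-- A local subring of a field which contains (the image of) a field of characteristic zero has
a residue field of characteristic zero. -/
theorem mdl_charZero_residueField {L F : Type*} [Field L] [CharZero L] [Field F] [Algebra L F]
    (V : Subring F) [IsLocalRing V] (hL : ∀ a : L, algebraMap L F a ∈ V) :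
    CharZero (IsLocalRing.ResidueField V) := by
  let φ : L →+* IsLocalRing.ResidueField V :=
    (IsLocalRing.residue V).comp ((algebraMap L F).codRestrict V hL)
  exact charZero_of_injective_ringHom φ.injective

end Residue

end Fermat.Agent.JT3
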