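/-
JT3 node [MODEL-GEN], unramifiedness in codimension one on the two polynomial bases
(helper15; `mdl_`).

* `mdl_unramX` : the étale chart.  `K = Frac O[X]`, `E/K`.  From (H) (unramified over every DVR
  `V2 ⊇ L` of `K` with `x ∈ V2` and all `x - c` units) and (V) (unramified over the Gauss DVR
  `O[X]_(ϖ)`): `E` is unramified over `O[X]_p` for every height-one prime `p ∌ ∏ (X - c)`.
* `mdl_unramW` : the cusp chart.  `K'' = Frac O[W] ⊇ K`, `x = w^N + c`, `E'' = E K''`.  From (H),
  (T) (`e ∣ N` over the DVR of the cusp `x = c`), (V'') and the seam [SEAM] (Abhyankar):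
  `E''` is unramified over `O[W]_p''` for every height-one prime `p'' ∌ ∏_{c' ≠ c} (W^N + c - c')`.
-/
import Mathlib
import Fermat.Agent.JT3.Seams
import Fermat.Agent.JT3.Model.PolyBase
import Fermat.Agent.JT3.Model.PolyChart
import Fermat.Agent.JT3.Model.GenericSubst
import Fermat.Agent.JT3.Model.GenericFrac
import Fermat.Agent.JT3.Cover.Ramification

set_option autoImplicit false
set_option linter.unusedSectionVars false
set_option linter.style.haveILetI false

namespace Fermat.Agent.JT3

open Polynomial IsLocalRing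

section Hyps

/-- **[SEAM]** (the statement of helper11's `ti_seam_unram`, for fixed fields), as a hypothesis:
`K ⊆ E, K''`, `E'' = E K''`; `V0` a Dedekind subring of `K`; if `e ∣ n` for all primes of `E` over
`V0` and `n ∣ e` for all primes of `K''` over `V0`, then `E''` is unramified over every DVR `V2` of
`K''` above `V0` of residue characteristic zero. -/
def mdl_SeamHyp (K E K'' E'' : Type*) [Field K] [Field E] [Field K''] [Field E'']
    [Algebra K E] [Algebra K K''] [Algebra K'' E''] : Prop :=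
  ∀ (V0 : Subring K) [IsDedekindDomain V0] [IsFractionRing V0 K] (n : ℕ),
    (∀ (P : Ideal (integralClosure V0 E)) [P.IsPrime], P ≠ ⊥ → P.ramificationIdx V0 ∣ n) →
    (∀ (P : Ideal (integralClosure V0 K'')) [P.IsPrime], P ≠ ⊥ → n ∣ P.ramificationIdx V0) →
    ∀ (V2 : Subring K'') [IsDiscreteValuationRing V2] [IsFractionRing V2 K''],
      (∀ a : V0, algebraMap K K'' a ∈ V2) → ∀ [CharZero (ResidueField V2)], jt_UnramAt V2 E''

end Hyps

section XSide

variable {O : Type*} [CommRing O] [IsDomain O] [IsDiscreteValuationRing O]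
  {L : Type*} [Field L] [Algebra O L] [IsFractionRing O L]
  (K E : Type*) [Field K] [Field E] [Algebra O[X] K] [IsFractionRing O[X] K] [Algebra L K]
  [Algebra K E] [Algebra O[X] E] [IsScalarTower O[X] K E]

/-- **Unramifiedness in codimension one on the étale chart.** -/
theorem mdl_unramX {ϖ : O} (hϖ : Irreducible ϖ)
    (hcK : ∀ a : O, algebraMap O[X] K (C a) = algebraMap L K (algebraMap O L a))
    (Cs : Finset O)
    (hH : ∀ (V2 : Subring K) [IsDiscreteValuationRing V2] [IsFractionRing V2 K],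
      (∀ a : L, algebraMap L K a ∈ V2) → algebraMap O[X] K X ∈ V2 →
      (∀ c ∈ Cs, (algebraMap O[X] K (X - C c))⁻¹ ∈ V2) → jt_UnramAt V2 E)
    (hvert : ∀ [(Ideal.span {(C ϖ : O[X])}).IsPrime],
      jt_Unram (el_bd_loc K (Ideal.span {(C ϖ : O[X])})) E)
    (p : Ideal O[X]) [hp : p.IsPrime] (hp1 : p.height = 1) (hh : ∏ c ∈ Cs, (X - C c) ∉ p) :
    jt_Unram (el_bd_loc K p) E := by
  have hprimeπ : Prime (C ϖ : O[X]) := prime_C_iff.2 hϖ.prime
  rcases el_bd_eq_span_or_notMem hprimeπ p hp1 with h | h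
  · subst h
    exact hvert
  · haveI hdvr : IsDiscreteValuationRing (el_bd_loc K p).toSubring := el_bd_loc_isDVR K p hp1
    haveI hfr : IsFractionRing (el_bd_loc K p).toSubring K := el_bd_loc_isFractionRing K p
    have hfac : ∀ c ∈ Cs, (X - C c : O[X]) ∉ p := by
      intro c hc hmem
      exact hh (Ideal.mem_of_dvd p (Finset.dvd_prod_of_mem (fun c => (X - C c : O[X])) hc) hmem)
    have h2 : jt_UnramAt (el_bd_loc K p).toSubring E :=
      hH (el_bd_loc K p).toSubring (fun a => el_pb_const_mem_loc O[X] K hϖ p h hcK a)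
        ((el_bd_loc K p).algebraMap_mem X) (fun c hc => el_bd_inv_mem K p hp1 (hfac c hc))
    exact h2

end XSide

section WSide

variable {O : Type*} [CommRing O] [IsDomain O] [IsDiscreteValuationRing O]
  {L : Type*} [Field L] [Algebra O L] [IsFractionRing O L] [CharZero L]
  (K E K'' E'' : Type*) [Field K] [Field E] [Field K''] [Field E'']
  [Algebra O[X] K] [IsFractionRing O[X] K] [Algebra L K] [Algebra K E] [FiniteDimensional K E]
  [Algebra O[X] K''] [IsFractionRing O[X] K''] [Algebra L K''] [Algebra K'' E'']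
  [Algebra K K''] [FiniteDimensional K K'']

/-- the generator of the maximal ideal of `O[X]_p`, `p = (g)`, is irreducible. -/
theorem mdl_irreducible_gen {R : Type*} [CommRing R] [IsDomain R] [IsNoetherianRing R]
    [IsIntegrallyClosed R] (F : Type*) [Field F] [Algebra R F] [IsFractionRing R F]
    (p : Ideal R) [hp : p.IsPrime] (hp1 : p.height = 1) {g : R} (hg : g ∈ p) (hgp : Prime g) :
    Irreducible (⟨algebraMap R F g, (el_bd_loc F p).algebraMap_mem g⟩ : el_bd_loc F p) := by
  haveI := el_bd_loc_isDVR F p hp1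
  have hpe := Ideal.eq_span_singleton_of_height_eq_one hp1 hg hgp
  have h1 : Ideal.map (algebraMap R (el_bd_loc F p)) p =
      Ideal.map (algebraMap R (el_bd_loc F p)) (Ideal.span {g}) := congrArg _ hpe
  rw [IsDiscreteValuationRing.irreducible_iff_uniformizer,
    ← IsLocalization.AtPrime.map_eq_maximalIdeal p (el_bd_loc F p), h1, Ideal.map_span,
    Set.image_singleton]
  rfl

/-- **Unramifiedness in codimension one on the cusp chart** (`W`-side; `O[X]` plays `O[W]`). -/
theorem mdl_unramW [DecidableEq O] {ϖ : O} (hϖ : Irreducible ϖ)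
    (hcK : ∀ a : O, algebraMap O[X] K (C a) = algebraMap L K (algebraMap O L a))
    (hcK'' : ∀ a : O, algebraMap O[X] K'' (C a) = algebraMap L K'' (algebraMap O L a))
    {N : ℕ} (hN : 0 < N) (c : O)
    (hσ : ∀ f : O[X],
      algebraMap K K'' (algebraMap O[X] K f) = algebraMap O[X] K'' (mdl_sigma N c f))
    (Cs : Finset O)
    (hH : ∀ (V2 : Subring K) [IsDiscreteValuationRing V2] [IsFractionRing V2 K],
      (∀ a : L, algebraMap L K a ∈ V2) → algebraMap O[X] K X ∈ V2 →
      (∀ c' ∈ Cs, (algebraMap O[X] K (X - C c'))⁻¹ ∈ V2) → jt_UnramAt V2 E)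
    (hT : ∀ (V2 : Subring K) [IsDiscreteValuationRing V2] [IsFractionRing V2 K],
      (∀ a : L, algebraMap L K a ∈ V2) → algebraMap O[X] K X ∈ V2 →
      (algebraMap O[X] K (X - C c))⁻¹ ∉ V2 →
      ∀ (P : Ideal (integralClosure V2 E)) [P.IsPrime], P ≠ ⊥ → P.ramificationIdx V2 ∣ N)
    (hseam : mdl_SeamHyp K E K'' E'')
    (hvert : ∀ [(Ideal.span {(C ϖ : O[X])}).IsPrime],
      jt_Unram (el_bd_loc K'' (Ideal.span {(C ϖ : O[X])})) E'')
    (p'' : Ideal O[X]) [hp'' : p''.IsPrime] (hp1 : p''.height = 1)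
    (hh : mdl_sigma N c (∏ c' ∈ Cs.erase c, (X - C c')) ∉ p'') :
    jt_Unram (el_bd_loc K'' p'') E'' := by
  classical
  haveI : CharZero K := charZero_of_injective_algebraMap (algebraMap L K).injective
  haveI : CharZero K'' := charZero_of_injective_algebraMap (algebraMap L K'').injective
  have hprimeπ : Prime (C ϖ : O[X]) := prime_C_iff.2 hϖ.prime
  rcases el_bd_eq_span_or_notMem hprimeπ p'' hp1 with h | hπp''
  · subst h
    exact hvert
  -- horizontal primes
  haveI hp : (p''.comap (mdl_sigma N c)).IsPrime := Ideal.comap_isPrime _ p''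
  have hp1' : (p''.comap (mdl_sigma N c)).height = 1 :=
    mdl_height_comap _ (mdl_sigma_injective c hN) (mdl_sigma_isIntegral c hN) p'' hp1
  have hπp : (C ϖ : O[X]) ∉ p''.comap (mdl_sigma N c) := by
    rw [Ideal.mem_comap, mdl_sigma_C]; exact hπp''
  -- the two DVRs
  haveI dV0 : IsDiscreteValuationRing (el_bd_loc K (p''.comap (mdl_sigma N c))).toSubring :=
    el_bd_loc_isDVR K _ hp1'
  haveI fV0 : IsFractionRing (el_bd_loc K (p''.comap (mdl_sigma N c))).toSubring K :=
    el_bd_loc_isFractionRing K _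
  haveI dV2 : IsDiscreteValuationRing (el_bd_loc K'' p'').toSubring := el_bd_loc_isDVR K'' p'' hp1
  haveI fV2 : IsFractionRing (el_bd_loc K'' p'').toSubring K'' := el_bd_loc_isFractionRing K'' p''
  have hLV0 : ∀ a : L, algebraMap L K a ∈ (el_bd_loc K (p''.comap (mdl_sigma N c))).toSubring :=
    fun a => el_pb_const_mem_loc O[X] K hϖ _ hπp hcK a
  have hLV2 : ∀ a : L, algebraMap L K'' a ∈ (el_bd_loc K'' p'').toSubring :=
    fun a => el_pb_const_mem_loc O[X] K'' hϖ p'' hπp'' hcK'' a
  haveI cz : CharZero (ResidueField (el_bd_loc K'' p'').toSubring) :=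
    mdl_charZero_residueField _ hLV2
  have hV0V2 : ∀ a : (el_bd_loc K (p''.comap (mdl_sigma N c))).toSubring,
      algebraMap K K'' a ∈ (el_bd_loc K'' p'').toSubring := by
    rintro ⟨a, ha⟩
    obtain ⟨f, s, hs, rfl⟩ := (el_bd_mem_loc K _ a).1 ha
    rw [map_mul, map_inv₀, hσ, hσ]
    exact (el_bd_mem_loc K'' p'' _).2 ⟨mdl_sigma N c f, mdl_sigma N c s, hs, rfl⟩
  have hxV0 : algebraMap O[X] K X ∈ (el_bd_loc K (p''.comap (mdl_sigma N c))).toSubring :=
    (el_bd_loc K _).algebraMap_mem X
  have hfac : ∀ c' ∈ Cs, c' ≠ c → (X - C c' : O[X]) ∉ p''.comap (mdl_sigma N c) := by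
    intro c' hc' hne hmem
    apply hh
    rw [map_prod]
    exact Ideal.mem_of_dvd p'' (Finset.dvd_prod_of_mem (fun c' => mdl_sigma N c (X - C c'))
      (Finset.mem_erase.2 ⟨hne, hc'⟩)) hmem
  suffices h2 : jt_UnramAt (el_bd_loc K'' p'').toSubring E'' from h2
  by_cases hX : (X : O[X]) ∈ p''
  · -- the cusp `x = c`
    have hmem : (X - C c : O[X]) ∈ p''.comap (mdl_sigma N c) := by
      rw [Ideal.mem_comap, mdl_sigma_X_sub_C_self]
      exact Ideal.pow_mem_of_mem p'' hX N hN
    have hne0 : (X - C c : O[X]) ≠ 0 := X_sub_C_ne_zero c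
    have hninv : (algebraMap O[X] K (X - C c))⁻¹ ∉
        (el_bd_loc K (p''.comap (mdl_sigma N c))).toSubring :=
      el_bd_inv_notMem K _ hp1' hmem hne0
    have h1 := hT _ hLV0 hxV0 hninv
    refine hseam _ N h1 ?_ _ hV0V2
    intro P hP hP0
    haveI : IsDedekindDomain (integralClosure
        (el_bd_loc K (p''.comap (mdl_sigma N c))).toSubring K'') :=
      integralClosure.isDedekindDomain _ K K''
    have hirr : Irreducible (⟨algebraMap O[X] K (X - C c), (el_bd_loc K _).algebraMap_mem _⟩ :
        (el_bd_loc K (p''.comap (mdl_sigma N c))).toSubring) :=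
      mdl_irreducible_gen K _ hp1' hmem (prime_X_sub_C c)
    have hinjPK : Function.Injective (algebraMap O[X] K) := IsFractionRing.injective _ _
    have hpow : (algebraMap O[X] K'' X) ^ N =
        algebraMap K K'' (algebraMap O[X] K (X - C c)) := by
      rw [hσ, mdl_sigma_X_sub_C_self, map_pow]
    have ht : algebraMap (el_bd_loc K (p''.comap (mdl_sigma N c))).toSubring K''
        (⟨algebraMap O[X] K (X - C c), (el_bd_loc K _).algebraMap_mem _⟩ :
          (el_bd_loc K (p''.comap (mdl_sigma N c))).toSubring) ≠ 0 := by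
      change algebraMap K K'' (algebraMap O[X] K (X - C c)) ≠ 0
      rw [Ne, map_eq_zero, map_eq_zero_iff _ hinjPK]
      exact hne0
    have hwint : IsIntegral (el_bd_loc K (p''.comap (mdl_sigma N c))).toSubring
        (algebraMap O[X] K'' X) := by
      refine IsIntegral.of_pow hN ?_
      rw [hpow]
      exact isIntegral_algebraMap (R := (el_bd_loc K (p''.comap (mdl_sigma N c))).toSubring)
        (x := ⟨algebraMap O[X] K (X - C c), (el_bd_loc K _).algebraMap_mem _⟩)
    refine cv_kummer_ram N (w := ⟨algebraMap O[X] K'' X, hwint⟩) hirr ht ?_ P hP0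
    apply Subtype.ext
    rw [SubmonoidClass.coe_pow]
    exact hpow.symm
  · -- off the cusps
    have hXc : (X - C c : O[X]) ∉ p''.comap (mdl_sigma N c) := by
      rw [Ideal.mem_comap, mdl_sigma_X_sub_C_self]
      exact fun h => hX (hp''.mem_of_pow_mem N h)
    have hun : jt_UnramAt (el_bd_loc K (p''.comap (mdl_sigma N c))).toSubring E :=
      hH _ hLV0 hxV0 (fun c' hc' => by
        by_cases hne : c' = c
        · subst hne; exact el_bd_inv_mem K _ hp1' hXc
        · exact el_bd_inv_mem K _ hp1' (hfac c' hc' hne))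
    refine hseam _ 1 ?_ (fun P _ _ => one_dvd _) _ hV0V2
    intro P hP hP0
    haveI : Module.Finite (el_bd_loc K (p''.comap (mdl_sigma N c))).toSubring
        (integralClosure (el_bd_loc K (p''.comap (mdl_sigma N c))).toSubring E) :=
      IsIntegralClosure.finite _ K E _
    haveI := hun P hP0
    rw [Ideal.ramificationIdx_eq_one_of_isUnramifiedAt]

end WSide

end Fermat.Agent.JT3
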