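/-
JT3 node [EL+], adapters around `el_pb_chart` (`PolyChart.lean`):

* `el_pb_unram_of_valuationSubring` : (H) in valuation-subring form gives the hypothesis of
  `el_pb_chart` at all horizontal primes;
* `el_pb_isFractionRing_of_transcendental` : `Frac A0[X] = L(t)`;
* `el_pb_genBy_equiv`, `el_pb_total_equiv`, `el_pb_dom_equiv` : transport of the local regularity
  predicates along a ring isomorphism;
* `el_pb_icEquiv` : integral closures over two base rings with the same image coincide.
-/
import Mathlib
import Fermat.Agent.JT3.Model.PolyChart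

set_option autoImplicit false
set_option linter.unusedSectionVars false
set_option linter.style.haveILetI false

namespace Fermat.Agent.JT3

open Polynomial IsLocalRing Module

section VForm

variable {A0 : Type*} [CommRing A0] [IsDomain A0] [IsDiscreteValuationRing A0] (h : A0[X])
  (K : Type*) [Field K] [Algebra A0[X] K] [IsFractionRing A0[X] K]
  (E : Type*) [Field E] [Algebra K E]
  {L : Type*} [Field L] [Algebra A0 L] [IsFractionRing A0 L] [Algebra L K]

/-- **(H) in valuation-subring form.** If `E` is unramified over every discrete valuation subring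
`V` of `K` containing `L`, `t = X` and `h(t)⁻¹`, then `E` is unramified over `A0[X]_p` for every
height-one prime `p` of `A0[X]` with `π ∉ p`, `h ∉ p`. -/
theorem el_pb_unram_of_valuationSubring {π : A0} (hπ : Irreducible π)
    (hC : ∀ a : A0, algebraMap A0[X] K (C a) = algebraMap L K (algebraMap A0 L a))
    (hH : ∀ V : ValuationSubring K, (∀ c : L, algebraMap L K c ∈ V) →
      IsDiscreteValuationRing V → algebraMap A0[X] K X ∈ V → (algebraMap A0[X] K h)⁻¹ ∈ V →
      jt_UnramAt V.toSubring E)
    (p : Ideal A0[X]) [p.IsPrime] (hp : p.height = 1) (hπp : C π ∉ p) (hhp : h ∉ p) :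
    jt_Unram (el_bd_loc K p) E := by
  have hL : ∀ c : L, algebraMap L K c ∈ el_bd_valuationSubring K p hp := fun c =>
    el_pb_const_mem_loc A0[X] K hπ p hπp hC c
  have hdvr : IsDiscreteValuationRing (el_bd_valuationSubring K p hp) := el_bd_loc_isDVR K p hp
  exact hH (el_bd_valuationSubring K p hp) hL hdvr (el_bd_algebraMap_mem K p hp X)
    (el_bd_inv_mem K p hp hhp)

end VForm

section Frac

/-- `Frac A0[X] = L(t)` for `t` transcendental over `L = Frac A0`. -/
theorem el_pb_isFractionRing_of_transcendental {A0 : Type*} [CommRing A0] [IsDomain A0]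
    {L : Type*} [Field L] [Algebra A0 L] [IsFractionRing A0 L]
    {K : Type*} [Field K] [Algebra L K] [Algebra A0 K] [IsScalarTower A0 L K]
    [Algebra A0[X] K] (t : K) (hX : ∀ f : A0[X], algebraMap A0[X] K f = aeval t f)
    (ht : Transcendental L t) (hK : IntermediateField.adjoin L {t} = ⊤) :
    IsFractionRing A0[X] K := by
  have htA : Transcendental A0 t := ht.restrictScalars (IsFractionRing.injective A0 L)
  have hinj : Function.Injective (algebraMap A0[X] K) := by
    intro f g hfg
    rw [hX, hX] at hfg
    exact transcendental_iff_injective.1 htA hfg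
  haveI : FaithfulSMul A0[X] K := (faithfulSMul_iff_algebraMap_injective _ _).2 hinj
  refine IsFractionRing.of_field (R := A0[X]) (K := K) fun z => ?_
  have hz : z ∈ IntermediateField.adjoin L {t} := hK ▸ IntermediateField.mem_top
  obtain ⟨r, s, rfl⟩ := (IntermediateField.mem_adjoin_simple_iff L z).1 hz
  obtain ⟨br, hbrM, hbr⟩ := IsLocalization.integerNormalization_spec (nonZeroDivisors A0) r
  obtain ⟨bs, hbsM, hbs⟩ := IsLocalization.integerNormalization_spec (nonZeroDivisors A0) s
  set r' := IsLocalization.integerNormalization (nonZeroDivisors A0) r with hr'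
  set s' := IsLocalization.integerNormalization (nonZeroDivisors A0) s with hs'
  have h1 : aeval t r' = algebraMap A0 K br * aeval t r := by
    rw [← aeval_map_algebraMap L t r', hbr, ← algebraMap_smul L br r, map_smul, Algebra.smul_def,
      ← IsScalarTower.algebraMap_apply]
  have h2 : aeval t s' = algebraMap A0 K bs * aeval t s := by
    rw [← aeval_map_algebraMap L t s', hbs, ← algebraMap_smul L bs s, map_smul, Algebra.smul_def,
      ← IsScalarTower.algebraMap_apply]
  have hbr0 : algebraMap A0 K br ≠ 0 := by
    rw [IsScalarTower.algebraMap_apply A0 L K]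
    exact (map_ne_zero_iff _ (algebraMap L K).injective).2
      ((map_ne_zero_iff _ (IsFractionRing.injective A0 L)).2 (nonZeroDivisors.ne_zero hbrM))
  have hbs0 : algebraMap A0 K bs ≠ 0 := by
    rw [IsScalarTower.algebraMap_apply A0 L K]
    exact (map_ne_zero_iff _ (algebraMap L K).injective).2
      ((map_ne_zero_iff _ (IsFractionRing.injective A0 L)).2 (nonZeroDivisors.ne_zero hbsM))
  refine ⟨C bs * r', C br * s', ?_⟩
  rw [hX, hX, map_mul, map_mul, aeval_C, aeval_C, h1, h2]
  rw [show algebraMap A0 K bs * (algebraMap A0 K br * aeval t r) =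
      (algebraMap A0 K bs * algebraMap A0 K br) * aeval t r by ring,
    show algebraMap A0 K br * (algebraMap A0 K bs * aeval t s) =
      (algebraMap A0 K bs * algebraMap A0 K br) * aeval t s by ring,
    mul_div_mul_left _ _ (mul_ne_zero hbs0 hbr0)]

end Frac

section TqEquiv

variable {B B' : Type*} [CommRing B] [CommRing B'] (e : B ≃+* B')

theorem el_pb_map_span_pair (a b : B) :
    (Ideal.span {a, b}).map (e : B →+* B') = Ideal.span {e a, e b} := by
  rw [Ideal.map_span, Set.image_pair]; rfl

theorem el_pb_map_span_singleton (a : B) :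
    (Ideal.span {a}).map (e : B →+* B') = Ideal.span {e a} := by
  rw [Ideal.map_span, Set.image_singleton]; rfl

theorem el_pb_genBy_equiv {π u : B} (n' : Ideal B')
    (hg : tq_GenBy π u (n'.comap (e : B →+* B'))) : tq_GenBy (e π) (e u) n' := by
  obtain ⟨hπ, hu, hgen⟩ := hg
  refine ⟨hπ, hu, fun x' hx' => ?_⟩
  have hx : e.symm x' ∈ n'.comap (e : B →+* B') := by
    rw [Ideal.mem_comap]; simpa using hx'
  obtain ⟨s, hs, hmem⟩ := hgen _ hx
  refine ⟨e s, fun hc => hs (by rw [Ideal.mem_comap]; exact hc), ?_⟩
  have := Ideal.mem_map_of_mem (e : B →+* B') hmem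
  rw [el_pb_map_span_pair] at this
  simpa using this

theorem el_pb_total_equiv {π : B} (n' : Ideal B')
    (ht : tq_Total π (n'.comap (e : B →+* B'))) : tq_Total (e π) n' := by
  intro a' b'
  obtain ⟨s, hs, hor⟩ := ht (e.symm a') (e.symm b')
  refine ⟨e s, fun hc => hs (by rw [Ideal.mem_comap]; exact hc), ?_⟩
  rcases hor with hor | hor
  · left
    have := Ideal.mem_map_of_mem (e : B →+* B') hor
    rw [el_pb_map_span_pair] at this
    simpa using this
  · right
    have := Ideal.mem_map_of_mem (e : B →+* B') hor
    rw [el_pb_map_span_pair] at this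
    simpa using this

theorem el_pb_dom_equiv {π : B} (n' : Ideal B')
    (hd : tq_Dom π (n'.comap (e : B →+* B'))) : tq_Dom (e π) n' := by
  intro a' b' hab
  have hab' : e.symm a' * e.symm b' ∈ Ideal.span {π} := by
    have := Ideal.mem_map_of_mem (e.symm : B' →+* B) hab
    rw [el_pb_map_span_singleton] at this
    simpa using this
  obtain ⟨s, hs, hor⟩ := hd _ _ hab'
  refine ⟨e s, fun hc => hs (by rw [Ideal.mem_comap]; exact hc), ?_⟩
  rcases hor with hor | hor
  · left
    have := Ideal.mem_map_of_mem (e : B →+* B') hor
    rw [el_pb_map_span_singleton] at this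
    simpa using this
  · right
    have := Ideal.mem_map_of_mem (e : B →+* B') hor
    rw [el_pb_map_span_singleton] at this
    simpa using this

end TqEquiv

section ICEquiv

variable {P P' E : Type*} [CommRing P] [CommRing P'] [CommRing E] [Algebra P E] [Algebra P' E]

theorem el_pb_isIntegral_of_range_le {Q Q' E : Type*} [CommRing Q] [CommRing Q'] [CommRing E]
    [Algebra Q E] [Algebra Q' E] (hle : (algebraMap Q E).range ≤ (algebraMap Q' E).range) {x : E}
    (hx : IsIntegral Q x) : IsIntegral Q' x := by
  obtain ⟨p, hp, hpx⟩ := hx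
  -- integral over the range of `Q`, hence over the range of `Q'`
  have h1 : IsIntegral (algebraMap Q E).range x := by
    refine ⟨p.map (algebraMap Q E).rangeRestrict, hp.map _, ?_⟩
    rw [eval₂_map]
    exact hpx
  have h2 : IsIntegral (algebraMap Q' E).range x := by
    obtain ⟨q, hq, hqx⟩ := h1
    refine ⟨q.map (Subring.inclusion hle), hq.map _, ?_⟩
    rw [eval₂_map]
    exact hqx
  -- lift a monic polynomial along the surjection `Q' → range`
  obtain ⟨q, hq, hqx⟩ := h2
  obtain ⟨q', hq', -, hq'monic⟩ := Polynomial.lifts_and_natDegree_eq_and_monic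
    ((Polynomial.mem_lifts _).2 (Polynomial.map_surjective _
      (algebraMap Q' E).rangeRestrict_surjective q)) hq
  refine ⟨q', hq'monic, ?_⟩
  rw [← hq', eval₂_map] at hqx
  exact hqx

/-- integrality only depends on the image of the base ring. -/
theorem el_pb_isIntegral_iff_of_range_eq
    (hr : (algebraMap P E).range = (algebraMap P' E).range) (x : E) :
    IsIntegral P x ↔ IsIntegral P' x :=
  ⟨el_pb_isIntegral_of_range_le hr.le, el_pb_isIntegral_of_range_le hr.ge⟩

/-- The two integral closures coincide as rings when the base rings have the same image. -/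
noncomputable def el_pb_icEquiv (hr : (algebraMap P E).range = (algebraMap P' E).range) :
    integralClosure P E ≃+* integralClosure P' E where
  toFun x := ⟨x.1, (el_pb_isIntegral_iff_of_range_eq hr x.1).1 x.2⟩
  invFun x := ⟨x.1, (el_pb_isIntegral_iff_of_range_eq hr x.1).2 x.2⟩
  left_inv _ := rfl
  right_inv _ := rfl
  map_mul' _ _ := rfl
  map_add' _ _ := rfl

@[simp]
theorem el_pb_icEquiv_coe (hr : (algebraMap P E).range = (algebraMap P' E).range)
    (x : integralClosure P E) : ((el_pb_icEquiv hr x : integralClosure P' E) : E) = x := rfl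

end ICEquiv

end Fermat.Agent.JT3
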