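/-
JT3 node [EL+]: the étale half of the generic model theorem `mdl_regAt` (architect's #1384 (1)),
stated in its vocabulary (`fc_chart O {x}`, `K = L(x)`, hypotheses (V), (H) on discrete valuation
subrings of `K`).  The polynomial ring `O[X]`, the chart base `R(h)` and all localisations are
internal to the proof (`PolyBase`, `PolyChart`, `PolyChart2`).

* `el_pb_mdl_chart` : arbitrary `h ∈ O[X]` with `h̄ ≠ 0`: regularity at the maximal ideals
  containing `ϖ` and not `h(x)`;
* `el_pb_mdl_etale` : `h = ∏_{c ∈ Cs} (X - c)`.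
-/
import Mathlib
import Fermat.Agent.JT3.Model.PolyChart2
import Fermat.Agent.JT3.FCore.Charts

set_option autoImplicit false
set_option linter.unusedSectionVars false
set_option linter.style.haveILetI false

namespace Fermat.Agent.JT3

open Polynomial IsLocalRing Module

section MdlEtale

variable {O L : Type*} [CommRing O] [IsDomain O] [IsDiscreteValuationRing O]
  [Field L] [Algebra O L] [IsFractionRing O L] [CharZero L]
  {K E : Type*} [Field K] [Field E] [Algebra L K] [Algebra K E] [Algebra L E]
  [IsScalarTower L K E] [Algebra O K] [Algebra O E] [IsScalarTower O L K] [IsScalarTower O L E]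
  [IsScalarTower O K E] [FiniteDimensional K E]

/-- **The étale chart in the vocabulary of `mdl_regAt`, arbitrary `h`.** Regularity of the chart
`fc_chart O {x}` at the maximal ideals containing `ϖ` and not `h(x)`, from (V) unramifiedness over
the Gauss ring of `K = L(x)` and (H) unramifiedness over the discrete valuation rings of `K / L`
containing `x` and `h(x)⁻¹`. -/
theorem el_pb_mdl_chart {ϖ : O} (hϖ : Irreducible ϖ)
    (x : K) (hx : Transcendental L x) (hgenK : IntermediateField.adjoin L {x} = ⊤)
    (h : O[X]) (hh : h.map (residue O) ≠ 0)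
    (hV : ∀ (V : Subring K) [IsDiscreteValuationRing V] [IsFractionRing V K], x ∈ V →
      (∀ a : O[X], a.map (residue O) ≠ 0 → (aeval x a)⁻¹ ∈ V) → (algebraMap O K ϖ)⁻¹ ∉ V →
      jt_UnramAt V E)
    (hH : ∀ (V2 : Subring K) [IsDiscreteValuationRing V2] [IsFractionRing V2 K],
      (∀ a : L, algebraMap L K a ∈ V2) → x ∈ V2 → (aeval x h)⁻¹ ∈ V2 → jt_UnramAt V2 E)
    (n : Ideal (fc_chart O ({algebraMap K E x} : Set E))) [hn : n.IsMaximal]
    (hπn : algebraMap O (fc_chart O ({algebraMap K E x} : Set E)) ϖ ∈ n)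
    (hhn : ∀ y : fc_chart O ({algebraMap K E x} : Set E),
      (y : E) = aeval (algebraMap K E x) h → y ∉ n) :
    (∃ u, tq_GenBy (algebraMap O (fc_chart O ({algebraMap K E x} : Set E)) ϖ) u n) ∧
      tq_Total (algebraMap O (fc_chart O ({algebraMap K E x} : Set E)) ϖ) n ∧
      tq_Dom (algebraMap O (fc_chart O ({algebraMap K E x} : Set E)) ϖ) n := by
  classical
  haveI : CharZero K := charZero_of_injective_algebraMap (algebraMap L K).injective
  haveI : Algebra.IsSeparable K E := inferInstance
  letI aK : Algebra O[X] K := (aeval x : O[X] →ₐ[O] K).toRingHom.toAlgebra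
  letI aE : Algebra O[X] E := ((algebraMap K E).comp (algebraMap O[X] K)).toAlgebra
  haveI tw : IsScalarTower O[X] K E := IsScalarTower.of_algebraMap_eq fun _ => rfl
  have hX : ∀ f : O[X], algebraMap O[X] K f = aeval x f := fun _ => rfl
  have hXE : ∀ f : O[X], algebraMap O[X] E f = aeval (algebraMap K E x) f := fun f => by
    rw [IsScalarTower.algebraMap_apply O[X] K E, hX, aeval_algebraMap_apply]
  haveI hfr : IsFractionRing O[X] K := el_pb_isFractionRing_of_transcendental x hX hx hgenK
  have hCK : ∀ a : O, algebraMap O[X] K (Polynomial.C a) = algebraMap L K (algebraMap O L a) :=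
    fun a => by rw [hX, aeval_C, IsScalarTower.algebraMap_apply O L K]
  have hh' : el_pb_red h ≠ 0 := hh
  have hπprime : Prime (Polynomial.C ϖ : O[X]) := Polynomial.prime_C_iff.2 hϖ.prime
  -- the ramification hypothesis of `el_pb_chart`
  have hunr : ∀ (p : Ideal O[X]) [p.IsPrime], p.height = 1 → h ∉ p →
      jt_Unram (el_bd_loc K p) E := by
    intro p hp hp1 hhp
    have hdvr : IsDiscreteValuationRing (el_bd_loc K p).toSubring := el_bd_loc_isDVR K p hp1
    have hfrac : IsFractionRing (el_bd_loc K p).toSubring K := el_bd_loc_isFractionRing K p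
    have hxV : x ∈ (el_bd_loc K p).toSubring := by
      have := (el_bd_loc K p).algebraMap_mem (X : O[X])
      rwa [hX, aeval_X] at this
    rcases el_bd_eq_span_or_notMem hπprime p hp1 with hpe | hπp
    · -- the Gauss prime
      refine hV (el_bd_loc K p).toSubring hxV ?_ ?_
      · intro a ha
        have hap : a ∉ p := by
          rw [hpe, ← el_pb_ker_red hϖ, RingHom.mem_ker]
          exact ha
        have := el_bd_inv_mem K p hp1 hap
        rwa [hX] at this
      · have hmem : Polynomial.C ϖ ∈ p := hpe ▸ Ideal.mem_span_singleton_self _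
        have := el_bd_inv_notMem K p hp1 hmem hπprime.ne_zero
        rwa [hX, aeval_C] at this
    · -- horizontal primes
      refine hH (el_bd_loc K p).toSubring (fun a => el_pb_const_mem_loc O[X] K hϖ p hπp hCK a)
        hxV ?_
      have := el_bd_inv_mem K p hp1 hhp
      rwa [hX] at this
  -- the two presentations of the chart
  have hr : (algebraMap O[X] E).range =
      (algebraMap (Algebra.adjoin O ({algebraMap K E x} : Set E)) E).range := by
    ext z
    constructor
    · rintro ⟨f, rfl⟩
      rw [hXE]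
      have : aeval (algebraMap K E x) f ∈ Algebra.adjoin O ({algebraMap K E x} : Set E) := by
        rw [Algebra.adjoin_singleton_eq_range_aeval]; exact ⟨f, rfl⟩
      exact ⟨⟨_, this⟩, rfl⟩
    · rintro ⟨⟨y, hy⟩, rfl⟩
      rw [Algebra.adjoin_singleton_eq_range_aeval] at hy
      obtain ⟨f, rfl⟩ := hy
      exact ⟨f, hXE f⟩
  let e := el_pb_icEquiv hr
  let n' : Ideal (integralClosure (Algebra.adjoin O ({algebraMap K E x} : Set E)) E) := n
  have hn' : n'.IsMaximal := hn
  haveI hn0 : (n'.comap (e : integralClosure O[X] E →+*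
      integralClosure (Algebra.adjoin O ({algebraMap K E x} : Set E)) E)).IsMaximal :=
    Ideal.comap_isMaximal_of_surjective (e : integralClosure O[X] E →+*
      integralClosure (Algebra.adjoin O ({algebraMap K E x} : Set E)) E) e.surjective
  -- `π`
  have heπ : e (algebraMap O[X] (integralClosure O[X] E) (Polynomial.C ϖ)) =
      algebraMap O (fc_chart O ({algebraMap K E x} : Set E)) ϖ := by
    apply Subtype.ext
    change algebraMap O[X] E (Polynomial.C ϖ) = algebraMap O E ϖ
    rw [hXE, aeval_C]
  have hπn0 : algebraMap O[X] (integralClosure O[X] E) (Polynomial.C ϖ) ∈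
      n'.comap (e : _ →+* _) := by
    rw [Ideal.mem_comap]
    change e _ ∈ n'
    rw [heπ]; exact hπn
  have hhn0 : algebraMap O[X] (integralClosure O[X] E) h ∉ n'.comap (e : _ →+* _) := by
    rw [Ideal.mem_comap]
    change ¬ (e _ ∈ n')
    refine hhn _ ?_
    change algebraMap O[X] E h = _
    rw [hXE]
  obtain ⟨⟨u, hu⟩, htot, hdom⟩ :=
    el_pb_chart h K E hϖ hh' hunr (n'.comap (e : _ →+* _)) hπn0 hhn0
  have h1 := el_pb_genBy_equiv e n' hu
  have h2 := el_pb_total_equiv e n' htot
  have h3 := el_pb_dom_equiv e n' hdom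
  rw [heπ] at h1 h2 h3
  exact ⟨⟨e u, h1⟩, h2, h3⟩

/-- **The étale half of `mdl_regAt`** (architect's #1384 (1)), in its vocabulary: regularity of the
chart `fc_chart O {x}` at the maximal ideals containing `ϖ` and none of the `x - c`, `c ∈ Cs`, from
(V) unramifiedness over the Gauss ring of `K = L(x)` and (H) unramifiedness over the discrete
valuation rings of `K / L` containing `x` and the `(x - c)⁻¹`. -/
theorem el_pb_mdl_etale {ϖ : O} (hϖ : Irreducible ϖ)
    (x : K) (hx : Transcendental L x) (hgenK : IntermediateField.adjoin L {x} = ⊤)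
    (Cs : Finset O)
    (hV : ∀ (V : Subring K) [IsDiscreteValuationRing V] [IsFractionRing V K], x ∈ V →
      (∀ a : O[X], a.map (residue O) ≠ 0 → (aeval x a)⁻¹ ∈ V) → (algebraMap O K ϖ)⁻¹ ∉ V →
      jt_UnramAt V E)
    (hH : ∀ (V2 : Subring K) [IsDiscreteValuationRing V2] [IsFractionRing V2 K],
      (∀ a : L, algebraMap L K a ∈ V2) → x ∈ V2 →
      (∀ c ∈ Cs, (x - algebraMap O K c)⁻¹ ∈ V2) → jt_UnramAt V2 E)
    (n : Ideal (fc_chart O ({algebraMap K E x} : Set E))) [hn : n.IsMaximal]
    (hπn : algebraMap O (fc_chart O ({algebraMap K E x} : Set E)) ϖ ∈ n)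
    (hcn : ∀ c ∈ Cs, ∀ y : fc_chart O ({algebraMap K E x} : Set E),
      (y : E) = algebraMap K E x - algebraMap O E c → y ∉ n) :
    (∃ u, tq_GenBy (algebraMap O (fc_chart O ({algebraMap K E x} : Set E)) ϖ) u n) ∧
      tq_Total (algebraMap O (fc_chart O ({algebraMap K E x} : Set E)) ϖ) n ∧
      tq_Dom (algebraMap O (fc_chart O ({algebraMap K E x} : Set E)) ϖ) n := by
  classical
  set h : O[X] := ∏ c ∈ Cs, (X - Polynomial.C c) with hh_def
  have hmonic : h.Monic := monic_prod_of_monic _ _ fun c _ => monic_X_sub_C c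
  have hh : h.map (residue O) ≠ 0 := (hmonic.map _).ne_zero
  have hval : aeval x h = ∏ c ∈ Cs, (x - algebraMap O K c) := by
    rw [hh_def, map_prod]
    refine Finset.prod_congr rfl fun c _ => ?_
    rw [map_sub, aeval_X, aeval_C]
  refine el_pb_mdl_chart hϖ x hx hgenK h hh hV (fun V2 _ _ hL hxV hinv => ?_) n hπn ?_
  · refine hH V2 hL hxV fun c hc => ?_
    -- `(x - c)⁻¹ = h(x)⁻¹ * ∏_{c' ≠ c} (x - c')`
    rw [hval] at hinv
    have hmem : ∀ c' ∈ Cs, (x - algebraMap O K c') ∈ V2 := fun c' _ =>
      V2.sub_mem hxV (by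
        rw [IsScalarTower.algebraMap_apply O L K]; exact hL _)
    have hne : ∀ c' ∈ Cs, x - algebraMap O K c' ≠ 0 := by
      intro c' _ hc'0
      have : x = algebraMap L K (algebraMap O L c') := by
        rw [← IsScalarTower.algebraMap_apply O L K]; exact sub_eq_zero.1 hc'0
      exact hx (this ▸ isAlgebraic_algebraMap _)
    have hP' : ∏ c' ∈ Cs.erase c, (x - algebraMap O K c') ≠ 0 :=
      Finset.prod_ne_zero_iff.2 fun c' hc' => hne c' (Finset.mem_of_mem_erase hc')
    have hsplit : (x - algebraMap O K c)⁻¹ =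
        (∏ c' ∈ Cs, (x - algebraMap O K c'))⁻¹ * ∏ c' ∈ Cs.erase c, (x - algebraMap O K c') := by
      rw [← Finset.mul_prod_erase Cs _ hc, mul_inv, mul_assoc, inv_mul_cancel₀ hP', mul_one]
    rw [hsplit]
    exact V2.mul_mem hinv (Subring.prod_mem V2 fun c' hc' =>
      hmem c' (Finset.mem_of_mem_erase hc'))
  · -- `h(x) ∈ n` would put some `x - c` in `n`
    intro y hy hyn
    have hxmem : algebraMap K E x ∈ fc_chart O ({algebraMap K E x} : Set E) :=
      fc_adjoin_le_chart _ (Algebra.subset_adjoin (Set.mem_singleton _))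
    let yc : O → fc_chart O ({algebraMap K E x} : Set E) := fun c =>
      ⟨algebraMap K E x, hxmem⟩ - algebraMap O _ c
    have hyprod : y = ∏ c ∈ Cs, yc c := by
      apply Subtype.ext
      rw [hy, hh_def, map_prod]
      have : ((∏ c ∈ Cs, yc c : fc_chart O ({algebraMap K E x} : Set E)) : E) =
          ∏ c ∈ Cs, ((yc c : fc_chart O ({algebraMap K E x} : Set E)) : E) := by
        rw [← Subalgebra.coe_val, map_prod]
      rw [this]
      refine Finset.prod_congr rfl fun c _ => ?_
      rw [map_sub, aeval_X, aeval_C]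
      rfl
    rw [hyprod] at hyn
    obtain ⟨c, hc, hcmem⟩ := (hn.isPrime.prod_mem_iff).1 hyn
    exact hcn c hc (yc c) rfl hcmem

end MdlEtale

end Fermat.Agent.JT3
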