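/-
JT3 node R4b: the Kummer extension `E'' = E(w)`, `w ^ N = t ∈ E`, over a field containing a
primitive `N`-th root of unity: it is Galois and its degree divides `N` (no irreducibility
hypothesis on `X ^ N - t`).  These are the hypotheses `IsGalois E E''` and `hdeg` of
`tc_descend_galois` / `tc_cusp` / `tc_cusp_global`.
-/
import Mathlib

set_option autoImplicit false
set_option linter.unusedSectionVars false
set_option linter.style.haveILetI false

namespace Fermat.Agent.JT3

open Polynomial IntermediateField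

section Kummer

variable {E E'' : Type*} [Field E] [Field E''] [Algebra E E''] {N : ℕ} {ζ : E} {w : E''} {t : E}

/-- every automorphism multiplies `w` by an `N`-th root of unity of the base field. -/
theorem tc_kummer_exists (hN : 0 < N) (hζ : IsPrimitiveRoot ζ N) (hw0 : w ≠ 0)
    (hw : w ^ N = algebraMap E E'' t) (σ : E'' ≃ₐ[E] E'') :
    ∃ c : E, c ^ N = 1 ∧ σ w = algebraMap E E'' c * w := by
  haveI : NeZero N := ⟨hN.ne'⟩
  have h1 : (σ w / w) ^ N = 1 := by
    rw [div_pow, ← map_pow, hw, AlgEquiv.commutes, div_self]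
    rw [← hw]; exact pow_ne_zero _ hw0
  have hζ' : IsPrimitiveRoot (algebraMap E E'' ζ) N :=
    hζ.map_of_injective (algebraMap E E'').injective
  obtain ⟨i, _, hi⟩ := hζ'.eq_pow_of_pow_eq_one h1
  refine ⟨ζ ^ i, by rw [← pow_mul, mul_comm, pow_mul, hζ.pow_eq_one, one_pow], ?_⟩
  rw [map_pow, hi, div_mul_cancel₀ _ hw0]

/-- **`E(w)/E` is Galois.** -/
theorem tc_kummer_isGalois (hN : (N : E) ≠ 0) (hζ : IsPrimitiveRoot ζ N) (ht : t ≠ 0)
    (hw : w ^ N = algebraMap E E'' t) (hgen : E⟮w⟯ = ⊤) : IsGalois E E'' := by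
  have hN0 : 0 < N := by
    rcases Nat.eq_zero_or_pos N with h | h
    · exfalso; apply hN; rw [h, Nat.cast_zero]
    · exact h
  have hsep : (X ^ N - C t : E[X]).Separable := separable_X_pow_sub_C t hN ht
  have hwalg : IsAlgebraic E w := by
    refine ⟨X ^ N - C t, X_pow_sub_C_ne_zero hN0 t, ?_⟩
    simp [hw]
  have hsplit : IsSplittingField E E'' (X ^ N - C t) := by
    constructor
    · rw [Polynomial.map_sub, Polynomial.map_pow, Polynomial.map_C, Polynomial.map_X]
      exact X_pow_sub_C_splits_of_isPrimitiveRoot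
        (hζ.map_of_injective (algebraMap E E'').injective) hw
    · rw [eq_top_iff, ← IntermediateField.top_toSubalgebra, ← hgen,
        IntermediateField.adjoin_simple_toSubalgebra_of_isAlgebraic hwalg]
      apply Algebra.adjoin_mono
      rw [Set.singleton_subset_iff, mem_rootSet_of_ne (X_pow_sub_C_ne_zero hN0 t),
        aeval_def, eval₂_sub, eval₂_X_pow, eval₂_C, hw, sub_self]
  exact IsGalois.of_separable_splitting_field hsep

/-- **The degree of `E(w)/E` divides `N`.** -/
theorem tc_kummer_finrank_dvd [FiniteDimensional E E''] [IsGalois E E''] (hN : 0 < N)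
    (hζ : IsPrimitiveRoot ζ N) (hw0 : w ≠ 0) (hw : w ^ N = algebraMap E E'' t)
    (hgen : E⟮w⟯ = ⊤) : Module.finrank E E'' ∣ N := by
  classical
  haveI : NeZero N := ⟨hN.ne'⟩
  choose c hc1 hc2 using tc_kummer_exists hN hζ hw0 hw
  have hc0 : ∀ σ, c σ ≠ 0 := by
    intro σ h
    have := hc1 σ
    rw [h, zero_pow hN.ne'] at this
    exact zero_ne_one this
  have hmul : ∀ σ τ, c (σ * τ) = c σ * c τ := by
    intro σ τ
    apply (algebraMap E E'').injective
    have : algebraMap E E'' (c (σ * τ)) * w = algebraMap E E'' (c σ * c τ) * w := by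
      rw [← hc2, AlgEquiv.mul_apply, hc2 τ, map_mul, AlgEquiv.commutes, hc2 σ, map_mul]; ring
    exact mul_right_cancel₀ hw0 this
  let f : (E'' ≃ₐ[E] E'') →* rootsOfUnity N E :=
    MonoidHom.mk' (fun σ => ⟨Units.mk0 (c σ) (hc0 σ), by
      rw [mem_rootsOfUnity]; ext; simp [hc1 σ]⟩) (by
      intro σ τ; ext; simp [hmul])
  have hwalg : IsAlgebraic E w := IsAlgebraic.of_finite E w
  have hadj : Algebra.adjoin E ({w} : Set E'') = ⊤ := by
    rw [← IntermediateField.adjoin_simple_toSubalgebra_of_isAlgebraic hwalg, hgen,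
      IntermediateField.top_toSubalgebra]
  have hinj : Function.Injective f := by
    rw [injective_iff_map_eq_one]
    intro σ hσ
    have hcσ : c σ = 1 := by
      have := congrArg (fun x : rootsOfUnity N E => ((x : Eˣ) : E)) hσ
      simpa [f] using this
    have hσw : σ w = w := by rw [hc2, hcσ, map_one, one_mul]
    have h2 : (σ : E'' →ₐ[E] E'') = AlgHom.id E E'' := by
      apply AlgHom.ext_of_adjoin_eq_top hadj
      intro x hx
      rw [Set.mem_singleton_iff] at hx
      subst hx
      exact hσw
    ext x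
    have := congrArg (fun g : E'' →ₐ[E] E'' => g x) h2
    simpa using this
  have h3 := Subgroup.card_dvd_of_injective f hinj
  rw [hζ.card_rootsOfUnity, IsGalois.card_aut_eq_finrank] at h3
  exact h3

end Kummer

/-! ### a concrete Kummer field: the splitting field of `X ^ N - t` -/

section Concrete

variable (E : Type*) [Field E] (t : E) (N : ℕ)

/-- The splitting field of `X ^ N - t` over `E`. -/
abbrev tc_KummerField : Type _ := (X ^ N - C t : E[X]).SplittingField

variable {E t N}

/-- `X ^ N - t` has a root `w` in its splitting field. -/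
theorem tc_kummerField_exists_root (hN : 0 < N) :
    ∃ w : tc_KummerField E t N, w ^ N = algebraMap E (tc_KummerField E t N) t := by
  have hdeg : (X ^ N - C t : E[X]).degree ≠ 0 := by
    rw [degree_X_pow_sub_C hN]
    exact_mod_cast hN.ne'
  have hsplit := SplittingField.splits (X ^ N - C t : E[X])
  obtain ⟨w, hw⟩ := hsplit.exists_eval_eq_zero (by
    rw [degree_map]; exact hdeg)
  refine ⟨w, ?_⟩
  rw [eval_map, eval₂_sub, eval₂_X_pow, eval₂_C, sub_eq_zero] at hw
  exact hw

/-- any root of `X ^ N - t` generates the splitting field, if `E` contains a primitive `N`-th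
root of unity. -/
theorem tc_kummerField_adjoin (hN : 0 < N) {ζ : E} (hζ : IsPrimitiveRoot ζ N) (ht : t ≠ 0)
    {w : tc_KummerField E t N} (hw : w ^ N = algebraMap E (tc_KummerField E t N) t) :
    E⟮w⟯ = ⊤ := by
  haveI : NeZero N := ⟨hN.ne'⟩
  have hw0 : w ≠ 0 := by
    rintro rfl
    rw [zero_pow hN.ne'] at hw
    exact ht ((map_eq_zero _).1 hw.symm)
  have hζ' : IsPrimitiveRoot (algebraMap E (tc_KummerField E t N) ζ) N :=
    hζ.map_of_injective (algebraMap E _).injective
  have hroots : (X ^ N - C t : E[X]).rootSet (tc_KummerField E t N) ⊆ (E⟮w⟯ : Set _) := by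
    intro y hy
    rw [mem_rootSet_of_ne (X_pow_sub_C_ne_zero hN t), aeval_def, eval₂_sub, eval₂_X_pow,
      eval₂_C, sub_eq_zero] at hy
    have h1 : (y / w) ^ N = 1 := by
      rw [div_pow, hy, hw, div_self]
      rw [← hw]; exact pow_ne_zero _ hw0
    obtain ⟨i, _, hi⟩ := hζ'.eq_pow_of_pow_eq_one h1
    have hy' : y = algebraMap E (tc_KummerField E t N) (ζ ^ i) * w := by
      rw [map_pow, hi, div_mul_cancel₀ _ hw0]
    rw [hy']
    exact mul_mem (IntermediateField.algebraMap_mem _ _) (IntermediateField.mem_adjoin_simple_self E w)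
  have hadj : Algebra.adjoin E ((X ^ N - C t : E[X]).rootSet (tc_KummerField E t N)) = ⊤ :=
    IsSplittingField.adjoin_rootSet (tc_KummerField E t N) (X ^ N - C t : E[X])
  rw [eq_top_iff, ← IntermediateField.toSubalgebra_le_toSubalgebra,
    IntermediateField.top_toSubalgebra, ← hadj]
  exact Algebra.adjoin_le hroots

/-- the splitting field of `X ^ N - t` is Galois over `E` when `N t ≠ 0`. -/
theorem tc_kummerField_isGalois (hN : (N : E) ≠ 0) (ht : t ≠ 0) :
    IsGalois E (tc_KummerField E t N) :=
  IsGalois.of_separable_splitting_field (separable_X_pow_sub_C t hN ht)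

end Concrete

end Fermat.Agent.JT3
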