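import Mathlib
import Fermat.Agent.JT3.Algebra.KummerUnram
import Fermat.Agent.JT3.Algebra.AbhyankarSeam
import Fermat.Agent.JT3.Seams

/-!
# JT3 / Route R (S18), leaf (C-H) of the cusp half of `mdl_regAt` (prefix `mkr_`)

Ramification at the Kummer level of a cusp chart.  `K = L(x)`, `E / K` finite, `c` a cusp,
`K'' = K(w)`, `E'' = E(w)` with `w ^ N = x - c`.  From

* (H) `E / K` is unramified over every discrete valuation ring of `K / L` containing `x` and all
  the `(x - c')⁻¹`, `c' ∈ Cs`,
* (T) over the discrete valuation ring of `K / L` centred at `x = c` all ramification indices of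
  `E / K` divide `N`,

we get: `E'' / K''` is unramified over every discrete valuation ring `V2` of `K'' / L` containing
`w` and the `(w ^ N + c - c')⁻¹`, `c' ≠ c` (`mkr_unram`; product form `mkr_unram_prod`).

* `w` a unit of `V2`: `V0 := V2 ∩ K` contains all `(x - c')⁻¹`, (H) + `kum_unram_unit`;
* `w` a nonunit of `V2`: `x - c` is a uniformiser of `V0` (`mkr_irreducible`, from `K = L(x)`),
  (T) + `kum_unram_ramified`.
-/

set_option autoImplicit false
set_option linter.unusedSectionVars false
set_option linter.style.haveILetI false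

namespace Fermat.Agent.JT3

open Polynomial

section Unif

variable {L K : Type*} [Field L] [Field K] [Algebra L K]

/-- **Uniformiser of a place of a rational function field.** `V0` a discrete valuation ring of
`K = L(t)` containing `L` in which `t` is a nonzero nonunit: then `t` is a uniformiser of `V0`. -/
theorem mkr_irreducible (V0 : Subring K) [IsDiscreteValuationRing V0]
    (hL : ∀ a : L, algebraMap L K a ∈ V0) (t : K) (ht : t ∈ V0)
    (hgen : IntermediateField.adjoin L {t} = ⊤) (ht0 : t ≠ 0)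
    (htu : ¬ IsUnit (⟨t, ht⟩ : V0)) : Irreducible (⟨t, ht⟩ : V0) := by
  classical
  let ι : L →+* V0 := (algebraMap L K).codRestrict V0 hL
  set τ : V0 := ⟨t, ht⟩ with hτ
  let ψ : L[X] →+* V0 := Polynomial.eval₂RingHom ι τ
  have hψ : ∀ f : L[X], ((ψ f : V0) : K) = aeval t f := by
    intro f
    have h1 : (V0.subtype.comp ψ : L[X] →+* K) = (aeval t : L[X] →ₐ[L] K).toRingHom := by
      apply Polynomial.ringHom_ext
      · intro a
        simp [ψ, ι]
      · simp [ψ, τ]
    exact congrArg (fun g : L[X] →+* K => g f) h1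
  have hτ0 : τ ≠ 0 := fun h => ht0 (congrArg Subtype.val h)
  have hτm : τ ∈ IsLocalRing.maximalIdeal V0 := (IsLocalRing.mem_maximalIdeal _).2 htu
  -- polynomials with nonzero constant term are units at `t`
  have hunit : ∀ g : L[X], g.coeff 0 ≠ 0 → IsUnit (ψ g) := by
    intro g hg
    have hX : ψ X = τ := Polynomial.eval₂_X ι τ
    have hC : ∀ a : L, ψ (C a) = ι a := fun a => Polynomial.eval₂_C ι τ
    have h1 : ψ g = τ * ψ (divX g) + ι (g.coeff 0) := by
      have h0 : ψ g = ψ (X * divX g + C (g.coeff 0)) := by rw [Polynomial.X_mul_divX_add]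
      rw [h0, map_add, map_mul, hX, hC]
    have h2 : IsUnit (ι (g.coeff 0)) := (isUnit_iff_ne_zero.2 hg).map ι
    by_contra hcon
    have h3 : ψ g ∈ IsLocalRing.maximalIdeal V0 := (IsLocalRing.mem_maximalIdeal _).2 hcon
    have h4 : ι (g.coeff 0) ∈ IsLocalRing.maximalIdeal V0 := by
      have : ι (g.coeff 0) = ψ g - τ * ψ (divX g) := by rw [h1]; ring
      rw [this]
      exact Ideal.sub_mem _ h3 (Ideal.mul_mem_right _ _ hτm)
    exact ((IsLocalRing.mem_maximalIdeal _).1 h4) h2
  -- every nonzero polynomial at `t` is associated to a power of `t`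
  have hassoc : ∀ f : L[X], f ≠ 0 → ∃ a : ℕ, Associated (ψ f) (τ ^ a) := by
    intro f hf
    obtain ⟨q, hq, hdvd⟩ := Polynomial.exists_eq_pow_rootMultiplicity_mul_and_not_dvd f hf 0
    rw [map_zero, sub_zero] at hq hdvd
    have hq0 : q.coeff 0 ≠ 0 := fun h => hdvd (Polynomial.X_dvd_iff.2 h)
    refine ⟨rootMultiplicity 0 f, ?_⟩
    obtain ⟨u, hu⟩ := hunit q hq0
    refine Associated.symm ⟨u, ?_⟩
    rw [hu]
    have hX : ψ X = τ := Polynomial.eval₂_X ι τ
    have h0 : ψ f = ψ (X ^ rootMultiplicity 0 f * q) := by rw [← hq]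
    rw [h0, map_mul, map_pow, hX]
  obtain ⟨ϖ, hϖ⟩ := IsDiscreteValuationRing.exists_irreducible V0
  have hϖ0 : (ϖ : K) ≠ 0 := fun h => hϖ.ne_zero (Subtype.ext h)
  have hmem : (ϖ : K) ∈ IntermediateField.adjoin L {t} := by rw [hgen]; trivial
  obtain ⟨r, s, hrs⟩ := (IntermediateField.mem_adjoin_simple_iff L (ϖ : K)).1 hmem
  have hs0 : aeval t s ≠ 0 := by
    intro h
    rw [h, div_zero] at hrs
    exact hϖ0 hrs
  have hr0 : aeval t r ≠ 0 := by
    intro h
    rw [h, zero_div] at hrs
    exact hϖ0 hrs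
  have hs : s ≠ 0 := by rintro rfl; exact hs0 (map_zero _)
  have hr : r ≠ 0 := by rintro rfl; exact hr0 (map_zero _)
  have heq : ϖ * ψ s = ψ r := by
    apply Subtype.ext
    rw [Subring.coe_mul, hψ, hψ, hrs, div_mul_cancel₀ _ hs0]
  obtain ⟨a, ha⟩ := hassoc r hr
  obtain ⟨b, hb⟩ := hassoc s hs
  obtain ⟨e, he⟩ := IsDiscreteValuationRing.associated_pow_irreducible hτ0 hϖ
  have h1 : Associated (ϖ ^ (e * b + 1)) (ϖ ^ (e * a)) := by
    have hb' : Associated (ψ s) (ϖ ^ (e * b)) := by
      rw [pow_mul]; exact hb.trans (he.pow_pow)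
    have ha' : Associated (ψ r) (ϖ ^ (e * a)) := by
      rw [pow_mul]; exact ha.trans (he.pow_pow)
    have h2 : Associated (ϖ * ψ s) (ϖ * ϖ ^ (e * b)) := hb'.mul_left ϖ
    rw [heq] at h2
    rw [pow_succ']
    exact h2.symm.trans ha'
  have h2 : e * b + 1 = e * a := by
    obtain ⟨u, hu⟩ := h1
    exact IsDiscreteValuationRing.unit_mul_pow_congr_pow hϖ hϖ u 1 (e * b + 1) (e * a)
      (by rw [Units.val_one, one_mul, mul_comm, hu])
  have h3 : e = 1 := by
    have h4 : e ∣ 1 := by
      have h5 : e ∣ e * a := dvd_mul_right e a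
      rw [← h2] at h5
      exact (Nat.dvd_add_right (dvd_mul_right e b)).1 h5
    exact Nat.dvd_one.1 h4
  rw [h3, pow_one] at he
  exact he.symm.irreducible hϖ

end Unif

section Main

variable {O L : Type*} [CommRing O] [Field L] [Algebra O L] [CharZero L]
  {K E : Type*} [Field K] [Field E] [Algebra L K] [Algebra K E]
  [Algebra O K] [IsScalarTower O L K] [FiniteDimensional K E]
  {K'' E'' : Type*} [Field K''] [Field E''] [Algebra K K''] [Algebra K'' E''] [Algebra K E'']
  [IsScalarTower K K'' E''] [Algebra E E''] [IsScalarTower K E E'']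
  [Algebra L K''] [IsScalarTower L K K''] [Algebra.IsAlgebraic K K''] [FiniteDimensional K'' E'']

/-- **(C-H): ramification at the Kummer level of a cusp.** `K = L(x)`, `K'' ∋ w` with
`w ^ N = x - c`, `E'' = E(w)`.  From (H) and (T) for `E / K`, the extension `E'' / K''` is unramified
over every discrete valuation ring `V2` of `K''` containing `L`, `w` and the inverses of
`w ^ N + (c - c')`, `c' ∈ Cs`, `c' ≠ c`. -/
theorem mkr_unram
    (x : K) (hx : Transcendental L x) (hgenK : IntermediateField.adjoin L {x} = ⊤)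
    (N : ℕ) (hN : 0 < N) (Cs : Finset O) (c : O)
    (hH : ∀ (V2 : Subring K) [IsDiscreteValuationRing V2] [IsFractionRing V2 K],
      (∀ a : L, algebraMap L K a ∈ V2) → x ∈ V2 →
      (∀ c' ∈ Cs, (x - algebraMap O K c')⁻¹ ∈ V2) → jt_UnramAt V2 E)
    (hT : ∀ (V2 : Subring K) [IsDiscreteValuationRing V2] [IsFractionRing V2 K],
      (∀ a : L, algebraMap L K a ∈ V2) → x ∈ V2 → (x - algebraMap O K c)⁻¹ ∉ V2 →
      ∀ (P : Ideal (integralClosure V2 E)) [P.IsPrime], P ≠ ⊥ → P.ramificationIdx V2 ∣ N)
    (w : K'') (hw : w ^ N = algebraMap K K'' (x - algebraMap O K c))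
    (hgenE : IntermediateField.adjoin E {algebraMap K'' E'' w} = ⊤)
    (V2 : Subring K'') [IsDiscreteValuationRing V2] [IsFractionRing V2 K'']
    (hL : ∀ a : L, algebraMap L K'' a ∈ V2) (hwV : w ∈ V2)
    (hc' : ∀ c' ∈ Cs, c' ≠ c → (w ^ N + algebraMap K K'' (algebraMap O K (c - c')))⁻¹ ∈ V2) :
    jt_UnramAt V2 E'' := by
  classical
  haveI : CharZero K := charZero_of_injective_algebraMap (algebraMap L K).injective
  haveI : CharZero K'' := charZero_of_injective_algebraMap (algebraMap K K'').injective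
  haveI : Algebra.IsSeparable K E := inferInstance
  haveI : Algebra.IsSeparable K'' E'' := inferInstance
  haveI hdvr0 : IsDiscreteValuationRing (ti_under K V2) := ti_under_isDVR K V2
  haveI hfr0 : IsFractionRing (ti_under K V2) K := ti_under_isFractionRing K V2
  -- residue characteristic zero
  haveI : CharZero (IsLocalRing.ResidueField V2) := by
    let f : L →+* IsLocalRing.ResidueField V2 :=
      (IsLocalRing.residue V2).comp ((algebraMap L K'').codRestrict V2 hL)
    exact charZero_of_injective_ringHom f.injective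
  -- constants
  have hLV0 : ∀ a : L, algebraMap L K a ∈ ti_under K V2 := fun a => by
    rw [ti_mem_under, ← IsScalarTower.algebraMap_apply]
    exact hL a
  have hOV0 : ∀ a : O, algebraMap O K a ∈ ti_under K V2 := fun a => by
    rw [IsScalarTower.algebraMap_apply O L K]
    exact hLV0 _
  have hxw : algebraMap K K'' x = w ^ N + algebraMap K K'' (algebraMap O K c) := by
    rw [hw, map_sub]; ring
  have hxV0 : x ∈ ti_under K V2 := by
    rw [ti_mem_under, hxw]
    exact V2.add_mem (V2.pow_mem hwV N) (hOV0 c)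
  have htV0 : x - algebraMap O K c ∈ ti_under K V2 := (ti_under K V2).sub_mem hxV0 (hOV0 c)
  have ht0 : x - algebraMap O K c ≠ 0 := by
    intro h
    apply hx
    have h1 : x = algebraMap L K (algebraMap O L c) := by
      rw [← IsScalarTower.algebraMap_apply]; exact sub_eq_zero.1 h
    rw [h1]
    exact isAlgebraic_algebraMap _
  have hgent : IntermediateField.adjoin L {x - algebraMap O K c} = ⊤ := by
    rw [eq_top_iff, ← hgenK, IntermediateField.adjoin_le_iff]
    intro y hy
    rw [Set.mem_singleton_iff] at hy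
    rw [hy]
    have h1 : x - algebraMap O K c ∈ IntermediateField.adjoin L {x - algebraMap O K c} :=
      IntermediateField.mem_adjoin_simple_self L _
    have h2 : algebraMap O K c ∈ IntermediateField.adjoin L {x - algebraMap O K c} := by
      have h := (IntermediateField.adjoin L {x - algebraMap O K c}).algebraMap_mem
        (algebraMap O L c)
      rwa [← IsScalarTower.algebraMap_apply] at h
    have h3 := add_mem h1 h2
    rwa [sub_add_cancel] at h3
  -- the compatibility `V0 → V2`
  have hV : ∀ a : ti_under K V2, ∃ b : V2,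
      algebraMap V2 E'' b = algebraMap E E'' (algebraMap (ti_under K V2) E a) := by
    intro a
    refine ⟨ti_underHom K V2 a, ?_⟩
    change algebraMap K'' E'' (algebraMap K K'' (a : K)) = algebraMap E E'' (algebraMap K E (a : K))
    rw [← IsScalarTower.algebraMap_apply, ← IsScalarTower.algebraMap_apply]
  have hwt : algebraMap K'' E'' w ^ N =
      algebraMap E E'' (algebraMap (ti_under K V2) E ⟨x - algebraMap O K c, htV0⟩) := by
    change _ = algebraMap E E'' (algebraMap K E (x - algebraMap O K c))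
    rw [← map_pow, hw, ← IsScalarTower.algebraMap_apply, ← IsScalarTower.algebraMap_apply]
  have htK : algebraMap K K'' (x - algebraMap O K c) = w ^ N := hw.symm
  by_cases hwu : IsUnit (⟨w, hwV⟩ : V2)
  · -- `w` a unit: all cusps are units of `V0`
    obtain ⟨u, hu⟩ := hwu
    have hwinv : w⁻¹ ∈ V2 := by
      have h1 : ((u⁻¹ : V2ˣ) : V2).1 = w⁻¹ := by
        have h2 : (u : V2) * ((u⁻¹ : V2ˣ) : V2) = 1 := Units.mul_inv u
        have h3 : w * ((u⁻¹ : V2ˣ) : V2).1 = 1 := by
          have := congrArg Subtype.val h2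
          rwa [Subring.coe_mul, hu] at this
        exact eq_inv_of_mul_eq_one_right h3
      rw [← h1]
      exact ((u⁻¹ : V2ˣ) : V2).2
    have hinv : ∀ c' ∈ Cs, (x - algebraMap O K c')⁻¹ ∈ ti_under K V2 := by
      intro c' hc'Cs
      rw [ti_mem_under, map_inv₀]
      by_cases hcc : c' = c
      · rw [hcc, htK, ← inv_pow]
        exact V2.pow_mem hwinv N
      · have h1 : algebraMap K K'' (x - algebraMap O K c') =
            w ^ N + algebraMap K K'' (algebraMap O K (c - c')) := by
          rw [← htK, ← map_add]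
          congr 1
          rw [map_sub]; ring
        rw [h1]
        exact hc' c' hc'Cs hcc
    have hunr := hH (ti_under K V2) hLV0 hxV0 hinv
    have htu : IsUnit (⟨x - algebraMap O K c, htV0⟩ : ti_under K V2) := by
      have hmem : (x - algebraMap O K c)⁻¹ ∈ ti_under K V2 := by
        rw [ti_mem_under, map_inv₀, htK, ← inv_pow]
        exact V2.pow_mem hwinv N
      refine ⟨⟨⟨_, htV0⟩, ⟨_, hmem⟩, ?_, ?_⟩, rfl⟩
      · apply Subtype.ext; exact mul_inv_cancel₀ ht0
      · apply Subtype.ext; exact inv_mul_cancel₀ ht0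
    exact kum_unram_unit (ti_under K V2) K E V2 K'' E'' hV N hN _ htu (algebraMap K'' E'' w) hwt
      hgenE hunr
  · -- `w` a nonunit: `x - c` is a uniformiser of `V0`
    have hninv : (x - algebraMap O K c)⁻¹ ∉ ti_under K V2 := by
      intro hmem
      apply hwu
      rw [ti_mem_under, map_inv₀, htK] at hmem
      have hw0 : w ≠ 0 := by
        rintro rfl
        rw [zero_pow hN.ne'] at htK
        exact ht0 ((map_eq_zero _).1 htK)
      have hN' : N = (N - 1) + 1 := by omega
      refine ⟨⟨⟨w, hwV⟩, ⟨w ^ (N - 1) * (w ^ N)⁻¹, V2.mul_mem (V2.pow_mem hwV _) hmem⟩, ?_, ?_⟩,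
        rfl⟩
      · apply Subtype.ext
        change w * (w ^ (N - 1) * (w ^ N)⁻¹) = 1
        rw [← mul_assoc, ← pow_succ', ← hN', mul_inv_cancel₀ (pow_ne_zero _ hw0)]
      · apply Subtype.ext
        change w ^ (N - 1) * (w ^ N)⁻¹ * w = 1
        rw [mul_comm, ← mul_assoc, ← pow_succ', ← hN', mul_inv_cancel₀ (pow_ne_zero _ hw0)]
    have he := hT (ti_under K V2) hLV0 hxV0 hninv
    have htu : ¬ IsUnit (⟨x - algebraMap O K c, htV0⟩ : ti_under K V2) := by
      rintro ⟨u, hu⟩
      apply hninv
      have h2 : (u : ti_under K V2) * ((u⁻¹ : (ti_under K V2)ˣ) : ti_under K V2) = 1 :=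
        Units.mul_inv u
      have h3 : (x - algebraMap O K c) * ((u⁻¹ : (ti_under K V2)ˣ) : ti_under K V2).1 = 1 := by
        have := congrArg Subtype.val h2
        rwa [Subring.coe_mul, hu] at this
      rw [← eq_inv_of_mul_eq_one_right h3]
      exact ((u⁻¹ : (ti_under K V2)ˣ) : ti_under K V2).2
    have hirr := mkr_irreducible (ti_under K V2) hLV0 _ htV0 hgent ht0 htu
    exact kum_unram_ramified (ti_under K V2) K E V2 K'' E'' hV N hN _ hirr ⟨w, hwV⟩ hwu hwt
      hgenE he

/-- `mkr_unram` with the hypothesis on the other cusps in product form: the inverse of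
`h''(w)`, `h'' = ∏_{c' ∈ Cs, c' ≠ c} (W ^ N + (c - c')) ∈ O[W]`, lies in `V2`. -/
theorem mkr_unram_prod [Algebra O K''] [IsScalarTower O K K''] [DecidableEq O]
    (x : K) (hx : Transcendental L x) (hgenK : IntermediateField.adjoin L {x} = ⊤)
    (N : ℕ) (hN : 0 < N) (Cs : Finset O) (c : O)
    (hH : ∀ (V2 : Subring K) [IsDiscreteValuationRing V2] [IsFractionRing V2 K],
      (∀ a : L, algebraMap L K a ∈ V2) → x ∈ V2 →
      (∀ c' ∈ Cs, (x - algebraMap O K c')⁻¹ ∈ V2) → jt_UnramAt V2 E)
    (hT : ∀ (V2 : Subring K) [IsDiscreteValuationRing V2] [IsFractionRing V2 K],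
      (∀ a : L, algebraMap L K a ∈ V2) → x ∈ V2 → (x - algebraMap O K c)⁻¹ ∉ V2 →
      ∀ (P : Ideal (integralClosure V2 E)) [P.IsPrime], P ≠ ⊥ → P.ramificationIdx V2 ∣ N)
    (w : K'') (hw : w ^ N = algebraMap K K'' (x - algebraMap O K c))
    (hgenE : IntermediateField.adjoin E {algebraMap K'' E'' w} = ⊤)
    (V2 : Subring K'') [IsDiscreteValuationRing V2] [IsFractionRing V2 K'']
    (hL : ∀ a : L, algebraMap L K'' a ∈ V2) (hwV : w ∈ V2)
    (hprod : (aeval w (∏ c' ∈ Cs.erase c, (X ^ N + C (c - c')) : O[X]))⁻¹ ∈ V2) :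
    jt_UnramAt V2 E'' := by
  refine mkr_unram x hx hgenK N hN Cs c hH hT w hw hgenE V2 hL hwV ?_
  intro c' hc'Cs hcc
  -- the factors
  have hOV2 : ∀ a : O, algebraMap K K'' (algebraMap O K a) ∈ V2 := fun a => by
    rw [IsScalarTower.algebraMap_apply O L K, ← IsScalarTower.algebraMap_apply L K K'']
    exact hL _
  have hfac : ∀ d : O, w ^ N + algebraMap K K'' (algebraMap O K (c - d)) =
      algebraMap K K'' (x - algebraMap O K d) := by
    intro d
    rw [hw, ← map_add]
    congr 1
    rw [map_sub]; ring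
  have hne : ∀ d : O, w ^ N + algebraMap K K'' (algebraMap O K (c - d)) ≠ 0 := by
    intro d h
    rw [hfac, map_eq_zero] at h
    apply hx
    have h1 : x = algebraMap L K (algebraMap O L d) := by
      rw [← IsScalarTower.algebraMap_apply]; exact sub_eq_zero.1 h
    rw [h1]
    exact isAlgebraic_algebraMap _
  have hmemf : ∀ d : O, w ^ N + algebraMap K K'' (algebraMap O K (c - d)) ∈ V2 := fun d =>
    V2.add_mem (V2.pow_mem hwV N) (hOV2 _)
  have heval : aeval w (∏ d ∈ Cs.erase c, (X ^ N + C (c - d)) : O[X]) =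
      ∏ d ∈ Cs.erase c, (w ^ N + algebraMap K K'' (algebraMap O K (c - d))) := by
    rw [map_prod]
    refine Finset.prod_congr rfl fun d _ => ?_
    rw [map_add, map_pow, aeval_X, aeval_C, IsScalarTower.algebraMap_apply O K K'']
  rw [heval] at hprod
  have hmem : c' ∈ Cs.erase c := Finset.mem_erase.2 ⟨hcc, hc'Cs⟩
  rw [← Finset.mul_prod_erase _ _ hmem, mul_inv] at hprod
  have hQ : ∏ d ∈ (Cs.erase c).erase c', (w ^ N + algebraMap K K'' (algebraMap O K (c - d))) ∈
      V2 := Subring.prod_mem V2 fun d _ => hmemf d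
  have hQ0 : ∏ d ∈ (Cs.erase c).erase c', (w ^ N + algebraMap K K'' (algebraMap O K (c - d))) ≠
      0 := Finset.prod_ne_zero_iff.2 fun d _ => hne d
  have := V2.mul_mem hprod hQ
  rwa [mul_assoc, inv_mul_cancel₀ hQ0, mul_one] at this

end Main

end Fermat.Agent.JT3
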