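/-
JT3 node [EL+]/[BASE]: substitution `X ↦ g(W)` between chart bases (Kummer base change,
`g = W ^ N + c`).  `R(h)` in the variable `X`, `R(h ∘ g)` in the variable `W`:
* `el_pb_substHom h g R R''` : the induced ring map, `el_pb_substHom_algebraMap`;
* `el_pb_isIntegral_subst`   : `R(h ∘ g)` is integral over `R(h)` for `g` monic of positive degree
  (no norms: `T = R[W]` is integral over `R`, so `π ∈ Jac T`, and an element of `M(h ∘ g)` lies in
  no maximal ideal of `T`).
-/
import Mathlib
import Fermat.Agent.JT3.Model.PolyBase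

set_option autoImplicit false
set_option linter.unusedSectionVars false
set_option linter.style.haveILetI false

namespace Fermat.Agent.JT3

open Polynomial IsLocalRing

section SubstHom

variable {A0 : Type*} [CommRing A0] [IsDomain A0] [IsDiscreteValuationRing A0]

theorem el_pb_red_comp (f g : A0[X]) : el_pb_red (f.comp g) = (el_pb_red f).comp (el_pb_red g) := by
  rw [el_pb_red_apply, el_pb_red_apply, el_pb_red_apply, Polynomial.map_comp]

theorem el_pb_comp_mem_M {h g s : A0[X]} (hs : s ∈ el_pb_M h) : s.comp g ∈ el_pb_M (h.comp g) := by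
  obtain ⟨k, hk⟩ := el_pb_mem_M.1 hs
  refine el_pb_mem_M.2 ⟨k, ?_⟩
  rw [el_pb_red_comp, el_pb_red_comp, ← hk, pow_comp]

/-- a monic substitution of positive degree keeps `h̄ ≠ 0`. -/
theorem el_pb_red_comp_ne_zero {h g : A0[X]} (hh : el_pb_red h ≠ 0) (hg : g.Monic)
    (hdeg : 0 < g.natDegree) : el_pb_red (h.comp g) ≠ 0 := by
  rw [el_pb_red_comp]
  intro h0
  have hg' : (el_pb_red g).Monic := hg.map _
  have hdeg' : (el_pb_red g).natDegree = g.natDegree := hg.natDegree_map _
  rcases Polynomial.comp_eq_zero_iff.1 h0 with h1 | ⟨-, h2⟩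
  · exact hh h1
  · rw [h2, natDegree_C] at hdeg'
    omega

variable (h g : A0[X])
  (R : Type*) [CommRing R] [Algebra A0[X] R] [IsLocalization (el_pb_M h) R]
  (R'' : Type*) [CommRing R''] [Algebra A0[X] R''] [IsLocalization (el_pb_M (h.comp g)) R'']

/-- The ring map `R(h) → R(h ∘ g)` induced by the substitution `X ↦ g`. -/
noncomputable def el_pb_substHom : R →+* R'' :=
  IsLocalization.lift (M := el_pb_M h)
    (g := (algebraMap A0[X] R'').comp (Polynomial.compRingHom g))
    (fun s => el_pb_isUnit_of_mem_M (h.comp g) R'' (el_pb_comp_mem_M s.2))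

theorem el_pb_substHom_algebraMap (f : A0[X]) :
    el_pb_substHom h g R R'' (algebraMap A0[X] R f) = algebraMap A0[X] R'' (f.comp g) := by
  rw [el_pb_substHom, IsLocalization.lift_eq]
  rfl

end SubstHom

section Subst

variable {A0 : Type*} [CommRing A0] [IsDomain A0] [IsDiscreteValuationRing A0]
  (h g : A0[X])
  (R : Type*) [CommRing R] [Algebra A0[X] R] [IsLocalization (el_pb_M h) R]
  (R'' : Type*) [CommRing R''] [Algebra A0[X] R''] [IsLocalization (el_pb_M (h.comp g)) R'']
  [Algebra R R'']

include h in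
/-- **Substitution `X ↦ g(W)`, `g` monic of positive degree** (Kummer base change `g = W ^ N + c`):
the chart base `R(h(g(W)))` in the variable `W` is integral over the chart base `R(h)` in the
variable `X`. -/
theorem el_pb_isIntegral_subst {π : A0} (hπ : Irreducible π) (hg : g.Monic)
    (hdeg : 0 < g.natDegree)
    (hcomp : ∀ f : A0[X], algebraMap R R'' (algebraMap A0[X] R f) =
      algebraMap A0[X] R'' (f.comp g)) :
    Algebra.IsIntegral R R'' := by
  classical
  rcases subsingleton_or_nontrivial R'' with hsub | hnt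
  · exact ⟨fun y => by rw [Subsingleton.elim y 0]; exact isIntegral_zero⟩
  haveI : Nontrivial R := (algebraMap R R'').domain_nontrivial
  set W'' : R'' := algebraMap A0[X] R'' X with hW''
  have hC : ∀ a : A0, algebraMap R R'' (algebraMap A0[X] R (C a)) = algebraMap A0[X] R'' (C a) := by
    intro a; rw [hcomp, C_comp]
  -- `W''` is integral over `R`
  have hWint : IsIntegral R W'' := by
    set φ : A0 →+* R := (algebraMap A0[X] R).comp C with hφ
    refine ⟨g.map φ - C (algebraMap A0[X] R X), ?_, ?_⟩
    · apply Polynomial.Monic.sub_of_left (hg.map _)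
      refine lt_of_le_of_lt degree_C_le ?_
      rw [hg.degree_map φ, degree_eq_natDegree hg.ne_zero]
      exact_mod_cast hdeg
    · rw [eval₂_sub, eval₂_C, eval₂_map, hcomp, X_comp]
      have h1 : (algebraMap R R'').comp φ = (algebraMap A0[X] R'').comp C := by
        ext a; exact hC a
      rw [h1, hW'', ← Polynomial.hom_eval₂, eval₂_C_X, sub_self]
  set T : Subalgebra R R'' := Algebra.adjoin R {W''} with hT
  have hTint : Algebra.IsIntegral R T := Algebra.IsIntegral.adjoin (by
    intro x hx; rw [Set.mem_singleton_iff] at hx; rw [hx]; exact hWint)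
  have hWT : W'' ∈ T := Algebra.subset_adjoin (Set.mem_singleton _)
  have hmemT : ∀ f : A0[X], algebraMap A0[X] R'' f ∈ T := by
    intro f
    induction f using Polynomial.induction_on' with
    | add p q hp hq => rw [map_add]; exact T.add_mem hp hq
    | monomial n a =>
      rw [← C_mul_X_pow_eq_monomial, map_mul, map_pow, ← hC a]
      exact T.mul_mem (T.algebraMap_mem _) (T.pow_mem hWT n)
  let ψ : A0[X] →+* T := (algebraMap A0[X] R'').codRestrict T hmemT
  letI algT : Algebra A0[X] T := ψ.toAlgebra
  have hψ : ∀ f : A0[X], ((algebraMap A0[X] T f : T) : R'') = algebraMap A0[X] R'' f := fun f => rfl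
  have hψR : ∀ f : A0[X], algebraMap A0[X] T (f.comp g) = algebraMap R T (algebraMap A0[X] R f) := by
    intro f
    apply Subtype.ext
    rw [hψ, ← hcomp]
    rfl
  -- elements of `M(h ∘ g)` are units of `T`
  have hunitT : ∀ s ∈ el_pb_M (h.comp g), IsUnit (algebraMap A0[X] T s) := by
    intro s hs
    by_contra hnu
    obtain ⟨m, hm, hsm⟩ := exists_max_ideal_of_mem_nonunits (mem_nonunits_iff.2 hnu)
    haveI := hm
    have hmR : (m.comap (algebraMap R T)).IsMaximal :=
      Ideal.isMaximal_comap_of_isIntegral_of_isMaximal (R := R) m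
    have hjac := el_pb_mem_jacobson h R hπ
    have hπm : algebraMap A0[X] T (C π) ∈ m := by
      have h1 : algebraMap A0[X] R (C π) ∈ m.comap (algebraMap R T) := by
        rw [Ideal.jacobson, Ideal.mem_sInf] at hjac
        exact hjac ⟨bot_le, hmR⟩
      rw [Ideal.mem_comap, ← hψR, C_comp] at h1
      exact h1
    have hhm : algebraMap A0[X] T (h.comp g) ∉ m := by
      intro hmem
      rw [hψR] at hmem
      have hu : IsUnit (algebraMap R T (algebraMap A0[X] R h)) :=
        (el_pb_isUnit_of_mem_M h R (el_pb_h_mem_M h)).map _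
      exact hm.ne_top (Ideal.eq_top_of_isUnit_mem _ hmem hu)
    exact el_pb_M_notMem hπ m hπm hhm hs hsm
  -- hence `T = ⊤`
  have htop : ∀ y : R'', y ∈ T := by
    intro y
    obtain ⟨f, s, rfl⟩ := IsLocalization.exists_mk'_eq (el_pb_M (h.comp g)) y
    obtain ⟨v, hv⟩ := (hunitT s s.2).exists_right_inv
    have hv' : algebraMap A0[X] R'' s * (v : R'') = 1 := by
      have := congrArg (Subtype.val) hv
      rw [Subalgebra.coe_mul, hψ, Subalgebra.coe_one] at this
      exact this
    have : IsLocalization.mk' R'' f s = algebraMap A0[X] R'' f * (v : R'') := by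
      rw [IsLocalization.mk'_eq_iff_eq_mul, mul_assoc, mul_comm (v : R''), hv', mul_one]
    rw [this]
    exact T.mul_mem (hmemT f) v.2
  refine ⟨fun y => ?_⟩
  have h1 : IsIntegral R (⟨y, htop y⟩ : T) := hTint.isIntegral ⟨y, htop y⟩
  have h2 : IsIntegral R (algebraMap T R'' ⟨y, htop y⟩) := h1.algebraMap
  exact h2

end Subst

end Fermat.Agent.JT3
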