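/-
JT3 node [EL+]/(B) of #1443: the cusp (tame Kummer) chart over a polynomial base.

* `el_pb_unram_of_intrinsic` : (V) + (H) in intrinsic valuation-subring form give the hypothesis of
  `el_pb_chart` (`PolyChart.lean`);
* `el_pb_fcChart_of_poly`    : passage from `integralClosure O[X] E` to `fc_chart O {x}`;
* `el_pb_cusp_chart`         : `A0[X]`-form of the cusp chart: substitution `X ↦ g(W)` (`g` monic),
  chart bases `R(h)`, `R(h ∘ g)`, `tc_cusp_integralClosure`, descent to `integralClosure A0[X] E`;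
* `el_pb_mdl_cusp`           : the same in the vocabulary of `mdl_regAt`, with the Kummer data
  `(K'', E'', w)` and the intrinsic hypotheses (V''), (H'') at the Kummer level.
-/
import Mathlib
import Fermat.Agent.JT3.Model.PolyChart2
import Fermat.Agent.JT3.Model.PolySubst
import Fermat.Agent.JT3.Model.CuspInst
import Fermat.Agent.JT3.FCore.Charts

set_option autoImplicit false
set_option linter.unusedSectionVars false
set_option linter.style.haveILetI false

namespace Fermat.Agent.JT3

open Polynomial IsLocalRing Module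

section Intrinsic

variable {O L : Type*} [CommRing O] [IsDomain O] [IsDiscreteValuationRing O]
  [Field L] [Algebra O L] [IsFractionRing O L]
  {K : Type*} [Field K] [Algebra L K] [Algebra O K] [IsScalarTower O L K]
  [Algebra O[X] K] [IsFractionRing O[X] K]
  (E : Type*) [Field E] [Algebra K E]

/-- **(V) + (H) in intrinsic form give the hypothesis of `el_pb_chart`.** -/
theorem el_pb_unram_of_intrinsic {ϖ : O} (hϖ : Irreducible ϖ) (x : K)
    (hX : ∀ f : O[X], algebraMap O[X] K f = aeval x f) (h : O[X])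
    (hV : ∀ (V : Subring K) [IsDiscreteValuationRing V] [IsFractionRing V K], x ∈ V →
      (∀ a : O[X], a.map (residue O) ≠ 0 → (aeval x a)⁻¹ ∈ V) → (algebraMap O K ϖ)⁻¹ ∉ V →
      jt_UnramAt V E)
    (hH : ∀ (V2 : Subring K) [IsDiscreteValuationRing V2] [IsFractionRing V2 K],
      (∀ a : L, algebraMap L K a ∈ V2) → x ∈ V2 → (aeval x h)⁻¹ ∈ V2 → jt_UnramAt V2 E)
    (p : Ideal O[X]) [p.IsPrime] (hp1 : p.height = 1) (hhp : h ∉ p) :
    jt_Unram (el_bd_loc K p) E := by
  have hCK : ∀ a : O, algebraMap O[X] K (Polynomial.C a) = algebraMap L K (algebraMap O L a) :=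
    fun a => by rw [hX, aeval_C, IsScalarTower.algebraMap_apply O L K]
  have hπprime : Prime (Polynomial.C ϖ : O[X]) := Polynomial.prime_C_iff.2 hϖ.prime
  have hdvr : IsDiscreteValuationRing (el_bd_loc K p).toSubring := el_bd_loc_isDVR K p hp1
  have hfrac : IsFractionRing (el_bd_loc K p).toSubring K := el_bd_loc_isFractionRing K p
  have hxV : x ∈ (el_bd_loc K p).toSubring := by
    have := (el_bd_loc K p).algebraMap_mem (X : O[X])
    rwa [hX, aeval_X] at this
  rcases el_bd_eq_span_or_notMem hπprime p hp1 with hpe | hπp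
  · -- the Gauss prime
    refine hV (el_bd_loc K p).toSubring hxV ?_ ?_
    · intro a ha
      have hap : a ∉ p := by
        rw [hpe, ← el_pb_ker_red hϖ, RingHom.mem_ker]
        exact ha
      have := el_bd_inv_mem K p hp1 hap
      rwa [hX] at this
    · have hmem : Polynomial.C ϖ ∈ p := hpe ▸ Ideal.mem_span_singleton_self _
      have := el_bd_inv_notMem K p hp1 hmem hπprime.ne_zero
      rwa [hX, aeval_C] at this
  · -- horizontal primes
    refine hH (el_bd_loc K p).toSubring (fun a => el_pb_const_mem_loc O[X] K hϖ p hπp hCK a)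
      hxV ?_
    have := el_bd_inv_mem K p hp1 hhp
    rwa [hX] at this

end Intrinsic

section ToFcChart

variable {O : Type*} [CommRing O] {E : Type*} [Field E] [Algebra O E] [Algebra O[X] E]

/-- **From `integralClosure O[X] E` to `fc_chart O {x}`.** -/
theorem el_pb_fcChart_of_poly (xE : E)
    (hXE : ∀ f : O[X], algebraMap O[X] E f = aeval xE f) (ϖ : O) (h : O[X])
    (hreg : ∀ (n0 : Ideal (integralClosure O[X] E)) [n0.IsMaximal],
      algebraMap O[X] (integralClosure O[X] E) (Polynomial.C ϖ) ∈ n0 →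
      algebraMap O[X] (integralClosure O[X] E) h ∉ n0 →
      (∃ u, tq_GenBy (algebraMap O[X] (integralClosure O[X] E) (Polynomial.C ϖ)) u n0) ∧
        tq_Total (algebraMap O[X] (integralClosure O[X] E) (Polynomial.C ϖ)) n0 ∧
        tq_Dom (algebraMap O[X] (integralClosure O[X] E) (Polynomial.C ϖ)) n0)
    (n : Ideal (fc_chart O ({xE} : Set E))) [hn : n.IsMaximal]
    (hπn : algebraMap O (fc_chart O ({xE} : Set E)) ϖ ∈ n)
    (hhn : ∀ y : fc_chart O ({xE} : Set E), (y : E) = aeval xE h → y ∉ n) :
    (∃ u, tq_GenBy (algebraMap O (fc_chart O ({xE} : Set E)) ϖ) u n) ∧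
      tq_Total (algebraMap O (fc_chart O ({xE} : Set E)) ϖ) n ∧
      tq_Dom (algebraMap O (fc_chart O ({xE} : Set E)) ϖ) n := by
  have hr : (algebraMap O[X] E).range =
      (algebraMap (Algebra.adjoin O ({xE} : Set E)) E).range := by
    ext z
    constructor
    · rintro ⟨f, rfl⟩
      rw [hXE]
      have : aeval xE f ∈ Algebra.adjoin O ({xE} : Set E) := by
        rw [Algebra.adjoin_singleton_eq_range_aeval]; exact ⟨f, rfl⟩
      exact ⟨⟨_, this⟩, rfl⟩
    · rintro ⟨⟨y, hy⟩, rfl⟩
      rw [Algebra.adjoin_singleton_eq_range_aeval] at hy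
      obtain ⟨f, rfl⟩ := hy
      exact ⟨f, hXE f⟩
  let e := el_pb_icEquiv hr
  let n' : Ideal (integralClosure (Algebra.adjoin O ({xE} : Set E)) E) := n
  have hn' : n'.IsMaximal := hn
  haveI hn0 : (n'.comap (e : integralClosure O[X] E →+*
      integralClosure (Algebra.adjoin O ({xE} : Set E)) E)).IsMaximal :=
    Ideal.comap_isMaximal_of_surjective (e : integralClosure O[X] E →+*
      integralClosure (Algebra.adjoin O ({xE} : Set E)) E) e.surjective
  have heπ : e (algebraMap O[X] (integralClosure O[X] E) (Polynomial.C ϖ)) =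
      algebraMap O (fc_chart O ({xE} : Set E)) ϖ := by
    apply Subtype.ext
    change algebraMap O[X] E (Polynomial.C ϖ) = algebraMap O E ϖ
    rw [hXE, aeval_C]
  have hπn0 : algebraMap O[X] (integralClosure O[X] E) (Polynomial.C ϖ) ∈
      n'.comap (e : _ →+* _) := by
    rw [Ideal.mem_comap]
    change e _ ∈ n'
    rw [heπ]; exact hπn
  have hhn0 : algebraMap O[X] (integralClosure O[X] E) h ∉ n'.comap (e : _ →+* _) := by
    rw [Ideal.mem_comap]
    change ¬ (e _ ∈ n')
    refine hhn _ ?_
    change algebraMap O[X] E h = _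
    rw [hXE]
  obtain ⟨⟨u, hu⟩, htot, hdom⟩ := hreg (n'.comap (e : _ →+* _)) hπn0 hhn0
  have h1 := el_pb_genBy_equiv e n' hu
  have h2 := el_pb_total_equiv e n' htot
  have h3 := el_pb_dom_equiv e n' hdom
  rw [heπ] at h1 h2 h3
  exact ⟨⟨e u, h1⟩, h2, h3⟩

end ToFcChart

section CuspPForm

variable {A0 : Type*} [CommRing A0] [IsDomain A0] [IsDiscreteValuationRing A0] [CharZero A0]
  (h g : A0[X])
  (K E K'' E'' : Type*) [Field K] [Field E] [Field K''] [Field E'']
  [Algebra A0[X] K] [IsFractionRing A0[X] K] [Algebra K E] [Algebra A0[X] E]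
  [IsScalarTower A0[X] K E] [FiniteDimensional K E]
  [Algebra A0[X] K''] [IsFractionRing A0[X] K''] [Algebra K'' E''] [Algebra A0[X] E'']
  [IsScalarTower A0[X] K'' E''] [FiniteDimensional K'' E'']
  [Algebra E E''] [FiniteDimensional E E''] [IsGalois E E'']

include K in
/-- auxiliary form of `el_pb_cusp_chart` for arbitrary models `R`, `R''` of the two chart bases. -/
theorem el_pb_cusp_chart_aux
    (R : Type*) [CommRing R] [Algebra A0[X] R] [IsLocalization (el_pb_M h) R]
    (R'' : Type*) [CommRing R''] [Algebra A0[X] R''] [IsLocalization (el_pb_M (h.comp g)) R'']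
    {π : A0} (hπ : Irreducible π) (hh : el_pb_red h ≠ 0) (hg : g.Monic) (hgdeg : 0 < g.natDegree)
    (hcompat : ∀ f : A0[X], algebraMap E E'' (algebraMap A0[X] E f) =
      algebraMap A0[X] E'' (f.comp g))
    (hunr'' : ∀ (p : Ideal A0[X]) [p.IsPrime], p.height = 1 → h.comp g ∉ p →
      jt_Unram (el_bd_loc K'' p) E'')
    (hdeg : IsUnit ((Module.finrank E E'' : ℕ) : A0))
    (n : Ideal (integralClosure A0[X] E)) [hn : n.IsMaximal]
    (hπn : algebraMap A0[X] (integralClosure A0[X] E) (C π) ∈ n)
    (hhn : algebraMap A0[X] (integralClosure A0[X] E) h ∉ n) :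
    (∃ u, tq_GenBy (algebraMap A0[X] (integralClosure A0[X] E) (C π)) u n) ∧
      tq_Total (algebraMap A0[X] (integralClosure A0[X] E) (C π)) n ∧
      tq_Dom (algebraMap A0[X] (integralClosure A0[X] E) (C π)) n := by
  classical
  have hh'' : el_pb_red (h.comp g) ≠ 0 := el_pb_red_comp_ne_zero hh hg hgdeg
  have hinjK : Function.Injective (algebraMap A0[X] K) := IsFractionRing.injective A0[X] K
  have hinjK'' : Function.Injective (algebraMap A0[X] K'') := IsFractionRing.injective A0[X] K''
  have hinjE : Function.Injective (algebraMap A0[X] E) := by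
    rw [IsScalarTower.algebraMap_eq A0[X] K E]
    exact (algebraMap K E).injective.comp hinjK
  have hunits : ∀ s : el_pb_M h, IsUnit (algebraMap A0[X] K s) := fun s =>
    isUnit_iff_ne_zero.2 ((map_ne_zero_iff _ hinjK).2 (el_pb_ne_zero_of_mem_M hh s.2))
  have hunits'' : ∀ s : el_pb_M (h.comp g), IsUnit (algebraMap A0[X] K'' s) := fun s =>
    isUnit_iff_ne_zero.2 ((map_ne_zero_iff _ hinjK'').2 (el_pb_ne_zero_of_mem_M hh'' s.2))
  -- algebra structures downstairs
  letI algRK : Algebra R K := (IsLocalization.lift (M := el_pb_M h) hunits).toAlgebra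
  haveI t1 : IsScalarTower A0[X] R K :=
    IsScalarTower.of_algebraMap_eq fun x => (IsLocalization.lift_eq hunits x).symm
  letI algRE : Algebra R E := ((algebraMap K E).comp (algebraMap R K)).toAlgebra
  haveI t2 : IsScalarTower R K E := IsScalarTower.of_algebraMap_eq fun x => rfl
  haveI t3 : IsScalarTower A0[X] R E := IsScalarTower.of_algebraMap_eq fun x => by
    rw [IsScalarTower.algebraMap_apply A0[X] K E, IsScalarTower.algebraMap_apply A0[X] R K]
    rfl
  -- algebra structures upstairs
  letI algRK'' : Algebra R'' K'' :=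
    (IsLocalization.lift (M := el_pb_M (h.comp g)) hunits'').toAlgebra
  haveI t1'' : IsScalarTower A0[X] R'' K'' :=
    IsScalarTower.of_algebraMap_eq fun x => (IsLocalization.lift_eq hunits'' x).symm
  letI algRE'' : Algebra R'' E'' := ((algebraMap K'' E'').comp (algebraMap R'' K'')).toAlgebra
  haveI t2'' : IsScalarTower R'' K'' E'' := IsScalarTower.of_algebraMap_eq fun x => rfl
  haveI t3'' : IsScalarTower A0[X] R'' E'' := IsScalarTower.of_algebraMap_eq fun x => by
    rw [IsScalarTower.algebraMap_apply A0[X] K'' E'', IsScalarTower.algebraMap_apply A0[X] R'' K'']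
    rfl
  -- the substitution
  letI algRR'' : Algebra R R'' := (el_pb_substHom h g R R'').toAlgebra
  have hcomp : ∀ f : A0[X], algebraMap R R'' (algebraMap A0[X] R f) =
      algebraMap A0[X] R'' (f.comp g) := fun f => el_pb_substHom_algebraMap h g R R'' f
  letI algRE2 : Algebra R E'' := ((algebraMap E E'').comp (algebraMap R E)).toAlgebra
  haveI t4 : IsScalarTower R E E'' := IsScalarTower.of_algebraMap_eq fun x => rfl
  haveI t5 : IsScalarTower R R'' E'' := by
    refine IsScalarTower.of_algebraMap_eq' ?_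
    apply IsLocalization.ringHom_ext (el_pb_M h)
    refine RingHom.ext fun f => ?_
    simp only [RingHom.coe_comp, Function.comp_apply]
    change algebraMap E E'' (algebraMap R E (algebraMap A0[X] R f)) = _
    rw [← IsScalarTower.algebraMap_apply A0[X] R E, hcompat, hcomp,
      ← IsScalarTower.algebraMap_apply A0[X] R'' E'']
  -- ring-theoretic properties
  haveI d1 : IsDomain R := el_pb_isDomain h R hh
  haveI d2 : IsNoetherianRing R := el_pb_isNoetherianRing h R
  haveI d3 : IsIntegrallyClosed R := el_pb_isIntegrallyClosed h R hh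
  haveI d4 : IsFractionRing R K := el_pb_isFractionRing h R K
  haveI d5 : CharZero R := el_pb_charZero h R hh
  haveI d1'' : IsDomain R'' := el_pb_isDomain (h.comp g) R'' hh''
  haveI d2'' : IsNoetherianRing R'' := el_pb_isNoetherianRing (h.comp g) R''
  haveI d3'' : IsIntegrallyClosed R'' := el_pb_isIntegrallyClosed (h.comp g) R'' hh''
  haveI d4'' : IsFractionRing R'' K'' := el_pb_isFractionRing (h.comp g) R'' K''
  haveI dint : Algebra.IsIntegral R R'' := el_pb_isIntegral_subst h g R R'' hπ hg hgdeg hcomp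
  -- the uniformiser upstairs
  have hπeq : algebraMap R R'' (algebraMap A0[X] R (C π)) = algebraMap A0[X] R'' (C π) := by
    rw [hcomp, C_comp]
  have hp : Prime (algebraMap R R'' (algebraMap A0[X] R (C π))) := by
    rw [hπeq]; exact el_pb_prime (h.comp g) R'' hπ hh''
  have hjac : algebraMap R R'' (algebraMap A0[X] R (C π)) ∈ (⊥ : Ideal R'').jacobson := by
    rw [hπeq]; exact el_pb_mem_jacobson (h.comp g) R'' hπ
  haveI hpid : IsPrincipalIdealRing
      (R'' ⧸ Ideal.span {algebraMap R R'' (algebraMap A0[X] R (C π))}) := by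
    rw [hπeq]; exact el_pb_quotSpan_isPrincipalIdealRing (h.comp g) R'' hπ
  -- unramifiedness upstairs
  have hunrR'' : ∀ (p : Ideal R'') [p.IsPrime], p.height = 1 → jt_Unram (el_bd_loc K'' p) E'' := by
    intro p hp hp1
    have hp' : (p.under A0[X]).height = 1 := by
      rw [IsLocalization.height_under (el_pb_M (h.comp g)) p]; exact hp1
    have hhp : h.comp g ∉ p.under A0[X] := by
      intro hmem
      exact hp.ne_top (Ideal.eq_top_of_isUnit_mem p
        (show algebraMap A0[X] R'' (h.comp g) ∈ p from hmem)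
        (el_pb_isUnit_of_mem_M (h.comp g) R'' (el_pb_h_mem_M (h.comp g))))
    exact el_pb_unram_congr E'' (el_bd_loc K'' (p.under A0[X])) (el_bd_loc K'' p)
      (fun x => el_pb_loc_eq_loc_under (el_pb_M (h.comp g)) K'' p x)
      (hunr'' (p.under A0[X]) hp' hhp)
  have hunr : ∀ P : Ideal (integralClosure R'' E''), ∀ _ : P.IsPrime,
      (P.under R'').height = 1 → Algebra.IsUnramifiedAt R'' P := fun P hP hht =>
    el_sm_unramCodimOne K'' E'' hunrR'' P hht
  have hdegR : IsUnit ((Module.finrank E E'' : ℕ) : R) := by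
    have := (hdeg.map (C : A0 →+* A0[X])).map (algebraMap A0[X] R)
    simpa using this
  -- the multiplicative set avoids `n`
  have hM : ∀ s ∈ el_pb_M h, algebraMap A0[X] (integralClosure A0[X] E) s ∉ n := fun s hs =>
    el_pb_M_notMem hπ n hπn hhn hs
  have hM0 : ∀ s ∈ el_pb_M h, algebraMap A0[X] E s ≠ 0 := fun s hs =>
    (map_ne_zero_iff _ hinjE).2 (el_pb_ne_zero_of_mem_M hh hs)
  refine mch_regAt_of_localization (Rm := R) (C π) n hπn (el_pb_M h) hM hM0 ?_
  intro Q hQ hπQ
  haveI := hQ
  exact tc_cusp_integralClosure K E K'' E'' hp hjac hunr hdegR Q hπQ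

include K in
/-- **The cusp chart, `A0[X]`-form.** `x ↦ g(w)` with `g` monic of positive degree (`g = W ^ N + c`);
`E''/E` finite Galois of degree invertible in `A0`; `E''` unramified over `A0[W]_p` for every
height-one prime `p ∌ h ∘ g` of `A0[W]`. Then the normalisation of `A0[X]` in `E` is regular at
every maximal ideal containing `π` and not `h`. -/
theorem el_pb_cusp_chart {π : A0} (hπ : Irreducible π) (hh : el_pb_red h ≠ 0) (hg : g.Monic)
    (hgdeg : 0 < g.natDegree)
    (hcompat : ∀ f : A0[X], algebraMap E E'' (algebraMap A0[X] E f) =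
      algebraMap A0[X] E'' (f.comp g))
    (hunr'' : ∀ (p : Ideal A0[X]) [p.IsPrime], p.height = 1 → h.comp g ∉ p →
      jt_Unram (el_bd_loc K'' p) E'')
    (hdeg : IsUnit ((Module.finrank E E'' : ℕ) : A0))
    (n : Ideal (integralClosure A0[X] E)) [hn : n.IsMaximal]
    (hπn : algebraMap A0[X] (integralClosure A0[X] E) (C π) ∈ n)
    (hhn : algebraMap A0[X] (integralClosure A0[X] E) h ∉ n) :
    (∃ u, tq_GenBy (algebraMap A0[X] (integralClosure A0[X] E) (C π)) u n) ∧
      tq_Total (algebraMap A0[X] (integralClosure A0[X] E) (C π)) n ∧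
      tq_Dom (algebraMap A0[X] (integralClosure A0[X] E) (C π)) n :=
  el_pb_cusp_chart_aux h g K E K'' E'' (Localization (el_pb_M h))
    (Localization (el_pb_M (h.comp g))) hπ hh hg hgdeg hcompat hunr'' hdeg n hπn hhn

end CuspPForm

section MdlCusp

variable {O L : Type*} [CommRing O] [IsDomain O] [IsDiscreteValuationRing O]
  [Field L] [Algebra O L] [IsFractionRing O L] [CharZero L]
  {K E : Type*} [Field K] [Field E] [Algebra L K] [Algebra K E] [Algebra L E]
  [IsScalarTower L K E] [Algebra O K] [Algebra O E] [IsScalarTower O L K] [IsScalarTower O L E]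
  [IsScalarTower O K E] [FiniteDimensional K E]
  {K'' E'' : Type*} [Field K''] [Field E''] [Algebra L K''] [Algebra K'' E''] [Algebra L E'']
  [IsScalarTower L K'' E''] [Algebra O K''] [Algebra O E''] [IsScalarTower O L K'']
  [IsScalarTower O L E''] [IsScalarTower O K'' E''] [FiniteDimensional K'' E'']
  [Algebra E E''] [IsScalarTower O E E''] [FiniteDimensional E E''] [IsGalois E E'']

/-- **The cusp half of `mdl_regAt`, chart part** ((B) of #1443). `x = g(w)` in `E''` with `g` monic
of positive degree (`g = W ^ N + c`), `K'' = L(w)`, `E''/E` finite Galois of degree invertible in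
`O`; (V''), (H'') the intrinsic ramification hypotheses at the Kummer level for
`h'' = h ∘ g`. Then `fc_chart O {x}` is regular at every maximal ideal containing `ϖ` and not
`h(x)`. -/
theorem el_pb_mdl_cusp {ϖ : O} (hϖ : Irreducible ϖ)
    (x : K) (hx : Transcendental L x) (hgenK : IntermediateField.adjoin L {x} = ⊤)
    (h : O[X]) (hh : h.map (residue O) ≠ 0) (g : O[X]) (hg : g.Monic) (hgdeg : 0 < g.natDegree)
    (w : K'') (hw : Transcendental L w) (hgenK'' : IntermediateField.adjoin L {w} = ⊤)
    (hxw : algebraMap E E'' (algebraMap K E x) = algebraMap K'' E'' (aeval w g))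
    (hdeg : IsUnit ((Module.finrank E E'' : ℕ) : O))
    (hV'' : ∀ (V : Subring K'') [IsDiscreteValuationRing V] [IsFractionRing V K''], w ∈ V →
      (∀ a : O[X], a.map (residue O) ≠ 0 → (aeval w a)⁻¹ ∈ V) → (algebraMap O K'' ϖ)⁻¹ ∉ V →
      jt_UnramAt V E'')
    (hH'' : ∀ (V2 : Subring K'') [IsDiscreteValuationRing V2] [IsFractionRing V2 K''],
      (∀ a : L, algebraMap L K'' a ∈ V2) → w ∈ V2 → (aeval w (h.comp g))⁻¹ ∈ V2 →
      jt_UnramAt V2 E'')
    (n : Ideal (fc_chart O ({algebraMap K E x} : Set E))) [hn : n.IsMaximal]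
    (hπn : algebraMap O (fc_chart O ({algebraMap K E x} : Set E)) ϖ ∈ n)
    (hhn : ∀ y : fc_chart O ({algebraMap K E x} : Set E),
      (y : E) = aeval (algebraMap K E x) h → y ∉ n) :
    (∃ u, tq_GenBy (algebraMap O (fc_chart O ({algebraMap K E x} : Set E)) ϖ) u n) ∧
      tq_Total (algebraMap O (fc_chart O ({algebraMap K E x} : Set E)) ϖ) n ∧
      tq_Dom (algebraMap O (fc_chart O ({algebraMap K E x} : Set E)) ϖ) n := by
  classical
  haveI : CharZero O := RingHom.charZero (algebraMap O L)
  -- downstairs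
  letI aK : Algebra O[X] K := (aeval x : O[X] →ₐ[O] K).toRingHom.toAlgebra
  letI aE : Algebra O[X] E := ((algebraMap K E).comp (algebraMap O[X] K)).toAlgebra
  haveI tw : IsScalarTower O[X] K E := IsScalarTower.of_algebraMap_eq fun _ => rfl
  have hX : ∀ f : O[X], algebraMap O[X] K f = aeval x f := fun _ => rfl
  have hXE : ∀ f : O[X], algebraMap O[X] E f = aeval (algebraMap K E x) f := fun f => by
    rw [IsScalarTower.algebraMap_apply O[X] K E, hX, aeval_algebraMap_apply]
  haveI hfr : IsFractionRing O[X] K := el_pb_isFractionRing_of_transcendental x hX hx hgenK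
  -- upstairs
  letI aK'' : Algebra O[X] K'' := (aeval w : O[X] →ₐ[O] K'').toRingHom.toAlgebra
  letI aE'' : Algebra O[X] E'' := ((algebraMap K'' E'').comp (algebraMap O[X] K'')).toAlgebra
  haveI tw'' : IsScalarTower O[X] K'' E'' := IsScalarTower.of_algebraMap_eq fun _ => rfl
  have hX'' : ∀ f : O[X], algebraMap O[X] K'' f = aeval w f := fun _ => rfl
  have hXE'' : ∀ f : O[X], algebraMap O[X] E'' f = aeval (algebraMap K'' E'' w) f := fun f => by
    rw [IsScalarTower.algebraMap_apply O[X] K'' E'', hX'', aeval_algebraMap_apply]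
  haveI hfr'' : IsFractionRing O[X] K'' :=
    el_pb_isFractionRing_of_transcendental w hX'' hw hgenK''
  -- compatibility
  have hcompat : ∀ f : O[X], algebraMap E E'' (algebraMap O[X] E f) =
      algebraMap O[X] E'' (f.comp g) := by
    intro f
    have h1 : aeval (algebraMap K'' E'' w) g = algebraMap E E'' (algebraMap K E x) := by
      rw [aeval_algebraMap_apply, hxw]
    calc algebraMap E E'' (algebraMap O[X] E f)
        = algebraMap E E'' (aeval (algebraMap K E x) f) := by rw [hXE]
      _ = aeval (algebraMap E E'' (algebraMap K E x)) f :=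
          (aeval_algebraMap_apply E'' (algebraMap K E x) f).symm
      _ = aeval (aeval (algebraMap K'' E'' w) g) f := by rw [h1]
      _ = aeval (algebraMap K'' E'' w) (f.comp g) := (aeval_comp _).symm
      _ = algebraMap O[X] E'' (f.comp g) := (hXE'' _).symm
  have hunr'' : ∀ (p : Ideal O[X]) [p.IsPrime], p.height = 1 → h.comp g ∉ p →
      jt_Unram (el_bd_loc K'' p) E'' := fun p _ hp1 hhp =>
    el_pb_unram_of_intrinsic E'' hϖ w hX'' (h.comp g) hV'' hH'' p hp1 hhp
  refine el_pb_fcChart_of_poly (algebraMap K E x) hXE ϖ h (fun n0 _ hπn0 hhn0 => ?_) n hπn hhn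
  exact el_pb_cusp_chart h g K E K'' E'' hϖ hh hg hgdeg hcompat hunr'' hdeg n0 hπn0 hhn0

end MdlCusp

end Fermat.Agent.JT3
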