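/-
JT3 node [EL+]: the glue of the generic model theorem `mdl_regAt` (architect's #1384 (1)) from
`el_pb_mdl_etale`, `el_pb_mdl_cusp`, `mkr_unram_prod` and `ug_unramAt_poly`.
-/
import Mathlib
import Fermat.Agent.JT3.Model.PolyCusp
import Fermat.Agent.JT3.Model.PolyEtale
import Fermat.Agent.JT3.Model.CuspRam
import Fermat.Agent.JT3.Algebra.UnramPoly
import Fermat.Agent.JT3.Model.TameKummerField

set_option autoImplicit false
set_option linter.unusedSectionVars false
set_option linter.style.haveILetI false

namespace Fermat.Agent.JT3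

open Polynomial IsLocalRing Module

section Aux

/-- a valuation ring `V` of `K''` in which the polynomials with nonzero reduction are units at `w`
and `ϖ` is not a unit contains the constants. -/
theorem el_pg_const_mem {O : Type*} [CommRing O] [IsDomain O] [IsDiscreteValuationRing O]
    {K : Type*} [Field K] [Algebra O K] {ϖ : O} (hϖ : Irreducible ϖ) (w : K)
    (V : Subring K) [IsDiscreteValuationRing V] [IsFractionRing V K]
    (hprim : ∀ a : O[X], a.map (residue O) ≠ 0 → (aeval w a)⁻¹ ∈ V)
    (hϖV : (algebraMap O K ϖ)⁻¹ ∉ V) (a : O) : algebraMap O K a ∈ V := by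
  have hval : ∀ y : K, y ∈ V ∨ y⁻¹ ∈ V := by
    intro y
    rcases ValuationRing.isInteger_or_isInteger V y with ⟨b, hb⟩ | ⟨b, hb⟩
    · left; rw [← hb]; exact b.2
    · right; rw [← hb]; exact b.2
  have hϖmem : algebraMap O K ϖ ∈ V := (hval _).resolve_right hϖV
  have hunit : ∀ u : O, IsUnit u → algebraMap O K u ∈ V := by
    intro u hu
    obtain ⟨v, hv⟩ := hu.exists_left_inv
    have hvu : IsUnit v := IsUnit.of_mul_eq_one _ hv
    have hne : (Polynomial.C v : O[X]).map (residue O) ≠ 0 := by
      rw [Polynomial.map_C]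
      intro h0
      have := Polynomial.C_eq_zero.1 h0
      exact (IsLocalRing.residue_ne_zero_iff_isUnit v).2 hvu this
    have := hprim _ hne
    rw [aeval_C] at this
    have h1 : (algebraMap O K v)⁻¹ = algebraMap O K u := by
      have h2 : algebraMap O K v * algebraMap O K u = 1 := by rw [← map_mul, hv, map_one]
      exact inv_eq_of_mul_eq_one_right h2
    rwa [h1] at this
  by_cases ha : a = 0
  · rw [ha, map_zero]; exact V.zero_mem
  obtain ⟨k, u, hu⟩ := IsDiscreteValuationRing.eq_unit_mul_pow_irreducible ha hϖ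
  rw [hu, map_mul, map_pow]
  exact V.mul_mem (hunit _ u.isUnit) (V.pow_mem hϖmem k)

end Aux

section Cusp

variable {O L : Type*} [CommRing O] [IsDomain O] [IsDiscreteValuationRing O]
  [Field L] [Algebra O L] [IsFractionRing O L] [CharZero L]
  {K E : Type*} [Field K] [Field E] [Algebra L K] [Algebra K E] [Algebra L E]
  [IsScalarTower L K E] [Algebra O K] [Algebra O E] [IsScalarTower O L K] [IsScalarTower O L E]
  [IsScalarTower O K E] [FiniteDimensional K E]
  {K'' E'' : Type*} [Field K''] [Field E''] [Algebra L K''] [Algebra K'' E''] [Algebra L E'']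
  [IsScalarTower L K'' E''] [Algebra O K''] [Algebra O E''] [IsScalarTower O L K'']
  [IsScalarTower O L E''] [IsScalarTower O K'' E''] [FiniteDimensional K'' E'']
  [Algebra E E''] [IsScalarTower O E E''] [FiniteDimensional E E''] [IsGalois E E'']
  [Algebra K K''] [Algebra K E''] [IsScalarTower K K'' E''] [IsScalarTower K E E'']
  [IsScalarTower L K K''] [Algebra.IsAlgebraic K K''] [IsScalarTower O K K'']

/-- `w` is transcendental over `L` when `w ^ N = x - c` with `x` transcendental. -/
theorem el_pg_transcendental (x : K) (hx : Transcendental L x) {N : ℕ} (c : O) (w : K'')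
    (hw : w ^ N = algebraMap K K'' (x - algebraMap O K c)) : Transcendental L w := by
  intro hwalg
  apply hx
  have h1 : IsAlgebraic L (algebraMap K K'' (x - algebraMap O K c)) := hw ▸ hwalg.pow N
  have h2 : IsAlgebraic L (x - algebraMap O K c) :=
    (isAlgebraic_algebraMap_iff (algebraMap K K'').injective).1 h1
  have h3 : IsAlgebraic L (algebraMap O K c) := by
    rw [IsScalarTower.algebraMap_apply O L K]; exact isAlgebraic_algebraMap _
  have := h2.add h3
  rwa [sub_add_cancel] at this

/-- `K'' = L(w)` when `K = L(x)`, `K'' = K(w)` and `w ^ N = x - c`. -/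
theorem el_pg_adjoin_eq_top (x : K) (hgenK : IntermediateField.adjoin L {x} = ⊤) {N : ℕ} (c : O)
    (w : K'') (hw : w ^ N = algebraMap K K'' (x - algebraMap O K c))
    (hgenKw : IntermediateField.adjoin K {w} = ⊤) : IntermediateField.adjoin L {w} = ⊤ := by
  set F : IntermediateField L K'' := IntermediateField.adjoin L {w} with hF
  have hwF : w ∈ F := IntermediateField.mem_adjoin_simple_self L w
  have hcF : algebraMap O K'' c ∈ F := by
    rw [IsScalarTower.algebraMap_apply O L K'']; exact F.algebraMap_mem _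
  have hxF : algebraMap K K'' x ∈ F := by
    have h1 : algebraMap K K'' x = w ^ N + algebraMap O K'' c := by
      rw [hw, map_sub, ← IsScalarTower.algebraMap_apply O K K'', sub_add_cancel]
    rw [h1]; exact F.add_mem (pow_mem hwF N) hcF
  -- the image of `K` lies in `F`
  have hKF : ∀ k : K, algebraMap K K'' k ∈ F := by
    intro k
    have hk : k ∈ IntermediateField.adjoin L {x} := hgenK ▸ IntermediateField.mem_top
    let φ : K →ₐ[L] K'' := IsScalarTower.toAlgHom L K K''
    have hmap : (IntermediateField.adjoin L {x}).map φ ≤ F := by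
      rw [IntermediateField.adjoin_map, IntermediateField.adjoin_le_iff]
      rintro _ ⟨y, hy, rfl⟩
      rw [Set.mem_singleton_iff] at hy
      subst hy
      exact hxF
    exact hmap ⟨k, hk, rfl⟩
  let F' : IntermediateField K K'' :=
    { F.toSubfield with
      algebraMap_mem' := hKF }
  have hle : IntermediateField.adjoin K {w} ≤ F' := by
    rw [IntermediateField.adjoin_le_iff]
    rintro _ rfl
    exact hwF
  rw [eq_top_iff]
  intro z _
  have : z ∈ F' := hle (hgenKw ▸ IntermediateField.mem_top)
  exact this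

/-- `K''(S'') = E''` for `S''` the image of a generating set of `E / K`, when `E'' = E(w)`,
`w ∈ K''`. -/
theorem el_pg_adjoin_image (S : Set E) (hS : IntermediateField.adjoin K S = ⊤) (w : K'')
    (hgenE : IntermediateField.adjoin E {algebraMap K'' E'' w} = ⊤) :
    IntermediateField.adjoin K'' (algebraMap E E'' '' S) = ⊤ := by
  set F : IntermediateField K'' E'' := IntermediateField.adjoin K'' (algebraMap E E'' '' S) with hF
  -- the image of `K` lies in `F`
  have hKF : ∀ k : K, algebraMap E E'' (algebraMap K E k) ∈ F := by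
    intro k
    rw [← IsScalarTower.algebraMap_apply K E E'', IsScalarTower.algebraMap_apply K K'' E'']
    exact F.algebraMap_mem _
  -- the image of `E` lies in `F`
  have hEF : ∀ e : E, algebraMap E E'' e ∈ F := by
    intro e
    have he : e ∈ IntermediateField.adjoin K S := hS ▸ IntermediateField.mem_top
    let G : IntermediateField K E :=
      { (F.toSubfield.comap (algebraMap E E'')) with
        algebraMap_mem' := fun k => hKF k }
    have hle : IntermediateField.adjoin K S ≤ G := by
      rw [IntermediateField.adjoin_le_iff]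
      intro s hs
      change algebraMap E E'' s ∈ F
      exact IntermediateField.subset_adjoin K'' _ ⟨s, hs, rfl⟩
    exact hle he
  let F' : IntermediateField E E'' :=
    { F.toSubfield with
      algebraMap_mem' := hEF }
  have hle : IntermediateField.adjoin E {algebraMap K'' E'' w} ≤ F' := by
    rw [IntermediateField.adjoin_le_iff]
    rintro _ rfl
    exact F.algebraMap_mem w
  rw [eq_top_iff]
  intro z _
  have : z ∈ F' := hle (hgenE ▸ IntermediateField.mem_top)
  exact this

/-- **The cusp half of `mdl_regAt`** in its vocabulary, given the Kummer data `K'' = K(w)`,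
`E'' = E(w)`, `w ^ N = x - c`. -/
theorem el_pg_cusp [DecidableEq O] {ϖ : O} (hϖ : Irreducible ϖ)
    (x : K) (hx : Transcendental L x) (hgenK : IntermediateField.adjoin L {x} = ⊤)
    (N : ℕ) (hN : 0 < N) (Cs : Finset O) (c : O)
    (hC : ∀ c' ∈ Cs, c ≠ c' → IsUnit (c - c'))
    (S : Finset E) (hS : IntermediateField.adjoin K (S : Set E) = ⊤)
    (hV : ∀ θ ∈ S, mdl_GoodGen O (algebraMap K E x) θ)
    (hH : ∀ (V2 : Subring K) [IsDiscreteValuationRing V2] [IsFractionRing V2 K],
      (∀ a : L, algebraMap L K a ∈ V2) → x ∈ V2 →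
      (∀ c' ∈ Cs, (x - algebraMap O K c')⁻¹ ∈ V2) → jt_UnramAt V2 E)
    (hT : ∀ (V2 : Subring K) [IsDiscreteValuationRing V2] [IsFractionRing V2 K],
      (∀ a : L, algebraMap L K a ∈ V2) → x ∈ V2 → (x - algebraMap O K c)⁻¹ ∉ V2 →
      ∀ (P : Ideal (integralClosure V2 E)) [P.IsPrime], P ≠ ⊥ → P.ramificationIdx V2 ∣ N)
    (w : K'') (hw : w ^ N = algebraMap K K'' (x - algebraMap O K c))
    (hgenKw : IntermediateField.adjoin K {w} = ⊤)
    (hgenE : IntermediateField.adjoin E {algebraMap K'' E'' w} = ⊤)
    (hdeg : IsUnit ((Module.finrank E E'' : ℕ) : O))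
    (n : Ideal (fc_chart O ({algebraMap K E x} : Set E))) [hn : n.IsMaximal]
    (hπn : algebraMap O (fc_chart O ({algebraMap K E x} : Set E)) ϖ ∈ n)
    (hcn : ∀ y : fc_chart O ({algebraMap K E x} : Set E),
      (y : E) = algebraMap K E x - algebraMap O E c → y ∈ n) :
    (∃ u, tq_GenBy (algebraMap O (fc_chart O ({algebraMap K E x} : Set E)) ϖ) u n) ∧
      tq_Total (algebraMap O (fc_chart O ({algebraMap K E x} : Set E)) ϖ) n ∧
      tq_Dom (algebraMap O (fc_chart O ({algebraMap K E x} : Set E)) ϖ) n := by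
  classical
  haveI : CharZero K'' := charZero_of_injective_algebraMap (algebraMap L K'').injective
  haveI : Algebra.IsSeparable K'' E'' := inferInstance
  set h : O[X] := ∏ c' ∈ Cs.erase c, (X - Polynomial.C c') with hh_def
  set g : O[X] := X ^ N + Polynomial.C c with hg_def
  have hmonic : h.Monic := monic_prod_of_monic _ _ fun c' _ => monic_X_sub_C c'
  have hh : h.map (residue O) ≠ 0 := (hmonic.map _).ne_zero
  have hg : g.Monic := monic_X_pow_add_C c hN.ne'
  have hgdeg : 0 < g.natDegree := by rw [hg_def, natDegree_X_pow_add_C]; exact hN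
  have hwg : aeval w g = algebraMap K K'' x := by
    rw [hg_def, map_add, map_pow, aeval_X, aeval_C, hw, map_sub,
      ← IsScalarTower.algebraMap_apply O K K'', sub_add_cancel]
  have hxw : algebraMap E E'' (algebraMap K E x) = algebraMap K'' E'' (aeval w g) := by
    rw [hwg, ← IsScalarTower.algebraMap_apply K E E'', ← IsScalarTower.algebraMap_apply K K'' E'']
  have hcomp : h.comp g = ∏ c' ∈ Cs.erase c, (X ^ N + Polynomial.C (c - c')) := by
    rw [hh_def, Polynomial.prod_comp]
    refine Finset.prod_congr rfl fun c' _ => ?_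
    rw [sub_comp, X_comp, C_comp, hg_def, Polynomial.C_sub]; ring
  refine el_pb_mdl_cusp hϖ x hx hgenK h hh g hg hgdeg w (el_pg_transcendental x hx c w hw)
    (el_pg_adjoin_eq_top x hgenK c w hw hgenKw) hxw hdeg ?_ ?_ n hπn ?_
  · -- (V'')
    intro V _ _ hwV hprim hϖV
    have hOV : ∀ a : O, algebraMap O K'' a ∈ V := el_pg_const_mem hϖ w V hprim hϖV
    have hmemV : ∀ a : O[X], aeval w a ∈ V := by
      intro a
      rw [aeval_def, eval₂_eq_sum_range]
      exact V.sum_mem fun i _ => V.mul_mem (hOV _) (V.pow_mem hwV i)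
    have hS'' : IntermediateField.adjoin K'' ((S.image (algebraMap E E'') : Finset E'') : Set E'')
        = ⊤ := by
      rw [Finset.coe_image]
      exact el_pg_adjoin_image (S : Set E) hS w hgenE
    refine ug_unramAt_poly hϖ (algebraMap K K'' x) (S.image (algebraMap E E'')) hS'' ?_ V ?_ ?_ hϖV
    · intro θ'' hθ''
      obtain ⟨θ, hθ, rfl⟩ := Finset.mem_image.1 hθ''
      have := ug_goodGen_map (IsScalarTower.toAlgHom O E E'') (hV θ hθ)
      rw [IsScalarTower.coe_toAlgHom'] at this
      rwa [← IsScalarTower.algebraMap_apply K E E'', IsScalarTower.algebraMap_apply K K'' E'']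
        at this
    · rw [← hwg]; exact hmemV g
    · intro a ha
      have h1 : aeval (algebraMap K K'' x) a = aeval w (a.comp g) := by
        rw [aeval_comp, hwg]
      rw [h1]
      exact hprim _ (el_pb_red_comp_ne_zero (h := a) ha hg hgdeg)
  · -- (H'')
    intro V2 _ _ hL hwV hinv
    rw [hcomp] at hinv
    exact mkr_unram_prod x hx hgenK N hN Cs c hH hT w hw hgenE V2 hL hwV hinv
  · -- `h(x) ∉ n`
    intro y hy hyn
    have hxmem : algebraMap K E x ∈ fc_chart O ({algebraMap K E x} : Set E) :=
      fc_adjoin_le_chart _ (Algebra.subset_adjoin (Set.mem_singleton _))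
    let xE : fc_chart O ({algebraMap K E x} : Set E) := ⟨algebraMap K E x, hxmem⟩
    have hyprod : y = ∏ c' ∈ Cs.erase c, (xE - algebraMap O _ c') := by
      apply Subtype.ext
      rw [hy, hh_def, map_prod]
      push_cast
      refine Finset.prod_congr rfl fun c' _ => ?_
      rw [map_sub, aeval_X, aeval_C]
    rw [hyprod] at hyn
    haveI := hn.isPrime
    obtain ⟨c', hc', hc'n⟩ := Ideal.IsPrime.prod_mem_iff.1 hyn
    have hcn' : xE - algebraMap O _ c ∈ n := hcn _ rfl
    have hne : c ≠ c' := fun h => (Finset.ne_of_mem_erase hc') h.symm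
    have hu : IsUnit (c - c') := hC c' (Finset.mem_of_mem_erase hc') hne
    have hdiff : algebraMap O (fc_chart O ({algebraMap K E x} : Set E)) (c - c') ∈ n := by
      have : algebraMap O (fc_chart O ({algebraMap K E x} : Set E)) (c - c') =
          (xE - algebraMap O _ c') - (xE - algebraMap O _ c) := by
        rw [map_sub]; ring
      rw [this]
      exact n.sub_mem hc'n hcn'
    exact hn.ne_top (Ideal.eq_top_of_isUnit_mem _ hdiff (hu.map _))

end Cusp

section Final

variable {O L : Type*} [CommRing O] [IsDomain O] [IsDiscreteValuationRing O]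
  [Field L] [Algebra O L] [IsFractionRing O L] [CharZero L]
  {K E : Type*} [Field K] [Field E] [Algebra L K] [Algebra K E] [Algebra L E]
  [IsScalarTower L K E] [Algebra O K] [Algebra O E] [IsScalarTower O L K] [IsScalarTower O L E]
  [IsScalarTower O K E] [FiniteDimensional K E]

/-- **The cusp half of `mdl_regAt`** from a Kummer extension `E'' = E(w)`, `w ^ N = x - c`:
`K'' := K(w) ⊆ E''` and all towers are constructed inside. -/
theorem el_pg_cusp_of_kummer {E'' : Type*} [Field E''] [Algebra E E''] [FiniteDimensional E E'']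
    {ϖ : O} (hϖ : Irreducible ϖ)
    (x : K) (hx : Transcendental L x) (hgenK : IntermediateField.adjoin L {x} = ⊤)
    (N : ℕ) (hN : IsUnit ((N : ℕ) : O)) (ζ : L) (hζ : IsPrimitiveRoot ζ N)
    (Cs : Finset O) (c : O) (hC : ∀ c' ∈ Cs, c ≠ c' → IsUnit (c - c'))
    (S : Finset E) (hS : IntermediateField.adjoin K (S : Set E) = ⊤)
    (hV : ∀ θ ∈ S, mdl_GoodGen O (algebraMap K E x) θ)
    (hH : ∀ (V2 : Subring K) [IsDiscreteValuationRing V2] [IsFractionRing V2 K],
      (∀ a : L, algebraMap L K a ∈ V2) → x ∈ V2 →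
      (∀ c' ∈ Cs, (x - algebraMap O K c')⁻¹ ∈ V2) → jt_UnramAt V2 E)
    (hT : ∀ (V2 : Subring K) [IsDiscreteValuationRing V2] [IsFractionRing V2 K],
      (∀ a : L, algebraMap L K a ∈ V2) → x ∈ V2 → (x - algebraMap O K c)⁻¹ ∉ V2 →
      ∀ (P : Ideal (integralClosure V2 E)) [P.IsPrime], P ≠ ⊥ → P.ramificationIdx V2 ∣ N)
    (w : E'') (hw : w ^ N = algebraMap E E'' (algebraMap K E (x - algebraMap O K c)))
    (hgenE0 : IntermediateField.adjoin E {w} = ⊤)
    (n : Ideal (fc_chart O ({algebraMap K E x} : Set E))) [hn : n.IsMaximal]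
    (hπn : algebraMap O (fc_chart O ({algebraMap K E x} : Set E)) ϖ ∈ n)
    (hcn : ∀ y : fc_chart O ({algebraMap K E x} : Set E),
      (y : E) = algebraMap K E x - algebraMap O E c → y ∈ n) :
    (∃ u, tq_GenBy (algebraMap O (fc_chart O ({algebraMap K E x} : Set E)) ϖ) u n) ∧
      tq_Total (algebraMap O (fc_chart O ({algebraMap K E x} : Set E)) ϖ) n ∧
      tq_Dom (algebraMap O (fc_chart O ({algebraMap K E x} : Set E)) ϖ) n := by
  classical
  haveI : CharZero O := RingHom.charZero (algebraMap O L)
  haveI : CharZero E := charZero_of_injective_algebraMap (algebraMap L E).injective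
  have hN0 : 0 < N := by
    rcases Nat.eq_zero_or_pos N with h | h
    · exfalso; rw [h, Nat.cast_zero] at hN; exact not_isUnit_zero hN
    · exact h
  set t : E := algebraMap K E (x - algebraMap O K c) with ht_def
  have ht0 : t ≠ 0 := by
    rw [ht_def, Ne, map_eq_zero, sub_eq_zero]
    intro h0
    apply hx
    rw [h0, IsScalarTower.algebraMap_apply O L K]
    exact isAlgebraic_algebraMap _
  have hζE : IsPrimitiveRoot (algebraMap L E ζ) N :=
    hζ.map_of_injective (algebraMap L E).injective
  have hNE : ((N : ℕ) : E) ≠ 0 := Nat.cast_ne_zero.2 hN0.ne'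
  haveI hgal : IsGalois E E'' := tc_kummer_isGalois hNE hζE ht0 hw hgenE0
  have hw0 : w ≠ 0 := by
    rintro rfl
    rw [zero_pow hN0.ne'] at hw
    exact ht0 ((map_eq_zero _).1 hw.symm)
  have hfin : Module.finrank E E'' ∣ N := tc_kummer_finrank_dvd hN0 hζE hw0 hw hgenE0
  have hdeg : IsUnit ((Module.finrank E E'' : ℕ) : O) := by
    obtain ⟨k, hk⟩ := hfin
    rw [hk, Nat.cast_mul] at hN
    exact isUnit_of_mul_isUnit_left hN
  -- algebra structures on `E''`
  letI aK : Algebra K E'' := ((algebraMap E E'').comp (algebraMap K E)).toAlgebra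
  letI aL : Algebra L E'' := ((algebraMap E E'').comp (algebraMap L E)).toAlgebra
  letI aO : Algebra O E'' := ((algebraMap E E'').comp (algebraMap O E)).toAlgebra
  haveI tKE : IsScalarTower K E E'' := IsScalarTower.of_algebraMap_eq fun _ => rfl
  haveI tLE : IsScalarTower L E E'' := IsScalarTower.of_algebraMap_eq fun _ => rfl
  haveI tOE : IsScalarTower O E E'' := IsScalarTower.of_algebraMap_eq fun _ => rfl
  haveI tLK : IsScalarTower L K E'' :=
    IsScalarTower.of_algebraMap_eq fun a => by
      change algebraMap E _ (algebraMap L E a) = algebraMap E _ (algebraMap K E (algebraMap L K a))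
      rw [← IsScalarTower.algebraMap_apply L K E]
  haveI tOK : IsScalarTower O K E'' :=
    IsScalarTower.of_algebraMap_eq fun a => by
      change algebraMap E _ (algebraMap O E a) = algebraMap E _ (algebraMap K E (algebraMap O K a))
      rw [← IsScalarTower.algebraMap_apply O K E]
  haveI tOL : IsScalarTower O L E'' :=
    IsScalarTower.of_algebraMap_eq fun a => by
      change algebraMap E _ (algebraMap O E a) = algebraMap E _ (algebraMap L E (algebraMap O L a))
      rw [← IsScalarTower.algebraMap_apply O L E]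
  haveI fKE : FiniteDimensional K E'' := Module.Finite.trans E _
  -- `K''`
  let K'' : IntermediateField K E'' := IntermediateField.adjoin K {w}
  let w'' : K'' := ⟨w, IntermediateField.mem_adjoin_simple_self K w⟩
  haveI tLK'' : IsScalarTower L K'' E'' := IsScalarTower.of_algebraMap_eq fun _ => rfl
  haveI tOK'' : IsScalarTower O K'' E'' := IsScalarTower.of_algebraMap_eq fun _ => rfl
  haveI tOLK'' : IsScalarTower O L K'' :=
    IsScalarTower.of_algebraMap_eq fun a => Subtype.ext
      (IsScalarTower.algebraMap_apply O L E'' a)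
  haveI fK'' : FiniteDimensional K'' E'' := IntermediateField.finiteDimensional_right K''
  haveI fKK'' : FiniteDimensional K K'' := IntermediateField.finiteDimensional_left K''
  have hw'' : w'' ^ N = algebraMap K K'' (x - algebraMap O K c) := by
    apply Subtype.ext
    change w ^ N = algebraMap E _ (algebraMap K E (x - algebraMap O K c))
    rw [hw]
  have hgenKw : IntermediateField.adjoin K {w''} = ⊤ := by
    apply IntermediateField.lift_injective K''
    rw [IntermediateField.lift_adjoin_simple, IntermediateField.lift_top]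
  have hgenE : IntermediateField.adjoin E {algebraMap K'' E'' w''} = ⊤ := hgenE0
  exact el_pg_cusp hϖ x hx hgenK N hN0 Cs c hC S hS hV hH hT w'' hw'' hgenKw hgenE hdeg n hπn hcn

/-- **The cusp half of `mdl_regAt`**: the Kummer data are constructed inside
(`E'' := tc_KummerField E (x - c) N`, `K'' := K(w) ⊆ E''`). -/
theorem el_pg_cusp_regAt {ϖ : O} (hϖ : Irreducible ϖ)
    (x : K) (hx : Transcendental L x) (hgenK : IntermediateField.adjoin L {x} = ⊤)
    (N : ℕ) (hN : IsUnit ((N : ℕ) : O)) (ζ : L) (hζ : IsPrimitiveRoot ζ N)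
    (Cs : Finset O) (c : O) (hC : ∀ c' ∈ Cs, c ≠ c' → IsUnit (c - c'))
    (S : Finset E) (hS : IntermediateField.adjoin K (S : Set E) = ⊤)
    (hV : ∀ θ ∈ S, mdl_GoodGen O (algebraMap K E x) θ)
    (hH : ∀ (V2 : Subring K) [IsDiscreteValuationRing V2] [IsFractionRing V2 K],
      (∀ a : L, algebraMap L K a ∈ V2) → x ∈ V2 →
      (∀ c' ∈ Cs, (x - algebraMap O K c')⁻¹ ∈ V2) → jt_UnramAt V2 E)
    (hT : ∀ (V2 : Subring K) [IsDiscreteValuationRing V2] [IsFractionRing V2 K],
      (∀ a : L, algebraMap L K a ∈ V2) → x ∈ V2 → (x - algebraMap O K c)⁻¹ ∉ V2 →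
      ∀ (P : Ideal (integralClosure V2 E)) [P.IsPrime], P ≠ ⊥ → P.ramificationIdx V2 ∣ N)
    (n : Ideal (fc_chart O ({algebraMap K E x} : Set E))) [hn : n.IsMaximal]
    (hπn : algebraMap O (fc_chart O ({algebraMap K E x} : Set E)) ϖ ∈ n)
    (hcn : ∀ y : fc_chart O ({algebraMap K E x} : Set E),
      (y : E) = algebraMap K E x - algebraMap O E c → y ∈ n) :
    (∃ u, tq_GenBy (algebraMap O (fc_chart O ({algebraMap K E x} : Set E)) ϖ) u n) ∧
      tq_Total (algebraMap O (fc_chart O ({algebraMap K E x} : Set E)) ϖ) n ∧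
      tq_Dom (algebraMap O (fc_chart O ({algebraMap K E x} : Set E)) ϖ) n := by
  classical
  haveI : CharZero E := charZero_of_injective_algebraMap (algebraMap L E).injective
  have hN0 : 0 < N := by
    rcases Nat.eq_zero_or_pos N with h | h
    · exfalso; rw [h, Nat.cast_zero] at hN; exact not_isUnit_zero hN
    · exact h
  have ht0 : algebraMap K E (x - algebraMap O K c) ≠ 0 := by
    rw [Ne, map_eq_zero, sub_eq_zero]
    intro h0
    apply hx
    rw [h0, IsScalarTower.algebraMap_apply O L K]
    exact isAlgebraic_algebraMap _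
  obtain ⟨w, hw⟩ := tc_kummerField_exists_root (E := E)
    (t := algebraMap K E (x - algebraMap O K c)) hN0
  have hζE : IsPrimitiveRoot (algebraMap L E ζ) N :=
    hζ.map_of_injective (algebraMap L E).injective
  exact el_pg_cusp_of_kummer hϖ x hx hgenK N hN ζ hζ Cs c hC S hS hV hH hT w hw
    (tc_kummerField_adjoin hN0 hζE ht0 hw) n hπn hcn

/-- **The generic model theorem `mdl_regAt`** (architect's #1384 (1), statement verbatim): the
chart `fc_chart O {x}` of `E / K`, `K = L(x)`, is regular along `ϖ`, from (V) good generators,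
(H) unramifiedness off the cusps `x = c`, `c ∈ C`, and (T) tameness `e ∣ N` at the cusps. -/
theorem el_pg_regAt {ϖ : O} (hϖ : Irreducible ϖ)
    (x : K) (hx : Transcendental L x) (hgenK : IntermediateField.adjoin L {x} = ⊤)
    (N : ℕ) (hN : IsUnit ((N : ℕ) : O)) (ζ : L) (hζ : IsPrimitiveRoot ζ N)
    (C : Finset O) (hC : ∀ c ∈ C, ∀ c' ∈ C, c ≠ c' → IsUnit (c - c'))
    (S : Finset E) (hS : IntermediateField.adjoin K (S : Set E) = ⊤)
    (hV : ∀ θ ∈ S, mdl_GoodGen O (algebraMap K E x) θ)
    (hH : ∀ (V2 : Subring K) [IsDiscreteValuationRing V2] [IsFractionRing V2 K],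
      (∀ a : L, algebraMap L K a ∈ V2) → x ∈ V2 →
      (∀ c ∈ C, (x - algebraMap O K c)⁻¹ ∈ V2) → jt_UnramAt V2 E)
    (hT : ∀ c ∈ C, ∀ (V2 : Subring K) [IsDiscreteValuationRing V2] [IsFractionRing V2 K],
      (∀ a : L, algebraMap L K a ∈ V2) → x ∈ V2 → (x - algebraMap O K c)⁻¹ ∉ V2 →
      ∀ (P : Ideal (integralClosure V2 E)) [P.IsPrime], P ≠ ⊥ → P.ramificationIdx V2 ∣ N) :
    jt_RegAt (fc_chart O ({algebraMap K E x} : Set E))
      (algebraMap O (fc_chart O ({algebraMap K E x} : Set E)) ϖ) := by
  classical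
  intro n hn hπn
  haveI := hn
  haveI : CharZero K := charZero_of_injective_algebraMap (algebraMap L K).injective
  haveI : Algebra.IsSeparable K E := inferInstance
  by_cases hex : ∃ c ∈ C, ∀ y : fc_chart O ({algebraMap K E x} : Set E),
      (y : E) = algebraMap K E x - algebraMap O E c → y ∈ n
  · obtain ⟨c, hc, hcn⟩ := hex
    obtain ⟨hu, -, hd⟩ := el_pg_cusp_regAt hϖ x hx hgenK N hN ζ hζ C c
      (fun c' hc' hne => hC c hc c' hc' hne) S hS hV hH (hT c hc) n hπn hcn
    exact ⟨hu, hd⟩
  · simp only [not_exists, not_and] at hex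
    have hxmem : algebraMap K E x ∈ fc_chart O ({algebraMap K E x} : Set E) :=
      fc_adjoin_le_chart _ (Algebra.subset_adjoin (Set.mem_singleton _))
    obtain ⟨hu, -, hd⟩ := el_pb_mdl_etale hϖ x hx hgenK C
      (fun V _ _ hxV hunit hϖV => ug_unramAt_poly hϖ x S hS hV V hxV hunit hϖV) hH n hπn
      (fun c hc y hy hyn => by
        obtain ⟨y', hy''⟩ := not_forall.1 (hex c hc)
        obtain ⟨hy', hy'n⟩ := Classical.not_imp.1 hy''
        have : y = y' := Subtype.ext (hy.trans hy'.symm)
        exact hy'n (this ▸ hyn))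
    exact ⟨hu, hd⟩

end Final

end Fermat.Agent.JT3
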