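/-
JT3 node [EL+], intrinsic form: the generic model theorem `mdl_regAt` with the hypothesis (V) in
INTRINSIC form (`el_pg_regAt_intr`): instead of good generators `S`, `mdl_GoodGen`, one asks that
`E / K` be unramified over every discrete valuation ring `V` of `K` of Gauss type at `x`
(`x ∈ V`, every polynomial in `x` with nonzero reduction is a unit of `V`, `ϖ` is not a unit).

Étale half: `el_pb_mdl_etale` (already intrinsic).  Cusp half: `el_pb_mdl_cusp`; the Gauss
condition upstairs (`K'' = K(w)`, `w ^ N = x - c`) is obtained from the one downstairs by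
`V0 := V'' ∩ K` (`ti_under`) and the mixed characteristic Kummer seam `kumx_unram_unit`
(`x - c` and `N` are units of `V0`).
-/
import Mathlib
import Fermat.Agent.JT3.Model.PolyGlue
import Fermat.Agent.JT3.Algebra.KummerUnramMixed

set_option autoImplicit false
set_option linter.unusedSectionVars false
set_option linter.style.haveILetI false

namespace Fermat.Agent.JT3

open Polynomial IsLocalRing Module

section Cusp

variable {O L : Type*} [CommRing O] [IsDomain O] [IsDiscreteValuationRing O]
  [Field L] [Algebra O L] [IsFractionRing O L] [CharZero L]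
  {K E : Type*} [Field K] [Field E] [Algebra L K] [Algebra K E] [Algebra L E]
  [IsScalarTower L K E] [Algebra O K] [Algebra O E] [IsScalarTower O L K] [IsScalarTower O L E]
  [IsScalarTower O K E] [FiniteDimensional K E]
  {K'' E'' : Type*} [Field K''] [Field E''] [Algebra L K''] [Algebra K'' E''] [Algebra L E'']
  [IsScalarTower L K'' E''] [Algebra O K''] [Algebra O E''] [IsScalarTower O L K'']
  [IsScalarTower O L E''] [IsScalarTower O K'' E''] [FiniteDimensional K'' E'']
  [Algebra E E''] [IsScalarTower O E E''] [FiniteDimensional E E''] [IsGalois E E'']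
  [Algebra K K''] [Algebra K E''] [IsScalarTower K K'' E''] [IsScalarTower K E E'']
  [IsScalarTower L K K''] [Algebra.IsAlgebraic K K''] [IsScalarTower O K K'']

include L in
/-- **The Gauss condition upstairs.** `K'' = K(w)`, `E'' = E(w)`, `w ^ N = x - c`, `N` a unit of
`O`: if `E / K` is unramified over every Gauss type valuation ring of `K` at `x`, then `E'' / K''`
is unramified over every Gauss type valuation ring of `K''` at `w`. -/
theorem el_pg_gauss_up {ϖ : O} (hϖ : Irreducible ϖ) (x : K)
    (N : ℕ) (hN : 0 < N) (hNu : IsUnit ((N : ℕ) : O)) (c : O)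
    (hV : ∀ (V : Subring K) [IsDiscreteValuationRing V] [IsFractionRing V K], x ∈ V →
      (∀ a : O[X], a.map (residue O) ≠ 0 → (aeval x a)⁻¹ ∈ V) → (algebraMap O K ϖ)⁻¹ ∉ V →
      jt_UnramAt V E)
    (w : K'') (hw : w ^ N = algebraMap K K'' (x - algebraMap O K c))
    (hgenE : IntermediateField.adjoin E {algebraMap K'' E'' w} = ⊤)
    (V : Subring K'') [IsDiscreteValuationRing V] [IsFractionRing V K''] (hwV : w ∈ V)
    (hprim : ∀ a : O[X], a.map (residue O) ≠ 0 → (aeval w a)⁻¹ ∈ V)
    (hϖV : (algebraMap O K'' ϖ)⁻¹ ∉ V) : jt_UnramAt V E'' := by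
  classical
  haveI : CharZero K := charZero_of_injective_algebraMap (algebraMap L K).injective
  haveI : CharZero K'' := charZero_of_injective_algebraMap (algebraMap L K'').injective
  haveI : Algebra.IsSeparable K E := inferInstance
  haveI : Algebra.IsSeparable K'' E'' := inferInstance
  haveI hdvr0 : IsDiscreteValuationRing (ti_under K V) := ti_under_isDVR K V
  haveI hfr0 : IsFractionRing (ti_under K V) K := ti_under_isFractionRing K V
  set g : O[X] := X ^ N + Polynomial.C c with hg_def
  have hg : g.Monic := monic_X_pow_add_C c hN.ne'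
  have hgdeg : 0 < g.natDegree := by rw [hg_def, natDegree_X_pow_add_C]; exact hN
  have hwg : aeval w g = algebraMap K K'' x := by
    rw [hg_def, map_add, map_pow, aeval_X, aeval_C, hw, map_sub,
      ← IsScalarTower.algebraMap_apply O K K'', sub_add_cancel]
  have hOV : ∀ a : O, algebraMap O K'' a ∈ V := el_pg_const_mem hϖ w V hprim hϖV
  have hmemV : ∀ a : O[X], aeval w a ∈ V := by
    intro a
    rw [aeval_def, eval₂_eq_sum_range]
    exact V.sum_mem fun i _ => V.mul_mem (hOV _) (V.pow_mem hwV i)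
  have hOV0 : ∀ a : O, algebraMap O K a ∈ ti_under K V := fun a => by
    rw [ti_mem_under, ← IsScalarTower.algebraMap_apply O K K'']
    exact hOV a
  -- the Gauss conditions for `V0 = V ∩ K` at `x`
  have hxV0 : x ∈ ti_under K V := by
    rw [ti_mem_under, ← hwg]; exact hmemV g
  have hprim0 : ∀ a : O[X], a.map (residue O) ≠ 0 → (aeval x a)⁻¹ ∈ ti_under K V := by
    intro a ha
    rw [ti_mem_under, map_inv₀]
    have h1 : algebraMap K K'' (aeval x a) = aeval w (a.comp g) := by
      rw [aeval_comp, hwg, aeval_algebraMap_apply]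
    rw [h1]
    exact hprim _ (el_pb_red_comp_ne_zero (h := a) ha hg hgdeg)
  have hϖV0 : (algebraMap O K ϖ)⁻¹ ∉ ti_under K V := by
    rw [ti_mem_under, map_inv₀, ← IsScalarTower.algebraMap_apply O K K'']
    exact hϖV
  have hunr0 : jt_UnramAt (ti_under K V) E := hV (ti_under K V) hxV0 hprim0 hϖV0
  -- `t = x - c` is a unit of `V0`
  have htV0 : x - algebraMap O K c ∈ ti_under K V := (ti_under K V).sub_mem hxV0 (hOV0 c)
  have htinv : (x - algebraMap O K c)⁻¹ ∈ ti_under K V := by
    have hne : (X - Polynomial.C c : O[X]).map (residue O) ≠ 0 :=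
      ((monic_X_sub_C c).map _).ne_zero
    have := hprim0 _ hne
    rwa [map_sub, aeval_X, aeval_C] at this
  have ht0 : x - algebraMap O K c ≠ 0 := by
    intro h0
    have hw0 : w = 0 := by
      have : w ^ N = 0 := by rw [hw, h0, map_zero]
      exact pow_eq_zero_iff hN.ne' |>.1 this
    -- then `x = c` and `(X - c)(x)⁻¹ = 0⁻¹`; use `ϖ`: `(ϖ + (X - c))` has nonzero reduction
    have hne : (Polynomial.C ϖ + (X - Polynomial.C c) : O[X]).map (residue O) ≠ 0 := by
      rw [Polynomial.map_add, Polynomial.map_C, (residue_eq_zero_iff ϖ).2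
        ((mem_maximalIdeal ϖ).2 hϖ.not_isUnit), map_zero, zero_add]
      exact ((monic_X_sub_C c).map _).ne_zero
    have := hprim0 _ hne
    rw [map_add, aeval_C, map_sub, aeval_X, aeval_C, h0, add_zero] at this
    exact hϖV0 this
  have htu : IsUnit (⟨x - algebraMap O K c, htV0⟩ : ti_under K V) := by
    refine ⟨⟨⟨_, htV0⟩, ⟨_, htinv⟩, ?_, ?_⟩, rfl⟩
    · apply Subtype.ext; exact mul_inv_cancel₀ ht0
    · apply Subtype.ext; exact inv_mul_cancel₀ ht0
  -- `N` is a unit of `V0`
  have hNu0 : IsUnit ((N : ℕ) : ti_under K V) := by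
    obtain ⟨u, hu⟩ := hNu.exists_right_inv
    have h1 : ((N : ℕ) : K) * algebraMap O K u = 1 := by
      rw [← map_natCast (algebraMap O K), ← map_mul, hu, map_one]
    refine ⟨⟨((N : ℕ) : ti_under K V), ⟨algebraMap O K u, hOV0 u⟩, ?_, ?_⟩, rfl⟩
    · apply Subtype.ext
      rw [Subring.coe_mul, Subring.coe_natCast]; exact h1
    · apply Subtype.ext
      rw [Subring.coe_mul, Subring.coe_natCast, mul_comm]; exact h1
  -- the compatibility `V0 → V`
  have hVc : ∀ a : ti_under K V, ∃ b : V,
      algebraMap V E'' b = algebraMap E E'' (algebraMap (ti_under K V) E a) := by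
    intro a
    refine ⟨ti_underHom K V a, ?_⟩
    change algebraMap K'' E'' (algebraMap K K'' (a : K)) = algebraMap E E'' (algebraMap K E (a : K))
    rw [← IsScalarTower.algebraMap_apply, ← IsScalarTower.algebraMap_apply]
  have hwt : algebraMap K'' E'' w ^ N =
      algebraMap E E'' (algebraMap (ti_under K V) E ⟨x - algebraMap O K c, htV0⟩) := by
    change _ = algebraMap E E'' (algebraMap K E (x - algebraMap O K c))
    rw [← map_pow, hw, ← IsScalarTower.algebraMap_apply, ← IsScalarTower.algebraMap_apply]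
  exact kumx_unram_unit (ti_under K V) K E V K'' E'' hVc N hN hNu0 _ htu
    (algebraMap K'' E'' w) hwt hgenE hunr0

/-- **The cusp half of `mdl_regAt`, intrinsic (V)**, given the Kummer data `K'' = K(w)`,
`E'' = E(w)`, `w ^ N = x - c`. -/
theorem el_pg_cusp_intr [DecidableEq O] {ϖ : O} (hϖ : Irreducible ϖ)
    (x : K) (hx : Transcendental L x) (hgenK : IntermediateField.adjoin L {x} = ⊤)
    (N : ℕ) (hN : 0 < N) (hNu : IsUnit ((N : ℕ) : O)) (Cs : Finset O) (c : O)
    (hC : ∀ c' ∈ Cs, c ≠ c' → IsUnit (c - c'))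
    (hV : ∀ (V : Subring K) [IsDiscreteValuationRing V] [IsFractionRing V K], x ∈ V →
      (∀ a : O[X], a.map (residue O) ≠ 0 → (aeval x a)⁻¹ ∈ V) → (algebraMap O K ϖ)⁻¹ ∉ V →
      jt_UnramAt V E)
    (hH : ∀ (V2 : Subring K) [IsDiscreteValuationRing V2] [IsFractionRing V2 K],
      (∀ a : L, algebraMap L K a ∈ V2) → x ∈ V2 →
      (∀ c' ∈ Cs, (x - algebraMap O K c')⁻¹ ∈ V2) → jt_UnramAt V2 E)
    (hT : ∀ (V2 : Subring K) [IsDiscreteValuationRing V2] [IsFractionRing V2 K],
      (∀ a : L, algebraMap L K a ∈ V2) → x ∈ V2 → (x - algebraMap O K c)⁻¹ ∉ V2 →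
      ∀ (P : Ideal (integralClosure V2 E)) [P.IsPrime], P ≠ ⊥ → P.ramificationIdx V2 ∣ N)
    (w : K'') (hw : w ^ N = algebraMap K K'' (x - algebraMap O K c))
    (hgenKw : IntermediateField.adjoin K {w} = ⊤)
    (hgenE : IntermediateField.adjoin E {algebraMap K'' E'' w} = ⊤)
    (hdeg : IsUnit ((Module.finrank E E'' : ℕ) : O))
    (n : Ideal (fc_chart O ({algebraMap K E x} : Set E))) [hn : n.IsMaximal]
    (hπn : algebraMap O (fc_chart O ({algebraMap K E x} : Set E)) ϖ ∈ n)
    (hcn : ∀ y : fc_chart O ({algebraMap K E x} : Set E),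
      (y : E) = algebraMap K E x - algebraMap O E c → y ∈ n) :
    (∃ u, tq_GenBy (algebraMap O (fc_chart O ({algebraMap K E x} : Set E)) ϖ) u n) ∧
      tq_Total (algebraMap O (fc_chart O ({algebraMap K E x} : Set E)) ϖ) n ∧
      tq_Dom (algebraMap O (fc_chart O ({algebraMap K E x} : Set E)) ϖ) n := by
  classical
  haveI : CharZero K'' := charZero_of_injective_algebraMap (algebraMap L K'').injective
  haveI : Algebra.IsSeparable K'' E'' := inferInstance
  set h : O[X] := ∏ c' ∈ Cs.erase c, (X - Polynomial.C c') with hh_def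
  set g : O[X] := X ^ N + Polynomial.C c with hg_def
  have hmonic : h.Monic := monic_prod_of_monic _ _ fun c' _ => monic_X_sub_C c'
  have hh : h.map (residue O) ≠ 0 := (hmonic.map _).ne_zero
  have hg : g.Monic := monic_X_pow_add_C c hN.ne'
  have hgdeg : 0 < g.natDegree := by rw [hg_def, natDegree_X_pow_add_C]; exact hN
  have hwg : aeval w g = algebraMap K K'' x := by
    rw [hg_def, map_add, map_pow, aeval_X, aeval_C, hw, map_sub,
      ← IsScalarTower.algebraMap_apply O K K'', sub_add_cancel]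
  have hxw : algebraMap E E'' (algebraMap K E x) = algebraMap K'' E'' (aeval w g) := by
    rw [hwg, ← IsScalarTower.algebraMap_apply K E E'', ← IsScalarTower.algebraMap_apply K K'' E'']
  have hcomp : h.comp g = ∏ c' ∈ Cs.erase c, (X ^ N + Polynomial.C (c - c')) := by
    rw [hh_def, Polynomial.prod_comp]
    refine Finset.prod_congr rfl fun c' _ => ?_
    rw [sub_comp, X_comp, C_comp, hg_def, Polynomial.C_sub]; ring
  refine el_pb_mdl_cusp hϖ x hx hgenK h hh g hg hgdeg w (el_pg_transcendental x hx c w hw)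
    (el_pg_adjoin_eq_top x hgenK c w hw hgenKw) hxw hdeg ?_ ?_ n hπn ?_
  · -- (V'')
    intro V _ _ hwV hprim hϖV
    exact el_pg_gauss_up (L := L) hϖ x N hN hNu c hV w hw hgenE V hwV hprim hϖV
  · -- (H'')
    intro V2 _ _ hL hwV hinv
    rw [hcomp] at hinv
    exact mkr_unram_prod x hx hgenK N hN Cs c hH hT w hw hgenE V2 hL hwV hinv
  · -- `h(x) ∉ n`
    intro y hy hyn
    have hxmem : algebraMap K E x ∈ fc_chart O ({algebraMap K E x} : Set E) :=
      fc_adjoin_le_chart _ (Algebra.subset_adjoin (Set.mem_singleton _))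
    let xE : fc_chart O ({algebraMap K E x} : Set E) := ⟨algebraMap K E x, hxmem⟩
    have hyprod : y = ∏ c' ∈ Cs.erase c, (xE - algebraMap O _ c') := by
      apply Subtype.ext
      rw [hy, hh_def, map_prod]
      push_cast
      refine Finset.prod_congr rfl fun c' _ => ?_
      rw [map_sub, aeval_X, aeval_C]
    rw [hyprod] at hyn
    haveI := hn.isPrime
    obtain ⟨c', hc', hc'n⟩ := Ideal.IsPrime.prod_mem_iff.1 hyn
    have hcn' : xE - algebraMap O _ c ∈ n := hcn _ rfl
    have hne : c ≠ c' := fun h => (Finset.ne_of_mem_erase hc') h.symm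
    have hu : IsUnit (c - c') := hC c' (Finset.mem_of_mem_erase hc') hne
    have hdiff : algebraMap O (fc_chart O ({algebraMap K E x} : Set E)) (c - c') ∈ n := by
      have : algebraMap O (fc_chart O ({algebraMap K E x} : Set E)) (c - c') =
          (xE - algebraMap O _ c') - (xE - algebraMap O _ c) := by
        rw [map_sub]; ring
      rw [this]
      exact n.sub_mem hc'n hcn'
    exact hn.ne_top (Ideal.eq_top_of_isUnit_mem _ hdiff (hu.map _))

end Cusp

section Final

variable {O L : Type*} [CommRing O] [IsDomain O] [IsDiscreteValuationRing O]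
  [Field L] [Algebra O L] [IsFractionRing O L] [CharZero L]
  {K E : Type*} [Field K] [Field E] [Algebra L K] [Algebra K E] [Algebra L E]
  [IsScalarTower L K E] [Algebra O K] [Algebra O E] [IsScalarTower O L K] [IsScalarTower O L E]
  [IsScalarTower O K E] [FiniteDimensional K E]

/-- **The cusp half of `mdl_regAt`, intrinsic (V)**, from a Kummer extension `E'' = E(w)`,
`w ^ N = x - c`: `K'' := K(w) ⊆ E''` and all towers are constructed inside. -/
theorem el_pg_cusp_of_kummer_intr {E'' : Type*} [Field E''] [Algebra E E'']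
    [FiniteDimensional E E'']
    {ϖ : O} (hϖ : Irreducible ϖ)
    (x : K) (hx : Transcendental L x) (hgenK : IntermediateField.adjoin L {x} = ⊤)
    (N : ℕ) (hN : IsUnit ((N : ℕ) : O)) (ζ : L) (hζ : IsPrimitiveRoot ζ N)
    (Cs : Finset O) (c : O) (hC : ∀ c' ∈ Cs, c ≠ c' → IsUnit (c - c'))
    (hV : ∀ (V : Subring K) [IsDiscreteValuationRing V] [IsFractionRing V K], x ∈ V →
      (∀ a : O[X], a.map (residue O) ≠ 0 → (aeval x a)⁻¹ ∈ V) → (algebraMap O K ϖ)⁻¹ ∉ V →
      jt_UnramAt V E)
    (hH : ∀ (V2 : Subring K) [IsDiscreteValuationRing V2] [IsFractionRing V2 K],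
      (∀ a : L, algebraMap L K a ∈ V2) → x ∈ V2 →
      (∀ c' ∈ Cs, (x - algebraMap O K c')⁻¹ ∈ V2) → jt_UnramAt V2 E)
    (hT : ∀ (V2 : Subring K) [IsDiscreteValuationRing V2] [IsFractionRing V2 K],
      (∀ a : L, algebraMap L K a ∈ V2) → x ∈ V2 → (x - algebraMap O K c)⁻¹ ∉ V2 →
      ∀ (P : Ideal (integralClosure V2 E)) [P.IsPrime], P ≠ ⊥ → P.ramificationIdx V2 ∣ N)
    (w : E'') (hw : w ^ N = algebraMap E E'' (algebraMap K E (x - algebraMap O K c)))
    (hgenE0 : IntermediateField.adjoin E {w} = ⊤)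
    (n : Ideal (fc_chart O ({algebraMap K E x} : Set E))) [hn : n.IsMaximal]
    (hπn : algebraMap O (fc_chart O ({algebraMap K E x} : Set E)) ϖ ∈ n)
    (hcn : ∀ y : fc_chart O ({algebraMap K E x} : Set E),
      (y : E) = algebraMap K E x - algebraMap O E c → y ∈ n) :
    (∃ u, tq_GenBy (algebraMap O (fc_chart O ({algebraMap K E x} : Set E)) ϖ) u n) ∧
      tq_Total (algebraMap O (fc_chart O ({algebraMap K E x} : Set E)) ϖ) n ∧
      tq_Dom (algebraMap O (fc_chart O ({algebraMap K E x} : Set E)) ϖ) n := by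
  classical
  haveI : CharZero O := RingHom.charZero (algebraMap O L)
  haveI : CharZero E := charZero_of_injective_algebraMap (algebraMap L E).injective
  have hN0 : 0 < N := by
    rcases Nat.eq_zero_or_pos N with h | h
    · exfalso; rw [h, Nat.cast_zero] at hN; exact not_isUnit_zero hN
    · exact h
  set t : E := algebraMap K E (x - algebraMap O K c) with ht_def
  have ht0 : t ≠ 0 := by
    rw [ht_def, Ne, map_eq_zero, sub_eq_zero]
    intro h0
    apply hx
    rw [h0, IsScalarTower.algebraMap_apply O L K]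
    exact isAlgebraic_algebraMap _
  have hζE : IsPrimitiveRoot (algebraMap L E ζ) N :=
    hζ.map_of_injective (algebraMap L E).injective
  have hNE : ((N : ℕ) : E) ≠ 0 := Nat.cast_ne_zero.2 hN0.ne'
  haveI hgal : IsGalois E E'' := tc_kummer_isGalois hNE hζE ht0 hw hgenE0
  have hw0 : w ≠ 0 := by
    rintro rfl
    rw [zero_pow hN0.ne'] at hw
    exact ht0 ((map_eq_zero _).1 hw.symm)
  have hfin : Module.finrank E E'' ∣ N := tc_kummer_finrank_dvd hN0 hζE hw0 hw hgenE0
  have hdeg : IsUnit ((Module.finrank E E'' : ℕ) : O) := by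
    obtain ⟨k, hk⟩ := hfin
    have hN' := hN
    rw [hk, Nat.cast_mul] at hN'
    exact isUnit_of_mul_isUnit_left hN'
  -- algebra structures on `E''`
  letI aK : Algebra K E'' := ((algebraMap E E'').comp (algebraMap K E)).toAlgebra
  letI aL : Algebra L E'' := ((algebraMap E E'').comp (algebraMap L E)).toAlgebra
  letI aO : Algebra O E'' := ((algebraMap E E'').comp (algebraMap O E)).toAlgebra
  haveI tKE : IsScalarTower K E E'' := IsScalarTower.of_algebraMap_eq fun _ => rfl
  haveI tLE : IsScalarTower L E E'' := IsScalarTower.of_algebraMap_eq fun _ => rfl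
  haveI tOE : IsScalarTower O E E'' := IsScalarTower.of_algebraMap_eq fun _ => rfl
  haveI tLK : IsScalarTower L K E'' :=
    IsScalarTower.of_algebraMap_eq fun a => by
      change algebraMap E _ (algebraMap L E a) = algebraMap E _ (algebraMap K E (algebraMap L K a))
      rw [← IsScalarTower.algebraMap_apply L K E]
  haveI tOK : IsScalarTower O K E'' :=
    IsScalarTower.of_algebraMap_eq fun a => by
      change algebraMap E _ (algebraMap O E a) = algebraMap E _ (algebraMap K E (algebraMap O K a))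
      rw [← IsScalarTower.algebraMap_apply O K E]
  haveI tOL : IsScalarTower O L E'' :=
    IsScalarTower.of_algebraMap_eq fun a => by
      change algebraMap E _ (algebraMap O E a) = algebraMap E _ (algebraMap L E (algebraMap O L a))
      rw [← IsScalarTower.algebraMap_apply O L E]
  haveI fKE : FiniteDimensional K E'' := Module.Finite.trans E _
  -- `K''`
  let K'' : IntermediateField K E'' := IntermediateField.adjoin K {w}
  let w'' : K'' := ⟨w, IntermediateField.mem_adjoin_simple_self K w⟩
  haveI tLK'' : IsScalarTower L K'' E'' := IsScalarTower.of_algebraMap_eq fun _ => rfl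
  haveI tOK'' : IsScalarTower O K'' E'' := IsScalarTower.of_algebraMap_eq fun _ => rfl
  haveI tOLK'' : IsScalarTower O L K'' :=
    IsScalarTower.of_algebraMap_eq fun a => Subtype.ext
      (IsScalarTower.algebraMap_apply O L E'' a)
  haveI fK'' : FiniteDimensional K'' E'' := IntermediateField.finiteDimensional_right K''
  haveI fKK'' : FiniteDimensional K K'' := IntermediateField.finiteDimensional_left K''
  have hw'' : w'' ^ N = algebraMap K K'' (x - algebraMap O K c) := by
    apply Subtype.ext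
    change w ^ N = algebraMap E _ (algebraMap K E (x - algebraMap O K c))
    rw [hw]
  have hgenKw : IntermediateField.adjoin K {w''} = ⊤ := by
    apply IntermediateField.lift_injective K''
    rw [IntermediateField.lift_adjoin_simple, IntermediateField.lift_top]
  have hgenE : IntermediateField.adjoin E {algebraMap K'' E'' w''} = ⊤ := hgenE0
  exact el_pg_cusp_intr hϖ x hx hgenK N hN0 hN Cs c hC hV hH hT w'' hw'' hgenKw hgenE hdeg n
    hπn hcn

/-- **The cusp half of `mdl_regAt`, intrinsic (V)**: the Kummer data are constructed inside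
(`E'' := tc_KummerField E (x - c) N`, `K'' := K(w) ⊆ E''`). -/
theorem el_pg_cusp_regAt_intr {ϖ : O} (hϖ : Irreducible ϖ)
    (x : K) (hx : Transcendental L x) (hgenK : IntermediateField.adjoin L {x} = ⊤)
    (N : ℕ) (hN : IsUnit ((N : ℕ) : O)) (ζ : L) (hζ : IsPrimitiveRoot ζ N)
    (Cs : Finset O) (c : O) (hC : ∀ c' ∈ Cs, c ≠ c' → IsUnit (c - c'))
    (hV : ∀ (V : Subring K) [IsDiscreteValuationRing V] [IsFractionRing V K], x ∈ V →
      (∀ a : O[X], a.map (residue O) ≠ 0 → (aeval x a)⁻¹ ∈ V) → (algebraMap O K ϖ)⁻¹ ∉ V →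
      jt_UnramAt V E)
    (hH : ∀ (V2 : Subring K) [IsDiscreteValuationRing V2] [IsFractionRing V2 K],
      (∀ a : L, algebraMap L K a ∈ V2) → x ∈ V2 →
      (∀ c' ∈ Cs, (x - algebraMap O K c')⁻¹ ∈ V2) → jt_UnramAt V2 E)
    (hT : ∀ (V2 : Subring K) [IsDiscreteValuationRing V2] [IsFractionRing V2 K],
      (∀ a : L, algebraMap L K a ∈ V2) → x ∈ V2 → (x - algebraMap O K c)⁻¹ ∉ V2 →
      ∀ (P : Ideal (integralClosure V2 E)) [P.IsPrime], P ≠ ⊥ → P.ramificationIdx V2 ∣ N)
    (n : Ideal (fc_chart O ({algebraMap K E x} : Set E))) [hn : n.IsMaximal]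
    (hπn : algebraMap O (fc_chart O ({algebraMap K E x} : Set E)) ϖ ∈ n)
    (hcn : ∀ y : fc_chart O ({algebraMap K E x} : Set E),
      (y : E) = algebraMap K E x - algebraMap O E c → y ∈ n) :
    (∃ u, tq_GenBy (algebraMap O (fc_chart O ({algebraMap K E x} : Set E)) ϖ) u n) ∧
      tq_Total (algebraMap O (fc_chart O ({algebraMap K E x} : Set E)) ϖ) n ∧
      tq_Dom (algebraMap O (fc_chart O ({algebraMap K E x} : Set E)) ϖ) n := by
  classical
  haveI : CharZero E := charZero_of_injective_algebraMap (algebraMap L E).injective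
  have hN0 : 0 < N := by
    rcases Nat.eq_zero_or_pos N with h | h
    · exfalso; rw [h, Nat.cast_zero] at hN; exact not_isUnit_zero hN
    · exact h
  have ht0 : algebraMap K E (x - algebraMap O K c) ≠ 0 := by
    rw [Ne, map_eq_zero, sub_eq_zero]
    intro h0
    apply hx
    rw [h0, IsScalarTower.algebraMap_apply O L K]
    exact isAlgebraic_algebraMap _
  obtain ⟨w, hw⟩ := tc_kummerField_exists_root (E := E)
    (t := algebraMap K E (x - algebraMap O K c)) hN0
  have hζE : IsPrimitiveRoot (algebraMap L E ζ) N :=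
    hζ.map_of_injective (algebraMap L E).injective
  exact el_pg_cusp_of_kummer_intr hϖ x hx hgenK N hN ζ hζ Cs c hC hV hH hT w hw
    (tc_kummerField_adjoin hN0 hζE ht0 hw) n hπn hcn

/-- **The generic model theorem `mdl_regAt` with INTRINSIC (V)**: the chart `fc_chart O {x}` of
`E / K`, `K = L(x)`, is regular along `ϖ`, from (V) `E / K` unramified over the Gauss type
valuation rings of `K` at `x`, (H) unramifiedness off the cusps `x = c`, `c ∈ C`, and (T) tameness
`e ∣ N` at the cusps. -/
theorem el_pg_regAt_intr {ϖ : O} (hϖ : Irreducible ϖ)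
    (x : K) (hx : Transcendental L x) (hgenK : IntermediateField.adjoin L {x} = ⊤)
    (N : ℕ) (hN : IsUnit ((N : ℕ) : O)) (ζ : L) (hζ : IsPrimitiveRoot ζ N)
    (C : Finset O) (hC : ∀ c ∈ C, ∀ c' ∈ C, c ≠ c' → IsUnit (c - c'))
    (hV : ∀ (V : Subring K) [IsDiscreteValuationRing V] [IsFractionRing V K], x ∈ V →
      (∀ a : O[X], a.map (residue O) ≠ 0 → (aeval x a)⁻¹ ∈ V) → (algebraMap O K ϖ)⁻¹ ∉ V →
      jt_UnramAt V E)
    (hH : ∀ (V2 : Subring K) [IsDiscreteValuationRing V2] [IsFractionRing V2 K],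
      (∀ a : L, algebraMap L K a ∈ V2) → x ∈ V2 →
      (∀ c ∈ C, (x - algebraMap O K c)⁻¹ ∈ V2) → jt_UnramAt V2 E)
    (hT : ∀ c ∈ C, ∀ (V2 : Subring K) [IsDiscreteValuationRing V2] [IsFractionRing V2 K],
      (∀ a : L, algebraMap L K a ∈ V2) → x ∈ V2 → (x - algebraMap O K c)⁻¹ ∉ V2 →
      ∀ (P : Ideal (integralClosure V2 E)) [P.IsPrime], P ≠ ⊥ → P.ramificationIdx V2 ∣ N) :
    jt_RegAt (fc_chart O ({algebraMap K E x} : Set E))
      (algebraMap O (fc_chart O ({algebraMap K E x} : Set E)) ϖ) := by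
  classical
  intro n hn hπn
  haveI := hn
  by_cases hex : ∃ c ∈ C, ∀ y : fc_chart O ({algebraMap K E x} : Set E),
      (y : E) = algebraMap K E x - algebraMap O E c → y ∈ n
  · obtain ⟨c, hc, hcn⟩ := hex
    obtain ⟨hu, -, hd⟩ := el_pg_cusp_regAt_intr hϖ x hx hgenK N hN ζ hζ C c
      (fun c' hc' hne => hC c hc c' hc' hne) hV hH (hT c hc) n hπn hcn
    exact ⟨hu, hd⟩
  · simp only [not_exists, not_and] at hex
    obtain ⟨hu, -, hd⟩ := el_pb_mdl_etale hϖ x hx hgenK C hV hH n hπn
      (fun c hc y hy hyn => by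
        obtain ⟨y', hy''⟩ := not_forall.1 (hex c hc)
        obtain ⟨hy', hy'n⟩ := Classical.not_imp.1 hy''
        have : y = y' := Subtype.ext (hy.trans hy'.symm)
        exact hy'n (this ▸ hyn))
    exact ⟨hu, hd⟩

end Final

end Fermat.Agent.JT3
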