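/-
JT3 node [EL+], intrinsic (V): the Gauss type valuation rings of `K` at `x` and at `x⁻¹` coincide
(prefix `el_pgi_`).

A subring `V ⊆ K` is of Gauss type at `y` over `O` if `y ∈ V` and every polynomial `a(y)`,
`a ∈ O[X]` with nonzero reduction, is a unit of `V`.  Then `V` is of Gauss type at `y⁻¹`
(`a(y⁻¹) = y^{-d} · a^{rev}(y)`, and the reversed polynomial has nonzero reduction).  Hence the
intrinsic vertical hypothesis (V) of `el_pg_regAt_intr` at `x` gives the one at `x⁻¹`
(`el_pgi_vertHyp_inv`), so that ONE vertical input serves both charts `x ≠ ∞`, `x ≠ 0`.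
-/
import Mathlib
import Fermat.Agent.JT3.Seams

set_option autoImplicit false
set_option linter.unusedSectionVars false
set_option linter.style.haveILetI false

namespace Fermat.Agent.JT3

open Polynomial IsLocalRing

section Core

variable {O K : Type*} [CommRing O] [IsLocalRing O] [Field K] [Algebra O K]

/-- the reversed polynomial has nonzero reduction. -/
theorem el_pgi_reverse_map_ne_zero {a : O[X]} (ha : a.map (residue O) ≠ 0) :
    a.reverse.map (residue O) ≠ 0 := by
  intro h0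
  apply ha
  ext n
  rw [coeff_map, coeff_zero]
  by_cases hn : n ≤ a.natDegree
  · have h1 := congrArg (fun p => p.coeff (revAt a.natDegree n)) h0
    simp only [coeff_map, coeff_zero, coeff_reverse] at h1
    rwa [revAt_invol] at h1
  · rw [coeff_eq_zero_of_natDegree_lt (not_le.1 hn), map_zero]

/-- **Gauss type at `y` ⟹ Gauss type at `y⁻¹`.** -/
theorem el_pgi_gauss_inv (V : Subring K) (y : K) (hy : y ∈ V)
    (hprim : ∀ a : O[X], a.map (residue O) ≠ 0 → (aeval y a)⁻¹ ∈ V) :
    y⁻¹ ∈ V ∧ ∀ a : O[X], a.map (residue O) ≠ 0 → (aeval y⁻¹ a)⁻¹ ∈ V := by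
  have hX : (X : O[X]).map (residue O) ≠ 0 := by
    rw [Polynomial.map_X]; exact X_ne_zero
  have hyinv : y⁻¹ ∈ V := by
    have := hprim X hX
    rwa [aeval_X] at this
  refine ⟨hyinv, fun a ha => ?_⟩
  by_cases hy0 : y = 0
  · -- degenerate case: `y = 0 = y⁻¹`
    rw [hy0, inv_zero, ← hy0]
    exact hprim a ha
  -- `a(y⁻¹) = a^{rev}(y) * (y⁻¹) ^ d`
  have key : aeval y a.reverse * y⁻¹ ^ a.natDegree = aeval y⁻¹ a := by
    letI : Invertible y⁻¹ := invertibleOfNonzero (inv_ne_zero hy0)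
    have h := eval₂_reverse_mul_pow (algebraMap O K) y⁻¹ a
    rw [invOf_eq_inv, inv_inv] at h
    rw [aeval_def, aeval_def]
    exact h
  rw [← key, mul_inv, ← inv_pow, inv_inv]
  exact V.mul_mem (hprim _ (el_pgi_reverse_map_ne_zero ha)) (V.pow_mem hy _)

end Core

section Hyp

variable {O K : Type*} [CommRing O] [IsLocalRing O] [Field K] [Algebra O K]
  (E : Type*) [Field E] [Algebra K E]

/-- **the intrinsic vertical hypothesis (V) at `x` gives the one at `x⁻¹`** (the Gauss type
valuation rings of `K` at `x` and at `x⁻¹` are the same). -/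
theorem el_pgi_vertHyp_inv (ϖ : O) (x : K)
    (hV : ∀ (V : Subring K) [IsDiscreteValuationRing V] [IsFractionRing V K], x ∈ V →
      (∀ a : O[X], a.map (residue O) ≠ 0 → (aeval x a)⁻¹ ∈ V) → (algebraMap O K ϖ)⁻¹ ∉ V →
      jt_UnramAt V E) :
    ∀ (V : Subring K) [IsDiscreteValuationRing V] [IsFractionRing V K], x⁻¹ ∈ V →
      (∀ a : O[X], a.map (residue O) ≠ 0 → (aeval x⁻¹ a)⁻¹ ∈ V) → (algebraMap O K ϖ)⁻¹ ∉ V →
      jt_UnramAt V E := by
  intro V _ _ hxV hprim hϖ
  obtain ⟨h1, h2⟩ := el_pgi_gauss_inv V x⁻¹ hxV hprim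
  rw [inv_inv] at h1 h2
  exact hV V h1 h2 hϖ

end Hyp

end Fermat.Agent.JT3
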