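import Mathlib
import Fermat.Agent.JT3.Model.GenDefs
import Fermat.Agent.JT3.Algebra.UnramCarrier
import Fermat.Agent.JT3.Seams

/-!
# JT3 / Route R (S18), leaf (C-V): the vertical condition `(V)` in generator form
(prefix `mdl_gs_`)

* `mdl_gs_subst`  : `mdl_GoodGen O x θ` is stable under the Kummer substitution `x = w ^ N + c`;
* `mdl_gs_adjoin` : `E'' = K''(S'')` from `E = K(S)`, `E'' = E(w)`, `w ∈ K''`;
* `mdl_gs_unram`  : **[V-GEN]** generators with `mdl_GoodGen` ⟹ `E` is unramified over the Gauss ring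
  of `K` (characterised intrinsically, in the shape of `el_pb_mdl_etale`'s hypothesis `hV`);
* `mdl_gs_unram_kummer` : the same at the Kummer level.
-/

set_option autoImplicit false
set_option linter.unusedSectionVars false

noncomputable section

open Polynomial IsLocalRing

namespace Fermat.Agent.JT3

section Subst

variable {O : Type*} [CommRing O] [IsLocalRing O]
  {E E'' : Type*} [Field E] [Field E''] [Algebra O E] [Algebra O E''] [Algebra E E'']
  [IsScalarTower O E E'']

/-- **substitution**: the generator condition is stable under `x = w ^ N + c`. -/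
theorem mdl_gs_subst {x θ : E} {w : E''} {N : ℕ} (hN : 0 < N) (c : O)
    (hxw : algebraMap E E'' x = w ^ N + algebraMap O E'' c) (h : mdl_GoodGen O x θ) :
    mdl_GoodGen O w (algebraMap E E'' θ) := by
  classical
  obtain ⟨H, hlc, hroot, hsep⟩ := h
  set g : O[X] := X ^ N + C c with hg
  set gb : (ResidueField O)[X] := X ^ N + C (residue O c) with hgb
  have hgmap : g.map (residue O) = gb := by
    rw [hg, hgb, Polynomial.map_add, Polynomial.map_pow, map_X, map_C]
  -- `p ↦ p.comp gb` is injective
  have hgbdeg : gb.natDegree = N := by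
    rw [hgb]
    exact natDegree_X_pow_add_C
  have hinjb : Function.Injective (compRingHom gb) := by
    rw [injective_iff_map_eq_zero]
    intro p hp
    rw [coe_compRingHom_apply, comp_eq_zero_iff] at hp
    rcases hp with hp | ⟨-, hp⟩
    · exact hp
    · exfalso
      have := congrArg natDegree hp
      rw [hgbdeg, natDegree_C] at this
      omega
  -- compatibility of the substitution with reduction
  have hcomm : (mapRingHom (residue O)).comp (compRingHom g) =
      (compRingHom gb).comp (mapRingHom (residue O)) := by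
    refine RingHom.ext fun p => ?_
    simp only [RingHom.comp_apply, coe_compRingHom_apply, coe_mapRingHom]
    rw [map_comp, hgmap]
  refine ⟨H.map (compRingHom g), ?_, ?_, ?_⟩
  · -- leading coefficient
    have h1 : (compRingHom gb) (H.leadingCoeff.map (residue O)) ≠ 0 := fun h0 =>
      hlc (hinjb (by rw [h0, map_zero]))
    have h2 : ((compRingHom g) H.leadingCoeff).map (residue O) =
        (compRingHom gb) (H.leadingCoeff.map (residue O)) := by
      have := congrArg (fun f : O[X] →+* (ResidueField O)[X] => f H.leadingCoeff) hcomm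
      simpa only [RingHom.comp_apply, coe_mapRingHom] using this
    have h3 : (compRingHom g) H.leadingCoeff ≠ 0 := by
      intro h0
      rw [h0, Polynomial.map_zero] at h2
      exact h1 h2.symm
    rw [leadingCoeff_map_of_leadingCoeff_ne_zero _ h3, h2]
    exact h1
  · -- root
    rw [eval₂_map]
    have hcomp : ((aeval w : O[X] →ₐ[O] E'') : O[X] →+* E'').comp (compRingHom g) =
        (algebraMap E E'').comp ((aeval x : O[X] →ₐ[O] E) : O[X] →+* E) := by
      refine Polynomial.ringHom_ext (fun a => ?_) ?_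
      · simp only [RingHom.comp_apply, coe_compRingHom_apply, C_comp, RingHom.coe_coe, aeval_C]
        rw [← IsScalarTower.algebraMap_apply]
      · simp only [RingHom.comp_apply, coe_compRingHom_apply, X_comp, RingHom.coe_coe, aeval_X]
        rw [hxw, hg]
        simp
    rw [hcomp, ← Polynomial.hom_eval₂, hroot, map_zero]
  · -- separability
    have hinj2 : Function.Injective ((algebraMap (ResidueField O)[X]
        (RatFunc (ResidueField O))).comp (compRingHom gb)) :=
      (IsFractionRing.injective _ _).comp hinjb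
    set Φ : RatFunc (ResidueField O) →+* RatFunc (ResidueField O) :=
      IsFractionRing.lift hinj2 with hΦ
    have hΦc : Φ.comp (algebraMap (ResidueField O)[X] (RatFunc (ResidueField O))) =
        (algebraMap (ResidueField O)[X] (RatFunc (ResidueField O))).comp (compRingHom gb) :=
      RingHom.ext fun p => IsFractionRing.lift_algebraMap hinj2 p
    have key : ((H.map (compRingHom g)).map (mapRingHom (residue O))).map
        (algebraMap (ResidueField O)[X] (RatFunc (ResidueField O))) =
        (((H.map (mapRingHom (residue O))).map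
          (algebraMap (ResidueField O)[X] (RatFunc (ResidueField O)))).map Φ) := by
      rw [Polynomial.map_map, Polynomial.map_map, Polynomial.map_map, Polynomial.map_map,
        RingHom.comp_assoc, hcomm, hΦc, RingHom.comp_assoc]
    rw [key]
    exact hsep.map

end Subst

section Adjoin

variable {K E K'' E'' : Type*} [Field K] [Field E] [Field K''] [Field E''] [Algebra K E]
  [Algebra K K''] [Algebra K'' E''] [Algebra E E''] [Algebra K E''] [IsScalarTower K K'' E'']
  [IsScalarTower K E E'']

/-- **generation at the Kummer level**: `E = K(S)`, `E'' = E(w)`, `w ∈ K''` ⟹ `E'' = K''(S)`. -/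
theorem mdl_gs_adjoin (S : Set E) (hS : IntermediateField.adjoin K S = ⊤) (w : K'')
    (hw : IntermediateField.adjoin E {algebraMap K'' E'' w} = ⊤) :
    IntermediateField.adjoin K'' (algebraMap E E'' '' S) = ⊤ := by
  set M := IntermediateField.adjoin K'' (algebraMap E E'' '' S) with hM
  have hE : ∀ e : E, algebraMap E E'' e ∈ M := by
    intro e
    have he : e ∈ IntermediateField.adjoin K S := by rw [hS]; trivial
    induction he using IntermediateField.adjoin_induction with
    | mem y hy => exact IntermediateField.subset_adjoin K'' _ ⟨y, hy, rfl⟩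
    | algebraMap a =>
      rw [← IsScalarTower.algebraMap_apply K E E'', IsScalarTower.algebraMap_apply K K'' E'']
      exact M.algebraMap_mem _
    | add x y _ _ hx hy => rw [map_add]; exact add_mem hx hy
    | inv x _ hx => rw [map_inv₀]; exact inv_mem hx
    | mul x y _ _ hx hy => rw [map_mul]; exact mul_mem hx hy
  rw [eq_top_iff]
  rintro y -
  have hy : y ∈ IntermediateField.adjoin E {algebraMap K'' E'' w} := by rw [hw]; trivial
  induction hy using IntermediateField.adjoin_induction with
  | mem z hz =>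
    rw [Set.mem_singleton_iff] at hz
    rw [hz]
    exact M.algebraMap_mem w
  | algebraMap e => exact hE e
  | add x y _ _ hx hy => exact add_mem hx hy
  | inv x _ hx => exact inv_mem hx
  | mul x y _ _ hx hy => exact mul_mem hx hy

end Adjoin

section VGen

variable {O : Type*} [CommRing O] [IsDomain O] [IsDiscreteValuationRing O]
  {K E : Type*} [Field K] [Field E] [Algebra K E] [Algebra O K] [Algebra O E]
  [IsScalarTower O K E] [FiniteDimensional K E] [Algebra.IsSeparable K E]

omit [Algebra K E] [Algebra O E] [IsScalarTower O K E] [FiniteDimensional K E]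
  [Algebra.IsSeparable K E] [Field E] in
/-- `O ⊆ V` for a Gauss-type ring `V` -/
theorem mdl_gs_algebraMap_mem {ϖ : O} (hϖ : Irreducible ϖ) (x : K)
    (V : Subring K) [IsDiscreteValuationRing V] [IsFractionRing V K]
    (hprim : ∀ a : O[X], a.map (residue O) ≠ 0 → (aeval x a)⁻¹ ∈ V)
    (hϖV : (algebraMap O K ϖ)⁻¹ ∉ V) (a : O) : algebraMap O K a ∈ V := by
  -- `ϖ` lies in `V`
  have hϖmem : algebraMap O K ϖ ∈ V := by
    rcases ValuationRing.isInteger_or_isInteger (↥V) (algebraMap O K ϖ) with ⟨y, hy⟩ | ⟨y, hy⟩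
    · rw [← hy]; exact y.2
    · exact absurd (by rw [← hy]; exact y.2) hϖV
  -- units of `O` lie in `V`
  have hunit : ∀ u : Oˣ, algebraMap O K (u : O) ∈ V := by
    intro u
    have h1 : (C ((u⁻¹ : Oˣ) : O) : O[X]).map (residue O) ≠ 0 := by
      rw [Polynomial.map_C, Ne, C_eq_zero]
      intro h0
      have hu : IsUnit (residue O ((u⁻¹ : Oˣ) : O)) := (u⁻¹).isUnit.map _
      rw [h0] at hu
      exact not_isUnit_zero hu
    have h2 := hprim _ h1
    rw [aeval_C] at h2
    have h3 : (algebraMap O K ((u⁻¹ : Oˣ) : O))⁻¹ = algebraMap O K (u : O) := by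
      rw [inv_eq_iff_eq_inv]
      apply eq_inv_of_mul_eq_one_left
      rw [← map_mul]
      simp
    rwa [h3] at h2
  rcases eq_or_ne a 0 with rfl | ha
  · rw [map_zero]; exact V.zero_mem
  · obtain ⟨n, u, rfl⟩ := IsDiscreteValuationRing.eq_unit_mul_pow_irreducible ha hϖ
    rw [map_mul, map_pow]
    exact V.mul_mem (hunit u) (V.pow_mem hϖmem n)

omit [Algebra K E] [Algebra O E] [IsScalarTower O K E] [FiniteDimensional K E]
  [Algebra.IsSeparable K E] [Field E] [IsDomain O] [IsDiscreteValuationRing O] in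
theorem mdl_gs_aeval_mem (x : K) (V : Subring K) (hxV : x ∈ V)
    (hOV : ∀ a : O, algebraMap O K a ∈ V) (p : O[X]) : aeval x p ∈ V := by
  rw [aeval_eq_sum_range]
  refine V.sum_mem (fun i _ => ?_)
  rw [Algebra.smul_def]
  exact V.mul_mem (hOV _) (V.pow_mem hxV i)

/-- the evaluation `O[X] → V`, `X ↦ x` -/
def mdl_gs_psi (x : K) (V : Subring K) (hxV : x ∈ V) (hOV : ∀ a : O, algebraMap O K a ∈ V) :
    O[X] →+* V :=
  ((aeval x : O[X] →ₐ[O] K) : O[X] →+* K).codRestrict V (mdl_gs_aeval_mem x V hxV hOV)

omit [Algebra K E] [Algebra O E] [IsScalarTower O K E] [FiniteDimensional K E]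
  [Algebra.IsSeparable K E] [Field E] [IsDomain O] [IsDiscreteValuationRing O] in
@[simp] theorem mdl_gs_psi_coe (x : K) (V : Subring K) (hxV : x ∈ V)
    (hOV : ∀ a : O, algebraMap O K a ∈ V) (p : O[X]) :
    ((mdl_gs_psi x V hxV hOV p : V) : K) = aeval x p := rfl

omit [Algebra K E] [Algebra O E] [IsScalarTower O K E] [FiniteDimensional K E]
  [Algebra.IsSeparable K E] [Field E] in
/-- polynomials with nonzero reduction are units of `V` -/
theorem mdl_gs_isUnit_psi {ϖ : O} (hϖ : Irreducible ϖ) (x : K)
    (V : Subring K) (hxV : x ∈ V) (hOV : ∀ a : O, algebraMap O K a ∈ V)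
    (hprim : ∀ a : O[X], a.map (residue O) ≠ 0 → (aeval x a)⁻¹ ∈ V)
    (hϖV : (algebraMap O K ϖ)⁻¹ ∉ V) (a : O[X]) (ha : a.map (residue O) ≠ 0) :
    IsUnit (mdl_gs_psi x V hxV hOV a) := by
  have hne : aeval x a ≠ 0 := by
    intro h0
    have h1 : (a + C ϖ).map (residue O) ≠ 0 := by
      rw [Polynomial.map_add, Polynomial.map_C]
      have : residue O ϖ = 0 := (residue_eq_zero_iff _).2 hϖ.not_isUnit
      rw [this, C_0, add_zero]
      exact ha
    have h2 := hprim _ h1
    rw [map_add, h0, zero_add, aeval_C] at h2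
    exact hϖV h2
  refine IsUnit.of_mul_eq_one ⟨(aeval x a)⁻¹, hprim a ha⟩ ?_
  apply Subtype.ext
  show aeval x a * (aeval x a)⁻¹ = 1
  exact mul_inv_cancel₀ hne

omit [Algebra K E] [Algebra O E] [IsScalarTower O K E] [FiniteDimensional K E]
  [Algebra.IsSeparable K E] [Field E] in
/-- the constants `O → V` form a local homomorphism -/
theorem mdl_gs_isLocalHom {ϖ : O} (hϖ : Irreducible ϖ) (x : K)
    (V : Subring K) [IsLocalRing V] (hxV : x ∈ V) (hOV : ∀ a : O, algebraMap O K a ∈ V)
    (hϖV : (algebraMap O K ϖ)⁻¹ ∉ V) :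
    IsLocalHom ((mdl_gs_psi x V hxV hOV).comp (C : O →+* O[X])) := by
  have hϖnu : ¬ IsUnit ((mdl_gs_psi x V hxV hOV) (C ϖ)) := by
    intro hu
    obtain ⟨u, hu⟩ := hu
    apply hϖV
    have h1 : ((u⁻¹ : Vˣ) : V) * (mdl_gs_psi x V hxV hOV) (C ϖ) = 1 := by
      rw [← hu]; exact u.inv_mul
    have h2 : (((u⁻¹ : Vˣ) : V) : K) * algebraMap O K ϖ = 1 := by
      have := congrArg (fun t : V => (t : K)) h1
      simp only [Subring.coe_mul, mdl_gs_psi_coe, aeval_C, Subring.coe_one] at this
      exact this
    rw [← eq_inv_of_mul_eq_one_left h2]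
    exact ((u⁻¹ : Vˣ) : V).2
  refine ⟨fun a ha => ?_⟩
  by_contra hna
  have h1 : a ∈ maximalIdeal O := (mem_maximalIdeal a).2 hna
  rw [hϖ.maximalIdeal_eq, Ideal.mem_span_singleton] at h1
  obtain ⟨b, rfl⟩ := h1
  rw [RingHom.comp_apply, map_mul, map_mul] at ha
  exact hϖnu (isUnit_of_mul_isUnit_left ha)

omit [Algebra K E] [Algebra O E] [IsScalarTower O K E] [FiniteDimensional K E]
  [Algebra.IsSeparable K E] [Field E] in
/-- the residue field map `k(X) → κ(V)`, `X ↦ x̄` -/
theorem mdl_gs_exists_Phi {ϖ : O} (hϖ : Irreducible ϖ) (x : K)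
    (V : Subring K) [IsLocalRing V] (hxV : x ∈ V) (hOV : ∀ a : O, algebraMap O K a ∈ V)
    (hprim : ∀ a : O[X], a.map (residue O) ≠ 0 → (aeval x a)⁻¹ ∈ V)
    (hϖV : (algebraMap O K ϖ)⁻¹ ∉ V) :
    ∃ Φ : RatFunc (ResidueField O) →+* ResidueField V,
      (residue V).comp (mdl_gs_psi x V hxV hOV) =
        (Φ.comp (algebraMap (ResidueField O)[X] (RatFunc (ResidueField O)))).comp
          (mapRingHom (residue O)) := by
  classical
  set ψ := mdl_gs_psi x V hxV hOV with hψ
  haveI hloc : IsLocalHom (ψ.comp (C : O →+* O[X])) := mdl_gs_isLocalHom hϖ x V hxV hOV hϖV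
  set κ : ResidueField O →+* ResidueField V := ResidueField.map (ψ.comp (C : O →+* O[X])) with hκ
  set ψb : (ResidueField O)[X] →+* ResidueField V :=
    eval₂RingHom κ (residue V (ψ X)) with hψb
  have hψbψ : ∀ p : O[X], ψb (p.map (residue O)) = residue V (ψ p) := by
    intro p
    rw [hψb, coe_eval₂RingHom, eval₂_map, hκ, ResidueField.map_comp_residue]
    have h1 : residue V (ψ p) = eval₂ ((residue V).comp (ψ.comp C)) (residue V (ψ X)) p := by
      conv_lhs => rw [← Polynomial.eval₂_C_X (p := p)]
      rw [← RingHom.comp_apply (residue V) ψ, Polynomial.hom_eval₂]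
      rfl
    rw [h1]
  have hψbinj : Function.Injective ψb := by
    rw [injective_iff_map_eq_zero]
    intro pb hpb
    by_contra hne
    obtain ⟨p, rfl⟩ := Polynomial.map_surjective (residue O) residue_surjective pb
    rw [hψbψ] at hpb
    have := mdl_gs_isUnit_psi hϖ x V hxV hOV hprim hϖV p hne
    exact ((residue_eq_zero_iff _).1 hpb) this
  refine ⟨IsFractionRing.lift hψbinj, RingHom.ext fun p => ?_⟩
  simp only [RingHom.comp_apply, coe_mapRingHom]
  rw [IsFractionRing.lift_algebraMap, hψbψ]

/-- **[V-GEN]**: if `E = K(S)` and every `θ ∈ S` satisfies `mdl_GoodGen O x θ`, then `E` is unramified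
over every discrete valuation ring `V` of `K` in which `ϖ` is a non-unit and all polynomials in `x`
over `O` with nonzero reduction are units (the Gauss ring of `K = L(x)`). -/
theorem mdl_gs_unram {ϖ : O} (hϖ : Irreducible ϖ) (x : K) (S : Finset E)
    (hS : IntermediateField.adjoin K (S : Set E) = ⊤)
    (hV : ∀ θ ∈ S, mdl_GoodGen O (algebraMap K E x) θ)
    (V : Subring K) [IsDiscreteValuationRing V] [IsFractionRing V K] (hxV : x ∈ V)
    (hprim : ∀ a : O[X], a.map (residue O) ≠ 0 → (aeval x a)⁻¹ ∈ V)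
    (hϖV : (algebraMap O K ϖ)⁻¹ ∉ V) : jt_UnramAt V E := by
  classical
  have hOV := mdl_gs_algebraMap_mem hϖ x V hprim hϖV
  obtain ⟨Φ, hΦ⟩ := mdl_gs_exists_Phi hϖ x V hxV hOV hprim hϖV
  have hVE : (algebraMap V E).comp (mdl_gs_psi x V hxV hOV) =
      ((aeval (algebraMap K E x) : O[X] →ₐ[O] E) : O[X] →+* E) := by
    refine RingHom.ext fun p => ?_
    rw [RingHom.comp_apply, IsScalarTower.algebraMap_apply V K E]
    show algebraMap K E (aeval x p) = aeval (algebraMap K E x) p
    rw [aeval_algebraMap_apply]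
  intro P _ hP
  refine ug_unram V K E (S : Set E) S.finite_toSet hS (fun θ hθ => ?_) P hP
  obtain ⟨H, hlc, hroot, hsep⟩ := hV θ (Finset.mem_coe.1 hθ)
  obtain ⟨ua, hua⟩ := mdl_gs_isUnit_psi hϖ x V hxV hOV hprim hϖV H.leadingCoeff hlc
  have hψlc : mdl_gs_psi x V hxV hOV H.leadingCoeff ≠ 0 := by rw [← hua]; exact ua.ne_zero
  refine ⟨C ((ua⁻¹ : Vˣ) : V) * H.map (mdl_gs_psi x V hxV hOV), ?_, ?_, ?_⟩
  · rw [Monic, leadingCoeff_mul, leadingCoeff_C,
      leadingCoeff_map_of_leadingCoeff_ne_zero _ hψlc, ← hua]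
    exact ua.inv_mul
  · rw [map_mul, aeval_def (p := H.map (mdl_gs_psi x V hxV hOV)), eval₂_map, hVE, hroot,
      mul_zero]
  · rw [Polynomial.map_mul, Polynomial.map_C]
    refine Separable.unit_mul (isUnit_C.2 ((ua⁻¹).isUnit.map _)) ?_
    have key : (H.map (mdl_gs_psi x V hxV hOV)).map (residue V) =
        ((H.map (mapRingHom (residue O))).map
          (algebraMap (ResidueField O)[X] (RatFunc (ResidueField O)))).map Φ := by
      rw [Polynomial.map_map, Polynomial.map_map, Polynomial.map_map, hΦ, RingHom.comp_assoc]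
    rw [key]
    exact hsep.map

end VGen

section Kummer

variable {O : Type*} [CommRing O] [IsDomain O] [IsDiscreteValuationRing O]
  {K E K'' E'' : Type*} [Field K] [Field E] [Field K''] [Field E''] [Algebra K E]
  [Algebra K K''] [Algebra K'' E''] [Algebra E E''] [Algebra K E''] [IsScalarTower K K'' E'']
  [IsScalarTower K E E'']
  [Algebra O K] [Algebra O E] [IsScalarTower O K E] [Algebra O K''] [Algebra O E'']
  [IsScalarTower O K'' E''] [IsScalarTower O E E'']
  [FiniteDimensional K'' E''] [Algebra.IsSeparable K'' E'']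

/-- **(hV'')**: the vertical condition at the Kummer level `(K'', w, E'')`, `w ^ N = x - c`. -/
theorem mdl_gs_unram_kummer {ϖ : O} (hϖ : Irreducible ϖ) (x : K) (S : Finset E)
    (hS : IntermediateField.adjoin K (S : Set E) = ⊤)
    (hV : ∀ θ ∈ S, mdl_GoodGen O (algebraMap K E x) θ)
    {N : ℕ} (hN : 0 < N) (c : O) (w : K'')
    (hxw : algebraMap K K'' x = w ^ N + algebraMap O K'' c)
    (hw : IntermediateField.adjoin E {algebraMap K'' E'' w} = ⊤)
    (V : Subring K'') [IsDiscreteValuationRing V] [IsFractionRing V K''] (hwV : w ∈ V)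
    (hprim : ∀ a : O[X], a.map (residue O) ≠ 0 → (aeval w a)⁻¹ ∈ V)
    (hϖV : (algebraMap O K'' ϖ)⁻¹ ∉ V) : jt_UnramAt V E'' := by
  classical
  refine mdl_gs_unram hϖ w (S.image (algebraMap E E'')) ?_ ?_ V hwV hprim hϖV
  · rw [Finset.coe_image]
    exact mdl_gs_adjoin (S : Set E) hS w hw
  · intro θ'' hθ''
    obtain ⟨θ, hθ, rfl⟩ := Finset.mem_image.1 hθ''
    refine mdl_gs_subst hN c ?_ (hV θ hθ)
    rw [← IsScalarTower.algebraMap_apply K E E'', IsScalarTower.algebraMap_apply K K'' E'', hxw,
      map_add, map_pow, ← IsScalarTower.algebraMap_apply O K'' E'']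

end Kummer

end Fermat.Agent.JT3
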