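/-
JT3 / Route R (S18), helper12: **the cusp case of `mdl_regAt`, assembled on the route (D')**
(architect's #1497 (3)): `el_pb_mdl_cusp` (helper20, chart part) + `mkr_unram_prod` (helper27,
ramification at the Kummer level) + `ug_unramAt_poly` (vertical prime at the Kummer level) +
`mdl_gs_subst` / `mdl_gs_adjoin` (helper22), parametric in the Kummer data `(K'', E'', w)`.

* `mdl_plug_cusp_core` : hypotheses `hhn`, `hCres` in the raw form of `el_pb_mdl_cusp`;
* `mdl_plug_cusp`      : the cusp case in the vocabulary of `mdl_regAt`: `Cs` with pairwise unit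
  differences, `c ∈ Cs`, `x - c ∈ n`.
-/
import Fermat.Agent.JT3.Model.PolyCusp
import Fermat.Agent.JT3.Model.CuspRam
import Fermat.Agent.JT3.Model.GoodGenSubst
import Fermat.Agent.JT3.Algebra.UnramPoly

set_option autoImplicit false
set_option linter.unusedSectionVars false
set_option linter.style.haveILetI false

namespace Fermat.Agent.JT3

open Polynomial IsLocalRing Module

section Plug

variable {O L : Type*} [CommRing O] [IsDomain O] [IsDiscreteValuationRing O]
  [Field L] [Algebra O L] [IsFractionRing O L] [CharZero L]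
  {K E : Type*} [Field K] [Field E] [Algebra L K] [Algebra K E] [Algebra L E]
  [IsScalarTower L K E] [Algebra O K] [Algebra O E] [IsScalarTower O L K] [IsScalarTower O L E]
  [IsScalarTower O K E] [FiniteDimensional K E]
  {K'' E'' : Type*} [Field K''] [Field E''] [Algebra L K''] [Algebra K'' E''] [Algebra L E'']
  [IsScalarTower L K'' E''] [Algebra O K''] [Algebra O E''] [IsScalarTower O L K'']
  [IsScalarTower O L E''] [IsScalarTower O K'' E''] [FiniteDimensional K'' E'']
  [Algebra E E''] [IsScalarTower O E E''] [FiniteDimensional E E''] [IsGalois E E'']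
  [Algebra K K''] [Algebra K E''] [IsScalarTower K K'' E''] [IsScalarTower K E E'']
  [IsScalarTower L K K''] [Algebra.IsAlgebraic K K''] [IsScalarTower O K K'']

/-- the cusp case, raw form: `h = ∏_{c' ≠ c} (X - c')`, `g = X ^ N + c`. -/
theorem mdl_plug_cusp_core [DecidableEq O] {ϖ : O} (hϖ : Irreducible ϖ)
    (x : K) (hx : Transcendental L x) (hgenK : IntermediateField.adjoin L {x} = ⊤)
    (N : ℕ) (hN : 0 < N) (Cs : Finset O) (c : O)
    (S : Finset E) (hS : IntermediateField.adjoin K (S : Set E) = ⊤)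
    (hV : ∀ θ ∈ S, mdl_GoodGen O (algebraMap K E x) θ)
    (hH : ∀ (V2 : Subring K) [IsDiscreteValuationRing V2] [IsFractionRing V2 K],
      (∀ a : L, algebraMap L K a ∈ V2) → x ∈ V2 →
      (∀ c' ∈ Cs, (x - algebraMap O K c')⁻¹ ∈ V2) → jt_UnramAt V2 E)
    (hT : ∀ (V2 : Subring K) [IsDiscreteValuationRing V2] [IsFractionRing V2 K],
      (∀ a : L, algebraMap L K a ∈ V2) → x ∈ V2 → (x - algebraMap O K c)⁻¹ ∉ V2 →
      ∀ (P : Ideal (integralClosure V2 E)) [P.IsPrime], P ≠ ⊥ → P.ramificationIdx V2 ∣ N)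
    (w : K'') (hw : w ^ N = algebraMap K K'' (x - algebraMap O K c))
    (hwtr : Transcendental L w) (hgenK'' : IntermediateField.adjoin L {w} = ⊤)
    (hgenE : IntermediateField.adjoin E {algebraMap K'' E'' w} = ⊤)
    (hdeg : IsUnit ((Module.finrank E E'' : ℕ) : O))
    (n : Ideal (fc_chart O ({algebraMap K E x} : Set E))) [hn : n.IsMaximal]
    (hπn : algebraMap O (fc_chart O ({algebraMap K E x} : Set E)) ϖ ∈ n)
    (hhn : ∀ y : fc_chart O ({algebraMap K E x} : Set E),
      (y : E) = aeval (algebraMap K E x) (∏ c' ∈ Cs.erase c, (X - C c') : O[X]) → y ∉ n) :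
    (∃ u, tq_GenBy (algebraMap O (fc_chart O ({algebraMap K E x} : Set E)) ϖ) u n) ∧
      tq_Total (algebraMap O (fc_chart O ({algebraMap K E x} : Set E)) ϖ) n ∧
      tq_Dom (algebraMap O (fc_chart O ({algebraMap K E x} : Set E)) ϖ) n := by
  classical
  haveI : CharZero K'' := charZero_of_injective_algebraMap (algebraMap L K'').injective
  haveI : Algebra.IsSeparable K'' E'' := inferInstance
  set h : O[X] := ∏ c' ∈ Cs.erase c, (X - C c') with hh
  set g : O[X] := X ^ N + C c with hg
  have hhm : h.Monic := monic_prod_of_monic _ _ fun c' _ => monic_X_sub_C c'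
  have hCres : h.map (residue O) ≠ 0 := (hhm.map (residue O)).ne_zero
  have hgm : g.Monic := monic_X_pow_add_C c hN.ne'
  have hgdeg : 0 < g.natDegree := by rw [hg, natDegree_X_pow_add_C]; exact hN
  have hcomp : h.comp g = ∏ c' ∈ Cs.erase c, (X ^ N + C (c - c')) := by
    rw [hh, prod_comp]
    refine Finset.prod_congr rfl fun d _ => ?_
    rw [sub_comp, X_comp, C_comp, hg, C_sub]; ring
  have hxw : algebraMap E E'' (algebraMap K E x) = algebraMap K'' E'' (aeval w g) := by
    rw [hg, map_add, map_pow, aeval_X, aeval_C, hw, ← IsScalarTower.algebraMap_apply K E E'',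
      IsScalarTower.algebraMap_apply K K'' E'', IsScalarTower.algebraMap_apply O K K'',
      ← map_add, sub_add_cancel]
  have hxw' : algebraMap E E'' (algebraMap K E x) =
      algebraMap K'' E'' w ^ N + algebraMap O E'' c := by
    rw [hxw, hg, map_add, map_pow, aeval_X, aeval_C, map_add, map_pow,
      ← IsScalarTower.algebraMap_apply O K'' E'']
  refine el_pb_mdl_cusp hϖ x hx hgenK h hCres g hgm hgdeg w hwtr hgenK'' hxw hdeg ?_ ?_ n hπn hhn
  · -- (V'')
    intro V _ _ hwV hprim hϖV
    have hS'' : IntermediateField.adjoin K'' ((S.image (algebraMap E E'') : Finset E'') : Set E'')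
        = ⊤ := by
      rw [Finset.coe_image]; exact mdl_gs_adjoin (S : Set E) hS w hgenE
    refine ug_unramAt_poly hϖ w (S.image (algebraMap E E'')) hS'' ?_ V hwV hprim hϖV
    intro θ'' hθ''
    obtain ⟨θ, hθ, rfl⟩ := Finset.mem_image.1 hθ''
    exact mdl_gs_subst hN c hxw' (hV θ hθ)
  · -- (H'')
    intro V2 _ _ hL hwV hinv
    rw [hcomp] at hinv
    exact mkr_unram_prod x hx hgenK N hN Cs c hH hT w hw hgenE V2 hL hwV hinv

/-- **the cusp case of `mdl_regAt`** (route (D')), parametric in the Kummer data: `Cs` a finite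
set of cusps with pairwise unit differences, `c ∈ Cs`, `n` a maximal ideal of the chart containing
`ϖ` and `x - c`. -/
theorem mdl_plug_cusp [DecidableEq O] {ϖ : O} (hϖ : Irreducible ϖ)
    (x : K) (hx : Transcendental L x) (hgenK : IntermediateField.adjoin L {x} = ⊤)
    (N : ℕ) (hN : 0 < N) (Cs : Finset O)
    (hC : ∀ c ∈ Cs, ∀ c' ∈ Cs, c ≠ c' → IsUnit (c - c')) (c : O) (hc : c ∈ Cs)
    (S : Finset E) (hS : IntermediateField.adjoin K (S : Set E) = ⊤)
    (hV : ∀ θ ∈ S, mdl_GoodGen O (algebraMap K E x) θ)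
    (hH : ∀ (V2 : Subring K) [IsDiscreteValuationRing V2] [IsFractionRing V2 K],
      (∀ a : L, algebraMap L K a ∈ V2) → x ∈ V2 →
      (∀ c' ∈ Cs, (x - algebraMap O K c')⁻¹ ∈ V2) → jt_UnramAt V2 E)
    (hT : ∀ (V2 : Subring K) [IsDiscreteValuationRing V2] [IsFractionRing V2 K],
      (∀ a : L, algebraMap L K a ∈ V2) → x ∈ V2 → (x - algebraMap O K c)⁻¹ ∉ V2 →
      ∀ (P : Ideal (integralClosure V2 E)) [P.IsPrime], P ≠ ⊥ → P.ramificationIdx V2 ∣ N)
    (w : K'') (hw : w ^ N = algebraMap K K'' (x - algebraMap O K c))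
    (hwtr : Transcendental L w) (hgenK'' : IntermediateField.adjoin L {w} = ⊤)
    (hgenE : IntermediateField.adjoin E {algebraMap K'' E'' w} = ⊤)
    (hdeg : IsUnit ((Module.finrank E E'' : ℕ) : O))
    (n : Ideal (fc_chart O ({algebraMap K E x} : Set E))) [hn : n.IsMaximal]
    (hπn : algebraMap O (fc_chart O ({algebraMap K E x} : Set E)) ϖ ∈ n)
    (hcn : ∃ y : fc_chart O ({algebraMap K E x} : Set E),
      (y : E) = algebraMap K E x - algebraMap O E c ∧ y ∈ n) :
    (∃ u, tq_GenBy (algebraMap O (fc_chart O ({algebraMap K E x} : Set E)) ϖ) u n) ∧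
      tq_Total (algebraMap O (fc_chart O ({algebraMap K E x} : Set E)) ϖ) n ∧
      tq_Dom (algebraMap O (fc_chart O ({algebraMap K E x} : Set E)) ϖ) n := by
  classical
  refine mdl_plug_cusp_core hϖ x hx hgenK N hN Cs c S hS hV hH hT w hw hwtr hgenK'' hgenE hdeg n
    hπn ?_
  intro y hy hyn
  obtain ⟨y0, hy0, hy0n⟩ := hcn
  set f : O → fc_chart O ({algebraMap K E x} : Set E) :=
    fun c' => y0 + algebraMap O (fc_chart O ({algebraMap K E x} : Set E)) (c - c') with hf
  have hfcoe : ∀ c' : O, ((f c' : fc_chart O ({algebraMap K E x} : Set E)) : E) =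
      algebraMap K E x - algebraMap O E c' := by
    intro c'
    show (y0 : E) + algebraMap O E (c - c') = _
    rw [hy0, map_sub]; ring
  have hyprod : y = ∏ c' ∈ Cs.erase c, f c' := by
    apply Subtype.ext
    rw [hy, map_prod, SubmonoidClass.coe_finsetProd]
    refine Finset.prod_congr rfl fun c' _ => ?_
    rw [hfcoe, map_sub, aeval_X, aeval_C]
  rw [hyprod, hn.isPrime.prod_mem_iff] at hyn
  obtain ⟨c', hc', hfn⟩ := hyn
  have hc'Cs : c' ∈ Cs := Finset.mem_of_mem_erase hc'
  have hne : c ≠ c' := (Finset.ne_of_mem_erase hc').symm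
  have hunit : IsUnit (c - c') := hC c hc c' hc'Cs hne
  have hmem : algebraMap O (fc_chart O ({algebraMap K E x} : Set E)) (c - c') ∈ n := by
    have : algebraMap O (fc_chart O ({algebraMap K E x} : Set E)) (c - c') = f c' - y0 := by
      rw [hf]; ring
    rw [this]; exact n.sub_mem hfn hy0n
  exact hn.ne_top (Ideal.eq_top_of_isUnit_mem _ hmem (hunit.map _))

end Plug

end Fermat.Agent.JT3
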