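/-
JT3 node R4 ("D1-gen"), local primality of `π` upstairs: under the hypotheses of `el_main`,
`π` is a prime element of every local ring `B_n`, and `B_n ⧸ π` is a domain whose maximal ideal is
generated by `u` (a DVR or a field).
-/
import Mathlib
import Fermat.Agent.JT3.Model.EtaleLocal

namespace Fermat.Agent.JT3

open Module

section Aux

theorem el_exists_unit_mul_pow {S : Type*} [CommRing S] [IsLocalRing S] [IsNoetherianRing S]
    {t : S} (ht : IsLocalRing.maximalIdeal S = Ideal.span {t}) {x : S} (hx : x ≠ 0) :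
    ∃ (k : ℕ) (v : S), IsUnit v ∧ x = v * t ^ k := by
  have hinf : ⨅ i : ℕ, (IsLocalRing.maximalIdeal S) ^ i = ⊥ :=
    Ideal.iInf_pow_eq_bot_of_isLocalRing _ (IsLocalRing.maximalIdeal.isMaximal S).ne_top
  have hex : ∃ k : ℕ, x ∉ (IsLocalRing.maximalIdeal S) ^ k := by
    by_contra hall
    push Not at hall
    have : x ∈ ⨅ i : ℕ, (IsLocalRing.maximalIdeal S) ^ i := by
      rw [Ideal.mem_iInf]; exact hall
    rw [hinf, Ideal.mem_bot] at this
    exact hx this
  classical
  let k := Nat.find hex
  have hk : x ∉ (IsLocalRing.maximalIdeal S) ^ k := Nat.find_spec hex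
  have hk0 : k ≠ 0 := by
    intro h0
    rw [h0, pow_zero, Ideal.one_eq_top] at hk
    exact hk Submodule.mem_top
  obtain ⟨j, hj⟩ := Nat.exists_eq_succ_of_ne_zero hk0
  have hjmem : x ∈ (IsLocalRing.maximalIdeal S) ^ j := by
    by_contra hn
    have := Nat.find_min' hex hn
    omega
  rw [ht, Ideal.span_singleton_pow, Ideal.mem_span_singleton] at hjmem
  obtain ⟨v, hv⟩ := hjmem
  refine ⟨j, v, ?_, by rw [hv, mul_comm]⟩
  by_contra hvu
  have hvm : v ∈ IsLocalRing.maximalIdeal S := (IsLocalRing.mem_maximalIdeal v).2 hvu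
  rw [ht, Ideal.mem_span_singleton] at hvm
  obtain ⟨w, hw⟩ := hvm
  apply hk
  rw [hj, ht, Ideal.span_singleton_pow, Ideal.mem_span_singleton]
  exact ⟨w, by rw [hv, hw, pow_succ]; ring⟩

theorem el_noZeroDiv_aux {S : Type*} [CommRing S] [IsLocalRing S] [IsNoetherianRing S]
    [IsReduced S] {t : S} (ht : IsLocalRing.maximalIdeal S = Ideal.span {t}) {x y : S}
    (hxy : x * y = 0) (hx0 : x ≠ 0) (hy0 : y ≠ 0) : False := by
  obtain ⟨i, v, hv, hx⟩ := el_exists_unit_mul_pow ht hx0
  obtain ⟨j, w, hw, hy⟩ := el_exists_unit_mul_pow ht hy0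
  have h1 : (v * w) * t ^ (i + j) = 0 := by
    rw [← hxy, hx, hy, pow_add]; ring
  have h2 : t ^ (i + j) = 0 := by
    have hu : IsUnit (v * w) := hv.mul hw
    exact (hu.mul_right_eq_zero).1 h1
  have h3 : t = 0 := IsReduced.eq_zero t ⟨i + j, h2⟩
  have hxu : IsUnit x := by
    by_contra hnu
    have := (IsLocalRing.mem_maximalIdeal x).2 hnu
    rw [ht, h3, Ideal.mem_span_singleton, zero_dvd_iff] at this
    exact hx0 this
  exact hy0 ((hxu.mul_right_eq_zero).1 hxy)

theorem el_isDomain_of_principal {S : Type*} [CommRing S] [IsLocalRing S] [IsNoetherianRing S]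
    [IsReduced S] {t : S} (ht : IsLocalRing.maximalIdeal S = Ideal.span {t}) : IsDomain S := by
  have hnzd : NoZeroDivisors S := by
    refine ⟨fun {x y} hxy => ?_⟩
    by_contra hne
    push Not at hne
    exact el_noZeroDiv_aux ht hxy hne.1 hne.2
  exact NoZeroDivisors.to_isDomain S


theorem el_isRadical_map_localization {B : Type*} [CommRing B] (M : Submonoid B) (S : Type*)
    [CommRing S] [Algebra B S] [IsLocalization M S] {J : Ideal B} (hJ : J.IsRadical) :
    (J.map (algebraMap B S)).IsRadical := by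
  intro x hx
  obtain ⟨k, hk⟩ := hx
  obtain ⟨y, s, rfl⟩ := IsLocalization.exists_mk'_eq M x
  -- `algebraMap y ^ k ∈ J.map`
  have h1 : algebraMap B S (y ^ k) ∈ J.map (algebraMap B S) := by
    have : algebraMap B S (y ^ k) = IsLocalization.mk' S y s ^ k * algebraMap B S ((s : B) ^ k) := by
      rw [map_pow, map_pow, ← mul_pow, IsLocalization.mk'_spec]
    rw [this]
    exact Ideal.mul_mem_right _ _ hk
  rw [IsLocalization.mem_map_algebraMap_iff M S] at h1
  obtain ⟨⟨a, t⟩, hat⟩ := h1
  simp only at hat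
  rw [← map_mul] at hat
  obtain ⟨c, hc⟩ := (IsLocalization.eq_iff_exists M S).1 hat
  -- `(c t y) ^ k ∈ J`
  have h2 : ((c : B) * (t : B) * y) ^ (k + 1) ∈ J := by
    have : ((c : B) * (t : B) * y) ^ (k + 1) =
        ((c : B) * (y ^ k * (t : B))) * ((c : B) ^ k * (t : B) ^ k * y) := by ring
    rw [this, hc]
    exact J.mul_mem_right _ (J.mul_mem_left _ a.2)
  have h3 : (c : B) * (t : B) * y ∈ J := hJ ⟨k + 1, h2⟩
  have h4 : IsLocalization.mk' S y s =
      algebraMap B S ((c : B) * (t : B) * y) * IsLocalization.mk' S 1 (c * t * s) := by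
    rw [IsLocalization.mul_mk'_eq_mk'_of_mul, IsLocalization.mk'_eq_iff_eq]
    congr 1
    simp only [Submonoid.coe_mul]
    ring
  rw [h4]
  exact Ideal.mul_mem_right _ _ (Ideal.mem_map_of_mem _ h3)

end Aux

section Prime

variable {R B : Type*} [CommRing R] [IsDomain R] [IsLocalRing R] [IsNoetherianRing R]
  [CommRing B] [Algebra R B] {ι : Type*} [Fintype ι] [DecidableEq ι]

omit [IsDomain R] in
/-- Under the hypotheses of `el_main` (unit discriminant), for every maximal ideal `n` of `B` the
quotient `B_n ⧸ π` is a domain. -/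
theorem el_isDomain_localization_quot (b : Basis ι R B) (hd : IsUnit (Algebra.discr R b))
    {π u : R} (hπ : Prime π) (hm : IsLocalRing.maximalIdeal R = Ideal.span {π, u})
    (n : Ideal B) [hn : n.IsMaximal] (Bn : Type*) [CommRing Bn] [Algebra B Bn]
    [IsLocalization.AtPrime Bn n] :
    IsDomain (Bn ⧸ Ideal.span {algebraMap B Bn (algebraMap R B π)}) := by
  have : Module.Finite R B := Module.Finite.of_basis b
  have hBnoeth : IsNoetherianRing B := IsNoetherianRing.of_finite R B
  let _ : IsLocalRing Bn := IsLocalization.AtPrime.isLocalRing Bn n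
  have hBnnoeth : IsNoetherianRing Bn := IsLocalization.isNoetherianRing n.primeCompl Bn hBnoeth
  set π' : Bn := algebraMap B Bn (algebraMap R B π) with hπ'
  set u' : Bn := algebraMap B Bn (algebraMap R B u) with hu'
  have hmax : IsLocalRing.maximalIdeal Bn = Ideal.span {π', u'} :=
    el_maximalIdeal_localization_pair b hd hm n Bn
  -- `B ⧸ π B` is reduced
  have hprime : (Ideal.span {π}).IsPrime := (Ideal.span_singleton_prime hπ.ne_zero).2 hπ
  have : IsDomain (R ⧸ Ideal.span {π}) := Ideal.Quotient.isDomain _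
  have hred : IsReduced (B ⧸ (Ideal.span {π}).map (algebraMap R B)) :=
    el_quot_isReduced (Ideal.span {π}) b hd
  have hrad : ((Ideal.span {π}).map (algebraMap R B)).IsRadical :=
    (Ideal.isRadical_iff_quotient_reduced _).2 hred
  have hrad' : (Ideal.span {π'}).IsRadical := by
    have := el_isRadical_map_localization n.primeCompl Bn hrad
    rwa [Ideal.map_span, Set.image_singleton, Ideal.map_span, Set.image_singleton] at this
  have hred' : IsReduced (Bn ⧸ Ideal.span {π'}) := (Ideal.isRadical_iff_quotient_reduced _).1 hrad'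
  -- the quotient is local with principal maximal ideal
  have hπmem : π' ∈ IsLocalRing.maximalIdeal Bn := by
    rw [hmax]; exact Ideal.subset_span (by simp)
  have hne : Ideal.span {π'} ≠ ⊤ := by
    intro htop
    have : (1 : Bn) ∈ IsLocalRing.maximalIdeal Bn := by
      have h1 : (1 : Bn) ∈ Ideal.span {π'} := by rw [htop]; exact Submodule.mem_top
      exact (Ideal.span_le.2 (by simpa using hπmem)) h1
    exact (IsLocalRing.maximalIdeal.isMaximal Bn).ne_top ((Ideal.eq_top_iff_one _).2 this)
  have : Nontrivial (Bn ⧸ Ideal.span {π'}) := Ideal.Quotient.nontrivial_iff.2 hne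
  have hloc : IsLocalRing (Bn ⧸ Ideal.span {π'}) :=
    IsLocalRing.of_surjective' (Ideal.Quotient.mk _) Ideal.Quotient.mk_surjective
  have hmaxq : IsLocalRing.maximalIdeal (Bn ⧸ Ideal.span {π'}) =
      Ideal.span {Ideal.Quotient.mk (Ideal.span {π'}) u'} := by
    rw [← IsLocalRing.map_maximalIdeal_of_surjective (Ideal.Quotient.mk (Ideal.span {π'}))
      Ideal.Quotient.mk_surjective, hmax, Ideal.map_span, Set.image_pair]
    have h0 : Ideal.Quotient.mk (Ideal.span {π'}) π' = 0 :=
      Ideal.Quotient.eq_zero_iff_mem.2 (Ideal.mem_span_singleton_self π')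
    rw [h0]
    apply le_antisymm
    · rw [Ideal.span_le]
      rintro x (rfl | rfl)
      · exact Ideal.zero_mem _
      · exact Ideal.subset_span rfl
    · exact Ideal.span_mono (by intro x hx; right; exact hx)
  exact el_isDomain_of_principal hmaxq

/-- Under the hypotheses of `el_main` (unit discriminant), `π` is a prime element of every local
ring `B_n`. -/
theorem el_prime_localization (b : Basis ι R B) (hd : IsUnit (Algebra.discr R b))
    {π u : R} (hπ : Prime π) (hm : IsLocalRing.maximalIdeal R = Ideal.span {π, u})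
    (n : Ideal B) [hn : n.IsMaximal] (Bn : Type*) [CommRing Bn] [Algebra B Bn]
    [IsLocalization.AtPrime Bn n] :
    Prime (algebraMap B Bn (algebraMap R B π)) := by
  have hdom := el_isDomain_localization_quot b hd hπ hm n Bn
  have hne0 : algebraMap B Bn (algebraMap R B π) ≠ 0 := by
    intro h0
    obtain ⟨⟨s, hs⟩, hsπ⟩ := (IsLocalization.map_eq_zero_iff n.primeCompl Bn _).1 h0
    have : Module.Free R B := Module.Free.of_basis b
    have h1 : π • s = 0 := by
      rw [Algebra.smul_def, mul_comm]; exact hsπ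
    rcases smul_eq_zero.1 h1 with h2 | h2
    · exact hπ.ne_zero h2
    · exact hs (h2 ▸ n.zero_mem)
  rw [← Ideal.span_singleton_prime hne0]
  exact (Ideal.Quotient.isDomain_iff_prime _).1 hdom

end Prime

end Fermat.Agent.JT3
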