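import Mathlib
import Fermat.Agent.JT3.Model.TameKummerField

/-!
# JT3 / Route R (S18): the Kummer data of a cusp chart, in the vocabulary of `mdl_regAt`
(prefix `mkd_`)

`K = L(x)`, `E / K` finite, `c` a cusp, `ζ ∈ L` a primitive `N`-th root of unity.
`mkd_Data O L K E x c N` bundles fields `K2 = K(w)`, `E2 = E(w)` with `w ^ N = x - c`, together
with every algebra structure, tower and fact that `el_pb_mdl_cusp`, `mkr_unram_prod` and
`ug_unramAt_poly` need at the Kummer level; `mkd_nonempty` constructs it
(`E2` := splitting field of `X ^ N - (x - c)` over `E`, `K2 := K(w) ⊆ E2`).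
-/

set_option autoImplicit false
set_option linter.unusedSectionVars false
set_option linter.style.haveILetI false

namespace Fermat.Agent.JT3

open Polynomial IntermediateField

universe uO uL uK uE

/-- **The Kummer data of the cusp `x = c`**: fields `K2 ⊇ K`, `E2 ⊇ E, K2` with all algebra
structures over `O`, `L`, `K`, `E`, an element `w : K2` with `w ^ N = x - c`, `K2 = L(w)`,
`E2 = E(w)` finite Galois over `E` of degree dividing `N`. -/
structure mkd_Data (O : Type uO) (L : Type uL) (K : Type uK) (E : Type uE)
    [CommRing O] [Field L] [Algebra O L] [Field K] [Field E] [Algebra L K] [Algebra K E]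
    [Algebra L E] [Algebra O K] [Algebra O E] (x : K) (c : O) (N : ℕ) where
  /-- the Kummer extension `K(w)` of `K` -/
  K2 : Type uE
  /-- the Kummer extension `E(w)` of `E` -/
  E2 : Type uE
  [fieldK2 : Field K2]
  [fieldE2 : Field E2]
  [algKK2 : Algebra K K2]
  [algK2E2 : Algebra K2 E2]
  [algEE2 : Algebra E E2]
  [algKE2 : Algebra K E2]
  [algLK2 : Algebra L K2]
  [algLE2 : Algebra L E2]
  [algOK2 : Algebra O K2]
  [algOE2 : Algebra O E2]
  [tower_K_K2_E2 : IsScalarTower K K2 E2]
  [tower_K_E_E2 : IsScalarTower K E E2]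
  [tower_L_K_K2 : IsScalarTower L K K2]
  [tower_L_K2_E2 : IsScalarTower L K2 E2]
  [tower_L_E_E2 : IsScalarTower L E E2]
  [tower_O_L_K2 : IsScalarTower O L K2]
  [tower_O_L_E2 : IsScalarTower O L E2]
  [tower_O_K2_E2 : IsScalarTower O K2 E2]
  [tower_O_E_E2 : IsScalarTower O E E2]
  [tower_O_K_K2 : IsScalarTower O K K2]
  [finite_K2_E2 : FiniteDimensional K2 E2]
  [finite_E_E2 : FiniteDimensional E E2]
  [galois_E_E2 : IsGalois E E2]
  [algebraic_K_K2 : Algebra.IsAlgebraic K K2]
  /-- the Kummer generator -/
  w : K2
  hw : w ^ N = algebraMap K K2 (x - algebraMap O K c)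
  hgenE : IntermediateField.adjoin E {algebraMap K2 E2 w} = ⊤
  hgenK : IntermediateField.adjoin K {w} = ⊤
  hgenL : IntermediateField.adjoin L {w} = ⊤
  hwtr : Transcendental L w
  hxw : algebraMap E E2 (algebraMap K E x) = algebraMap K2 E2 (aeval w (X ^ N + C c : O[X]))
  hfin : Module.finrank E E2 ∣ N

attribute [instance] mkd_Data.fieldK2 mkd_Data.fieldE2 mkd_Data.algKK2 mkd_Data.algK2E2
  mkd_Data.algEE2 mkd_Data.algKE2 mkd_Data.algLK2 mkd_Data.algLE2 mkd_Data.algOK2 mkd_Data.algOE2
  mkd_Data.tower_K_K2_E2 mkd_Data.tower_K_E_E2 mkd_Data.tower_L_K_K2 mkd_Data.tower_L_K2_E2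
  mkd_Data.tower_L_E_E2 mkd_Data.tower_O_L_K2 mkd_Data.tower_O_L_E2 mkd_Data.tower_O_K2_E2
  mkd_Data.tower_O_E_E2 mkd_Data.tower_O_K_K2 mkd_Data.finite_K2_E2 mkd_Data.finite_E_E2
  mkd_Data.galois_E_E2 mkd_Data.algebraic_K_K2

section Construction

variable {O : Type uO} {L : Type uL} {K : Type uK} {E : Type uE}
  [CommRing O] [Field L] [Algebra O L] [CharZero L] [Field K] [Field E] [Algebra L K]
  [Algebra K E] [Algebra L E] [IsScalarTower L K E] [Algebra O K] [Algebra O E]
  [IsScalarTower O L K] [IsScalarTower O L E] [IsScalarTower O K E] [FiniteDimensional K E]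

/-- **Existence of the Kummer data** of the cusp `x = c`: `K = L(x)` with `x` transcendental,
`E / K` finite, `ζ ∈ L` a primitive `N`-th root of unity. -/
theorem mkd_nonempty (x : K) (hx : Transcendental L x)
    (hgenK : IntermediateField.adjoin L {x} = ⊤) (N : ℕ) (hN : 0 < N) (ζ : L)
    (hζ : IsPrimitiveRoot ζ N) (c : O) : Nonempty (mkd_Data O L K E x c N) := by
  classical
  haveI : CharZero K := charZero_of_injective_algebraMap (algebraMap L K).injective
  haveI : CharZero E := charZero_of_injective_algebraMap (algebraMap K E).injective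
  -- the element `t = x - c`
  obtain ⟨t, ht⟩ : ∃ t : K, t = x - algebraMap O K c := ⟨_, rfl⟩
  have htx : x = t + algebraMap O K c := by rw [ht]; ring
  have ht0 : t ≠ 0 := by
    intro h
    apply hx
    have h1 : x = algebraMap L K (algebraMap O L c) := by
      rw [← IsScalarTower.algebraMap_apply, htx, h, zero_add]
    rw [h1]
    exact isAlgebraic_algebraMap _
  have htE0 : algebraMap K E t ≠ 0 := (_root_.map_ne_zero _).2 ht0
  have hNE : ((N : ℕ) : E) ≠ 0 := Nat.cast_ne_zero.2 hN.ne'
  -- the field `E2`
  let E2 := tc_KummerField E (algebraMap K E t) N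
  obtain ⟨wE, hwE⟩ := tc_kummerField_exists_root (E := E) (t := algebraMap K E t) hN
  have hζE : IsPrimitiveRoot (algebraMap L E ζ) N :=
    hζ.map_of_injective (algebraMap L E).injective
  have hgenE0 : IntermediateField.adjoin E {wE} = ⊤ := tc_kummerField_adjoin hN hζE htE0 hwE
  haveI hgal : IsGalois E E2 := tc_kummerField_isGalois hNE htE0
  haveI hfinE : FiniteDimensional E E2 := Polynomial.IsSplittingField.finiteDimensional E2
    (X ^ N - C (algebraMap K E t))
  have hwE0 : wE ≠ 0 := by
    rintro rfl
    rw [zero_pow hN.ne'] at hwE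
    exact htE0 ((map_eq_zero _).1 hwE.symm)
  have hfin : Module.finrank E E2 ∣ N := tc_kummer_finrank_dvd hN hζE hwE0 hwE hgenE0
  -- towers on `E2`
  haveI tKEE2 : IsScalarTower K E E2 := inferInstance
  haveI tLEE2 : IsScalarTower L E E2 := inferInstance
  haveI tOEE2 : IsScalarTower O E E2 := inferInstance
  haveI tOLE2 : IsScalarTower O L E2 := IsScalarTower.of_algebraMap_eq fun a => by
    rw [IsScalarTower.algebraMap_apply O E E2, IsScalarTower.algebraMap_apply L E E2,
      ← IsScalarTower.algebraMap_apply O L E]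
  haveI tLKE2 : IsScalarTower L K E2 := IsScalarTower.of_algebraMap_eq fun a => by
    rw [IsScalarTower.algebraMap_apply L E E2, IsScalarTower.algebraMap_apply K E E2,
      ← IsScalarTower.algebraMap_apply L K E]
  haveI tOKE2 : IsScalarTower O K E2 := IsScalarTower.of_algebraMap_eq fun a => by
    rw [IsScalarTower.algebraMap_apply O E E2, IsScalarTower.algebraMap_apply K E E2,
      ← IsScalarTower.algebraMap_apply O K E]
  haveI hfinK : FiniteDimensional K E2 := FiniteDimensional.trans K E E2
  -- the field `K2`
  let K2 : IntermediateField K E2 := IntermediateField.adjoin K {wE}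
  letI aLK2 : Algebra L K2 := ((algebraMap K K2).comp (algebraMap L K)).toAlgebra
  letI aOK2 : Algebra O K2 := ((algebraMap K K2).comp (algebraMap O K)).toAlgebra
  haveI tLKK2 : IsScalarTower L K K2 := IsScalarTower.of_algebraMap_eq fun _ => rfl
  haveI tOKK2 : IsScalarTower O K K2 := IsScalarTower.of_algebraMap_eq fun _ => rfl
  haveI tOLK2 : IsScalarTower O L K2 := IsScalarTower.of_algebraMap_eq fun a => by
    change algebraMap K K2 (algebraMap O K a) = algebraMap K K2 (algebraMap L K (algebraMap O L a))
    rw [← IsScalarTower.algebraMap_apply O L K]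
  haveI tLK2E2 : IsScalarTower L K2 E2 := IsScalarTower.of_algebraMap_eq fun a => by
    change algebraMap L E2 a = algebraMap K2 E2 (algebraMap K K2 (algebraMap L K a))
    rw [← IsScalarTower.algebraMap_apply K K2 E2, ← IsScalarTower.algebraMap_apply L K E2]
  haveI tOK2E2 : IsScalarTower O K2 E2 := IsScalarTower.of_algebraMap_eq fun a => by
    change algebraMap O E2 a = algebraMap K2 E2 (algebraMap K K2 (algebraMap O K a))
    rw [← IsScalarTower.algebraMap_apply K K2 E2, ← IsScalarTower.algebraMap_apply O K E2]
  haveI hfinK2 : FiniteDimensional K2 E2 := FiniteDimensional.right K K2 E2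
  haveI hfinKK2 : FiniteDimensional K K2 := FiniteDimensional.left K K2 E2
  haveI halg : Algebra.IsAlgebraic K K2 := Algebra.IsAlgebraic.of_finite K K2
  -- the generator
  let w : K2 := ⟨wE, IntermediateField.mem_adjoin_simple_self K wE⟩
  have hwt : w ^ N = algebraMap K K2 t := by
    apply Subtype.ext
    change wE ^ N = algebraMap K E2 t
    rw [hwE, ← IsScalarTower.algebraMap_apply K E E2]
  have hw : w ^ N = algebraMap K K2 (x - algebraMap O K c) :=
    hwt.trans (congrArg (algebraMap K K2) ht)
  have hgenE : IntermediateField.adjoin E {algebraMap K2 E2 w} = ⊤ := hgenE0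
  have hgenK2 : IntermediateField.adjoin K {w} = ⊤ := by
    rw [eq_top_iff]
    rintro ⟨y, hy⟩ -
    have h1 : (IntermediateField.adjoin K {w}).map K2.val = IntermediateField.adjoin K {wE} := by
      rw [IntermediateField.adjoin_map, Set.image_singleton]; rfl
    have h2 : y ∈ (IntermediateField.adjoin K {w}).map K2.val := by rw [h1]; exact hy
    obtain ⟨y', hy', hyy'⟩ := h2
    have : y' = ⟨y, hy⟩ := Subtype.ext hyy'
    rw [← this]; exact hy'
  -- `x` in terms of `w`
  have hxw0 : algebraMap K K2 x = w ^ N + algebraMap K K2 (algebraMap O K c) := by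
    rw [hwt, htx, map_add]
  have hcK2 : algebraMap K K2 (algebraMap O K c) = algebraMap L K2 (algebraMap O L c) := by
    rw [← IsScalarTower.algebraMap_apply O K K2, IsScalarTower.algebraMap_apply O L K2]
  have hwtr : Transcendental L w := by
    intro hwalg
    apply hx
    have h1 : IsAlgebraic L (algebraMap K K2 x) := by
      rw [hxw0, hcK2]
      exact (hwalg.pow N).add (isAlgebraic_algebraMap _)
    exact (isAlgebraic_algebraMap_iff (algebraMap K K2).injective).1 h1
  have hgenL : IntermediateField.adjoin L {w} = ⊤ := by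
    -- `F := L(w)` contains the image of `K = L(x)` and `w`
    have hwF : w ∈ IntermediateField.adjoin L {w} := IntermediateField.mem_adjoin_simple_self L w
    have hxF : algebraMap K K2 x ∈ IntermediateField.adjoin L {w} := by
      rw [hxw0, hcK2]
      exact add_mem (pow_mem hwF N) ((IntermediateField.adjoin L {w}).algebraMap_mem _)
    have hKF : ∀ a : K, algebraMap K K2 a ∈ IntermediateField.adjoin L {w} := by
      intro a
      have ha : a ∈ IntermediateField.adjoin L {x} := by rw [hgenK]; trivial
      have h1 : (IntermediateField.adjoin L {x}).map (IsScalarTower.toAlgHom L K K2) ≤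
          IntermediateField.adjoin L {w} := by
        rw [IntermediateField.adjoin_map, Set.image_singleton, IntermediateField.adjoin_le_iff]
        intro y hy
        rw [Set.mem_singleton_iff] at hy
        rw [hy]; exact hxF
      exact h1 ⟨a, ha, rfl⟩
    -- `F` as an intermediate field of `K2 / K`
    let F' : IntermediateField K K2 :=
      { (IntermediateField.adjoin L {w}).toSubfield with
        algebraMap_mem' := hKF }
    have h2 : IntermediateField.adjoin K {w} ≤ F' := by
      rw [IntermediateField.adjoin_le_iff]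
      intro y hy
      rw [Set.mem_singleton_iff] at hy
      rw [hy]; exact hwF
    rw [eq_top_iff]
    intro y _
    have : y ∈ IntermediateField.adjoin K {w} := by rw [hgenK2]; trivial
    exact h2 this
  have hxw : algebraMap E E2 (algebraMap K E x) =
      algebraMap K2 E2 (aeval w (X ^ N + C c : O[X])) := by
    rw [map_add, map_pow, aeval_X, aeval_C, ← IsScalarTower.algebraMap_apply K E E2,
      IsScalarTower.algebraMap_apply K K2 E2, hxw0, IsScalarTower.algebraMap_apply O K K2]
  exact ⟨{ K2 := K2, E2 := E2, w := w, hw := hw, hgenE := hgenE, hgenK := hgenK2, hgenL := hgenL,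
           hwtr := hwtr, hxw := hxw, hfin := hfin }⟩

end Construction

end Fermat.Agent.JT3
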